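/-
S48 (Deligne–Serre), brick E: the mod-`ℓ` eigensystem of a form that is an eigenvector
"modulo `ker r`", and its lift to characteristic zero (Deligne–Serre, Lemme 6.11), in abstract
form.  `V` is any complex vector space, `T : ι → Module.End ℂ V` a commuting family
(the Hecke operators and diamond operators), `M` the additive group of "vectors ≡ 0".
-/
import Mathlib
import Fermat.Agent.S49.EigenLift

set_option autoImplicit false
set_option linter.style.haveILetI false
set_option linter.deprecated false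

namespace Fermat.Agent.S48.ModEigen

/-- Extension of a ring homomorphism into an algebraically closed field along an injective
integral ring extension. -/
theorem exists_ringHom_extension {A : Type*} [CommRing A] {R₀ : Type*} [CommRing R₀]
    [Algebra R₀ A] [Algebra.IsIntegral R₀ A] (hinj : Function.Injective (algebraMap R₀ A))
    {k : Type*} [Field k] [IsAlgClosed k] (φ₀ : R₀ →+* k) :
    ∃ φ : A →+* k, ∀ x : R₀, φ (algebraMap R₀ A x) = φ₀ x := by
  classical
  let 𝔭 : Ideal R₀ := RingHom.ker φ₀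
  haveI h𝔭 : 𝔭.IsPrime := RingHom.ker_isPrime φ₀
  obtain ⟨Q, -, hQ, hQc⟩ := Ideal.exists_ideal_over_prime_of_isIntegral 𝔭 (⊥ : Ideal A) (by
    rw [← RingHom.ker_eq_comap_bot, (RingHom.injective_iff_ker_eq_bot _).mp hinj]; exact bot_le)
  haveI := hQ
  let f : R₀ ⧸ 𝔭 →+* A ⧸ Q := Ideal.quotientMap Q (algebraMap R₀ A) hQc.ge
  have hf : Function.Injective f := Ideal.quotientMap_injective' hQc.le
  let g : R₀ ⧸ 𝔭 →+* k := RingHom.kerLift φ₀
  have hg : Function.Injective g := RingHom.kerLift_injective φ₀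
  letI : Algebra (R₀ ⧸ 𝔭) (A ⧸ Q) := f.toAlgebra
  letI : Algebra (R₀ ⧸ 𝔭) k := g.toAlgebra
  haveI : Module.IsTorsionFree (R₀ ⧸ 𝔭) (A ⧸ Q) :=
    Module.isTorsionFree_iff_algebraMap_injective.mpr hf
  haveI : Module.IsTorsionFree (R₀ ⧸ 𝔭) k :=
    Module.isTorsionFree_iff_algebraMap_injective.mpr hg
  haveI : Algebra.IsIntegral (R₀ ⧸ 𝔭) (A ⧸ Q) := by
    refine ⟨fun y => ?_⟩
    obtain ⟨a, rfl⟩ := Ideal.Quotient.mk_surjective y
    exact IsIntegral.map_of_comp_eq (Ideal.Quotient.mk 𝔭) (Ideal.Quotient.mk Q) rfl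
      (Algebra.IsIntegral.isIntegral a)
  let L : (A ⧸ Q) →ₐ[R₀ ⧸ 𝔭] k := IsAlgClosed.lift
  refine ⟨L.toRingHom.comp (Ideal.Quotient.mk Q), fun x => ?_⟩
  have h1 := L.commutes (Ideal.Quotient.mk 𝔭 x)
  have h2 : algebraMap (R₀ ⧸ 𝔭) (A ⧸ Q) (Ideal.Quotient.mk 𝔭 x)
      = Ideal.Quotient.mk Q (algebraMap R₀ A x) := rfl
  have h3 : algebraMap (R₀ ⧸ 𝔭) k (Ideal.Quotient.mk 𝔭 x) = φ₀ x := rfl
  rw [h2, h3] at h1
  exact h1

variable {V : Type*} [AddCommGroup V] [Module ℂ V] {ι : Type*} (T : ι → Module.End ℂ V)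

/-- Every element of the Hecke ring preserves a subgroup preserved by the generators. -/
theorem adjoin_apply_mem (M : AddSubgroup V) (hMT : ∀ i, ∀ v ∈ M, T i v ∈ M)
    {t : Module.End ℂ V} (ht : t ∈ Algebra.adjoin ℤ (Set.range T)) {v : V} (hv : v ∈ M) :
    t v ∈ M := by
  induction ht using Algebra.adjoin_induction generalizing v with
  | mem x hx =>
    obtain ⟨i, rfl⟩ := hx
    exact hMT i v hv
  | algebraMap n =>
    have : (algebraMap ℤ (Module.End ℂ V) n) v = n • v := by
      simp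
    rw [this]
    exact M.zsmul_mem hv n
  | add x y _ _ hx hy =>
    rw [LinearMap.add_apply]
    exact M.add_mem (hx hv) (hy hv)
  | mul x y _ _ hx hy =>
    rw [Module.End.mul_apply]
    exact hx (hy hv)

/-- **(E1)** The residual character of the Hecke ring attached to a vector `g` that is an
eigenvector modulo `M`. -/
theorem exists_residual_char {k : Type*} [Field k]
    (r : integralClosure ℤ ℂ →+* k) (M : AddSubgroup V)
    (hMA : ∀ (c : integralClosure ℤ ℂ) (v : V), v ∈ M → (c : ℂ) • v ∈ M)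
    (hMT : ∀ i, ∀ v ∈ M, T i v ∈ M)
    (g : V) (α : ι → integralClosure ℤ ℂ)
    (hg : ∀ i, T i g - (α i : ℂ) • g ∈ M)
    (hg1 : ∀ c : integralClosure ℤ ℂ, (c : ℂ) • g ∈ M → r c = 0) :
    ∃ χ : Algebra.adjoin ℤ (Set.range T) →+* k,
      ∀ i, χ ⟨T i, Algebra.subset_adjoin ⟨i, rfl⟩⟩ = r (α i) := by
  classical
  -- existence of a "congruence eigenvalue" for every element of the Hecke ring
  have hex : ∀ t : Algebra.adjoin ℤ (Set.range T), ∃ c : integralClosure ℤ ℂ,
      (t : Module.End ℂ V) g - (c : ℂ) • g ∈ M := by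
    rintro ⟨t, ht⟩
    show ∃ c : integralClosure ℤ ℂ, t g - (c : ℂ) • g ∈ M
    induction ht using Algebra.adjoin_induction with
    | mem x hx =>
      obtain ⟨i, rfl⟩ := hx
      exact ⟨α i, hg i⟩
    | algebraMap n =>
      refine ⟨(n : integralClosure ℤ ℂ), ?_⟩
      have : (algebraMap ℤ (Module.End ℂ V) n) g
          - (((n : integralClosure ℤ ℂ) : integralClosure ℤ ℂ) : ℂ) • g = 0 := by
        have h1 : (algebraMap ℤ (Module.End ℂ V) n) g = n • g := by simp
        have h2 : (((n : integralClosure ℤ ℂ) : integralClosure ℤ ℂ) : ℂ) = (n : ℂ) := by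
          simp
        rw [h1, h2, Int.cast_smul_eq_zsmul, sub_self]
      rw [this]
      exact M.zero_mem
    | add x y hx hy ihx ihy =>
      obtain ⟨a, ha⟩ := ihx
      obtain ⟨b, hb⟩ := ihy
      refine ⟨a + b, ?_⟩
      have e : (x + y) g - ((a + b : integralClosure ℤ ℂ) : ℂ) • g
          = (x g - (a : ℂ) • g) + (y g - (b : ℂ) • g) := by
        simp only [LinearMap.add_apply, Subalgebra.coe_add, add_smul]
        abel
      rw [e]
      exact M.add_mem ha hb
    | mul x y hx hy ihx ihy =>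
      obtain ⟨a, ha⟩ := ihx
      obtain ⟨b, hb⟩ := ihy
      refine ⟨a * b, ?_⟩
      have e : (x * y) g - ((a * b : integralClosure ℤ ℂ) : ℂ) • g
          = x (y g - (b : ℂ) • g) + (b : ℂ) • (x g - (a : ℂ) • g) := by
        simp only [Module.End.mul_apply, Subalgebra.coe_mul, map_sub, map_smul, smul_sub,
          smul_smul]
        rw [mul_comm (b : ℂ)]
        abel
      rw [e]
      exact M.add_mem (adjoin_apply_mem T M hMT hx hb) (hMA _ _ ha)
  have huniq : ∀ (t : Module.End ℂ V) (c c' : integralClosure ℤ ℂ),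
      t g - (c : ℂ) • g ∈ M → t g - (c' : ℂ) • g ∈ M → r c = r c' := by
    intro t c c' h h'
    have e : ((c' - c : integralClosure ℤ ℂ) : ℂ) • g
        = (t g - (c : ℂ) • g) - (t g - (c' : ℂ) • g) := by
      simp only [Subalgebra.coe_sub, sub_smul]
      abel
    have h0 := hg1 (c' - c) (by rw [e]; exact M.sub_mem h h')
    rw [map_sub, sub_eq_zero] at h0
    exact h0.symm
  let c : Algebra.adjoin ℤ (Set.range T) → integralClosure ℤ ℂ := fun t => Classical.choose (hex t)
  have hc : ∀ t : Algebra.adjoin ℤ (Set.range T),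
      (t : Module.End ℂ V) g - (c t : ℂ) • g ∈ M := fun t => Classical.choose_spec (hex t)
  have key : ∀ (t : Algebra.adjoin ℤ (Set.range T)) (a : integralClosure ℤ ℂ),
      (t : Module.End ℂ V) g - (a : ℂ) • g ∈ M → r (c t) = r a := fun t a h =>
    huniq _ _ _ (hc t) h
  let χ : Algebra.adjoin ℤ (Set.range T) →+* k :=
    { toFun := fun t => r (c t)
      map_one' := by
        rw [← map_one r]
        refine key 1 1 ?_
        have : ((1 : Algebra.adjoin ℤ (Set.range T)) : Module.End ℂ V) g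
            - ((1 : integralClosure ℤ ℂ) : ℂ) • g = 0 := by simp
        rw [this]; exact M.zero_mem
      map_mul' := by
        intro x y
        rw [← map_mul r]
        refine key (x * y) (c x * c y) ?_
        have e : ((x * y : Algebra.adjoin ℤ (Set.range T)) : Module.End ℂ V) g
              - ((c x * c y : integralClosure ℤ ℂ) : ℂ) • g
            = (x : Module.End ℂ V) ((y : Module.End ℂ V) g - (c y : ℂ) • g)
              + (c y : ℂ) • ((x : Module.End ℂ V) g - (c x : ℂ) • g) := by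
          simp only [Subalgebra.coe_mul, Module.End.mul_apply, map_sub, map_smul, smul_sub,
            smul_smul]
          rw [mul_comm (c y : ℂ)]
          abel
        rw [e]
        exact M.add_mem (adjoin_apply_mem T M hMT x.2 (hc y)) (hMA _ _ (hc x))
      map_zero' := by
        rw [← map_zero r]
        refine key 0 0 ?_
        have : ((0 : Algebra.adjoin ℤ (Set.range T)) : Module.End ℂ V) g
            - ((0 : integralClosure ℤ ℂ) : ℂ) • g = 0 := by simp
        rw [this]; exact M.zero_mem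
      map_add' := by
        intro x y
        rw [← map_add r]
        refine key (x + y) (c x + c y) ?_
        have e : ((x + y : Algebra.adjoin ℤ (Set.range T)) : Module.End ℂ V) g
              - ((c x + c y : integralClosure ℤ ℂ) : ℂ) • g
            = ((x : Module.End ℂ V) g - (c x : ℂ) • g)
              + ((y : Module.End ℂ V) g - (c y : ℂ) • g) := by
          simp only [Subalgebra.coe_add, LinearMap.add_apply, add_smul]
          abel
        rw [e]
        exact M.add_mem (hc x) (hc y) }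
  refine ⟨χ, fun i => ?_⟩
  exact key ⟨T i, Algebra.subset_adjoin ⟨i, rfl⟩⟩ (α i) (hg i)

/-- **(E2)** Deligne–Serre lifting: a ring homomorphism from the (finite over `ℤ`) Hecke ring
to an algebraically closed field is the reduction of a characteristic-zero eigensystem. -/
theorem exists_lift [FiniteDimensional ℂ V] [Nontrivial V]
    (hcomm : ∀ i j, T i * T j = T j * T i)
    (hfg : (Subalgebra.toSubmodule (Algebra.adjoin ℤ (Set.range T))).FG)
    {k : Type*} [Field k] [IsAlgClosed k] (χ : Algebra.adjoin ℤ (Set.range T) →+* k) :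
    ∃ (ψ : Algebra.adjoin ℤ (Set.range T) →+* integralClosure ℤ ℂ) (v : V)
      (φ : integralClosure ℤ ℂ →+* k),
      v ≠ 0 ∧ (∀ t : Algebra.adjoin ℤ (Set.range T),
        (t : Module.End ℂ V) v = ((ψ t : integralClosure ℤ ℂ) : ℂ) • v) ∧
      ∀ t, φ (ψ t) = χ t := by
  classical
  letI : CommRing (Algebra.adjoin ℤ (Set.range T)) :=
    Algebra.adjoinCommRingOfComm ℤ (by
      rintro _ ⟨i, rfl⟩ _ ⟨j, rfl⟩
      exact hcomm i j)
  haveI hprime : (RingHom.ker χ).IsPrime := RingHom.ker_isPrime χ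
  obtain ⟨ψ, v, hv, heig, hker⟩ := Fermat.Agent.S49.exists_eigen_ker_le
    (T := Algebra.adjoin ℤ (Set.range T)) (V := V)
    (Algebra.adjoin ℤ (Set.range T)).val.toRingHom Subtype.val_injective (RingHom.ker χ)
  haveI : Module.Finite ℤ (Algebra.adjoin ℤ (Set.range T)) :=
    Module.Finite.iff_fg.mpr hfg
  have hint : ∀ t, IsIntegral ℤ (ψ t) := fun t =>
    map_isIntegral_int ψ (Algebra.IsIntegral.isIntegral t)
  let ψ' : Algebra.adjoin ℤ (Set.range T) →+* integralClosure ℤ ℂ :=
    ψ.codRestrict (integralClosure ℤ ℂ).toSubring hint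
  -- the image ring and the induced map to `k`
  let R₀ : Subring (integralClosure ℤ ℂ) := ψ'.range
  have hsurj : Function.Surjective ψ'.rangeRestrict := ψ'.rangeRestrict_surjective
  have hker' : RingHom.ker ψ'.rangeRestrict ≤ RingHom.ker χ := by
    intro t ht
    apply hker
    rw [RingHom.mem_ker] at ht ⊢
    have h1 : (ψ'.rangeRestrict t : integralClosure ℤ ℂ) = 0 := by rw [ht]; rfl
    have h2 : ((ψ' t : integralClosure ℤ ℂ) : ℂ) = 0 := by
      have : (ψ'.rangeRestrict t : integralClosure ℤ ℂ) = ψ' t := rfl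
      rw [← this, h1]; rfl
    exact h2
  let φ₀ : R₀ →+* k := RingHom.liftOfSurjective ψ'.rangeRestrict hsurj ⟨χ, hker'⟩
  have hφ₀ : ∀ t, φ₀ (ψ'.rangeRestrict t) = χ t := fun t =>
    RingHom.liftOfRightInverse_comp_apply ψ'.rangeRestrict (Function.surjInv hsurj)
      (Function.rightInverse_surjInv hsurj) ⟨χ, hker'⟩ t
  haveI : Algebra.IsIntegral R₀ (integralClosure ℤ ℂ) := by
    refine ⟨fun a => ?_⟩
    have ha : IsIntegral ℤ a := Algebra.IsIntegral.isIntegral a
    exact ha.tower_top
  obtain ⟨φ, hφ⟩ := exists_ringHom_extension (A := integralClosure ℤ ℂ) (R₀ := R₀)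
    Subtype.val_injective φ₀
  refine ⟨ψ', v, φ, hv, fun t => ?_, fun t => ?_⟩
  · exact heig t
  · have := hφ (ψ'.rangeRestrict t)
    rw [hφ₀] at this
    exact this

/-- **(E3)** The two steps combined: a vector which is an eigenvector modulo `M` gives a genuine
eigenvector with algebraic-integer eigenvalues and a residue map `φ` matching the residual
eigenvalues. -/
theorem exists_eigen_lift [FiniteDimensional ℂ V]
    (hcomm : ∀ i j, T i * T j = T j * T i)
    (hfg : (Subalgebra.toSubmodule (Algebra.adjoin ℤ (Set.range T))).FG)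
    {k : Type*} [Field k] [IsAlgClosed k]
    (r : integralClosure ℤ ℂ →+* k) (M : AddSubgroup V)
    (hMA : ∀ (c : integralClosure ℤ ℂ) (v : V), v ∈ M → (c : ℂ) • v ∈ M)
    (hMT : ∀ i, ∀ v ∈ M, T i v ∈ M)
    (g : V) (α : ι → integralClosure ℤ ℂ)
    (hg : ∀ i, T i g - (α i : ℂ) • g ∈ M)
    (hg1 : ∀ c : integralClosure ℤ ℂ, (c : ℂ) • g ∈ M → r c = 0) :
    ∃ (a : ι → integralClosure ℤ ℂ) (v : V) (φ : integralClosure ℤ ℂ →+* k),
      v ≠ 0 ∧ (∀ i, T i v = (a i : ℂ) • v) ∧ ∀ i, φ (a i) = r (α i) := by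
  have hV : Nontrivial V := by
    refine ⟨⟨g, 0, fun h => ?_⟩⟩
    have h1 : ((1 : integralClosure ℤ ℂ) : ℂ) • g ∈ M := by
      rw [h]; simp
    have h2 := hg1 1 h1
    rw [map_one] at h2
    exact one_ne_zero h2
  obtain ⟨χ, hχ⟩ := exists_residual_char T r M hMA hMT g α hg hg1
  obtain ⟨ψ, v, φ, hv, heig, hφ⟩ := exists_lift T hcomm hfg χ
  refine ⟨fun i => ψ ⟨T i, Algebra.subset_adjoin ⟨i, rfl⟩⟩, v, φ, hv, fun i => ?_, fun i => ?_⟩
  · exact heig ⟨T i, Algebra.subset_adjoin ⟨i, rfl⟩⟩
  · rw [hφ, hχ]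

end Fermat.Agent.S48.ModEigen
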