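/-
S48 (Deligne–Serre), PROGRAM DS — CONTRACT (helper221, DS captain).

The frozen statement S48 from three top-level bricks, each a named `Prop` in the exact shape its
owner proves:

* `BddRes`   (J1, Step 3)    : integral eigenvalues + mod-`ℓ` representations with image of order
                               `≤ A` for infinitely many `ℓ`;
* `PatchStatement` (J2, Steps 4–6, `S48/Patch.lean`) : from that, ONE complex representation with
                               the right local behaviour at EVERY prime `p ∤ N`;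
* `IrredStatement` (J3, Step 7) : such a representation is irreducible.

`result_of_contract` is the final wiring (J0).  Nobody edits this file except helper221; owners
prove `theorem foo : Contract.Foo` in THEIR OWN file importing this one.
-/
import Mathlib
import Fermat.Prelude.Def_GaloisRep_Residual
import Fermat.Prelude.Def_Deformations_MatrixRepresentation

set_option autoImplicit false

open CongruenceSubgroup Polynomial
open scoped MatrixGroups

namespace Fermat.Agent.S48.Contract

/-- `ℚ̄`. -/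
abbrev Qb : Type := AlgebraicClosure ℚ

/-- The absolute Galois group of `ℚ` (as in the frozen statement). -/
abbrev GQ : Type := AlgebraicClosure ℚ ≃ₐ[ℚ] AlgebraicClosure ℚ

/-- The ring of algebraic integers inside `ℂ`. -/
abbrev AA : Type := integralClosure ℤ ℂ

/-- The formal Hecke relations of the frozen statement, for a coefficient sequence `c`,
eigenvalues `b` and character values `e`. -/
def Rel (N : ℕ) (c b e : ℕ → ℂ) : Prop :=
  ∀ p : ℕ, p.Prime → ¬ p ∣ N → ∀ n : ℕ,
    c (p * n) + e p * (if p ∣ n then c (n / p) else 0) = b p * c n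

/-- The local behaviour at `p` asked by the frozen statement, in (trace, det) form. -/
def LocalAt (ρ : GQ →* GL (Fin 2) ℂ) (p : ℕ) (t d : ℂ) : Prop :=
  ∀ A : ValuationSubring Qb, A.LiesOverPrime p →
    (∀ σ ∈ A.inertiaSubgroupIn ℚ, ρ σ = 1) ∧
    ∀ σ : GQ, A.IsFrobeniusAt σ p →
      ((ρ σ : GL (Fin 2) ℂ) : Matrix (Fin 2) (Fin 2) ℂ).trace = t ∧
      ((ρ σ : GL (Fin 2) ℂ) : Matrix (Fin 2) (Fin 2) ℂ).det = d

/-- The hypothesis of the patching brick: mod-`ℓ` representations with image of order `≤ A`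
and the prescribed characteristic polynomials, for infinitely many `ℓ`. -/
def HasBddRes (N : ℕ) (a e : ℕ → AA) (A : ℕ) : Prop :=
  ∀ B : ℕ, ∃ ℓ : ℕ, ℓ.Prime ∧ B < ℓ ∧
    ∃ (k : Type) (_ : Field k) (_ : CharP k ℓ) (r : AA →+* k) (ρbar : GQ →* GL (Fin 2) k),
      Function.Surjective r ∧ GaloisFactorsThroughFiniteLevel ρbar ∧
      Nat.card ρbar.range ≤ A ∧
      ∀ p : ℕ, p.Prime → ¬ p ∣ N → p ≠ ℓ →
        ∀ P : ValuationSubring Qb, P.LiesOverPrime p →
          (∀ σ ∈ P.inertiaSubgroupIn ℚ, ρbar σ = 1) ∧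
          ∀ σ : GQ, P.IsFrobeniusAt σ p →
            ((ρbar σ : GL (Fin 2) k) : Matrix (Fin 2) (Fin 2) k).charpoly
              = X ^ 2 - C (r (a p)) * X + C (r (e p))

/-- **(J1)** Steps 1–3 of the route: the eigenvalues `a_p` (`p ∤ N`) are algebraic integers and
there are mod-`ℓ` representations of uniformly bounded image for infinitely many `ℓ`. -/
def BddRes : Prop :=
  ∀ (N : ℕ) [NeZero N] (ε : DirichletCharacter ℂ N) (f : CuspForm (Gamma1 N) 1),
    ModularFormClass.qCoeff f 1 = 1 →
    Rel N (ModularFormClass.qCoeff f) (ModularFormClass.qCoeff f) (fun p => ε (p : ZMod N)) →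
    ∃ (a e : ℕ → AA) (A : ℕ),
      (∀ p : ℕ, p.Prime → ¬ p ∣ N →
        (a p : ℂ) = ModularFormClass.qCoeff f p ∧ (e p : ℂ) = ε (p : ZMod N)) ∧
      HasBddRes N a e A

/-- **(J2)** Steps 4–6 of the route (`S48/Patch.lean`, helper72): from `HasBddRes` to one complex
representation with the right behaviour at every prime `p ∤ N`. -/
def PatchStatement : Prop :=
  ∀ (N : ℕ) (a e : ℕ → AA) (A : ℕ), HasBddRes N a e A →
    ∃ ρ : GQ →* GL (Fin 2) ℂ, GaloisFactorsThroughFiniteLevel ρ ∧
      ∀ p : ℕ, p.Prime → ¬ p ∣ N → LocalAt ρ p (a p : ℂ) (e p : ℂ)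

/-- **(J3)** Step 7 of the route: a finite-level representation attached to the weight-one form
is irreducible. -/
def IrredStatement : Prop :=
  ∀ (N : ℕ) [NeZero N] (ε : DirichletCharacter ℂ N) (f : CuspForm (Gamma1 N) 1),
    ModularFormClass.qCoeff f 1 = 1 →
    Rel N (ModularFormClass.qCoeff f) (ModularFormClass.qCoeff f) (fun p => ε (p : ZMod N)) →
    ∀ ρ : GQ →* GL (Fin 2) ℂ, GaloisFactorsThroughFiniteLevel ρ →
      (∀ p : ℕ, p.Prime → ¬ p ∣ N →
        LocalAt ρ p (ModularFormClass.qCoeff f p) (ε (p : ZMod N))) →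
      (Deformation.matrixRepresentation ρ).IsIrreducible

/-- **S48 from the contract (J0).** -/
theorem result_of_contract (h1 : BddRes) (h2 : PatchStatement) (h3 : IrredStatement)
    (N : ℕ) [NeZero N] (ε : DirichletCharacter ℂ N) (f : CuspForm (Gamma1 N) 1)
    (hf₁ : ModularFormClass.qCoeff f 1 = 1)
    (hT : ∀ p : ℕ, p.Prime → ¬ p ∣ N → ∀ n : ℕ,
        ModularFormClass.qCoeff f (p * n) +
            ε (p : ZMod N) * (if p ∣ n then ModularFormClass.qCoeff f (n / p) else 0) =
          ModularFormClass.qCoeff f p * ModularFormClass.qCoeff f n) :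
    ∃ ρ : GQ →* GL (Fin 2) ℂ, GaloisFactorsThroughFiniteLevel ρ ∧
      (Deformation.matrixRepresentation ρ).IsIrreducible ∧
      ∀ p : ℕ, p.Prime → ¬ p ∣ N →
        ∀ A : ValuationSubring (AlgebraicClosure ℚ), A.LiesOverPrime p →
          (∀ σ ∈ A.inertiaSubgroupIn ℚ, ρ σ = 1) ∧
          ∀ σ : GQ, A.IsFrobeniusAt σ p →
            ((ρ σ : GL (Fin 2) ℂ) : Matrix (Fin 2) (Fin 2) ℂ).trace = ModularFormClass.qCoeff f p ∧
            ((ρ σ : GL (Fin 2) ℂ) : Matrix (Fin 2) (Fin 2) ℂ).det = ε (p : ZMod N) := by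
  have hrel : Rel N (ModularFormClass.qCoeff f) (ModularFormClass.qCoeff f)
      (fun p => ε (p : ZMod N)) := hT
  obtain ⟨a, e, A, hae, hH⟩ := h1 N ε f hf₁ hrel
  obtain ⟨ρ, hρ, hloc⟩ := h2 N a e A hH
  have hloc' : ∀ p : ℕ, p.Prime → ¬ p ∣ N →
      LocalAt ρ p (ModularFormClass.qCoeff f p) (ε (p : ZMod N)) := by
    intro p hp hpN
    have h := hloc p hp hpN
    rw [(hae p hp hpN).1, (hae p hp hpN).2] at h
    exact h
  exact ⟨ρ, hρ, h3 N ε f hf₁ hrel ρ hρ hloc', fun p hp hpN A hA => hloc' p hp hpN A hA⟩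

end Fermat.Agent.S48.Contract
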