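import Mathlib
import Fermat.Agent.S31.Burnside

/-!
# Finite matrix groups with few traces are small

The group-theoretic step of the Deligne--Serre argument, WITHOUT any classification of the
subgroups of `GL₂`: if a finite group `G` of matrices spans the full matrix algebra and all
elements of a subset `H` have their trace in a finite set `T`, then
`|G| ≤ n² · |G ∖ H| + |T| ^ (n²)`.

Proof: choose `g₁, …, g_{n²} ∈ G` spanning the matrix algebra.  The map
`g ↦ (tr (g gᵢ))ᵢ` is injective on `G` (the trace form is nondegenerate) and sends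
`B = {g | ∀ i, g gᵢ ∈ H}` into `T ^ (n²)`, while `|G ∖ B| ≤ n² |G ∖ H|`.

* `card_le_of_span_family` : the statement for an explicit spanning family;
* `card_le_of_span_eq_top` : the statement when `G` spans the matrix algebra;
* `card_le_of_diagonal` : diagonal `2 × 2` groups, with (trace, det) in a finite set `P`:
  `|G| ≤ |G ∖ H| + 2 |P|`;
* `card_le_of_semisimple` : a semisimple two-dimensional representation over an algebraically
  closed field: `|G| ≤ 4 |G ∖ H| + max (|P| ^ 4) (2 |P|)`.
-/

set_option autoImplicit false

namespace Fermat.Agent.S48.FewTraces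

open Module

section Family

variable {K : Type*} [Field K] {n : Type*} [Fintype n] [DecidableEq n]
  {G : Type*} [Group G] [Finite G]

/-- **Few traces, family form.**  If the matrices `ρ (g i)` span the matrix algebra and the
traces of the elements of `H` lie in `T`, then `|G| ≤ |ι| · |Hᶜ| + |T| ^ |ι|`. -/
theorem card_le_of_span_family {ι : Type*} [Fintype ι]
    (ρ : G →* Matrix n n K) (hinj : Function.Injective ρ)
    (g : ι → G) (hspan : Submodule.span K (Set.range fun i => ρ (g i)) = ⊤)
    (H : Set G) (T : Finset K) (hT : ∀ h ∈ H, Matrix.trace (ρ h) ∈ T) :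
    Nat.card G ≤ Fintype.card ι * Set.ncard (Hᶜ) + T.card ^ Fintype.card ι := by
  classical
  have : Fintype G := Fintype.ofFinite G
  set B : Finset G := Finset.univ.filter fun x => ∀ i, x * g i ∈ H with hB
  have hbad : (Finset.univ.filter fun x : G => ¬ ∀ i, x * g i ∈ H).card ≤
      Fintype.card ι * Set.ncard (Hᶜ) := by
    have hsub : (Finset.univ.filter fun x : G => ¬ ∀ i, x * g i ∈ H) ⊆
        Finset.univ.biUnion fun i : ι => Finset.univ.filter fun x : G => x * g i ∉ H := by
      intro x hx
      simp only [Finset.mem_filter, Finset.mem_univ, true_and, not_forall] at hx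
      obtain ⟨i, hi⟩ := hx
      simp only [Finset.mem_biUnion, Finset.mem_univ, Finset.mem_filter, true_and]
      exact ⟨i, hi⟩
    refine (Finset.card_le_card hsub).trans ?_
    refine Finset.card_biUnion_le.trans ?_
    have hone : ∀ i : ι,
        (Finset.univ.filter fun x : G => x * g i ∉ H).card ≤ Set.ncard (Hᶜ) := by
      intro i
      rw [Set.ncard_eq_toFinset_card' (Hᶜ)]
      refine Finset.card_le_card_of_injOn (fun x => x * g i) ?_ ?_
      · intro x hx
        simpa using hx
      · intro x _ y _ hxy
        exact mul_right_cancel hxy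
    calc ∑ i : ι, (Finset.univ.filter fun x : G => x * g i ∉ H).card
        ≤ ∑ _i : ι, Set.ncard (Hᶜ) := Finset.sum_le_sum fun i _ => hone i
      _ = Fintype.card ι * Set.ncard (Hᶜ) := by simp
  have hgood : B.card ≤ T.card ^ Fintype.card ι := by
    have hmaps : ∀ x ∈ B, (fun i => Matrix.trace (ρ (x * g i))) ∈
        Fintype.piFinset fun _ : ι => T := by
      intro x hx
      rw [Fintype.mem_piFinset]
      intro i
      exact hT _ ((Finset.mem_filter.mp hx).2 i)
    have hinjOn : Set.InjOn (fun (x : G) (i : ι) => Matrix.trace (ρ (x * g i))) B := by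
      intro x _ y _ hxy
      apply hinj
      rw [Matrix.ext_iff_trace_mul_right]
      intro m
      have hm : m ∈ Submodule.span K (Set.range fun i => ρ (g i)) := hspan ▸ Submodule.mem_top
      induction hm using Submodule.span_induction with
      | mem m hm =>
        obtain ⟨i, rfl⟩ := hm
        simpa [map_mul] using congrFun hxy i
      | zero => simp
      | add a b _ _ ha hb => simp [Matrix.mul_add, Matrix.trace_add, ha, hb]
      | smul c a _ ha => simp [Matrix.trace_smul, ha]
    calc B.card ≤ (Fintype.piFinset fun _ : ι => T).card :=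
          Finset.card_le_card_of_injOn _ hmaps hinjOn
      _ = T.card ^ Fintype.card ι := by simp [Fintype.card_piFinset]
  have htot : Fintype.card G =
      B.card + (Finset.univ.filter fun x : G => ¬ ∀ i, x * g i ∈ H).card := by
    rw [← Finset.card_univ]
    exact (Finset.card_filter_add_card_filter_not _).symm
  rw [Nat.card_eq_fintype_card, htot]
  omega

/-- **Few traces.**  A finite group of `n × n` matrices spanning the matrix algebra, all of whose
elements in `H` have trace in `T`, has at most `n² · |Hᶜ| + |T| ^ (n²)` elements. -/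
theorem card_le_of_span_eq_top (ρ : G →* Matrix n n K) (hinj : Function.Injective ρ)
    (hspan : Submodule.span K (Set.range ρ) = ⊤)
    (H : Set G) (T : Finset K) (hT : ∀ h ∈ H, Matrix.trace (ρ h) ∈ T) :
    Nat.card G ≤ Fintype.card n ^ 2 * Set.ncard (Hᶜ) + T.card ^ (Fintype.card n ^ 2) := by
  classical
  obtain ⟨b, hb₁, hb₂, hb₃⟩ := exists_linearIndependent K (Set.range ρ)
  have hbspan : Submodule.span K b = ⊤ := hb₂.trans hspan
  let bas : Basis b K (Matrix n n K) := Basis.mk hb₃ (by
    rw [Subtype.range_coe_subtype, Set.ofPred_mem_eq]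
    exact hbspan.ge)
  have : Finite b := Module.Finite.finite_basis bas
  have : Fintype b := Fintype.ofFinite b
  have hcard : Fintype.card b = Fintype.card n ^ 2 := by
    rw [← Module.finrank_eq_card_basis bas, Module.finrank_matrix]
    simp [sq]
  choose g hg using fun x : b => hb₁ x.2
  have hspan' : Submodule.span K (Set.range fun i : b => ρ (g i)) = ⊤ := by
    have : (Set.range fun i : b => ρ (g i)) = b := by
      ext m
      constructor
      · rintro ⟨i, rfl⟩
        show ρ (g i) ∈ b
        rw [hg i]
        exact i.2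
      · intro hm
        exact ⟨⟨m, hm⟩, hg ⟨m, hm⟩⟩
    rw [this]
    exact hbspan
  have := card_le_of_span_family ρ hinj g hspan' H T hT
  rwa [hcard] at this

end Family

section Diagonal

variable {K : Type*} [Field K] {G : Type*} [Group G] [Finite G]

/-- **Diagonal case.**  A finite group of diagonal `2 × 2` matrices, all of whose elements in `H`
have (trace, determinant) in `P`, has at most `|Hᶜ| + 2 |P|` elements. -/
theorem card_le_of_diagonal (ρ : G →* Matrix (Fin 2) (Fin 2) K) (hinj : Function.Injective ρ)
    (hdiag : ∀ g, ρ g 0 1 = 0 ∧ ρ g 1 0 = 0)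
    (H : Set G) (P : Finset (K × K))
    (hP : ∀ h ∈ H, (Matrix.trace (ρ h), Matrix.det (ρ h)) ∈ P) :
    Nat.card G ≤ Set.ncard (Hᶜ) + 2 * P.card := by
  classical
  have : Fintype G := Fintype.ofFinite G
  have hfib : ∀ p : K × K,
      (Finset.univ.filter fun x : G => (Matrix.trace (ρ x), Matrix.det (ρ x)) = p).card ≤ 2 := by
    intro p
    set q : Polynomial K :=
      Polynomial.X ^ 2 - Polynomial.C p.1 * Polynomial.X + Polynomial.C p.2 with hq
    have hdeg : q.natDegree = 2 := by
      rw [hq]
      compute_degree!
    have hq0 : q ≠ 0 := by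
      intro h
      rw [h] at hdeg
      simp at hdeg
    have hmaps : ∀ x ∈ (Finset.univ.filter fun x : G =>
        (Matrix.trace (ρ x), Matrix.det (ρ x)) = p), ρ x 0 0 ∈ q.roots.toFinset := by
      intro x hx
      rw [Finset.mem_filter] at hx
      have h1 : Matrix.trace (ρ x) = p.1 := congrArg Prod.fst hx.2
      have h2 : Matrix.det (ρ x) = p.2 := congrArg Prod.snd hx.2
      rw [Matrix.trace_fin_two] at h1
      rw [Matrix.det_fin_two, (hdiag x).1, (hdiag x).2] at h2
      rw [Multiset.mem_toFinset, Polynomial.mem_roots hq0, Polynomial.IsRoot, hq]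
      simp only [Polynomial.eval_add, Polynomial.eval_sub, Polynomial.eval_pow,
        Polynomial.eval_X, Polynomial.eval_mul, Polynomial.eval_C]
      rw [← h1, ← h2]
      ring
    have hinjOn : Set.InjOn (fun x : G => ρ x 0 0) (Finset.univ.filter fun x : G =>
        (Matrix.trace (ρ x), Matrix.det (ρ x)) = p) := by
      intro x hx y hy hxy
      rw [Finset.mem_coe, Finset.mem_filter] at hx hy
      have hx1 : Matrix.trace (ρ x) = p.1 := congrArg Prod.fst hx.2
      have hy1 : Matrix.trace (ρ y) = p.1 := congrArg Prod.fst hy.2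
      rw [Matrix.trace_fin_two] at hx1 hy1
      have h00 : ρ x 0 0 = ρ y 0 0 := hxy
      have h11 : ρ x 1 1 = ρ y 1 1 := by
        have := hx1.trans hy1.symm
        rw [h00] at this
        exact add_left_cancel this
      apply hinj
      ext i j
      fin_cases i <;> fin_cases j
      · exact h00
      · exact (hdiag x).1.trans (hdiag y).1.symm
      · exact (hdiag x).2.trans (hdiag y).2.symm
      · exact h11
    calc (Finset.univ.filter fun x : G => (Matrix.trace (ρ x), Matrix.det (ρ x)) = p).card
        ≤ q.roots.toFinset.card := Finset.card_le_card_of_injOn _ hmaps hinjOn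
      _ ≤ Multiset.card q.roots := Multiset.toFinset_card_le _
      _ ≤ q.natDegree := Polynomial.card_roots' q
      _ = 2 := hdeg
  have hH : (Finset.univ.filter fun x : G => x ∈ H).card ≤ 2 * P.card := by
    have hsub : (Finset.univ.filter fun x : G => x ∈ H) ⊆
        P.biUnion fun p => Finset.univ.filter fun x : G =>
          (Matrix.trace (ρ x), Matrix.det (ρ x)) = p := by
      intro x hx
      rw [Finset.mem_filter] at hx
      rw [Finset.mem_biUnion]
      exact ⟨_, hP x hx.2, by simp⟩
    refine (Finset.card_le_card hsub).trans ?_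
    refine Finset.card_biUnion_le.trans ?_
    calc ∑ p ∈ P, (Finset.univ.filter fun x : G =>
          (Matrix.trace (ρ x), Matrix.det (ρ x)) = p).card
        ≤ ∑ _p ∈ P, 2 := Finset.sum_le_sum fun p _ => hfib p
      _ = 2 * P.card := by simp [mul_comm]
  have hc : (Finset.univ.filter fun x : G => x ∉ H).card = Set.ncard (Hᶜ) := by
    rw [Set.ncard_eq_toFinset_card' (Hᶜ)]
    congr 1
    ext x
    simp
  have htot : Fintype.card G =
      (Finset.univ.filter fun x : G => x ∈ H).card +
        (Finset.univ.filter fun x : G => x ∉ H).card := by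
    rw [← Finset.card_univ]
    exact (Finset.card_filter_add_card_filter_not _).symm
  rw [Nat.card_eq_fintype_card, htot, hc]
  omega

end Diagonal

section Semisimple

variable {K : Type*} [Field K] [IsAlgClosed K] {U : Type*} [AddCommGroup U] [Module K U]
  {G : Type*} [Group G] [Finite G]

/-- **Few characteristic polynomials, semisimple two-dimensional case.**  Let `ρ` be a faithful
two-dimensional representation of a finite group over an algebraically closed field such that
every invariant subspace has an invariant complement.  If the elements of `H` have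
(trace, determinant) in the finite set `P`, then `|G| ≤ 4 |Hᶜ| + max (|P| ^ 4) (2 |P|)`. -/
theorem card_le_of_semisimple (hU : Module.finrank K U = 2) (ρ : G →* Module.End K U)
    (hinj : Function.Injective ρ)
    (hss : ∀ W : Submodule K U, (∀ g, ∀ x ∈ W, ρ g x ∈ W) →
      ∃ W' : Submodule K U, (∀ g, ∀ x ∈ W', ρ g x ∈ W') ∧ IsCompl W W')
    (H : Set G) (P : Finset (K × K))
    (hP : ∀ h ∈ H, (LinearMap.trace K U (ρ h), LinearMap.det (ρ h)) ∈ P) :
    Nat.card G ≤ 4 * Set.ncard (Hᶜ) + max (P.card ^ 4) (2 * P.card) := by
  classical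
  have : FiniteDimensional K U := Module.finite_of_finrank_eq_succ hU
  by_cases hirr : ∀ W : Submodule K U, (∀ g, ∀ x ∈ W, ρ g x ∈ W) → W = ⊥ ∨ W = ⊤
  · -- irreducible: Burnside + few traces
    have hspan := Fermat.Agent.S31.Burnside.span_range_eq_top hU ρ hirr
    let b : Basis (Fin 2) K U := Module.finBasisOfFinrankEq K U hU
    let e := LinearMap.toMatrixAlgEquiv b
    let ρ' : G →* Matrix (Fin 2) (Fin 2) K := (e : Module.End K U →* Matrix (Fin 2) (Fin 2) K).comp ρ
    have hinj' : Function.Injective ρ' := fun x y hxy => hinj (e.injective hxy)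
    have hspan' : Submodule.span K (Set.range ρ') = ⊤ := by
      have h1 : Set.range ρ' = (e.toLinearEquiv : Module.End K U →ₗ[K] Matrix (Fin 2) (Fin 2) K) ''
          Set.range ρ := by
        ext m
        constructor
        · rintro ⟨x, rfl⟩
          exact ⟨ρ x, ⟨x, rfl⟩, rfl⟩
        · rintro ⟨_, ⟨x, rfl⟩, rfl⟩
          exact ⟨x, rfl⟩
      rw [h1, ← Submodule.map_span, hspan, Submodule.map_top]
      exact LinearEquiv.range _
    have hT : ∀ h ∈ H, Matrix.trace (ρ' h) ∈ P.image Prod.fst := by
      intro h hh
      have h1 : Matrix.trace (ρ' h) = LinearMap.trace K U (ρ h) :=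
        (LinearMap.trace_eq_matrix_trace K b (ρ h)).symm
      rw [h1]
      exact Finset.mem_image_of_mem Prod.fst (hP h hh)
    have key := card_le_of_span_eq_top ρ' hinj' hspan' H (P.image Prod.fst) hT
    have hc : (P.image Prod.fst).card ≤ P.card := Finset.card_image_le
    have hpow : (P.image Prod.fst).card ^ 4 ≤ P.card ^ 4 := Nat.pow_le_pow_left hc 4
    simp only [Fintype.card_fin] at key
    have : P.card ^ 4 ≤ max (P.card ^ 4) (2 * P.card) := le_max_left _ _
    norm_num at key
    omega
  · -- reducible: diagonalise
    obtain ⟨W, hWW⟩ := not_forall.mp hirr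
    obtain ⟨hW, hWne⟩ := Classical.not_imp.mp hWW
    obtain ⟨hW0, hW1⟩ := not_or.mp hWne
    obtain ⟨W', hW', hc⟩ := hss W hW
    have hW'0 : W' ≠ ⊥ := by
      rintro rfl
      exact hW1 (by simpa using hc.sup_eq_top)
    obtain ⟨w, hwW, hw0⟩ := Submodule.exists_mem_ne_zero_of_ne_bot hW0
    obtain ⟨w', hw'W, hw'0⟩ := Submodule.exists_mem_ne_zero_of_ne_bot hW'0
    have hdisj : ∀ x, x ∈ W → x ∈ W' → x = 0 := by
      intro x hx hx'
      have : x ∈ W ⊓ W' := ⟨hx, hx'⟩
      rw [hc.inf_eq_bot] at this
      exact (Submodule.mem_bot K).mp this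
    have hli : LinearIndependent K ![w, w'] := by
      rw [LinearIndependent.pair_iff]
      intro s t hst
      have h1 : s • w = -(t • w') := eq_neg_of_add_eq_zero_left hst
      have h2 : s • w = 0 := hdisj _ (W.smul_mem s hwW) (h1 ▸ W'.neg_mem (W'.smul_mem t hw'W))
      have h3 : t • w' = 0 := by
        rw [h2, zero_add] at hst
        exact hst
      exact ⟨(smul_eq_zero.mp h2).resolve_right hw0, (smul_eq_zero.mp h3).resolve_right hw'0⟩
    let b : Basis (Fin 2) K U := basisOfLinearIndependentOfCardEqFinrank hli (by simp [hU])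
    have hb0 : b 0 = w := by simp [b]
    have hb1 : b 1 = w' := by simp [b]
    let e := LinearMap.toMatrixAlgEquiv b
    let ρ' : G →* Matrix (Fin 2) (Fin 2) K := (e : Module.End K U →* Matrix (Fin 2) (Fin 2) K).comp ρ
    have hinj' : Function.Injective ρ' := fun x y hxy => hinj (e.injective hxy)
    have hρ' : ∀ x i j, ρ' x i j = b.repr (ρ x (b j)) i := by
      intro x i j
      exact LinearMap.toMatrixAlgEquiv_apply b (ρ x) i j
    have hdiag : ∀ x, ρ' x 0 1 = 0 ∧ ρ' x 1 0 = 0 := by
      intro x
      constructor
      · -- coefficient of w in ρ x w'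
        rw [hρ', hb1]
        set v := ρ x w' with hv
        have hvW : v ∈ W' := hW' x w' hw'W
        have hsum : v = b.repr v 0 • w + b.repr v 1 • w' := by
          conv_lhs => rw [← b.sum_repr v]
          rw [Fin.sum_univ_two, hb0, hb1]
        have h1 : b.repr v 0 • w ∈ W' := by
          have : b.repr v 0 • w = v - b.repr v 1 • w' := by
            rw [eq_sub_iff_add_eq]
            exact hsum.symm
          rw [this]
          exact W'.sub_mem hvW (W'.smul_mem _ hw'W)
        have h2 : b.repr v 0 • w = 0 := hdisj _ (W.smul_mem _ hwW) h1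
        exact (smul_eq_zero.mp h2).resolve_right hw0
      · -- coefficient of w' in ρ x w
        rw [hρ', hb0]
        set v := ρ x w with hv
        have hvW : v ∈ W := hW x w hwW
        have hsum : v = b.repr v 0 • w + b.repr v 1 • w' := by
          conv_lhs => rw [← b.sum_repr v]
          rw [Fin.sum_univ_two, hb0, hb1]
        have h1 : b.repr v 1 • w' ∈ W := by
          have : b.repr v 1 • w' = v - b.repr v 0 • w := by
            rw [eq_sub_iff_add_eq']
            exact hsum.symm
          rw [this]
          exact W.sub_mem hvW (W.smul_mem _ hwW)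
        have h2 : b.repr v 1 • w' = 0 := hdisj _ h1 (W'.smul_mem _ hw'W)
        exact (smul_eq_zero.mp h2).resolve_right hw'0
    have hP' : ∀ h ∈ H, (Matrix.trace (ρ' h), Matrix.det (ρ' h)) ∈ P := by
      intro h hh
      have h1 : Matrix.trace (ρ' h) = LinearMap.trace K U (ρ h) :=
        (LinearMap.trace_eq_matrix_trace K b (ρ h)).symm
      have h2 : Matrix.det (ρ' h) = LinearMap.det (ρ h) := LinearMap.det_toMatrix b (ρ h)
      rw [h1, h2]
      exact hP h hh
    have key := card_le_of_diagonal ρ' hinj' hdiag H P hP'
    have : 2 * P.card ≤ max (P.card ^ 4) (2 * P.card) := le_max_right _ _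
    omega

end Semisimple

end Fermat.Agent.S48.FewTraces
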