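import Mathlib
import Fermat.Agent.S48.FewTraces

/-!
# Few characteristic polynomials: the semisimplified image is small (`GL₂` exit)

Adapter for the Deligne--Serre argument.  Given ANY two-dimensional representation `ρ` of a group
`Γ` over an algebraically closed field with finite image (no semisimplicity assumed), we produce
`ρ' : Γ →* GL (Fin 2) k` with

* the same characteristic polynomials as `ρ`,
* `ρ σ = 1 → ρ' σ = 1` (so `ρ'` is unramified / of finite level wherever `ρ` is),
* finite image, and for every `H ⊆ Γ` on which `(trace, det)` of `ρ` takes values in a finite set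
  `P`:  `|ρ'(Γ)| ≤ 4 · |ρ'(Γ) ∖ ρ'(H)| + max (|P| ^ 4) (2 |P|)`.

`ρ'` is `ρ` in a basis if `ρ` is irreducible, and the diagonal part of `ρ` otherwise.
-/

set_option autoImplicit false

namespace Fermat.Agent.S48.FewTracesGL

open Module Polynomial

variable {k : Type*} [Field k]

/-- The characteristic polynomial of an endomorphism of a two-dimensional space. -/
lemma charpoly_eq_of_finrank_two {V : Type*} [AddCommGroup V] [Module k V]
    [FiniteDimensional k V] (hV : Module.finrank k V = 2) (f : Module.End k V) :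
    f.charpoly = X ^ 2 - C (LinearMap.trace k V f) * X + C (LinearMap.det f) := by
  let b : Basis (Fin 2) k V := Module.finBasisOfFinrankEq k V hV
  rw [← LinearMap.charpoly_toMatrix f b, Matrix.charpoly_fin_two,
    LinearMap.trace_eq_matrix_trace k b, LinearMap.det_toMatrix]

variable {Γ : Type*} [Group Γ]

/-- Counting the complement of the image of `H` inside the range. -/
lemma ncard_compl_transfer (ρ' : Γ →* GL (Fin 2) k) (H : Set Γ) :
    Set.ncard ({g : ρ'.range | ∃ σ ∈ H, ρ' σ = g}ᶜ) =
      Set.ncard ((ρ'.range : Set (GL (Fin 2) k)) \ ρ' '' H) := by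
  rw [← Set.ncard_image_of_injective _ Subtype.val_injective]
  congr 1
  ext g
  constructor
  · rintro ⟨⟨g, hg⟩, hgc, rfl⟩
    refine ⟨hg, ?_⟩
    rintro ⟨σ, hσ, hσg⟩
    exact hgc ⟨σ, hσ, hσg⟩
  · rintro ⟨hg, hgn⟩
    refine ⟨⟨g, hg⟩, ?_, rfl⟩
    rintro ⟨σ, hσ, hσg⟩
    exact hgn ⟨σ, hσ, hσg⟩

/-- The range of `toHomUnits` is finite when the range of the monoid hom is. -/
lemma finite_range_toHomUnits {M : Type*} [Monoid M] (ρm : Γ →* M)
    (h : (Set.range ρm).Finite) : Finite ρm.toHomUnits.range := by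
  have hfin : (ρm.toHomUnits.range : Set Mˣ).Finite := by
    apply Set.Finite.of_finite_image (f := Units.val)
    · refine h.subset ?_
      rintro _ ⟨_, ⟨σ, rfl⟩, rfl⟩
      exact ⟨σ, rfl⟩
    · intro x _ y _ hxy
      exact Units.ext hxy
  exact hfin.to_subtype

/-- **Semisimplification with a bound** (`End` input).  See the module docstring. -/
theorem exists_bounded_semisimplification [IsAlgClosed k] {V : Type*} [AddCommGroup V]
    [Module k V] [FiniteDimensional k V] (hV : Module.finrank k V = 2) (ρ : Γ →* Module.End k V)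
    (hfin : (Set.range ρ).Finite) :
    ∃ ρ' : Γ →* GL (Fin 2) k,
      (∀ σ, (ρ' σ : Matrix (Fin 2) (Fin 2) k).charpoly = (ρ σ).charpoly) ∧
      (∀ σ, ρ σ = 1 → ρ' σ = 1) ∧
      Finite ρ'.range ∧
      ∀ (H : Set Γ) (P : Finset (k × k)),
        (∀ σ ∈ H, (LinearMap.trace k V (ρ σ), LinearMap.det (ρ σ)) ∈ P) →
        Nat.card ρ'.range ≤
          4 * Set.ncard ((ρ'.range : Set (GL (Fin 2) k)) \ ρ' '' H) +
            max (P.card ^ 4) (2 * P.card) := by
  classical
  by_cases hirr : ∀ W : Submodule k V, (∀ g, ∀ x ∈ W, ρ g x ∈ W) → W = ⊥ ∨ W = ⊤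
  · -- irreducible case: `ρ` in a basis
    let b : Basis (Fin 2) k V := Module.finBasisOfFinrankEq k V hV
    let e := LinearMap.toMatrixAlgEquiv b
    let ρm : Γ →* Matrix (Fin 2) (Fin 2) k :=
      (e : Module.End k V →* Matrix (Fin 2) (Fin 2) k).comp ρ
    let ρ' : Γ →* GL (Fin 2) k := ρm.toHomUnits
    have hval : ∀ σ, (ρ' σ : Matrix (Fin 2) (Fin 2) k) = LinearMap.toMatrix b b (ρ σ) :=
      fun σ => rfl
    have hfin' : Finite ρ'.range := by
      apply finite_range_toHomUnits
      refine (hfin.image e).subset ?_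
      rintro _ ⟨σ, rfl⟩
      exact ⟨ρ σ, ⟨σ, rfl⟩, rfl⟩
    refine ⟨ρ', fun σ => ?_, fun σ hσ => ?_, hfin', fun H P hP => ?_⟩
    · rw [hval, LinearMap.charpoly_toMatrix]
    · apply Units.ext
      rw [hval, hσ]
      exact LinearMap.toMatrix_one b
    · -- the bound
      have hspan := Fermat.Agent.S31.Burnside.span_range_eq_top hV ρ hirr
      let ι : ρ'.range →* Matrix (Fin 2) (Fin 2) k :=
        (Units.coeHom (Matrix (Fin 2) (Fin 2) k)).comp ρ'.range.subtype
      have hιinj : Function.Injective ι := by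
        intro x y hxy
        exact Subtype.ext (Units.ext hxy)
      have hιspan : Submodule.span k (Set.range ι) = ⊤ := by
        have h1 : Set.range ι =
            (e.toLinearEquiv : Module.End k V →ₗ[k] Matrix (Fin 2) (Fin 2) k) '' Set.range ρ := by
          ext m
          constructor
          · rintro ⟨⟨_, ⟨σ, rfl⟩⟩, rfl⟩
            exact ⟨ρ σ, ⟨σ, rfl⟩, rfl⟩
          · rintro ⟨_, ⟨σ, rfl⟩, rfl⟩
            exact ⟨⟨ρ' σ, ⟨σ, rfl⟩⟩, rfl⟩
        rw [h1, ← Submodule.map_span, hspan, Submodule.map_top]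
        exact LinearEquiv.range _
      let HG : Set ρ'.range := {g | ∃ σ ∈ H, ρ' σ = g}
      have hT : ∀ h ∈ HG, Matrix.trace (ι h) ∈ P.image Prod.fst := by
        rintro ⟨_, _⟩ ⟨σ, hσ, rfl⟩
        have h1 : Matrix.trace (ι ⟨ρ' σ, ⟨σ, rfl⟩⟩) = LinearMap.trace k V (ρ σ) :=
          (LinearMap.trace_eq_matrix_trace k b (ρ σ)).symm
        rw [h1]
        exact Finset.mem_image_of_mem Prod.fst (hP σ hσ)
      have key := Fermat.Agent.S48.FewTraces.card_le_of_span_eq_top ι hιinj hιspan HG
        (P.image Prod.fst) hT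
      rw [ncard_compl_transfer ρ' H] at key
      have hc : (P.image Prod.fst).card ≤ P.card := Finset.card_image_le
      have hpow : (P.image Prod.fst).card ^ 4 ≤ P.card ^ 4 := Nat.pow_le_pow_left hc 4
      rw [Fintype.card_fin, show (2 : ℕ) ^ 2 = 4 from rfl] at key
      have : P.card ^ 4 ≤ max (P.card ^ 4) (2 * P.card) := le_max_left _ _
      omega
  · -- reducible case: the diagonal part
    obtain ⟨W, hWW⟩ := not_forall.mp hirr
    obtain ⟨hW, hWne⟩ := Classical.not_imp.mp hWW
    obtain ⟨hW0, hW1⟩ := not_or.mp hWne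
    obtain ⟨v, hvW, hv0⟩ := Submodule.exists_mem_ne_zero_of_ne_bot hW0
    have hWrank : Module.finrank k W = 1 := by
      have h1 : Module.finrank k W < 2 := hV ▸ Submodule.finrank_lt hW1
      have h2 : Module.finrank k W ≠ 0 := fun h => hW0 (Submodule.finrank_eq_zero.mp h)
      omega
    have hv0' : (⟨v, hvW⟩ : W) ≠ 0 := fun h => hv0 (congrArg Subtype.val h)
    have heig : ∀ σ, ∃ c : k, c • v = ρ σ v := by
      intro σ
      obtain ⟨c, hc⟩ := (finrank_eq_one_iff_of_nonzero' (⟨v, hvW⟩ : W) hv0').mp hWrank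
        ⟨ρ σ v, hW σ v hvW⟩
      exact ⟨c, congrArg Subtype.val hc⟩
    -- the eigenvalue as a function of the endomorphism
    let α : Module.End k V → k := fun f => if h : ∃ c : k, c • v = f v then Classical.choose h else 0
    have hα : ∀ σ, α (ρ σ) • v = ρ σ v := by
      intro σ
      have h := heig σ
      simp only [α, dif_pos h]
      exact Classical.choose_spec h
    have hα1 : α (ρ 1) = 1 := by
      have h := hα 1
      rw [map_one, Module.End.one_apply] at h
      have h2 : (α 1 - 1) • v = 0 := by rw [sub_smul, one_smul, h, sub_self]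
      rw [map_one]
      exact sub_eq_zero.mp ((smul_eq_zero.mp h2).resolve_right hv0)
    have hαmul : ∀ σ τ, α (ρ (σ * τ)) = α (ρ σ) * α (ρ τ) := by
      intro σ τ
      have h := hα (σ * τ)
      rw [map_mul, Module.End.mul_apply, ← hα τ, map_smul, ← hα σ, smul_smul] at h
      have h2 : (α (ρ σ * ρ τ) - α (ρ τ) * α (ρ σ)) • v = 0 := by rw [sub_smul, h, sub_self]
      rw [map_mul, mul_comm (α (ρ σ))]
      exact sub_eq_zero.mp ((smul_eq_zero.mp h2).resolve_right hv0)
    have hαne : ∀ σ, α (ρ σ) ≠ 0 := by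
      intro σ h0
      have h := hαmul σ σ⁻¹
      rw [mul_inv_cancel, hα1, h0, zero_mul] at h
      exact one_ne_zero h
    have hdet1 : LinearMap.det (ρ 1) = 1 := by rw [map_one, map_one]
    have hdetmul : ∀ σ τ, LinearMap.det (ρ (σ * τ)) = LinearMap.det (ρ σ) * LinearMap.det (ρ τ) := by
      intro σ τ
      rw [map_mul, map_mul]
    -- the diagonal part as a function of the endomorphism
    let Dfun : Module.End k V → Matrix (Fin 2) (Fin 2) k := fun f =>
      Matrix.diagonal ![α f, LinearMap.det f / α f]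
    let ρm : Γ →* Matrix (Fin 2) (Fin 2) k :=
      { toFun := fun σ => Dfun (ρ σ)
        map_one' := by
          show Matrix.diagonal ![α (ρ 1), LinearMap.det (ρ 1) / α (ρ 1)] = 1
          rw [hα1, hdet1, div_one, ← Matrix.diagonal_one]
          congr 1
          ext i
          fin_cases i <;> rfl
        map_mul' := by
          intro σ τ
          show Matrix.diagonal ![α (ρ (σ * τ)), LinearMap.det (ρ (σ * τ)) / α (ρ (σ * τ))] =
            Matrix.diagonal ![α (ρ σ), LinearMap.det (ρ σ) / α (ρ σ)] *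
              Matrix.diagonal ![α (ρ τ), LinearMap.det (ρ τ) / α (ρ τ)]
          rw [Matrix.diagonal_mul_diagonal, hαmul, hdetmul]
          congr 1
          ext i
          fin_cases i
          · rfl
          · show LinearMap.det (ρ σ) * LinearMap.det (ρ τ) / (α (ρ σ) * α (ρ τ)) =
              LinearMap.det (ρ σ) / α (ρ σ) * (LinearMap.det (ρ τ) / α (ρ τ))
            field_simp }
    let ρ' : Γ →* GL (Fin 2) k := ρm.toHomUnits
    have hval : ∀ σ, (ρ' σ : Matrix (Fin 2) (Fin 2) k) =
        Matrix.diagonal ![α (ρ σ), LinearMap.det (ρ σ) / α (ρ σ)] := fun σ => rfl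
    -- trace relation: the eigenvalue is a root of the characteristic polynomial
    have htr : ∀ σ, α (ρ σ) + LinearMap.det (ρ σ) / α (ρ σ) = LinearMap.trace k V (ρ σ) := by
      intro σ
      have hev : Module.End.HasEigenvalue (ρ σ) (α (ρ σ)) :=
        Module.End.hasEigenvalue_of_hasEigenvector
          ⟨Module.End.mem_eigenspace_iff.mpr (hα σ).symm, hv0⟩
      have hroot := (Module.End.hasEigenvalue_iff_isRoot_charpoly (ρ σ) (α (ρ σ))).mp hev
      rw [charpoly_eq_of_finrank_two hV, Polynomial.IsRoot] at hroot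
      simp only [Polynomial.eval_add, Polynomial.eval_sub, Polynomial.eval_pow,
        Polynomial.eval_X, Polynomial.eval_mul, Polynomial.eval_C] at hroot
      have hne := hαne σ
      field_simp
      linear_combination hroot
    have hfin' : Finite ρ'.range := by
      apply finite_range_toHomUnits
      refine (hfin.image Dfun).subset ?_
      rintro _ ⟨σ, rfl⟩
      exact ⟨ρ σ, ⟨σ, rfl⟩, rfl⟩
    refine ⟨ρ', fun σ => ?_, fun σ hσ => ?_, hfin', fun H P hP => ?_⟩
    · rw [hval, Matrix.charpoly_fin_two, charpoly_eq_of_finrank_two hV, Matrix.trace_fin_two,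
        Matrix.det_fin_two]
      simp only [Matrix.diagonal_apply_eq, Matrix.diagonal_apply_ne, ne_eq, zero_ne_one,
        one_ne_zero, not_false_eq_true, Matrix.cons_val_zero, Matrix.cons_val_one, mul_zero,
        sub_zero]
      rw [htr σ, mul_div_cancel₀ _ (hαne σ)]
    · apply Units.ext
      rw [hval, hσ, ← map_one ρ, hα1, hdet1, div_one]
      show Matrix.diagonal ![(1 : k), 1] = 1
      rw [← Matrix.diagonal_one]
      congr 1
      ext i
      fin_cases i <;> rfl
    · let ι : ρ'.range →* Matrix (Fin 2) (Fin 2) k :=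
        (Units.coeHom (Matrix (Fin 2) (Fin 2) k)).comp ρ'.range.subtype
      have hιinj : Function.Injective ι := by
        intro x y hxy
        exact Subtype.ext (Units.ext hxy)
      have hdiag : ∀ g, ι g 0 1 = 0 ∧ ι g 1 0 = 0 := by
        rintro ⟨_, ⟨σ, rfl⟩⟩
        constructor
        · show (ρ' σ : Matrix (Fin 2) (Fin 2) k) 0 1 = 0
          rw [hval]
          exact Matrix.diagonal_apply_ne _ (by decide)
        · show (ρ' σ : Matrix (Fin 2) (Fin 2) k) 1 0 = 0
          rw [hval]
          exact Matrix.diagonal_apply_ne _ (by decide)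
      let HG : Set ρ'.range := {g | ∃ σ ∈ H, ρ' σ = g}
      have hP' : ∀ h ∈ HG, (Matrix.trace (ι h), Matrix.det (ι h)) ∈ P := by
        rintro ⟨_, _⟩ ⟨σ, hσ, rfl⟩
        have h1 : Matrix.trace (ι ⟨ρ' σ, ⟨σ, rfl⟩⟩) = LinearMap.trace k V (ρ σ) := by
          show Matrix.trace (ρ' σ : Matrix (Fin 2) (Fin 2) k) = _
          rw [hval, Matrix.trace_fin_two]
          simp only [Matrix.diagonal_apply_eq, Matrix.cons_val_zero, Matrix.cons_val_one]
          exact htr σ
        have h2 : Matrix.det (ι ⟨ρ' σ, ⟨σ, rfl⟩⟩) = LinearMap.det (ρ σ) := by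
          show Matrix.det (ρ' σ : Matrix (Fin 2) (Fin 2) k) = _
          rw [hval, Matrix.det_diagonal, Fin.prod_univ_two]
          simp only [Matrix.cons_val_zero, Matrix.cons_val_one]
          exact mul_div_cancel₀ _ (hαne σ)
        rw [h1, h2]
        exact hP σ hσ
      have key := Fermat.Agent.S48.FewTraces.card_le_of_diagonal ι hιinj hdiag HG P hP'
      rw [ncard_compl_transfer ρ' H] at key
      have : 2 * P.card ≤ max (P.card ^ 4) (2 * P.card) := le_max_right _ _
      omega

/-- **Semisimplification with a bound** (`GL₂` input). -/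
theorem exists_bounded_semisimplification_GL [IsAlgClosed k] (ρ : Γ →* GL (Fin 2) k)
    (hfin : Finite ρ.range) :
    ∃ ρ' : Γ →* GL (Fin 2) k,
      (∀ σ, (ρ' σ : Matrix (Fin 2) (Fin 2) k).charpoly =
        (ρ σ : Matrix (Fin 2) (Fin 2) k).charpoly) ∧
      (∀ σ, ρ σ = 1 → ρ' σ = 1) ∧
      Finite ρ'.range ∧
      ∀ (H : Set Γ) (P : Finset (k × k)),
        (∀ σ ∈ H, (Matrix.trace (ρ σ : Matrix (Fin 2) (Fin 2) k),
          Matrix.det (ρ σ : Matrix (Fin 2) (Fin 2) k)) ∈ P) →
        Nat.card ρ'.range ≤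
          4 * Set.ncard ((ρ'.range : Set (GL (Fin 2) k)) \ ρ' '' H) +
            max (P.card ^ 4) (2 * P.card) := by
  classical
  let e := Matrix.toLinAlgEquiv' (R := k) (n := Fin 2)
  let ρE : Γ →* Module.End k (Fin 2 → k) :=
    ((e : Matrix (Fin 2) (Fin 2) k →* Module.End k (Fin 2 → k)).comp
      (Units.coeHom (Matrix (Fin 2) (Fin 2) k))).comp ρ
  have hρE : ∀ σ, ρE σ = Matrix.toLin' (ρ σ : Matrix (Fin 2) (Fin 2) k) := fun σ => rfl
  have hV : Module.finrank k (Fin 2 → k) = 2 := by simp
  have hfinE : (Set.range ρE).Finite := by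
    have h1 : (ρ.range : Set (GL (Fin 2) k)).Finite := Set.toFinite _
    refine (h1.image fun g : GL (Fin 2) k =>
      Matrix.toLin' (g : Matrix (Fin 2) (Fin 2) k)).subset ?_
    rintro _ ⟨σ, rfl⟩
    exact ⟨ρ σ, ⟨σ, rfl⟩, rfl⟩
  obtain ⟨ρ', h1, h2, h3, h4⟩ := exists_bounded_semisimplification hV ρE hfinE
  refine ⟨ρ', fun σ => ?_, fun σ hσ => ?_, h3, fun H P hP => ?_⟩
  · rw [h1 σ, hρE, Matrix.charpoly_toLin']
  · apply h2
    rw [hρE, hσ, Units.val_one, Matrix.toLin'_one]
    rfl
  · apply h4 H P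
    intro σ hσ
    rw [hρE, Matrix.trace_toLin'_eq, LinearMap.det_toLin']
    exact hP σ hσ

end Fermat.Agent.S48.FewTracesGL
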