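/-
S48 (Deligne-Serre), brick F of helper221's route: the Rankin-type bound made elementary.
Level-free core, Mathlib only (+ the Prelude definition of `qCoeff`).  helper141.

Analytic core
* `parseval_fin`   : discrete Parseval for a trigonometric polynomial of degree `< M` sampled at
                     the `M`-th roots of unity.
* `sum_normSq_le`  : (R0) `h τ = ∑ a n e^{2π i n τ}`, `‖h τ‖ ≤ C / √(im τ)`  ⟹
                     `∑_{n ≤ X} ‖a n‖² ≤ e^{4π} C² (X + 1)`.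
* `exists_sum_qCoeff_sq_le` : (R0') the same for `f : CuspForm (Gamma1 N) 1`
                     (Mathlib `CuspFormClass.exists_bound` + `hasSum_qExpansion`).
Elementary part (`a` the coefficients, `b` the eigenvalues, only `a (p n) = b p a n` for `p ∤ n`
at the good primes is used)
* `dirichlet_partial_le` : (R1) `∑_{1 ≤ n ≤ X} c n n^{-s} ≤ 4 K / (s - 1)` for `1 < s ≤ 2`.
* `euler_prod_le`  : (R2) `‖a n0‖² n0^{-s} ∏_{p ∈ P} (1 + ‖b p‖² p^{-s}) ≤ 4 K / (s - 1)`.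
* `sum_prime_rpow_le` : (R3) primes with `‖b p‖² > c` have `∑ p^{-s} ≤ (c log 2)⁻¹ (log(1/(s-1)) + K')`.
* `sum_sq_rpow_le` : (R4) if `‖b p‖ ≤ 2` on `P` then `∑ ‖b p‖² p^{-s} ≤ log(1/(s-1)) + K' + 32`.
Packaged for cusp forms: `exists_large_bound`, `exists_sq_bound` (hypothesis in the shape of the
frozen S48 statement, arbitrary `e`, `b`), `exists_pos_qCoeff_ne_zero`, `hasSum_qCoeff`,
`one_mem_strictPeriods_Gamma1`.
All bounds hold for EVERY finite set `P` of good primes, uniformly in `1 < s ≤ 2`.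
-/
import Mathlib
import Fermat.Prelude.Def_FLTPrelim_Modularity

set_option autoImplicit false

namespace Fermat.Agent.S48.Rankin

open Complex Finset
open scoped Real

/-- Geometric sum of a nontrivial `M`-th root of unity. -/
theorem geom_sum_root (w : ℂ) (M : ℕ) (hw : w ^ M = 1) (hw1 : w ≠ 1) :
    ∑ j ∈ range M, w ^ j = 0 := by
  rw [geom_sum_eq hw1 M, hw, sub_self, zero_div]

/-- The character `x ↦ e^{2π i n x}`. -/
noncomputable def ech (n : ℕ) (x : ℝ) : ℂ := Complex.exp (2 * π * I * n * x)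

theorem norm_ech (n : ℕ) (x : ℝ) : ‖ech n x‖ = 1 := by
  unfold ech
  rw [Complex.norm_exp]
  simp

theorem ech_mul_conj (n m : ℕ) (M j : ℕ) :
    ech n ((j : ℝ) / M) * (starRingEnd ℂ) (ech m ((j : ℝ) / M)) =
      (Complex.exp (2 * π * I * ((n : ℂ) - m) / M)) ^ j := by
  unfold ech
  rw [← Complex.exp_conj, ← Complex.exp_add, ← Complex.exp_nat_mul]
  congr 1
  simp only [map_mul, map_div₀, Complex.conj_ofReal, Complex.conj_I, map_natCast, map_ofNat,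
    Complex.ofReal_div, Complex.ofReal_natCast]
  ring

theorem exp_ne_one_of_ne {n m M : ℕ} (hn : n < M) (hm : m < M) (hnm : n ≠ m) :
    Complex.exp (2 * π * I * ((n : ℂ) - m) / M) ≠ 1 := by
  intro h
  rw [Complex.exp_eq_one_iff] at h
  obtain ⟨k, hk⟩ := h
  have hM : (M : ℂ) ≠ 0 := by
    have : 0 < M := by omega
    exact_mod_cast this.ne'
  have hpi : (2 * π * I : ℂ) ≠ 0 := by
    simp [Real.pi_ne_zero, Complex.I_ne_zero]
  have h1 : ((n : ℂ) - m) = k * M := by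
    field_simp at hk
    linear_combination hk
  have h3 : ((n : ℤ) - m) = k * M := by exact_mod_cast h1
  have h4 : (M : ℤ) ∣ (n : ℤ) - m := ⟨k, by rw [h3]; ring⟩
  have h5 : |(n : ℤ) - m| < M := by
    rw [abs_lt]; constructor <;> omega
  have h6 := Int.eq_zero_of_abs_lt_dvd h4 h5
  omega

theorem exp_pow_eq_one (n m M : ℕ) (hM : 0 < M) :
    (Complex.exp (2 * π * I * ((n : ℂ) - m) / M)) ^ M = 1 := by
  rw [← Complex.exp_nat_mul]
  have hM' : (M : ℂ) ≠ 0 := by exact_mod_cast hM.ne'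
  have : (M : ℂ) * (2 * π * I * ((n : ℂ) - m) / M) = (((n : ℤ) - m : ℤ) : ℂ) * (2 * π * I) := by
    field_simp
    push_cast
    ring
  rw [this]
  exact Complex.exp_int_mul_two_pi_mul_I _

theorem sum_ech_mul_conj {n m M : ℕ} (hn : n < M) (hm : m < M) :
    ∑ j ∈ range M, ech n ((j : ℝ) / M) * (starRingEnd ℂ) (ech m ((j : ℝ) / M)) =
      if n = m then (M : ℂ) else 0 := by
  simp_rw [ech_mul_conj]
  split_ifs with h
  · subst h
    simp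
  · exact geom_sum_root _ M (exp_pow_eq_one n m M (by omega)) (exp_ne_one_of_ne hn hm h)

/-- **Discrete Parseval.** -/
theorem parseval_fin (c : ℕ → ℂ) (M : ℕ) :
    ∑ j ∈ range M, ‖∑ n ∈ range M, c n * ech n ((j : ℝ) / M)‖ ^ 2 =
      M * ∑ n ∈ range M, ‖c n‖ ^ 2 := by
  have hC : ∀ z : ℂ, ((‖z‖ : ℝ) : ℂ) ^ 2 = z * (starRingEnd ℂ) z := by
    intro z
    rw [Complex.mul_conj, Complex.normSq_eq_norm_sq]
    push_cast
    ring
  apply Complex.ofReal_injective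
  push_cast
  simp_rw [hC, map_sum, map_mul, Finset.sum_mul_sum]
  rw [Finset.sum_comm]
  have : ∀ n ∈ range M, ∑ j ∈ range M, ∑ m ∈ range M,
      c n * ech n ((j : ℝ) / M) * ((starRingEnd ℂ) (c m) * (starRingEnd ℂ) (ech m ((j : ℝ) / M)))
      = (M : ℂ) * (c n * (starRingEnd ℂ) (c n)) := by
    intro n hn
    rw [Finset.sum_comm]
    have h2 : ∀ m ∈ range M, ∑ j ∈ range M,
        c n * ech n ((j : ℝ) / M) * ((starRingEnd ℂ) (c m) * (starRingEnd ℂ) (ech m ((j : ℝ) / M)))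
        = c n * (starRingEnd ℂ) (c m) * (if n = m then (M : ℂ) else 0) := by
      intro m hm
      rw [← sum_ech_mul_conj (mem_range.1 hn) (mem_range.1 hm), Finset.mul_sum]
      refine Finset.sum_congr rfl fun j _ => ?_
      ring
    rw [Finset.sum_congr rfl h2]
    simp only [mul_ite, mul_zero]
    rw [Finset.sum_ite_eq (range M) n]
    simp only [hn, if_true]
    ring
  rw [Finset.sum_congr rfl this, Finset.mul_sum]


section R0

open Filter Topology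
open UpperHalfPlane hiding I

/-- **(R0)** A function on the upper half plane with a `q`-expansion `∑ a n q ^ n` which is
`O(1 / √(im τ))` has `∑_{n ≤ X} ‖a n‖² = O(X)`. -/
theorem sum_normSq_le (a : ℕ → ℂ) (h : ℍ → ℂ) (C : ℝ)
    (hsum : ∀ τ : ℍ, HasSum (fun n : ℕ => a n * Complex.exp (2 * π * I * n * τ)) (h τ))
    (hbd : ∀ τ : ℍ, ‖h τ‖ ≤ C / Real.sqrt τ.im) (X : ℕ) :
    ∑ n ∈ range (X + 1), ‖a n‖ ^ 2 ≤ Real.exp (4 * π) * C ^ 2 * (X + 1) := by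
  have hX : (0 : ℝ) < (X : ℝ) + 1 := by positivity
  set y : ℝ := 1 / ((X : ℝ) + 1) with hy_def
  have hy : 0 < y := by positivity
  -- the points `x + i y`
  have him : ∀ x : ℝ, 0 < ((x : ℂ) + y * I).im := by
    intro x; simpa using hy
  let τx : ℝ → ℍ := fun x => ⟨(x : ℂ) + y * I, him x⟩
  have hτim : ∀ x, (τx x).im = y := by
    intro x
    show ((x : ℂ) + y * I).im = y
    simp
  obtain ⟨c, hc⟩ : ∃ c : ℕ → ℂ, ∀ n, c n = a n * Complex.exp (-(2 * π * n * y) : ℝ) :=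
    ⟨_, fun _ => rfl⟩
  have hterm : ∀ (x : ℝ) (n : ℕ),
      a n * Complex.exp (2 * π * I * n * (τx x : ℂ)) = c n * ech n x := by
    intro x n
    rw [hc]
    show a n * Complex.exp (2 * π * I * n * ((x : ℂ) + y * I)) =
      a n * Complex.exp (-(2 * π * n * y) : ℝ) * Complex.exp (2 * π * I * n * x)
    rw [mul_assoc (a n), ← Complex.exp_add]
    congr 2
    push_cast
    linear_combination (2 * π * n * y : ℂ) * Complex.I_mul_I
  have hnormc : ∀ n, ‖c n‖ = ‖a n‖ * Real.exp (-(2 * π * n * y)) := by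
    intro n
    rw [hc, norm_mul, Complex.norm_exp_ofReal]
  have hs : ∀ x : ℝ, HasSum (fun n : ℕ => c n * ech n x) (h (τx x)) := by
    intro x
    have := hsum (τx x)
    simp_rw [hterm] at this
    exact this
  have hcs : Summable (fun n => ‖c n‖) := by
    have h1 := (hs 0).summable.norm
    refine h1.congr fun n => ?_
    rw [norm_mul, norm_ech, mul_one]
  -- the tails
  let ε : ℕ → ℝ := fun M => ∑' k, ‖c (k + M)‖
  have hε : Tendsto ε atTop (𝓝 0) := tendsto_sum_nat_add (fun n => ‖c n‖)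
  have hsq : Real.sqrt y ≠ 0 := (Real.sqrt_pos.2 hy).ne'
  have hpart : ∀ (M : ℕ) (x : ℝ), ‖∑ n ∈ range M, c n * ech n x‖ ≤ C / Real.sqrt y + ε M := by
    intro M x
    have h1 := (hs x).summable.sum_add_tsum_nat_add M
    rw [(hs x).tsum_eq] at h1
    have h2 : ∑ n ∈ range M, c n * ech n x = h (τx x) - ∑' i, c (i + M) * ech (i + M) x := by
      rw [← h1]; ring
    rw [h2]
    have h3 : ‖∑' i, c (i + M) * ech (i + M) x‖ ≤ ε M := by
      have hsm : Summable (fun i => ‖c (i + M) * ech (i + M) x‖) := by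
        have := (summable_nat_add_iff M).2 hcs
        refine this.congr fun n => ?_
        rw [norm_mul, norm_ech, mul_one]
      refine (norm_tsum_le_tsum_norm hsm).trans (le_of_eq ?_)
      refine tsum_congr fun n => ?_
      rw [norm_mul, norm_ech, mul_one]
    have h4 : ‖h (τx x)‖ ≤ C / Real.sqrt y := by
      have := hbd (τx x)
      rwa [hτim] at this
    calc ‖h (τx x) - ∑' i, c (i + M) * ech (i + M) x‖
        ≤ ‖h (τx x)‖ + ‖∑' i, c (i + M) * ech (i + M) x‖ := norm_sub_le _ _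
      _ ≤ C / Real.sqrt y + ε M := add_le_add h4 h3
  -- Parseval at level `M`
  have hpars : ∀ M : ℕ, 0 < M →
      ∑ n ∈ range M, ‖c n‖ ^ 2 ≤ (C / Real.sqrt y + ε M) ^ 2 := by
    intro M hM
    have hM' : (0 : ℝ) < M := by exact_mod_cast hM
    have h1 := parseval_fin c M
    have h2 : ∑ j ∈ range M, ‖∑ n ∈ range M, c n * ech n ((j : ℝ) / M)‖ ^ 2 ≤
        ∑ _j ∈ range M, (C / Real.sqrt y + ε M) ^ 2 := by
      refine Finset.sum_le_sum fun j _ => ?_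
      exact pow_le_pow_left₀ (norm_nonneg _) (hpart M _) 2
    rw [h1, Finset.sum_const, Finset.card_range, nsmul_eq_mul] at h2
    exact le_of_mul_le_mul_left h2 hM'
  -- pass to the limit
  have hlim : ∑ n ∈ range (X + 1), ‖c n‖ ^ 2 ≤ (C / Real.sqrt y) ^ 2 := by
    have ht : Tendsto (fun M => (C / Real.sqrt y + ε M) ^ 2) atTop
        (𝓝 ((C / Real.sqrt y + 0) ^ 2)) := (tendsto_const_nhds.add hε).pow 2
    rw [add_zero] at ht
    refine ge_of_tendsto ht ?_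
    filter_upwards [eventually_ge_atTop (X + 1)] with M hM
    refine le_trans ?_ (hpars M (by omega))
    exact Finset.sum_le_sum_of_subset_of_nonneg (Finset.range_mono hM)
      (fun _ _ _ => by positivity)
  have hCy : (C / Real.sqrt y) ^ 2 = C ^ 2 * (X + 1) := by
    rw [div_pow, Real.sq_sqrt hy.le, hy_def]
    field_simp
  rw [hCy] at hlim
  -- compare `c` with `a`
  have hcmp : ∀ n ∈ range (X + 1), Real.exp (-(4 * π)) * ‖a n‖ ^ 2 ≤ ‖c n‖ ^ 2 := by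
    intro n hn
    rw [hnormc, mul_pow, ← Real.exp_nat_mul, mul_comm]
    refine mul_le_mul_of_nonneg_left ?_ (by positivity)
    apply Real.exp_le_exp.2
    have hn' : (n : ℝ) ≤ X := by exact_mod_cast Nat.lt_succ_iff.1 (mem_range.1 hn)
    have hny : (n : ℝ) * y ≤ 1 := by
      rw [hy_def, mul_one_div, div_le_one hX]
      linarith
    have hpi := Real.pi_pos
    push_cast
    nlinarith
  have hfin : Real.exp (-(4 * π)) * ∑ n ∈ range (X + 1), ‖a n‖ ^ 2 ≤ C ^ 2 * (X + 1) := by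
    rw [Finset.mul_sum]
    exact (Finset.sum_le_sum hcmp).trans hlim
  have hexp : Real.exp (4 * π) * Real.exp (-(4 * π)) = 1 := by
    rw [← Real.exp_add]; simp
  calc ∑ n ∈ range (X + 1), ‖a n‖ ^ 2
      = Real.exp (4 * π) * (Real.exp (-(4 * π)) * ∑ n ∈ range (X + 1), ‖a n‖ ^ 2) := by
        rw [← mul_assoc, hexp, one_mul]
    _ ≤ Real.exp (4 * π) * (C ^ 2 * (X + 1)) :=
        mul_le_mul_of_nonneg_left hfin (Real.exp_pos _).le
    _ = Real.exp (4 * π) * C ^ 2 * (X + 1) := by ring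

end R0


section Instance

open UpperHalfPlane hiding I
open CongruenceSubgroup ModularFormClass

theorem one_mem_strictPeriods_Gamma1 (N : ℕ) :
    (1 : ℝ) ∈ (Subgroup.map (Matrix.SpecialLinearGroup.mapGL ℝ)
      (CongruenceSubgroup.Gamma1 N)).strictPeriods := by
  have hT : ModularGroup.T ∈ CongruenceSubgroup.Gamma1 N := by
    rw [CongruenceSubgroup.Gamma1_mem]
    simp [ModularGroup.T]
  rw [Subgroup.strictPeriods_eq_zmultiples_one_of_T_mem hT]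
  exact AddSubgroup.mem_zmultiples (1 : ℝ)

/-- The `q`-expansion of a weight one cusp form on `Γ₁(N)` in the shape used by `sum_normSq_le`. -/
theorem hasSum_qCoeff {N : ℕ} [NeZero N] (f : CuspForm (Gamma1 N) 1) (τ : ℍ) :
    HasSum (fun n : ℕ => qCoeff f n * Complex.exp (2 * π * I * n * τ)) (f τ) := by
  have hΓ := one_mem_strictPeriods_Gamma1 N
  have : Fact (IsCusp OnePoint.infty
      (Subgroup.map (Matrix.SpecialLinearGroup.mapGL ℝ) (CongruenceSubgroup.Gamma1 N))) :=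
    ⟨Subgroup.isCusp_of_mem_strictPeriods one_pos hΓ⟩
  have h1 := ModularForm.hasSum_qExpansion (f := f) (h := 1) one_pos hΓ τ
  convert h1 using 2 with n
  unfold qCoeff
  rw [Function.Periodic.qParam, ← Complex.exp_nat_mul]
  congr 2
  push_cast
  ring

/-- **(R0')** Rankin's trivial bound for weight one cusp forms on `Γ₁(N)`. -/
theorem exists_sum_qCoeff_sq_le {N : ℕ} [NeZero N] (f : CuspForm (Gamma1 N) 1) :
    ∃ K : ℝ, ∀ X : ℕ, ∑ n ∈ range (X + 1), ‖qCoeff f n‖ ^ 2 ≤ K * (X + 1) := by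
  obtain ⟨C, hC⟩ := CuspFormClass.exists_bound (k := 1)
    (Γ := Subgroup.map (Matrix.SpecialLinearGroup.mapGL ℝ) (CongruenceSubgroup.Gamma1 N)) f
  refine ⟨Real.exp (4 * π) * C ^ 2, fun X => ?_⟩
  refine sum_normSq_le (fun n => qCoeff f n) f C (hasSum_qCoeff f) (fun τ => ?_) X
  have := hC τ
  rwa [Real.sqrt_eq_rpow, show ((1 : ℝ) / 2) = ((1 : ℤ) : ℝ) / 2 by norm_num]

end Instance


section Elementary

/-- Summation by parts against a nonnegative antitone weight. -/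
theorem abel_le (c w : ℕ → ℝ) (K : ℝ) (hK : ∀ X : ℕ, ∑ n ∈ Icc 1 X, c n ≤ K * X)
    (hw : ∀ n, 0 ≤ w n) (hmono : ∀ n, 1 ≤ n → w (n + 1) ≤ w n) (X : ℕ) :
    ∑ n ∈ Icc 1 X, c n * w n ≤ K * ∑ n ∈ Icc 1 X, w n := by
  have key : ∀ X : ℕ, (K * X - ∑ n ∈ Icc 1 X, c n) * w (X + 1) ≤
      K * ∑ n ∈ Icc 1 X, w n - ∑ n ∈ Icc 1 X, c n * w n := by
    intro X
    induction X with
    | zero => simp
    | succ X ih =>
      rw [Finset.sum_Icc_succ_top (by omega), Finset.sum_Icc_succ_top (by omega),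
        Finset.sum_Icc_succ_top (by omega)]
      have h1 := hK (X + 1)
      rw [Finset.sum_Icc_succ_top (by omega)] at h1
      have h2 := hmono (X + 1) (by omega)
      have h3 := mul_le_mul_of_nonneg_left h2 (sub_nonneg.2 h1)
      push_cast at h1 h3 ⊢
      nlinarith [ih, h3]
  have h3 : 0 ≤ (K * X - ∑ n ∈ Icc 1 X, c n) * w (X + 1) :=
    mul_nonneg (sub_nonneg.2 (hK X)) (hw _)
  linarith [key X]

/-- Partial sums of `ζ(s)`. -/
theorem sum_Icc_rpow_le {s : ℝ} (hs : 1 < s) (X : ℕ) :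
    ∑ n ∈ Icc 1 X, (n : ℝ) ^ (-s) ≤ 1 + 1 / (s - 1) := by
  have hs0 : 0 < s - 1 := by linarith
  rcases Nat.eq_zero_or_pos X with rfl | hX
  · simp; positivity
  have h1 : ∑ n ∈ Icc 1 X, (n : ℝ) ^ (-s) =
      1 + ∑ i ∈ Ico 1 X, ((i + 1 : ℕ) : ℝ) ^ (-s) := by
    have : Icc 1 X = Ico 1 (X + 1) := by
      ext n; simp
    rw [this, Finset.sum_eq_sum_Ico_succ_bot (by omega), ← Finset.sum_Ico_add']
    simp
  rw [h1]
  have hanti : AntitoneOn (fun x : ℝ => x ^ (-s)) (Set.Icc ((1 : ℕ) : ℝ) (X : ℝ)) := by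
    intro x hx y _ hxy
    have hx0 : 0 < x := lt_of_lt_of_le (by norm_num) hx.1
    exact Real.rpow_le_rpow_of_nonpos hx0 hxy (by linarith)
  have h2 := AntitoneOn.sum_le_integral_Ico (f := fun x : ℝ => x ^ (-s)) (a := 1) (b := X)
    hX hanti
  have h3 : ∫ x in ((1 : ℕ) : ℝ)..(X : ℝ), x ^ (-s) =
      ((X : ℝ) ^ (-s + 1) - ((1 : ℕ) : ℝ) ^ (-s + 1)) / (-s + 1) := by
    apply integral_rpow
    right
    refine ⟨by linarith, ?_⟩
    rw [Set.uIcc_of_le (by exact_mod_cast hX)]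
    intro h0
    have := h0.1
    norm_num at this
  rw [h3] at h2
  have h4 : ((X : ℝ) ^ (-s + 1) - ((1 : ℕ) : ℝ) ^ (-s + 1)) / (-s + 1) ≤ 1 / (s - 1) := by
    have hXp : 0 ≤ (X : ℝ) ^ (-(s - 1)) := Real.rpow_nonneg (by positivity) _
    rw [Nat.cast_one, Real.one_rpow, show (-s + 1) = -(s - 1) by ring, div_neg, neg_div']
    rw [div_le_div_iff_of_pos_right hs0]
    linarith
  linarith

/-- **(R1)** Dirichlet series partial sums of a sequence with `O(X)` partial sums. -/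
theorem dirichlet_partial_le (c : ℕ → ℝ) (hc : ∀ n, 0 ≤ c n) (K : ℝ)
    (hK : ∀ X : ℕ, ∑ n ∈ range (X + 1), c n ≤ K * (X + 1)) {s : ℝ} (hs : 1 < s) (hs2 : s ≤ 2)
    (X : ℕ) : ∑ n ∈ Icc 1 X, c n * (n : ℝ) ^ (-s) ≤ 4 * K / (s - 1) := by
  have hs0 : 0 < s - 1 := by linarith
  have hK0 : 0 ≤ K := by
    have := hK 0
    simp at this
    linarith [hc 0]
  have hK' : ∀ X : ℕ, ∑ n ∈ Icc 1 X, c n ≤ (2 * K) * X := by
    intro X
    rcases Nat.eq_zero_or_pos X with rfl | hX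
    · simp
    have h1 : ∑ n ∈ Icc 1 X, c n ≤ ∑ n ∈ range (X + 1), c n :=
      Finset.sum_le_sum_of_subset_of_nonneg
        (fun n hn => by rw [Finset.mem_Icc] at hn; rw [Finset.mem_range]; omega)
        (fun n _ _ => hc n)
    have h2 : (1 : ℝ) ≤ X := by exact_mod_cast hX
    nlinarith [hK X]
  have hmono : ∀ n : ℕ, 1 ≤ n → ((n + 1 : ℕ) : ℝ) ^ (-s) ≤ (n : ℝ) ^ (-s) := by
    intro n hn
    have hn0 : (0 : ℝ) < n := by exact_mod_cast hn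
    exact Real.rpow_le_rpow_of_nonpos hn0 (by push_cast; linarith) (by linarith)
  have h1 := abel_le c (fun n => (n : ℝ) ^ (-s)) (2 * K) hK'
    (fun n => Real.rpow_nonneg (by positivity) _) hmono X
  have h2 := sum_Icc_rpow_le hs X
  have h3 : 1 + 1 / (s - 1) ≤ 2 / (s - 1) := by
    have h4 : (1 : ℝ) ≤ 1 / (s - 1) := by
      rw [le_div_iff₀ hs0]; linarith
    have h5 : (2 : ℝ) / (s - 1) = 1 / (s - 1) + 1 / (s - 1) := by ring
    linarith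
  calc ∑ n ∈ Icc 1 X, c n * (n : ℝ) ^ (-s) ≤ 2 * K * ∑ n ∈ Icc 1 X, (n : ℝ) ^ (-s) := h1
    _ ≤ 2 * K * (2 / (s - 1)) := mul_le_mul_of_nonneg_left (h2.trans h3) (by positivity)
    _ = 4 * K / (s - 1) := by ring

/-- The coefficient at `n0 * (squarefree product of good primes)`. -/
theorem coeff_prod (a b : ℕ → ℂ) (Nl : ℕ)
    (hmul : ∀ p : ℕ, p.Prime → ¬ p ∣ Nl → ∀ n, ¬ p ∣ n → a (p * n) = b p * a n) (n0 : ℕ)
    (T : Finset ℕ) (hT : ∀ p ∈ T, p.Prime ∧ ¬ p ∣ Nl ∧ ¬ p ∣ n0) :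
    a (n0 * ∏ p ∈ T, p) = a n0 * ∏ p ∈ T, b p := by
  classical
  induction T using Finset.induction_on with
  | empty => simp
  | insert p T hpT ih =>
    have hp := hT p (Finset.mem_insert_self p T)
    have ih' := ih (fun q hq => hT q (Finset.mem_insert_of_mem hq))
    rw [Finset.prod_insert hpT, Finset.prod_insert hpT]
    have hnd : ¬ p ∣ n0 * ∏ q ∈ T, q := by
      intro hd
      rcases (Nat.Prime.dvd_mul hp.1).1 hd with h | h
      · exact hp.2.2 h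
      · obtain ⟨q, hq, hpq⟩ := (Prime.dvd_finsetProd_iff hp.1.prime _).1 h
        have hqp := (hT q (Finset.mem_insert_of_mem hq)).1
        have : p = q := (Nat.prime_dvd_prime_iff_eq hp.1 hqp).1 hpq
        exact hpT (this ▸ hq)
    rw [show n0 * (p * ∏ q ∈ T, q) = p * (n0 * ∏ q ∈ T, q) by ring, hmul p hp.1 hp.2.1 _ hnd,
      ih']
    ring

theorem prod_primes_injOn (P : Finset ℕ) (hP : ∀ p ∈ P, p.Prime) :
    Set.InjOn (fun T : Finset ℕ => ∏ p ∈ T, p) (P.powerset : Set (Finset ℕ)) := by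
  have key : ∀ T1 T2 : Finset ℕ, T1 ⊆ P → T2 ⊆ P → ∏ p ∈ T1, p = ∏ p ∈ T2, p → T1 ⊆ T2 := by
    intro T1 T2 h1 h2 h p hp
    have hpp := hP p (h1 hp)
    have hd : p ∣ ∏ q ∈ T2, q := h ▸ Finset.dvd_prod_of_mem _ hp
    obtain ⟨q, hq, hpq⟩ := (Prime.dvd_finsetProd_iff hpp.prime _).1 hd
    have : p = q := (Nat.prime_dvd_prime_iff_eq hpp (hP q (h2 hq))).1 hpq
    exact this ▸ hq
  intro T1 h1 T2 h2 h
  have h1' := Finset.mem_powerset.1 (Finset.mem_coe.1 h1)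
  have h2' := Finset.mem_powerset.1 (Finset.mem_coe.1 h2)
  exact Finset.Subset.antisymm (key T1 T2 h1' h2' h) (key T2 T1 h2' h1' h.symm)

/-- **(R2)** The Euler product over any finite set of good primes is `O(1 / (s - 1))`. -/
theorem euler_prod_le (a b : ℕ → ℂ) (Nl : ℕ)
    (hmul : ∀ p : ℕ, p.Prime → ¬ p ∣ Nl → ∀ n, ¬ p ∣ n → a (p * n) = b p * a n) (K : ℝ)
    (hK : ∀ X : ℕ, ∑ n ∈ range (X + 1), ‖a n‖ ^ 2 ≤ K * (X + 1))
    {s : ℝ} (hs : 1 < s) (hs2 : s ≤ 2) (n0 : ℕ) (hn0 : 0 < n0)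
    (P : Finset ℕ) (hP : ∀ p ∈ P, p.Prime ∧ ¬ p ∣ Nl ∧ ¬ p ∣ n0) :
    ‖a n0‖ ^ 2 * (n0 : ℝ) ^ (-s) * ∏ p ∈ P, (1 + ‖b p‖ ^ 2 * (p : ℝ) ^ (-s)) ≤
      4 * K / (s - 1) := by
  classical
  obtain ⟨g, hg⟩ : ∃ g : ℕ → ℝ, ∀ n, g n = ‖a n‖ ^ 2 * (n : ℝ) ^ (-s) := ⟨_, fun _ => rfl⟩
  have hterm : ∀ T ∈ P.powerset, ‖a n0‖ ^ 2 * (n0 : ℝ) ^ (-s) *
      ∏ p ∈ T, (‖b p‖ ^ 2 * (p : ℝ) ^ (-s)) = g (n0 * ∏ p ∈ T, p) := by
    intro T hT
    have hT' : ∀ p ∈ T, p.Prime ∧ ¬ p ∣ Nl ∧ ¬ p ∣ n0 :=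
      fun p hp => hP p (Finset.mem_powerset.1 hT hp)
    rw [hg, coeff_prod a b Nl hmul n0 T hT', norm_mul, norm_prod, mul_pow,
      Finset.prod_mul_distrib, ← Finset.prod_pow]
    push_cast
    rw [Real.mul_rpow (by positivity) (Finset.prod_nonneg fun p _ => by positivity),
      ← Real.finsetProd_rpow _ _ (fun p _ => by positivity)]
    ring
  rw [Finset.prod_one_add, Finset.mul_sum, Finset.sum_congr rfl hterm]
  have hinj : Set.InjOn (fun T : Finset ℕ => n0 * ∏ p ∈ T, p)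
      (P.powerset : Set (Finset ℕ)) := by
    intro T1 h1 T2 h2 h
    exact prod_primes_injOn P (fun p hp => (hP p hp).1) h1 h2 (Nat.eq_of_mul_eq_mul_left hn0 h)
  rw [← Finset.sum_image (f := g) hinj]
  have hsub : (P.powerset.image fun T : Finset ℕ => n0 * ∏ p ∈ T, p) ⊆
      Icc 1 (n0 * ∏ p ∈ P, p) := by
    intro n hn
    obtain ⟨T, hT, rfl⟩ := Finset.mem_image.1 hn
    have hTP := Finset.mem_powerset.1 hT
    have hpos : ∀ T : Finset ℕ, T ⊆ P → 0 < ∏ p ∈ T, p :=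
      fun T hT => Finset.prod_pos fun p hp => (hP p (hT hp)).1.pos
    rw [Finset.mem_Icc]
    refine ⟨Nat.mul_pos hn0 (hpos T hTP), Nat.mul_le_mul_left _ ?_⟩
    exact Nat.le_of_dvd (hpos P (Finset.Subset.refl P)) (Finset.prod_dvd_prod_of_subset _ _ _ hTP)
  have h1 := dirichlet_partial_le (fun n => ‖a n‖ ^ 2) (fun n => by positivity) K hK hs hs2
    (n0 * ∏ p ∈ P, p)
  refine le_trans (Finset.sum_le_sum_of_subset_of_nonneg hsub ?_) ?_
  · intro n _ _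
    rw [hg]
    exact mul_nonneg (by positivity) (Real.rpow_nonneg (by positivity) _)
  · refine le_of_eq_of_le (Finset.sum_congr rfl fun n _ => ?_) h1
    rw [hg]

/-- `x log 2 ≤ log (1 + x)` on `[0, 1]` (Bernoulli). -/
theorem mul_log_two_le (x : ℝ) (hx0 : 0 ≤ x) (hx1 : x ≤ 1) :
    x * Real.log 2 ≤ Real.log (1 + x) := by
  have h := rpow_one_add_le_one_add_mul_self (s := 1) (by norm_num) hx0 hx1
  have h2 : (0 : ℝ) < (1 + 1 : ℝ) ^ x := Real.rpow_pos_of_pos (by norm_num) x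
  have h3 := Real.log_le_log h2 h
  rw [Real.log_rpow (by norm_num)] at h3
  norm_num at h3
  exact h3

/-- `x - x² ≤ log (1 + x)` for `x ≥ 0`. -/
theorem sub_sq_le_log (x : ℝ) (hx0 : 0 ≤ x) : x - x ^ 2 ≤ Real.log (1 + x) := by
  have h1 : (0 : ℝ) < 1 + x := by linarith
  have h := Real.one_sub_inv_le_log_of_pos h1
  have h2 : x - x ^ 2 ≤ 1 - (1 + x)⁻¹ := by
    rw [show (1 : ℝ) - (1 + x)⁻¹ = x / (1 + x) by field_simp; ring, le_div_iff₀ h1]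
    nlinarith [pow_nonneg hx0 3]
  linarith

/-- The logarithm of the Euler product over good primes. -/
theorem log_euler_prod_le (a b : ℕ → ℂ) (Nl : ℕ)
    (hmul : ∀ p : ℕ, p.Prime → ¬ p ∣ Nl → ∀ n, ¬ p ∣ n → a (p * n) = b p * a n) (K : ℝ)
    (hK : ∀ X : ℕ, ∑ n ∈ range (X + 1), ‖a n‖ ^ 2 ≤ K * (X + 1))
    {s : ℝ} (hs : 1 < s) (hs2 : s ≤ 2) (n0 : ℕ) (hn0 : 0 < n0) (ha : a n0 ≠ 0)
    (P : Finset ℕ) (hP : ∀ p ∈ P, p.Prime ∧ ¬ p ∣ Nl ∧ ¬ p ∣ n0) :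
    ∑ p ∈ P, Real.log (1 + ‖b p‖ ^ 2 * (p : ℝ) ^ (-s)) ≤
      Real.log (1 / (s - 1)) + Real.log (4 * K * (n0 : ℝ) ^ 2 / ‖a n0‖ ^ 2) := by
  have hs0 : 0 < s - 1 := by linarith
  have hn0' : (1 : ℝ) ≤ n0 := by exact_mod_cast hn0
  have hn00 : (0 : ℝ) < n0 := by linarith
  have hapos : 0 < ‖a n0‖ ^ 2 := by
    have := norm_pos_iff.2 ha
    positivity
  have hKpos : 0 < K := by
    have h1 := hK n0
    have h2 : ‖a n0‖ ^ 2 ≤ ∑ n ∈ range (n0 + 1), ‖a n‖ ^ 2 :=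
      Finset.single_le_sum (f := fun n => ‖a n‖ ^ 2) (fun n _ => by positivity)
        (Finset.self_mem_range_succ n0)
    have h3 : 0 < K * ((n0 : ℝ) + 1) := lt_of_lt_of_le hapos (h2.trans h1)
    have h4 : (0 : ℝ) < (n0 : ℝ) + 1 := by linarith
    exact (mul_pos_iff_of_pos_right h4).1 h3
  have hfac : ∀ p ∈ P, (0 : ℝ) < 1 + ‖b p‖ ^ 2 * (p : ℝ) ^ (-s) := by
    intro p _
    have : 0 ≤ ‖b p‖ ^ 2 * (p : ℝ) ^ (-s) :=
      mul_nonneg (by positivity) (Real.rpow_nonneg (by positivity) _)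
    linarith
  rw [← Real.log_prod (fun p hp => (hfac p hp).ne'),
    ← Real.log_mul (by positivity) (by positivity)]
  have hprodpos : 0 < ∏ p ∈ P, (1 + ‖b p‖ ^ 2 * (p : ℝ) ^ (-s)) := Finset.prod_pos hfac
  refine Real.log_le_log hprodpos ?_
  have h1 := euler_prod_le a b Nl hmul K hK hs hs2 n0 hn0 P hP
  -- lower bound for the factor in front
  have h2 : (n0 : ℝ) ^ (-(2 : ℝ)) ≤ (n0 : ℝ) ^ (-s) :=
    Real.rpow_le_rpow_of_exponent_le hn0' (by linarith)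
  have h3 : (n0 : ℝ) ^ (-(2 : ℝ)) = ((n0 : ℝ) ^ 2)⁻¹ := by
    rw [Real.rpow_neg hn00.le]
    norm_num
  have h4 : ‖a n0‖ ^ 2 * ((n0 : ℝ) ^ 2)⁻¹ * ∏ p ∈ P, (1 + ‖b p‖ ^ 2 * (p : ℝ) ^ (-s)) ≤
      4 * K / (s - 1) := by
    refine le_trans ?_ h1
    refine mul_le_mul_of_nonneg_right ?_ hprodpos.le
    rw [← h3]
    exact mul_le_mul_of_nonneg_left h2 hapos.le
  have h5 : ∏ p ∈ P, (1 + ‖b p‖ ^ 2 * (p : ℝ) ^ (-s)) =
      (‖a n0‖ ^ 2 * ((n0 : ℝ) ^ 2)⁻¹ * ∏ p ∈ P, (1 + ‖b p‖ ^ 2 * (p : ℝ) ^ (-s))) *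
        ((n0 : ℝ) ^ 2 / ‖a n0‖ ^ 2) := by
    field_simp
  rw [h5]
  calc (‖a n0‖ ^ 2 * ((n0 : ℝ) ^ 2)⁻¹ * ∏ p ∈ P, (1 + ‖b p‖ ^ 2 * (p : ℝ) ^ (-s))) *
        ((n0 : ℝ) ^ 2 / ‖a n0‖ ^ 2)
      ≤ (4 * K / (s - 1)) * ((n0 : ℝ) ^ 2 / ‖a n0‖ ^ 2) :=
        mul_le_mul_of_nonneg_right h4 (by positivity)
    _ = 1 / (s - 1) * (4 * K * (n0 : ℝ) ^ 2 / ‖a n0‖ ^ 2) := by ring

/-- **(R3)** Primes with a large eigenvalue are rare. -/
theorem sum_prime_rpow_le (a b : ℕ → ℂ) (Nl : ℕ)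
    (hmul : ∀ p : ℕ, p.Prime → ¬ p ∣ Nl → ∀ n, ¬ p ∣ n → a (p * n) = b p * a n) (K : ℝ)
    (hK : ∀ X : ℕ, ∑ n ∈ range (X + 1), ‖a n‖ ^ 2 ≤ K * (X + 1))
    {s : ℝ} (hs : 1 < s) (hs2 : s ≤ 2) (n0 : ℕ) (hn0 : 0 < n0) (ha : a n0 ≠ 0)
    (P : Finset ℕ) (hP : ∀ p ∈ P, p.Prime ∧ ¬ p ∣ Nl ∧ ¬ p ∣ n0)
    (c : ℝ) (hc : 0 < c) (hPc : ∀ p ∈ P, c < ‖b p‖ ^ 2 ∧ c ≤ (p : ℝ)) :
    ∑ p ∈ P, (p : ℝ) ^ (-s) ≤ (c * Real.log 2)⁻¹ *
      (Real.log (1 / (s - 1)) + Real.log (4 * K * (n0 : ℝ) ^ 2 / ‖a n0‖ ^ 2)) := by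
  have hlog2 : 0 < Real.log 2 := Real.log_pos (by norm_num)
  have hcl : 0 < c * Real.log 2 := mul_pos hc hlog2
  have h1 := log_euler_prod_le a b Nl hmul K hK hs hs2 n0 hn0 ha P hP
  have h2 : ∀ p ∈ P, (c * Real.log 2) * (p : ℝ) ^ (-s) ≤
      Real.log (1 + ‖b p‖ ^ 2 * (p : ℝ) ^ (-s)) := by
    intro p hp
    have hpp := (hP p hp).1
    have hp1 : (1 : ℝ) ≤ p := by exact_mod_cast hpp.one_lt.le
    have hp0 : (0 : ℝ) < p := by linarith
    have hps : 0 ≤ (p : ℝ) ^ (-s) := Real.rpow_nonneg hp0.le _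
    have hps1 : (p : ℝ) ^ (-s) ≤ (p : ℝ)⁻¹ := by
      rw [← Real.rpow_neg_one]
      exact Real.rpow_le_rpow_of_exponent_le hp1 (by linarith)
    have hx1 : c * (p : ℝ) ^ (-s) ≤ 1 := by
      calc c * (p : ℝ) ^ (-s) ≤ (p : ℝ) * (p : ℝ)⁻¹ :=
            mul_le_mul (hPc p hp).2 hps1 hps hp0.le
        _ = 1 := mul_inv_cancel₀ hp0.ne'
    have h3 := mul_log_two_le (c * (p : ℝ) ^ (-s)) (mul_nonneg hc.le hps) hx1
    have h4 : Real.log (1 + c * (p : ℝ) ^ (-s)) ≤ Real.log (1 + ‖b p‖ ^ 2 * (p : ℝ) ^ (-s)) := by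
      apply Real.log_le_log (by positivity)
      have := mul_le_mul_of_nonneg_right (hPc p hp).1.le hps
      linarith
    calc (c * Real.log 2) * (p : ℝ) ^ (-s) = c * (p : ℝ) ^ (-s) * Real.log 2 := by ring
      _ ≤ Real.log (1 + c * (p : ℝ) ^ (-s)) := h3
      _ ≤ _ := h4
  have h3 : (c * Real.log 2) * ∑ p ∈ P, (p : ℝ) ^ (-s) ≤
      Real.log (1 / (s - 1)) + Real.log (4 * K * (n0 : ℝ) ^ 2 / ‖a n0‖ ^ 2) := by
    rw [Finset.mul_sum]
    exact (Finset.sum_le_sum h2).trans h1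
  rw [inv_mul_eq_div, le_div_iff₀ hcl]
  linarith

/-- **(R4)** If all eigenvalues have norm `≤ 2`, then `∑ ‖b p‖² p^{-s} ≤ log (1/(s-1)) + O(1)`. -/
theorem sum_sq_rpow_le (a b : ℕ → ℂ) (Nl : ℕ)
    (hmul : ∀ p : ℕ, p.Prime → ¬ p ∣ Nl → ∀ n, ¬ p ∣ n → a (p * n) = b p * a n) (K : ℝ)
    (hK : ∀ X : ℕ, ∑ n ∈ range (X + 1), ‖a n‖ ^ 2 ≤ K * (X + 1))
    {s : ℝ} (hs : 1 < s) (hs2 : s ≤ 2) (n0 : ℕ) (hn0 : 0 < n0) (ha : a n0 ≠ 0)
    (P : Finset ℕ) (hP : ∀ p ∈ P, p.Prime ∧ ¬ p ∣ Nl ∧ ¬ p ∣ n0)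
    (hP2 : ∀ p ∈ P, ‖b p‖ ≤ 2) :
    ∑ p ∈ P, ‖b p‖ ^ 2 * (p : ℝ) ^ (-s) ≤
      Real.log (1 / (s - 1)) + Real.log (4 * K * (n0 : ℝ) ^ 2 / ‖a n0‖ ^ 2) + 32 := by
  have h1 := log_euler_prod_le a b Nl hmul K hK hs hs2 n0 hn0 ha P hP
  have h2 : ∀ p ∈ P, ‖b p‖ ^ 2 * (p : ℝ) ^ (-s) ≤
      Real.log (1 + ‖b p‖ ^ 2 * (p : ℝ) ^ (-s)) + 16 * (p : ℝ) ^ (-(2 : ℝ)) := by
    intro p hp
    have hpp := (hP p hp).1
    have hp1 : (1 : ℝ) ≤ p := by exact_mod_cast hpp.one_lt.le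
    have hp0 : (0 : ℝ) < p := by linarith
    have hps : 0 ≤ (p : ℝ) ^ (-s) := Real.rpow_nonneg hp0.le _
    have hps1 : (p : ℝ) ^ (-s) ≤ (p : ℝ)⁻¹ := by
      rw [← Real.rpow_neg_one]
      exact Real.rpow_le_rpow_of_exponent_le hp1 (by linarith)
    have hb : ‖b p‖ ^ 2 ≤ 4 := by
      have := hP2 p hp
      nlinarith [norm_nonneg (b p)]
    have hx0 : 0 ≤ ‖b p‖ ^ 2 * (p : ℝ) ^ (-s) := mul_nonneg (by positivity) hps
    have hx4 : ‖b p‖ ^ 2 * (p : ℝ) ^ (-s) ≤ 4 * (p : ℝ)⁻¹ :=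
      mul_le_mul hb hps1 hps (by norm_num)
    have h3 := sub_sq_le_log _ hx0
    have h4 : (‖b p‖ ^ 2 * (p : ℝ) ^ (-s)) ^ 2 ≤ 16 * (p : ℝ) ^ (-(2 : ℝ)) := by
      have h5 : (p : ℝ) ^ (-(2 : ℝ)) = ((p : ℝ)⁻¹) ^ 2 := by
        rw [Real.rpow_neg hp0.le, inv_pow]
        norm_num
      rw [h5]
      have := pow_le_pow_left₀ hx0 hx4 2
      nlinarith
    linarith
  have h3 : ∑ p ∈ P, (p : ℝ) ^ (-(2 : ℝ)) ≤ 2 := by
    have hsub : P ⊆ Icc 1 (P.sup id) := by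
      intro p hp
      rw [Finset.mem_Icc]
      exact ⟨(hP p hp).1.one_lt.le, Finset.le_sup (f := id) hp⟩
    have h4 := sum_Icc_rpow_le (s := 2) (by norm_num) (P.sup id)
    have h5 : ∑ p ∈ P, (p : ℝ) ^ (-(2 : ℝ)) ≤ ∑ n ∈ Icc 1 (P.sup id), (n : ℝ) ^ (-(2 : ℝ)) :=
      Finset.sum_le_sum_of_subset_of_nonneg hsub
        (fun n _ _ => Real.rpow_nonneg (by positivity) _)
    have h6 : (1 : ℝ) + 1 / (2 - 1) = 2 := by norm_num
    linarith
  calc ∑ p ∈ P, ‖b p‖ ^ 2 * (p : ℝ) ^ (-s)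
      ≤ ∑ p ∈ P, (Real.log (1 + ‖b p‖ ^ 2 * (p : ℝ) ^ (-s)) + 16 * (p : ℝ) ^ (-(2 : ℝ))) :=
        Finset.sum_le_sum h2
    _ = ∑ p ∈ P, Real.log (1 + ‖b p‖ ^ 2 * (p : ℝ) ^ (-s)) +
          16 * ∑ p ∈ P, (p : ℝ) ^ (-(2 : ℝ)) := by
        rw [Finset.sum_add_distrib, Finset.mul_sum]
    _ ≤ _ := by linarith

end Elementary


section Package

open UpperHalfPlane hiding I
open CongruenceSubgroup ModularFormClass

/-- A nonzero weight one cusp form on `Γ₁(N)` has a nonzero `q`-coefficient of positive index. -/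
theorem exists_pos_qCoeff_ne_zero {N : ℕ} [NeZero N] (f : CuspForm (Gamma1 N) 1) (hf : f ≠ 0) :
    ∃ n0 : ℕ, 0 < n0 ∧ qCoeff f n0 ≠ 0 := by
  by_contra hcon
  push Not at hcon
  have h0 : qCoeff f 0 = 0 :=
    CuspFormClass.qExpansion_coeff_zero (k := 1) f one_pos (one_mem_strictPeriods_Gamma1 N)
  have hall : ∀ n, qCoeff f n = 0 := by
    intro n
    rcases Nat.eq_zero_or_pos n with rfl | hn
    · exact h0
    · exact hcon n hn
  apply hf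
  ext τ
  have h1 := hasSum_qCoeff f τ
  simp only [hall, zero_mul] at h1
  simpa using h1.unique hasSum_zero

/-- **Brick F, packaged (density form).**  `f ≠ 0` a weight one cusp form on `Γ₁(N)` whose
coefficients satisfy the formal Hecke relations with eigenvalues `b p` at the primes `p ∤ N`.
Then there are a constant `K'` and an index `n0 > 0` such that for all `1 < s ≤ 2`, all `c > 0`
and EVERY finite set `P` of primes `p ∤ N n0` with `c < ‖b p‖²` and `c ≤ p`: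
`∑_{p ∈ P} p^{-s} ≤ (c log 2)⁻¹ (log (1 / (s - 1)) + K')`. -/
theorem exists_large_bound {N : ℕ} [NeZero N] (f : CuspForm (Gamma1 N) 1) (hf : f ≠ 0)
    (e b : ℕ → ℂ)
    (hT : ∀ p : ℕ, p.Prime → ¬ p ∣ N → ∀ n : ℕ,
      qCoeff f (p * n) + e p * (if p ∣ n then qCoeff f (n / p) else 0) = b p * qCoeff f n) :
    ∃ (K' : ℝ) (n0 : ℕ), 0 < n0 ∧ qCoeff f n0 ≠ 0 ∧ ∀ s : ℝ, 1 < s → s ≤ 2 → ∀ c : ℝ, 0 < c →
      ∀ P : Finset ℕ, (∀ p ∈ P, p.Prime ∧ ¬ p ∣ N ∧ ¬ p ∣ n0 ∧ c < ‖b p‖ ^ 2 ∧ c ≤ (p : ℝ)) →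
        ∑ p ∈ P, (p : ℝ) ^ (-s) ≤ (c * Real.log 2)⁻¹ * (Real.log (1 / (s - 1)) + K') := by
  obtain ⟨K, hK⟩ := exists_sum_qCoeff_sq_le f
  obtain ⟨n0, hn0, ha⟩ := exists_pos_qCoeff_ne_zero f hf
  have hmul : ∀ p : ℕ, p.Prime → ¬ p ∣ N → ∀ n, ¬ p ∣ n →
      qCoeff f (p * n) = b p * qCoeff f n := by
    intro p hp hpN n hpn
    have := hT p hp hpN n
    simpa [hpn] using this
  refine ⟨Real.log (4 * K * (n0 : ℝ) ^ 2 / ‖qCoeff f n0‖ ^ 2), n0, hn0, ha, ?_⟩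
  intro s hs hs2 c hc P hP
  exact sum_prime_rpow_le (fun n => qCoeff f n) b N hmul K hK hs hs2 n0 hn0 ha P
    (fun p hp => ⟨(hP p hp).1, (hP p hp).2.1, (hP p hp).2.2.1⟩) c hc
    (fun p hp => ⟨(hP p hp).2.2.2.1, (hP p hp).2.2.2.2⟩)

/-- **Brick F, packaged (bounded form).**  Same setting; for EVERY finite set `P` of primes
`p ∤ N n0` with `‖b p‖ ≤ 2`: `∑_{p ∈ P} ‖b p‖² p^{-s} ≤ log (1 / (s - 1)) + K'`. -/
theorem exists_sq_bound {N : ℕ} [NeZero N] (f : CuspForm (Gamma1 N) 1) (hf : f ≠ 0)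
    (e b : ℕ → ℂ)
    (hT : ∀ p : ℕ, p.Prime → ¬ p ∣ N → ∀ n : ℕ,
      qCoeff f (p * n) + e p * (if p ∣ n then qCoeff f (n / p) else 0) = b p * qCoeff f n) :
    ∃ (K' : ℝ) (n0 : ℕ), 0 < n0 ∧ qCoeff f n0 ≠ 0 ∧ ∀ s : ℝ, 1 < s → s ≤ 2 →
      ∀ P : Finset ℕ, (∀ p ∈ P, p.Prime ∧ ¬ p ∣ N ∧ ¬ p ∣ n0 ∧ ‖b p‖ ≤ 2) →
        ∑ p ∈ P, ‖b p‖ ^ 2 * (p : ℝ) ^ (-s) ≤ Real.log (1 / (s - 1)) + K' := by
  obtain ⟨K, hK⟩ := exists_sum_qCoeff_sq_le f
  obtain ⟨n0, hn0, ha⟩ := exists_pos_qCoeff_ne_zero f hf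
  have hmul : ∀ p : ℕ, p.Prime → ¬ p ∣ N → ∀ n, ¬ p ∣ n →
      qCoeff f (p * n) = b p * qCoeff f n := by
    intro p hp hpN n hpn
    have := hT p hp hpN n
    simpa [hpn] using this
  refine ⟨Real.log (4 * K * (n0 : ℝ) ^ 2 / ‖qCoeff f n0‖ ^ 2) + 32, n0, hn0, ha, ?_⟩
  intro s hs hs2 P hP
  have := sum_sq_rpow_le (fun n => qCoeff f n) b N hmul K hK hs hs2 n0 hn0 ha P
    (fun p hp => ⟨(hP p hp).1, (hP p hp).2.1, (hP p hp).2.2.1⟩)
    (fun p hp => (hP p hp).2.2.2)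
  linarith

end Package

end Fermat.Agent.S48.Rankin
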