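/-
S48 (Deligne–Serre), PROGRAM DS — brick J1 (Step 3 of the route): the uniform bound.  helper166.

`Contract.BddRes` from the exits of the lower bricks, each taken in a named `Prop`:

* `IntEig`    (C2)   : the eigenvalues `a_p`, `p ∤ N`, are algebraic integers;
* `ConjBound` (C3)   : finitely many "conjugate" eigenforms `h i` with eigenvalues `b i p` such that
                       `a_p` takes finitely many values on the primes where all `‖b i p‖²` are `≤ c`;
* `ResRep`    (E.Res): mod-`ℓ` representations with the prescribed characteristic polynomials, for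
                       all large `ℓ` (consumed ONLY for algebraically closed `k`, surjective `r`);
* `Dens.ChebLower` (G): Chebotarev, lower-density half, up to inversion.

Landed bricks used: `Rankin.exists_large_bound` (F.R3), `Dens.cheb_count`,
`FewTracesGL.exists_bounded_semisimplification_GL` (H).

Exits: `fewEig_of_conjBound`, `exists_hasBddRes`, `bddRes : Dens.ChebLower → Inputs → Contract.BddRes`.
-/
import Mathlib
import Fermat.Agent.S48.Contract
import Fermat.Agent.S48.Dens.Basic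
import Fermat.Agent.S48.FewTracesGL
import Fermat.Agent.S48.Rankin

set_option autoImplicit false

open CongruenceSubgroup Polynomial
open scoped MatrixGroups

namespace Fermat.Agent.S48.J1

open Fermat.Agent.S48 Fermat.Agent.S48.Contract

/-! ## The input statements -/

/-- **(C2)** The eigenvalues at the good primes are algebraic integers. -/
def IntEig (N : ℕ) [NeZero N] (f : CuspForm (Gamma1 N) 1) : Prop :=
  ∀ p : ℕ, p.Prime → ¬ p ∣ N → IsIntegral ℤ (ModularFormClass.qCoeff f p)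

/-- **(C3)** Finitely many normalised forms `h i` satisfying the formal Hecke relations with
eigenvalues `b i` (the conjugates of `f`), such that for every `c` the eigenvalue `a_p` of `f`
takes only finitely many values on the primes `p ∤ N` at which all `‖b i p‖² ≤ c`. -/
def ConjBound (N : ℕ) [NeZero N] (f : CuspForm (Gamma1 N) 1) : Prop :=
  ∃ (d : ℕ) (h : Fin d → CuspForm (Gamma1 N) 1) (b e : Fin d → ℕ → ℂ),
    (∀ i, ModularFormClass.qCoeff (h i) 1 = 1) ∧
    (∀ i, Rel N (ModularFormClass.qCoeff (h i)) (b i) (e i)) ∧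
    ∀ c : ℝ, {z : ℂ | ∃ p : ℕ, p.Prime ∧ ¬ p ∣ N ∧ z = ModularFormClass.qCoeff f p ∧
      ∀ i, ‖b i p‖ ^ 2 ≤ c}.Finite

/-- The density form of (C3) + (F.R3): outside a set of primes of arbitrarily small upper
density, the eigenvalue `a_p` takes only finitely many values. -/
def FewEig (N : ℕ) [NeZero N] (f : CuspForm (Gamma1 N) 1) : Prop :=
  ∀ η : ℝ, 0 < η → ∃ E : Set ℕ, Dens.UpDens E η ∧
    {z : ℂ | ∃ p : ℕ, p.Prime ∧ ¬ p ∣ N ∧ p ∉ E ∧ z = ModularFormClass.qCoeff f p}.Finite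

/-- **(E.Res)** The Step-2 exit, in the weakest shape consumed by J1: for all large primes `ℓ`,
every algebraically closed field `k` of characteristic `ℓ` and every surjective `r : 𝔸 → k`,
a finite-level `ρ̄ : Γℚ → GL₂(k)`, unramified outside `N ℓ`, with the characteristic polynomial
`X² - r(a_p) X + r(ε(p))` at the Frobenius elements. -/
def ResRep (N : ℕ) [NeZero N] (ε : DirichletCharacter ℂ N) (f : CuspForm (Gamma1 N) 1) : Prop :=
  ∃ B₀ : ℕ, ∀ ℓ : ℕ, ℓ.Prime → B₀ < ℓ →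
    ∀ (k : Type) [Field k] [CharP k ℓ] [IsAlgClosed k] (r : AA →+* k), Function.Surjective r →
      ∃ ρbar : GQ →* GL (Fin 2) k, GaloisFactorsThroughFiniteLevel ρbar ∧
        ∀ p : ℕ, p.Prime → ¬ p ∣ N → p ≠ ℓ →
          ∀ P : ValuationSubring Qb, P.LiesOverPrime p →
            (∀ σ ∈ P.inertiaSubgroupIn ℚ, ρbar σ = 1) ∧
            ∀ σ : GQ, P.IsFrobeniusAt σ p →
              ∃ ap ep : AA, (ap : ℂ) = ModularFormClass.qCoeff f p ∧
                (ep : ℂ) = ε (p : ZMod N) ∧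
                ((ρbar σ : GL (Fin 2) k) : Matrix (Fin 2) (Fin 2) k).charpoly
                  = X ^ 2 - C (r ap) * X + C (r ep)

/-- The three inputs of J1, for all normalised eigenforms as in the frozen statement. -/
def Inputs : Prop :=
  ∀ (N : ℕ) [NeZero N] (ε : DirichletCharacter ℂ N) (f : CuspForm (Gamma1 N) 1),
    ModularFormClass.qCoeff f 1 = 1 →
    Rel N (ModularFormClass.qCoeff f) (ModularFormClass.qCoeff f) (fun p => ε (p : ZMod N)) →
    IntEig N f ∧ ConjBound N f ∧ ResRep N ε f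

/-! ## Algebra: residue fields of the ring of algebraic integers -/

/-- A root in `ℂ` of a monic polynomial over `𝔸` lies in `𝔸`. -/
theorem exists_root_AA (P : AA[X]) (hP : P.Monic) (hdeg : P.natDegree ≠ 0) :
    ∃ z : AA, P.eval z = 0 := by
  have hdeg' : (P.map (algebraMap AA ℂ)).degree ≠ 0 := by
    rw [hP.degree_map, Polynomial.degree_eq_natDegree hP.ne_zero]
    exact_mod_cast hdeg
  obtain ⟨z, hz⟩ := IsAlgClosed.exists_root (P.map (algebraMap AA ℂ)) hdeg'
  have hz' : IsIntegral AA z := ⟨P, hP, by rwa [Polynomial.IsRoot.def, Polynomial.eval_map] at hz⟩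
  have hz'' : IsIntegral ℤ z := isIntegral_trans z hz'
  refine ⟨⟨z, hz''⟩, ?_⟩
  apply Subtype.ext
  have h1 : ((P.eval (⟨z, hz''⟩ : AA) : AA) : ℂ) = (P.map (algebraMap AA ℂ)).eval z := by
    rw [Polynomial.eval_map]
    exact (Polynomial.eval₂_at_apply (algebraMap AA ℂ) (⟨z, hz''⟩ : AA)).symm
  rw [h1]
  exact hz

/-- Every field quotient of `𝔸` is algebraically closed. -/
theorem isAlgClosed_of_surjective {k : Type} [Field k] (r : AA →+* k)
    (hr : Function.Surjective r) : IsAlgClosed k := by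
  apply IsAlgClosed.of_exists_root
  intro p hp hirr
  have hl : p ∈ Polynomial.lifts r := by
    obtain ⟨q, hq⟩ := Polynomial.map_surjective r hr p
    exact (Polynomial.mem_lifts p).mpr ⟨q, hq⟩
  obtain ⟨P, hPmap, hPdeg, hPmon⟩ := Polynomial.lifts_and_natDegree_eq_and_monic hl hp
  have hdeg : P.natDegree ≠ 0 := by
    rw [hPdeg]
    exact (Polynomial.natDegree_pos_iff_degree_pos.mpr
      (Polynomial.degree_pos_of_irreducible hirr)).ne'
  obtain ⟨z, hz⟩ := exists_root_AA P hPmon hdeg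
  refine ⟨r z, ?_⟩
  rw [← hPmap, Polynomial.eval_map, Polynomial.eval₂_at_apply, hz, map_zero]

/-- For a prime `ℓ` there is a maximal ideal of `𝔸` containing `ℓ`. -/
theorem exists_maximal_AA (ℓ : ℕ) (hℓ : ℓ.Prime) :
    ∃ m : Ideal AA, m.IsMaximal ∧ (ℓ : AA) ∈ m := by
  have hmax : (Ideal.span {(ℓ : ℤ)}).IsMaximal :=
    PrincipalIdealRing.isMaximal_of_irreducible
      (Nat.prime_iff_prime_int.mp hℓ).irreducible
  have hker : RingHom.ker (algebraMap ℤ AA) ≤ Ideal.span {(ℓ : ℤ)} := by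
    intro x hx
    rw [RingHom.mem_ker] at hx
    have : x = 0 := by
      have h1 : ((algebraMap ℤ AA x : AA) : ℂ) = 0 := by rw [hx]; rfl
      have h2 : ((algebraMap ℤ AA x : AA) : ℂ) = (x : ℂ) := by
        simp
      rw [h2] at h1
      exact_mod_cast h1
    rw [this]
    exact Ideal.zero_mem _
  obtain ⟨Q, hQ, hQc⟩ := Ideal.exists_ideal_over_maximal_of_isIntegral
    (S := AA) (Ideal.span {(ℓ : ℤ)}) hker
  refine ⟨Q, hQ, ?_⟩
  have h1 : (ℓ : ℤ) ∈ Ideal.comap (algebraMap ℤ AA) Q := by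
    rw [hQc]
    exact Ideal.subset_span rfl
  rw [Ideal.mem_comap] at h1
  simpa using h1

/-- A field in which the prime `ℓ` vanishes has characteristic `ℓ`. -/
theorem charP_of_prime_eq_zero {k : Type} [Field k] (ℓ : ℕ) (hℓ : ℓ.Prime) (h : (ℓ : k) = 0) :
    CharP k ℓ := by
  have h1 : ringChar k ∣ ℓ := ringChar.dvd h
  have h2 : ringChar k ≠ 1 := CharP.ringChar_ne_one
  have h3 : ringChar k = ℓ := by
    rcases (Nat.dvd_prime hℓ).mp h1 with h4 | h4
    · exact absurd h4 h2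
    · exact h4
  rw [← h3]
  exact ringChar.charP k

/-! ## Linear algebra in `GL₂` -/

theorem trace_det_of_charpoly {k : Type} [Field k] (M : Matrix (Fin 2) (Fin 2) k) (t d : k)
    (h : M.charpoly = X ^ 2 - C t * X + C d) : M.trace = t ∧ M.det = d := by
  rw [Matrix.charpoly_fin_two] at h
  have h1 := congrArg (fun q : k[X] => q.coeff 1) h
  have h0 := congrArg (fun q : k[X] => q.coeff 0) h
  simp [Polynomial.coeff_X] at h1 h0
  exact ⟨h1, h0⟩

theorem trace_det_inv {k : Type} [Field k] (g : GL (Fin 2) k) :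
    ((g⁻¹ : GL (Fin 2) k) : Matrix (Fin 2) (Fin 2) k).trace =
        (g : Matrix (Fin 2) (Fin 2) k).trace / (g : Matrix (Fin 2) (Fin 2) k).det ∧
      ((g⁻¹ : GL (Fin 2) k) : Matrix (Fin 2) (Fin 2) k).det =
        1 / (g : Matrix (Fin 2) (Fin 2) k).det := by
  have hdet : (g : Matrix (Fin 2) (Fin 2) k).det ≠ 0 := by
    have := (Matrix.isUnit_iff_isUnit_det _).mp g.isUnit
    exact this.ne_zero
  constructor
  · rw [Matrix.coe_units_inv, Matrix.inv_def, Matrix.adjugate_fin_two, Matrix.trace_smul,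
      Matrix.trace_fin_two, Matrix.trace_fin_two, Ring.inverse_eq_inv']
    simp
    field_simp
    ring
  · rw [Matrix.coe_units_inv, Matrix.det_nonsing_inv, Ring.inverse_eq_inv', one_div]

/-! ## (C3) + (F.R3): the density form -/

theorem ne_zero_of_qCoeff_one {N : ℕ} (h : CuspForm (Gamma1 N) 1)
    (h1 : ModularFormClass.qCoeff h 1 = 1) : h ≠ 0 := by
  rintro rfl
  have h2 : ModularFormClass.qCoeff ((0 : CuspForm (Gamma1 N) 1) : UpperHalfPlane → ℂ) 1 = 0 := by
    unfold ModularFormClass.qCoeff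
    rw [FunLike.coe_zero, UpperHalfPlane.qExpansion_zero]
    simp
  rw [h2] at h1
  exact zero_ne_one h1

/-- (F.R3) in density form: the primes with a large eigenvalue have small upper density. -/
theorem upDens_large {N : ℕ} [NeZero N] (h : CuspForm (Gamma1 N) 1) (hne : h ≠ 0)
    (b e : ℕ → ℂ) (hrel : Rel N (ModularFormClass.qCoeff h) b e) (c : ℝ) (hc : 0 < c) :
    Dens.UpDens {p : ℕ | p.Prime ∧ ¬ p ∣ N ∧ c < ‖b p‖ ^ 2} (c * Real.log 2)⁻¹ := by
  obtain ⟨K', n0, hn0, -, hbound⟩ := Rankin.exists_large_bound h hne e b hrel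
  have h1 : Dens.UpDens {p : ℕ | p.Prime ∧ ¬ p ∣ N ∧ ¬ p ∣ n0 ∧ c < ‖b p‖ ^ 2 ∧ c ≤ (p : ℝ)}
      (c * Real.log 2)⁻¹ := by
    refine ⟨(c * Real.log 2)⁻¹ * K', fun s hs hs2 P hP => ?_⟩
    have h2 := hbound s hs hs2 c hc P (fun p hp => (hP p hp).2)
    have h3 : ∑ p ∈ P, 1 / (p : ℝ) ^ s = ∑ p ∈ P, (p : ℝ) ^ (-s) := by
      refine Finset.sum_congr rfl fun p _ => ?_
      rw [Real.rpow_neg (Nat.cast_nonneg p), one_div]
    rw [h3]
    linarith
  have hF : {p : ℕ | p ∣ n0 ∨ (p : ℝ) < c}.Finite := by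
    apply (Set.finite_Iic (n0 + ⌈c⌉₊)).subset
    rintro p (hp | hp)
    · exact Set.mem_Iic.mpr ((Nat.le_of_dvd hn0 hp).trans (Nat.le_add_right _ _))
    · have h4 : (p : ℝ) < (⌈c⌉₊ : ℝ) := lt_of_lt_of_le hp (Nat.le_ceil c)
      have h5 : p < ⌈c⌉₊ := by exact_mod_cast h4
      exact Set.mem_Iic.mpr (by omega)
  refine (h1.union_finite hF).mono ?_ le_rfl
  rintro p ⟨hp, hpN, hpc⟩
  by_cases h6 : p ∣ n0
  · exact Or.inr (Or.inl h6)
  · by_cases h7 : (p : ℝ) < c
    · exact Or.inr (Or.inr h7)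
    · exact Or.inl ⟨hp, hpN, h6, hpc, not_lt.mp h7⟩

/-- (C3) + (F.R3) ⟹ the density form. -/
theorem fewEig_of_conjBound (N : ℕ) [NeZero N] (f : CuspForm (Gamma1 N) 1)
    (h : ConjBound N f) : FewEig N f := by
  obtain ⟨d, h, b, e, hh1, hrel, hfin⟩ := h
  intro η hη
  have hlog2 : 0 < Real.log 2 := Real.log_pos (by norm_num)
  set c : ℝ := ((d : ℝ) + 1) / (η * Real.log 2) with hc_def
  have hd : (0 : ℝ) < (d : ℝ) + 1 := by positivity
  have hc : 0 < c := by positivity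
  have hcinv : (c * Real.log 2)⁻¹ = η / ((d : ℝ) + 1) := by
    rw [hc_def]
    field_simp
  refine ⟨⋃ i ∈ (Finset.univ : Finset (Fin d)),
    {p : ℕ | p.Prime ∧ ¬ p ∣ N ∧ c < ‖b i p‖ ^ 2}, ?_, ?_⟩
  · have h1 := Dens.UpDens.biUnion (Finset.univ : Finset (Fin d))
      (fun i => {p : ℕ | p.Prime ∧ ¬ p ∣ N ∧ c < ‖b i p‖ ^ 2}) (fun _ => (c * Real.log 2)⁻¹)
      (fun i _ => upDens_large (h i) (ne_zero_of_qCoeff_one (h i) (hh1 i)) (b i) (e i) (hrel i)
        c hc)
    refine h1.mono subset_rfl ?_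
    rw [Finset.sum_const, Finset.card_univ, Fintype.card_fin, nsmul_eq_mul, hcinv]
    rw [mul_div_assoc', div_le_iff₀ hd]
    nlinarith
  · apply (hfin c).subset
    rintro z ⟨p, hp, hpN, hpE, rfl⟩
    refine ⟨p, hp, hpN, rfl, fun i => ?_⟩
    by_contra hlt
    apply hpE
    simp only [Set.mem_iUnion, Finset.mem_univ, exists_true_left]
    exact ⟨i, hp, hpN, not_le.mp hlt⟩

/-! ## The uniform bound -/

/-- Values of a Dirichlet character are algebraic integers. -/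
theorem isIntegral_dirichlet {N : ℕ} [NeZero N] (ε : DirichletCharacter ℂ N) (x : ZMod N) :
    IsIntegral ℤ (ε x) := by
  by_cases hx : IsUnit x
  · obtain ⟨u, rfl⟩ := hx
    have h1 : (ε (u : ZMod N)) ^ (Fintype.card (ZMod N)ˣ) = 1 := by
      rw [← map_pow, ← Units.val_pow_eq_pow_val, pow_card_eq_one, Units.val_one, map_one]
    exact IsIntegral.of_pow Fintype.card_pos (h1 ▸ isIntegral_one)
  · rw [MulChar.map_nonunit ε hx]
    exact isIntegral_zero

/-- **J1, core**: the uniform bound for one form. -/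
theorem exists_hasBddRes (hcheb : Dens.ChebLower)
    (N : ℕ) [NeZero N] (ε : DirichletCharacter ℂ N) (f : CuspForm (Gamma1 N) 1)
    (hInt : IntEig N f) (hFew : FewEig N f) (hRes : ResRep N ε f) :
    ∃ (a e : ℕ → AA) (A : ℕ),
      (∀ p : ℕ, p.Prime → ¬ p ∣ N →
        (a p : ℂ) = ModularFormClass.qCoeff f p ∧ (e p : ℂ) = ε (p : ZMod N)) ∧
      HasBddRes N a e A := by
  classical
  -- the integral eigenvalues and character values
  let a : ℕ → AA := fun p =>
    if h : IsIntegral ℤ (ModularFormClass.qCoeff f p) then ⟨_, h⟩ else 0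
  let e' : ZMod N → AA := fun x => ⟨ε x, isIntegral_dirichlet ε x⟩
  let e : ℕ → AA := fun p => e' (p : ZMod N)
  have ha : ∀ p : ℕ, p.Prime → ¬ p ∣ N → (a p : ℂ) = ModularFormClass.qCoeff f p := by
    intro p hp hpN
    simp only [a, dif_pos (hInt p hp hpN)]
  have he : ∀ p : ℕ, (e p : ℂ) = ε (p : ZMod N) := fun p => rfl
  -- the exceptional set and the finite set of eigenvalues
  obtain ⟨E, hE, hfin⟩ := hFew (1 / 8) (by norm_num)
  have hTfin : {x : AA | ∃ p : ℕ, p.Prime ∧ ¬ p ∣ N ∧ p ∉ E ∧ x = a p}.Finite := by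
    apply Set.Finite.of_finite_image (f := fun x : AA => (x : ℂ)) _ Subtype.val_injective.injOn
    apply hfin.subset
    rintro _ ⟨x, ⟨p, hp, hpN, hpE, rfl⟩, rfl⟩
    exact ⟨p, hp, hpN, hpE, ha p hp hpN⟩
  have hEvfin : (Set.range e').Finite := Set.finite_range e'
  let Q : Finset (AA × AA) := hTfin.toFinset ×ˢ hEvfin.toFinset
  obtain ⟨B₀, hB₀⟩ := hRes
  refine ⟨a, e, 2 * max ((2 * Q.card) ^ 4) (2 * (2 * Q.card)),
    fun p hp hpN => ⟨ha p hp hpN, he p⟩, ?_⟩
  intro B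
  obtain ⟨ℓ, hℓB, hℓ⟩ := Nat.exists_infinite_primes (max B B₀ + 1)
  have hBℓ : B < ℓ := by have := le_max_left B B₀; omega
  have hB₀ℓ : B₀ < ℓ := by have := le_max_right B B₀; omega
  obtain ⟨m, hm, hℓm⟩ := exists_maximal_AA ℓ hℓ
  let _ : Field (AA ⧸ m) := Ideal.Quotient.field m
  let r : AA →+* AA ⧸ m := Ideal.Quotient.mk m
  have hr : Function.Surjective r := Ideal.Quotient.mk_surjective
  have hℓ0 : ((ℓ : ℕ) : AA ⧸ m) = 0 := by
    have : r (ℓ : AA) = 0 := Ideal.Quotient.eq_zero_iff_mem.mpr hℓm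
    simpa using this
  have : CharP (AA ⧸ m) ℓ := charP_of_prime_eq_zero ℓ hℓ hℓ0
  have : IsAlgClosed (AA ⧸ m) := isAlgClosed_of_surjective r hr
  obtain ⟨ρ₀, hlev₀, hloc₀⟩ := hB₀ ℓ hℓ hB₀ℓ (AA ⧸ m) r hr
  have hfin₀ : Finite ρ₀.range := Dens.finite_range ρ₀ hlev₀
  obtain ⟨ρ', hchar, hker, hfin', hbound⟩ :=
    FewTracesGL.exists_bounded_semisimplification_GL ρ₀ hfin₀
  have hlev' : GaloisFactorsThroughFiniteLevel ρ' :=
    Dens.finiteLevel_of_ker_le ρ₀ ρ' hlev₀ hker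
  have hfrob : ∀ p : ℕ, p.Prime → ¬ p ∣ N → p ≠ ℓ → ∀ P : ValuationSubring Qb,
      P.LiesOverPrime p → ∀ σ : GQ, P.IsFrobeniusAt σ p →
        ((ρ₀ σ : GL (Fin 2) (AA ⧸ m)) : Matrix (Fin 2) (Fin 2) (AA ⧸ m)).charpoly
          = X ^ 2 - C (r (a p)) * X + C (r (e p)) := by
    intro p hp hpN hpℓ P hP σ hσ
    obtain ⟨ap, ep, hap, hep, hcp⟩ := (hloc₀ p hp hpN hpℓ P hP).2 σ hσ
    have h1 : ap = a p := Subtype.ext (hap.trans (ha p hp hpN).symm)
    have h2 : ep = e p := Subtype.ext (hep.trans (he p).symm)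
    rw [← h1, ← h2]
    exact hcp
  refine ⟨ℓ, hℓ, hBℓ, AA ⧸ m, inferInstance, inferInstance, r, ρ', hr, hlev', ?_, ?_⟩
  · -- the bound
    let S : Finset ℕ := Finset.range (N + ℓ + 1)
    have hS : ∀ p : ℕ, p ∉ S → ¬ p ∣ N ∧ p ≠ ℓ := by
      intro p hp
      simp only [S, Finset.mem_range, not_lt] at hp
      refine ⟨fun hdvd => ?_, by omega⟩
      have := Nat.le_of_dvd (Nat.pos_of_ne_zero (NeZero.ne N)) hdvd
      omega
    let H : Set GQ := {σ | ∃ p : ℕ, p.Prime ∧ p ∉ S ∧ p ∉ E ∧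
      ∃ (A : ValuationSubring Qb) (τ : GQ),
        A.LiesOverPrime p ∧ A.IsFrobeniusAt τ p ∧ (σ = τ ∨ σ = τ⁻¹)}
    let P : Finset ((AA ⧸ m) × (AA ⧸ m)) :=
      Q.image (fun x => (r x.1, r x.2)) ∪ Q.image (fun x => (r x.1 / r x.2, 1 / r x.2))
    have hPcard : P.card ≤ 2 * Q.card := by
      calc P.card ≤ (Q.image (fun x => (r x.1, r x.2))).card +
            (Q.image (fun x => (r x.1 / r x.2, 1 / r x.2))).card := Finset.card_union_le _ _
        _ ≤ Q.card + Q.card := Nat.add_le_add Finset.card_image_le Finset.card_image_le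
        _ = 2 * Q.card := by ring
    have hPmem : ∀ σ ∈ H, (Matrix.trace (ρ₀ σ : Matrix (Fin 2) (Fin 2) (AA ⧸ m)),
        Matrix.det (ρ₀ σ : Matrix (Fin 2) (Fin 2) (AA ⧸ m))) ∈ P := by
      rintro σ ⟨p, hp, hpS, hpE, A, τ, hA, hτ, hor⟩
      obtain ⟨hpN, hpℓ⟩ := hS p hpS
      have hcp := hfrob p hp hpN hpℓ A hA τ hτ
      obtain ⟨htr, hdet⟩ := trace_det_of_charpoly _ _ _ hcp
      have hQ : (a p, e p) ∈ Q := by
        simp only [Q, Finset.mem_product, Set.Finite.mem_toFinset]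
        exact ⟨⟨p, hp, hpN, hpE, rfl⟩, ⟨(p : ZMod N), rfl⟩⟩
      rcases hor with rfl | rfl
      · rw [htr, hdet]
        exact Finset.mem_union_left _ (Finset.mem_image.mpr ⟨(a p, e p), hQ, rfl⟩)
      · rw [map_inv, (trace_det_inv (ρ₀ τ)).1, (trace_det_inv (ρ₀ τ)).2, htr, hdet]
        exact Finset.mem_union_right _ (Finset.mem_image.mpr ⟨(a p, e p), hQ, rfl⟩)
    have h1 := hbound H P hPmem
    have h2 := Dens.cheb_count hcheb ρ' hlev' S E hE
    have hsub : ((ρ'.range : Set (GL (Fin 2) (AA ⧸ m))) \ ρ' '' H) ⊆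
        (Dens.FrobImg ρ' S E)ᶜ ∩ (ρ'.range : Set (GL (Fin 2) (AA ⧸ m))) := by
      rintro g ⟨hg, hgH⟩
      refine ⟨fun hF => hgH ?_, hg⟩
      obtain ⟨p, hp, hpS, hpE, A, τ, hA, hτ, hor⟩ := hF
      rcases hor with h3 | h3
      · exact ⟨τ, ⟨p, hp, hpS, hpE, A, τ, hA, hτ, Or.inl rfl⟩, h3⟩
      · refine ⟨τ⁻¹, ⟨p, hp, hpS, hpE, A, τ, hA, hτ, Or.inr rfl⟩, ?_⟩
        rw [map_inv, h3, inv_inv]
    have hfinset : ((Dens.FrobImg ρ' S E)ᶜ ∩ (ρ'.range : Set (GL (Fin 2) (AA ⧸ m)))).Finite :=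
      (Set.toFinite (ρ'.range : Set (GL (Fin 2) (AA ⧸ m)))).subset Set.inter_subset_right
    have h3 : Set.ncard ((ρ'.range : Set (GL (Fin 2) (AA ⧸ m))) \ ρ' '' H) ≤
        Set.ncard ((Dens.FrobImg ρ' S E)ᶜ ∩ (ρ'.range : Set (GL (Fin 2) (AA ⧸ m)))) :=
      Set.ncard_le_ncard hsub hfinset
    have h4 : (8 : ℝ) * Set.ncard ((ρ'.range : Set (GL (Fin 2) (AA ⧸ m))) \ ρ' '' H) ≤
        Nat.card ρ'.range := by
      have : (Set.ncard ((ρ'.range : Set (GL (Fin 2) (AA ⧸ m))) \ ρ' '' H) : ℝ) ≤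
          Set.ncard ((Dens.FrobImg ρ' S E)ᶜ ∩ (ρ'.range : Set (GL (Fin 2) (AA ⧸ m)))) := by
        exact_mod_cast h3
      linarith
    have h5 : 8 * Set.ncard ((ρ'.range : Set (GL (Fin 2) (AA ⧸ m))) \ ρ' '' H) ≤
        Nat.card ρ'.range := by exact_mod_cast h4
    have h6 : max (P.card ^ 4) (2 * P.card) ≤ max ((2 * Q.card) ^ 4) (2 * (2 * Q.card)) :=
      max_le_max (Nat.pow_le_pow_left hPcard 4) (Nat.mul_le_mul_left 2 hPcard)
    generalize max (P.card ^ 4) (2 * P.card) = M1 at h1 h6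
    generalize max ((2 * Q.card) ^ 4) (2 * (2 * Q.card)) = M2 at h6 ⊢
    omega
  · intro p hp hpN hpℓ P hP
    refine ⟨fun σ hσ => hker σ ((hloc₀ p hp hpN hpℓ P hP).1 σ hσ), fun σ hσ => ?_⟩
    rw [hchar σ]
    exact hfrob p hp hpN hpℓ P hP σ hσ

/-- **J1**: `Contract.BddRes` from Chebotarev (G) and the exits (C2), (C3), (E.Res). -/
theorem bddRes (hcheb : Dens.ChebLower) (h : Inputs) : Contract.BddRes := by
  intro N _ ε f hf₁ hrel
  obtain ⟨h1, h2, h3⟩ := h N ε f hf₁ hrel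
  exact exists_hasBddRes hcheb N ε f h1 (fewEig_of_conjBound N f h2) h3

end Fermat.Agent.S48.J1
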