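/-
S48 (Deligne–Serre), PROGRAM DS — brick C, FINAL EXITS (helper221).

Under the frozen hypotheses of S48 (`f` a weight-one cusp form on `Γ₁(N)` with `a₁ = 1` and the
formal Hecke relations with character `ε` at the primes `p ∤ N`):

* `intEig`    : `J1.IntEig N f`    — the eigenvalues `a_p` (`p ∤ N`) are algebraic integers;
* `conjBound` : `J1.ConjBound N f` — finitely many conjugate forms `h i` (one for each embedding
  of a number field `K ∋ a_p`), with eigenvalues `b i p = σ_i(a_p)`, such that `a_p` takes only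
  finitely many values on the primes where all `‖b i p‖² ≤ c` (Northcott).

Inputs, all landed: the twist chain `Eis3.isIntegral_qCoeff_frozen`, `Eis3.adjoin_fg_frozen`,
`Eis3.exists_conj_rel_frozen` (helper150, on helper9's `ConjEis` and helper248's `Neben`),
`S23.AutC.exists_ringAut_extending_algEquiv` (automorphisms of `ℚ̄` extend to `ℂ`) and Mathlib's
`NumberField.Embeddings.finite_of_norm_le`.
-/
import Mathlib
import Fermat.Agent.S23.AutC
import Fermat.Agent.S48.J1
import Fermat.Agent.S48.Eis3.HAux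

set_option autoImplicit false

open CongruenceSubgroup
open scoped MatrixGroups

namespace Fermat.Agent.S48.CAlg

open Fermat.Agent.S48 Fermat.Agent.S48.Contract

/-- The algebraic numbers inside `ℂ`. -/
local notation "Qc" => algebraicClosure ℚ ℂ

/-- **Extension of embeddings.**  Every ring homomorphism from a subfield `K` of the field of
algebraic numbers of `ℂ` to `ℂ` is the restriction of a ring automorphism of `ℂ`. -/
theorem exists_ringAut_extending (K : IntermediateField ℚ Qc) (φ : K →+* ℂ) :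
    ∃ σ : ℂ ≃+* ℂ, ∀ x : K, σ (((x : Qc) : ℂ)) = φ x := by
  have hcl : IsAlgClosure ℚ Qc := algebraicClosure.isAlgClosure ℚ ℂ
  have : IsAlgClosed Qc := hcl.isAlgClosed
  have : Algebra.IsAlgebraic ℚ Qc := hcl.isAlgebraic
  have halg : ∀ x : K, φ x ∈ Qc := by
    intro x
    have hxC : IsIntegral ℚ (((x : Qc) : ℂ)) := (mem_algebraicClosure_iff' ..).mp (x : Qc).2
    have hx : IsIntegral ℚ x := by
      have hinj : Function.Injective ((IntermediateField.val Qc).comp K.val) :=
        ((IntermediateField.val Qc).comp K.val).injective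
      exact (isIntegral_algHom_iff ((IntermediateField.val Qc).comp K.val) hinj).mp hxC
    have h2 : IsIntegral ℚ (φ.toRatAlgHom x) := hx.map φ.toRatAlgHom
    exact (mem_algebraicClosure_iff' ..).mpr h2
  let f : K →ₐ[ℚ] Qc :=
    { toFun := fun x => ⟨φ x, halg x⟩
      map_one' := Subtype.ext (map_one φ)
      map_mul' := fun x y => Subtype.ext (map_mul φ x y)
      map_zero' := Subtype.ext (map_zero φ)
      map_add' := fun x y => Subtype.ext (map_add φ x y)
      commutes' := fun q => Subtype.ext (by simp) }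
  obtain ⟨τ₀, hτ₀⟩ := IntermediateField.exists_algHom_of_splits (F := ℚ) (E := Qc) (K := Qc)
    (fun s => ⟨Algebra.IsIntegral.isIntegral s, IsAlgClosed.splits _⟩) f
  let τ : Qc ≃ₐ[ℚ] Qc := AlgEquiv.ofBijective τ₀ (Algebra.IsAlgebraic.algHom_bijective τ₀)
  obtain ⟨σ, hσ⟩ := Fermat.Agent.S23.AutC.exists_ringAut_extending_algEquiv τ
  refine ⟨σ, fun x => ?_⟩
  rw [hσ (x : Qc)]
  have h1 : τ₀ (x : Qc) = f x := DFunLike.congr_fun hτ₀ x
  change ((τ₀ (x : Qc) : Qc) : ℂ) = φ x
  rw [h1]
  rfl

/-- **(C2)** under the frozen hypotheses. -/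
theorem intEig (N : ℕ) [NeZero N] (ε : DirichletCharacter ℂ N) (f : CuspForm (Gamma1 N) 1)
    (hf₁ : ModularFormClass.qCoeff f 1 = 1)
    (hT : Rel N (ModularFormClass.qCoeff f) (ModularFormClass.qCoeff f)
      (fun p => ε (p : ZMod N))) : J1.IntEig N f :=
  fun p hp hpN => Eis3.isIntegral_qCoeff_frozen N ε f hf₁ hT p hp hpN

/-- A number field (inside the algebraic numbers of `ℂ`) containing all the eigenvalues `a_p`,
`p ∤ N`. -/
theorem exists_numberField (N : ℕ) [NeZero N] (ε : DirichletCharacter ℂ N)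
    (f : CuspForm (Gamma1 N) 1) (hf₁ : ModularFormClass.qCoeff f 1 = 1)
    (hT : Rel N (ModularFormClass.qCoeff f) (ModularFormClass.qCoeff f)
      (fun p => ε (p : ZMod N))) :
    ∃ K : IntermediateField ℚ Qc, FiniteDimensional ℚ K ∧
      ∀ p : ℕ, p.Prime → ¬ p ∣ N → ∃ x : K, IsIntegral ℤ x ∧
        ((x : Qc) : ℂ) = ModularFormClass.qCoeff f p := by
  classical
  have hfg := Eis3.adjoin_fg_frozen N ε f hf₁ hT
  set R : Subalgebra ℤ ℂ := Algebra.adjoin ℤ
      ({x : ℂ | ∃ p : ℕ, p.Prime ∧ ¬ p ∣ N ∧ x = ModularFormClass.qCoeff f p} ∪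
        Set.range ε) with hR
  obtain ⟨G, hG⟩ := hfg
  -- every element of `R` is integral over `ℤ`, hence algebraic
  have hint : ∀ x ∈ R, IsIntegral ℤ x := fun x hx => IsIntegral.of_mem_of_fg R ⟨G, hG⟩ x hx
  have hmemQc : ∀ x ∈ R, x ∈ Qc := fun x hx =>
    (mem_algebraicClosure_iff' ..).mpr (hint x hx).tower_top
  let S : Set Qc := ((↑) : Qc → ℂ) ⁻¹' (G : Set ℂ)
  have hSfin : S.Finite :=
    Set.Finite.preimage (Set.injOn_of_injective Subtype.val_injective) G.finite_toSet
  have : Finite S := hSfin.to_subtype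
  have hcl : IsAlgClosure ℚ Qc := algebraicClosure.isAlgClosure ℚ ℂ
  have : Algebra.IsAlgebraic ℚ Qc := hcl.isAlgebraic
  let K : IntermediateField ℚ Qc := IntermediateField.adjoin ℚ S
  have hKfd : FiniteDimensional ℚ K :=
    IntermediateField.finiteDimensional_adjoin (fun x _ => Algebra.IsIntegral.isIntegral x)
  -- every element of `R` comes from `K`
  have hRK' : ∀ x ∈ Submodule.span ℤ (G : Set ℂ), ∃ y : K, ((y : Qc) : ℂ) = x := by
    intro x hx'
    induction hx' using Submodule.span_induction with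
    | mem g hg =>
      have hgR : g ∈ R := by
        have : g ∈ Submodule.span ℤ (G : Set ℂ) := Submodule.subset_span hg
        rw [hG] at this
        exact this
      exact ⟨⟨⟨g, hmemQc g hgR⟩, IntermediateField.subset_adjoin ℚ S hg⟩, rfl⟩
    | zero => exact ⟨0, rfl⟩
    | add a b _ _ ha hb =>
      obtain ⟨ya, hya⟩ := ha
      obtain ⟨yb, hyb⟩ := hb
      exact ⟨ya + yb, by push_cast; rw [hya, hyb]⟩
    | smul n a _ ha =>
      obtain ⟨ya, hya⟩ := ha
      exact ⟨n • ya, by push_cast; rw [hya]⟩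
  have hRK : ∀ x ∈ R, ∃ y : K, ((y : Qc) : ℂ) = x := by
    intro x hx
    refine hRK' x ?_
    rw [hG]
    exact hx
  refine ⟨K, hKfd, fun p hp hpN => ?_⟩
  have hpR : ModularFormClass.qCoeff f p ∈ R :=
    Algebra.subset_adjoin (Or.inl ⟨p, hp, hpN, rfl⟩)
  obtain ⟨y, hy⟩ := hRK _ hpR
  refine ⟨y, ?_, hy⟩
  have hinj : Function.Injective (((IntermediateField.val Qc).restrictScalars ℤ).comp
      (K.val.restrictScalars ℤ)) :=
    fun a b h => Subtype.ext (Subtype.ext h)
  refine (isIntegral_algHom_iff (((IntermediateField.val Qc).restrictScalars ℤ).comp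
    (K.val.restrictScalars ℤ)) hinj).mp ?_
  change IsIntegral ℤ (((y : Qc) : ℂ))
  rw [hy]
  exact hint _ hpR

/-- **(C3)** under the frozen hypotheses. -/
theorem conjBound (N : ℕ) [NeZero N] (ε : DirichletCharacter ℂ N) (f : CuspForm (Gamma1 N) 1)
    (hf₁ : ModularFormClass.qCoeff f 1 = 1)
    (hT : Rel N (ModularFormClass.qCoeff f) (ModularFormClass.qCoeff f)
      (fun p => ε (p : ZMod N))) : J1.ConjBound N f := by
  classical
  obtain ⟨K, hKfd, hK⟩ := exists_numberField N ε f hf₁ hT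
  have : NumberField K := @NumberField.mk K _ inferInstance hKfd
  -- one automorphism of `ℂ` for each embedding of `K`
  choose σ hσ using fun φ : K →+* ℂ => exists_ringAut_extending K φ
  -- the conjugate forms
  choose h hh1 hh2 hh3 using fun φ : K →+* ℂ =>
    Eis3.exists_conj_rel_frozen N ε f hf₁ hT ((σ φ : ℂ ≃+* ℂ) : ℂ →+* ℂ)
  let d : ℕ := Fintype.card (K →+* ℂ)
  let e : (K →+* ℂ) ≃ Fin d := Fintype.equivFin (K →+* ℂ)
  refine ⟨d, fun i => h (e.symm i),
    fun i p => (σ (e.symm i)) (ModularFormClass.qCoeff f p),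
    fun i p => (σ (e.symm i)) (ε (p : ZMod N)),
    fun i => hh2 (e.symm i), fun i p hp hpN n => hh3 (e.symm i) p hp hpN n, fun c => ?_⟩
  -- Northcott
  have hfin := NumberField.Embeddings.finite_of_norm_le K ℂ (Real.sqrt (max c 0))
  refine (hfin.image (fun x : K => ((x : Qc) : ℂ))).subset ?_
  rintro z ⟨p, hp, hpN, rfl, hb⟩
  obtain ⟨x, hxint, hx⟩ := hK p hp hpN
  refine ⟨x, ⟨hxint, fun φ => ?_⟩, hx⟩
  have h1 := hb (e φ)
  simp only [Equiv.symm_apply_apply] at h1
  have h2 : φ x = (σ φ) (ModularFormClass.qCoeff f p) := by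
    rw [← hx]
    exact (hσ φ x).symm
  rw [h2]
  apply Real.le_sqrt_of_sq_le
  exact le_trans h1 (le_max_left _ _)

end Fermat.Agent.S48.CAlg
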