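/-
S48 (Deligne–Serre), Step 2 of the route: the congruence `T_p (f E) ≡ a_p (f E)` when the
`q`-coefficients of the weight-one form `f` are NOT algebraic (helper187).

The frozen hypotheses of S48 do not make the `q`-coefficients of `f` algebraic (only the
`a_p`, `p ∤ N`).  They do lie in a finitely generated `ℤ`-module.  We therefore work modulo
`𝔪 • Λ` where `𝔪 = ker r` and `Λ` is the `𝔸`-span of the coefficients, `𝔸` the ring of algebraic
integers of `ℂ`, and prove the DENOMINATOR LEMMA: there is an integer `D ≠ 0`, depending only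
on a finite generating set, such that `(𝔪 • Λ) ∩ 𝔸 ⊆ 𝔪` whenever `r D ≠ 0`.
-/
import Mathlib

set_option autoImplicit false

namespace Fermat.Agent.S48.Denom

universe u

/-- the algebraic integers of `ℂ` -/
local notation "𝔸" => integralClosure ℤ ℂ

/-- the algebraic numbers of `ℂ` -/
local notation "𝕂" => algebraicClosure ℚ ℂ

/-- An algebraic integer is an algebraic number. -/
theorem coe_mem_algebraicClosure (c : 𝔸) : (c : ℂ) ∈ 𝕂 := by
  rw [mem_algebraicClosure_iff']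
  exact c.2.tower_top

/-- A `𝕂`-linear retraction of `𝕂 ⊆ ℂ`. -/
theorem exists_retraction :
    ∃ π : ℂ →ₗ[𝕂] 𝕂, ∀ x : 𝕂, π (x : ℂ) = x := by
  obtain ⟨g, hg⟩ := LinearMap.exists_leftInverse_of_injective (Algebra.linearMap 𝕂 ℂ)
    (LinearMap.ker_eq_bot.mpr (algebraMap 𝕂 ℂ).injective)
  exact ⟨g, fun x => LinearMap.congr_fun hg x⟩

/-- Every algebraic number has an integer multiple which is an algebraic integer. -/
theorem exists_int_mul_isIntegral (z : 𝕂) : ∃ d : ℤ, d ≠ 0 ∧ IsIntegral ℤ ((d : ℂ) * (z : ℂ)) := by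
  have hz : IsAlgebraic ℚ (z : ℂ) := mem_algebraicClosure_iff.mp z.2
  have hz' : IsAlgebraic ℤ (z : ℂ) := (IsFractionRing.isAlgebraic_iff ℤ ℚ ℂ).mpr hz
  obtain ⟨y, hy, hint⟩ := hz'.exists_integral_multiple
  refine ⟨y, hy, ?_⟩
  rwa [zsmul_eq_mul] at hint

/-- A common integer denominator for the values of a `𝕂`-linear functional on a finite set. -/
theorem exists_common_denominator (π : ℂ →ₗ[𝕂] 𝕂) (T : Finset ℂ) :
    ∃ D : ℤ, D ≠ 0 ∧ ∀ t ∈ T, IsIntegral ℤ ((D : ℂ) * (π t : ℂ)) := by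
  classical
  induction T using Finset.induction_on with
  | empty => exact ⟨1, one_ne_zero, by simp⟩
  | insert t T _ ih =>
    obtain ⟨D, hD, hDT⟩ := ih
    obtain ⟨d, hd, hdt⟩ := exists_int_mul_isIntegral (π t)
    refine ⟨d * D, mul_ne_zero hd hD, ?_⟩
    intro s hs
    rcases Finset.mem_insert.mp hs with rfl | hs
    · have h1 : IsIntegral ℤ ((D : ℂ)) := isIntegral_algebraMap (R := ℤ) (A := ℂ) (x := D)
      have h2 := h1.mul hdt
      have key : ((d * D : ℤ) : ℂ) * (π s : ℂ) = (D : ℂ) * ((d : ℂ) * (π s : ℂ)) := by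
        push_cast; ring
      rw [key]; exact h2
    · have h1 : IsIntegral ℤ ((d : ℂ)) := isIntegral_algebraMap (R := ℤ) (A := ℂ) (x := d)
      have h2 := h1.mul (hDT s hs)
      have key : ((d * D : ℤ) : ℂ) * (π s : ℂ) = (d : ℂ) * ((D : ℂ) * (π s : ℂ)) := by
        push_cast; ring
      rw [key]; exact h2

/-- The retraction is `𝔸`-linear. -/
theorem retraction_smul (π : ℂ →ₗ[𝕂] 𝕂) (a : 𝔸) (x : ℂ) :
    (π ((a : ℂ) * x) : ℂ) = (a : ℂ) * (π x : ℂ) := by
  have h : (a : ℂ) * x = (⟨(a : ℂ), coe_mem_algebraicClosure a⟩ : 𝕂) • x := rfl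
  rw [h, map_smul]
  rfl

/-- The retraction is `ℤ`-linear. -/
theorem retraction_zsmul (π : ℂ →ₗ[𝕂] 𝕂) (n : ℤ) (x : ℂ) :
    (π (n • x) : ℂ) = (n : ℂ) * (π x : ℂ) := by
  rw [map_zsmul]
  simp

theorem retraction_add (π : ℂ →ₗ[𝕂] 𝕂) (x y : ℂ) :
    (π (x + y) : ℂ) = (π x : ℂ) + (π y : ℂ) := by
  rw [map_add]; rfl

/-- **Denominator lemma.**  For a finite set `T ⊆ ℂ` there is an integer `D ≠ 0` such that
for every residue map `r : 𝔸 → k` with `r D ≠ 0`, an algebraic integer lying in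
`ker r • (𝔸-span of the ℤ-span of T)` is killed by `r`. -/
theorem exists_denominator (T : Finset ℂ) :
    ∃ D : ℤ, D ≠ 0 ∧ ∀ (k : Type u) [Field k] (r : 𝔸 →+* k), r (D : 𝔸) ≠ 0 →
      ∀ c : 𝔸, (c : ℂ) ∈ (RingHom.ker r) •
        Submodule.span 𝔸 (Submodule.span ℤ (T : Set ℂ) : Set ℂ) → r c = 0 := by
  obtain ⟨π, hπ⟩ := exists_retraction
  obtain ⟨D, hD, hDT⟩ := exists_common_denominator π T
  refine ⟨D, hD, ?_⟩
  intro k _ r hrD c hc
  -- step 1: `D * π x` is integral for `x` in the `ℤ`-span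
  have h1 : ∀ x ∈ Submodule.span ℤ (T : Set ℂ), IsIntegral ℤ ((D : ℂ) * (π x : ℂ)) := by
    intro x hx
    induction hx using Submodule.span_induction with
    | mem x hx => exact hDT x hx
    | zero => simp [isIntegral_zero]
    | add x y _ _ hx hy =>
      have h := hx.add hy
      rw [retraction_add, mul_add]; exact h
    | smul n x _ hx =>
      have h0 : IsIntegral ℤ ((n : ℂ)) := isIntegral_algebraMap (R := ℤ) (A := ℂ) (x := n)
      have h := h0.mul hx
      rw [retraction_zsmul, mul_left_comm]; exact h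
  -- step 2: the same on the `𝔸`-span
  have h2 : ∀ x ∈ Submodule.span 𝔸 (Submodule.span ℤ (T : Set ℂ) : Set ℂ),
      IsIntegral ℤ ((D : ℂ) * (π x : ℂ)) := by
    intro x hx
    induction hx using Submodule.span_induction with
    | mem x hx => exact h1 x hx
    | zero => simp [isIntegral_zero]
    | add x y _ _ hx hy =>
      have h := hx.add hy
      rw [retraction_add, mul_add]; exact h
    | smul a x _ hx =>
      have h := a.2.mul hx
      have e : a • x = (a : ℂ) * x := rfl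
      rw [e, retraction_smul, mul_left_comm]; exact h
  -- step 3: `D * π x` is in `ker r` for `x ∈ ker r • Λ`
  have h3 : ∀ x ∈ (RingHom.ker r) •
      Submodule.span 𝔸 (Submodule.span ℤ (T : Set ℂ) : Set ℂ),
      ∃ m : 𝔸, r m = 0 ∧ (m : ℂ) = (D : ℂ) * (π x : ℂ) := by
    intro x hx
    refine Submodule.smul_induction_on hx ?_ ?_
    · intro a ha x hx
      refine ⟨a * ⟨_, h2 x hx⟩, ?_, ?_⟩
      · rw [map_mul, RingHom.mem_ker.mp ha, zero_mul]
      · have e : a • x = (a : ℂ) * x := rfl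
        rw [e, retraction_smul, mul_left_comm]
        rfl
    · rintro x y ⟨m, hm, hmx⟩ ⟨n, hn, hny⟩
      refine ⟨m + n, by rw [map_add, hm, hn, add_zero], ?_⟩
      rw [retraction_add, mul_add, ← hmx, ← hny]; rfl
  obtain ⟨m, hm, hmc⟩ := h3 _ hc
  have hπc : (π (c : ℂ) : ℂ) = c := by
    have := hπ ⟨(c : ℂ), coe_mem_algebraicClosure c⟩
    exact congrArg (fun z : 𝕂 => (z : ℂ)) this
  rw [hπc] at hmc
  have hm' : m = (D : 𝔸) * c := by
    apply Subtype.ext
    rw [hmc]; push_cast; rfl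
  rw [hm', map_mul] at hm
  exact (mul_eq_zero.mp hm).resolve_left hrD

/-! ### Step 2 of the route in coefficient form -/

open Finset

/-- The `𝔸`-span of the `ℤ`-span of a finite set of complex numbers. -/
def coeffSpan (T : Finset ℂ) : Submodule 𝔸 ℂ :=
  Submodule.span 𝔸 (Submodule.span ℤ (T : Set ℂ) : Set ℂ)

theorem mem_coeffSpan_of_mem {T : Finset ℂ} {x : ℂ} (hx : x ∈ Submodule.span ℤ (T : Set ℂ)) :
    x ∈ coeffSpan T :=
  Submodule.subset_span hx

/-- The `q`-coefficients of a product `f * E`: the Cauchy product of the coefficient sequences. -/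
def cauchy (a : ℕ → ℂ) (e : ℕ → 𝔸) (n : ℕ) : ℂ :=
  ∑ ij ∈ antidiagonal n, a ij.1 * (e ij.2 : ℂ)

theorem coe_mul_mem (I : Submodule 𝔸 ℂ) (c : 𝔸) {x : ℂ} (hx : x ∈ I) : (c : ℂ) * x ∈ I :=
  I.smul_mem c hx

theorem coe_mul_mem_smul {J : Ideal 𝔸} {Lam : Submodule 𝔸 ℂ} {c : 𝔸} (hc : c ∈ J) {x : ℂ}
    (hx : x ∈ Lam) : (c : ℂ) * x ∈ J • Lam :=
  Submodule.smul_mem_smul hc hx

/-- `f * E ≡ f` coefficientwise modulo `ker r • Λ` when `E ≡ 1` modulo `ker r`. -/
theorem cauchy_sub_mem (a : ℕ → ℂ) (e : ℕ → 𝔸) (Lam : Submodule 𝔸 ℂ) (ha : ∀ n, a n ∈ Lam)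
    {k : Type*} [Field k] (r : 𝔸 →+* k) (he : ∀ n, 1 ≤ n → r (e n) = 0) (he0 : r (e 0) = 1)
    (n : ℕ) : cauchy a e n - a n ∈ (RingHom.ker r) • Lam := by
  classical
  have hmem : ((n, 0) : ℕ × ℕ) ∈ antidiagonal n := by simp
  have hsplit : cauchy a e n = a n * (e 0 : ℂ) +
      ∑ ij ∈ (antidiagonal n).erase (n, 0), a ij.1 * (e ij.2 : ℂ) := by
    unfold cauchy
    rw [Finset.add_sum_erase _ (fun ij : ℕ × ℕ => a ij.1 * (e ij.2 : ℂ)) hmem]
  have h0 : ((e 0 - 1 : 𝔸) : ℂ) * a n ∈ (RingHom.ker r) • Lam := by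
    apply coe_mul_mem_smul _ (ha n)
    rw [RingHom.mem_ker, map_sub, he0, map_one, sub_self]
  have h1 : ∑ ij ∈ (antidiagonal n).erase (n, 0), a ij.1 * (e ij.2 : ℂ)
      ∈ (RingHom.ker r) • Lam := by
    apply Submodule.sum_mem
    intro ij hij
    rw [mul_comm]
    apply coe_mul_mem_smul _ (ha _)
    rw [RingHom.mem_ker]
    apply he
    rcases Finset.mem_erase.mp hij with ⟨hne, hij'⟩
    rw [HasAntidiagonal.mem_antidiagonal] at hij'
    by_contra hlt
    apply hne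
    have h2 : ij.2 = 0 := by omega
    ext
    · simp only; omega
    · simp only; omega
  have key : cauchy a e n - a n = ((e 0 - 1 : 𝔸) : ℂ) * a n +
      ∑ ij ∈ (antidiagonal n).erase (n, 0), a ij.1 * (e ij.2 : ℂ) := by
    rw [hsplit]; push_cast; ring
  rw [key]
  exact Submodule.add_mem _ h0 h1

/-- **Step 2, congruence.**  If `a` satisfies the formal Hecke relation at `p` with eigenvalue
`αp` and character value `εp`, and `p * ψp ≡ εp`, `E ≡ 1` modulo `ker r`, then the Cauchy product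
`b = a * e` satisfies the weight-two relation with character value `ψp` modulo `ker r • Λ`. -/
theorem step2_congr (a : ℕ → ℂ) (e : ℕ → 𝔸) (Lam : Submodule 𝔸 ℂ) (ha : ∀ n, a n ∈ Lam)
    {k : Type*} [Field k] (r : 𝔸 →+* k) (he : ∀ n, 1 ≤ n → r (e n) = 0) (he0 : r (e 0) = 1)
    (p : ℕ) (αp εp ψp : 𝔸) (hψ : r ((p : 𝔸) * ψp) = r εp)
    (hT : ∀ n, a (p * n) + (εp : ℂ) * (if p ∣ n then a (n / p) else 0) = (αp : ℂ) * a n)
    (n : ℕ) :
    cauchy a e (p * n) + (p : ℂ) * (ψp : ℂ) * (if p ∣ n then cauchy a e (n / p) else 0)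
      - (αp : ℂ) * cauchy a e n ∈ (RingHom.ker r) • Lam := by
  have hδ := cauchy_sub_mem a e Lam ha r he he0
  have hker : ((p : 𝔸) * ψp - εp) ∈ RingHom.ker r := by
    rw [RingHom.mem_ker, map_sub, hψ, sub_self]
  have hpc : (((p : 𝔸) * ψp : 𝔸) : ℂ) = (p : ℂ) * (ψp : ℂ) := by push_cast; rfl
  have hpc' : (((p : 𝔸) * ψp - εp : 𝔸) : ℂ) = (p : ℂ) * (ψp : ℂ) - (εp : ℂ) := by
    push_cast; rfl
  have hTn := hT n
  by_cases hpn : p ∣ n
  · rw [if_pos hpn] at hTn ⊢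
    have h1 := hδ (p * n)
    have h2 := coe_mul_mem _ ((p : 𝔸) * ψp) (hδ (n / p))
    have h3 := coe_mul_mem _ αp (hδ n)
    have h4 := coe_mul_mem_smul hker (ha (n / p))
    have key : cauchy a e (p * n) + (p : ℂ) * (ψp : ℂ) * cauchy a e (n / p)
        - (αp : ℂ) * cauchy a e n
        = (cauchy a e (p * n) - a (p * n))
          + (((p : 𝔸) * ψp : 𝔸) : ℂ) * (cauchy a e (n / p) - a (n / p))
          - (αp : ℂ) * (cauchy a e n - a n)
          + (((p : 𝔸) * ψp - εp : 𝔸) : ℂ) * a (n / p) := by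
      rw [hpc, hpc']
      linear_combination hTn
    rw [key]
    exact Submodule.add_mem _ (Submodule.sub_mem _ (Submodule.add_mem _ h1 h2) h3) h4
  · rw [if_neg hpn] at hTn ⊢
    have h1 := hδ (p * n)
    have h3 := coe_mul_mem _ αp (hδ n)
    have key : cauchy a e (p * n) + (p : ℂ) * (ψp : ℂ) * 0 - (αp : ℂ) * cauchy a e n
        = (cauchy a e (p * n) - a (p * n)) - (αp : ℂ) * (cauchy a e n - a n) := by
      linear_combination hTn
    rw [key]
    exact Submodule.sub_mem _ h1 h3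

theorem cauchy_one (a : ℕ → ℂ) (e : ℕ → 𝔸) (ha0 : a 0 = 0) (ha1 : a 1 = 1) :
    cauchy a e 1 = (e 0 : ℂ) := by
  unfold cauchy
  have h : antidiagonal 1 = {((0, 1) : ℕ × ℕ), (1, 0)} := by decide
  rw [h, Finset.sum_pair (by decide)]
  simp [ha0, ha1]

/-- **Step 2, normalisation.**  If `(ker r • Λ) ∩ 𝔸 ⊆ ker r` (denominator lemma) and `a 1 = 1`,
then `c * (a * e) ∈ ker r • Λ` coefficientwise forces `r c = 0` (look at the first
coefficient). -/
theorem step2_one (a : ℕ → ℂ) (e : ℕ → 𝔸) (Lam : Submodule 𝔸 ℂ) (ha : ∀ n, a n ∈ Lam)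
    (ha0 : a 0 = 0) (ha1 : a 1 = 1) {k : Type*} [Field k] (r : 𝔸 →+* k) (he0 : r (e 0) = 1)
    (hD : ∀ c : 𝔸, (c : ℂ) ∈ (RingHom.ker r) • Lam → r c = 0) (c : 𝔸)
    (hc : (c : ℂ) * cauchy a e 1 ∈ (RingHom.ker r) • Lam) : r c = 0 := by
  apply hD
  rw [cauchy_one a e ha0 ha1] at hc
  have hker : c * (e 0 - 1) ∈ RingHom.ker r := by
    rw [RingHom.mem_ker, map_mul, map_sub, he0, map_one, sub_self, mul_zero]
  have h1 : (1 : ℂ) ∈ Lam := ha1 ▸ ha 1
  have h2 := coe_mul_mem_smul hker h1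
  have key : (c : ℂ) = (c : ℂ) * (e 0 : ℂ) - ((c * (e 0 - 1) : 𝔸) : ℂ) * 1 := by
    push_cast; ring
  rw [key]
  exact Submodule.sub_mem _ hc h2

/-- **Step 2, packaged.**  For a coefficient sequence `a` with `a 0 = 0`, `a 1 = 1` and values in
the `ℤ`-span of a finite set `T`, there is an integer `D ≠ 0` such that for every residue map `r`
with `r D ≠ 0` and every `e ≡ 1` modulo `ker r`: the Cauchy product `b = a * e` satisfies the
weight-two Hecke congruences modulo `ker r • coeffSpan T`, and `c * b ≡ 0` forces `r c = 0`. -/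
theorem step2 (a : ℕ → ℂ) (T : Finset ℂ) (haT : ∀ n, a n ∈ Submodule.span ℤ (T : Set ℂ))
    (ha0 : a 0 = 0) (ha1 : a 1 = 1) :
    ∃ D : ℤ, D ≠ 0 ∧ ∀ (k : Type u) [Field k] (r : 𝔸 →+* k), r (D : 𝔸) ≠ 0 →
      ∀ e : ℕ → 𝔸, r (e 0) = 1 → (∀ n, 1 ≤ n → r (e n) = 0) →
      (∀ (p : ℕ) (αp εp ψp : 𝔸), r ((p : 𝔸) * ψp) = r εp →
        (∀ n, a (p * n) + (εp : ℂ) * (if p ∣ n then a (n / p) else 0) = (αp : ℂ) * a n) →
        ∀ n, cauchy a e (p * n) + (p : ℂ) * (ψp : ℂ) * (if p ∣ n then cauchy a e (n / p) else 0)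
          - (αp : ℂ) * cauchy a e n ∈ (RingHom.ker r) • coeffSpan T) ∧
      ∀ c : 𝔸, (c : ℂ) * cauchy a e 1 ∈ (RingHom.ker r) • coeffSpan T → r c = 0 := by
  obtain ⟨D, hD, h⟩ := exists_denominator.{u} T
  refine ⟨D, hD, ?_⟩
  intro k _ r hrD e he0 he
  have ha : ∀ n, a n ∈ coeffSpan T := fun n => mem_coeffSpan_of_mem (haT n)
  refine ⟨?_, ?_⟩
  · intro p αp εp ψp hψ hT n
    exact step2_congr a e (coeffSpan T) ha r he he0 p αp εp ψp hψ hT n
  · intro c hc
    exact step2_one a e (coeffSpan T) ha ha0 ha1 r he0 (h k r hrD) c hc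

end Fermat.Agent.S48.Denom
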