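/-
S48 (Deligne–Serre), brick B — exit file (helper170): Hecke operators `T_p` (`p ∤ M` prime) and
diamond operators `⟨d⟩` on `S_k(Γ₁(M))` and `M_k(Γ₁(M))`.

CONVENTION (classical): `⟨d⟩ f = f ∣[k] γ_d` with `γ_d ∈ Γ₀(M)` of LOWER RIGHT entry `≡ d`;
`T_p f = Σ_{j < p} f ∣[k] [[1, j], [0, p]] + (⟨p⟩ f) ∣[k] [[p, 0], [0, 1]]`.

* `Hecke1/Defs`    : `IsInv`, `diamondFun`, `slash_eq_diamondFun`, `diamond`, `diamondMF`;
* `Hecke1/Tp`      : explicit coset identities, master coset lemma `heckeT1Fun_slash`;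
* `Hecke1/Bundle`  : `heckeT1`, `heckeT1MF`, `diamond_heckeT1`, `heckeT1_slash`;
* `Hecke1/QExp`    : `HasQ`, `qCoeff_heckeT1`, `cuspForm_ext_qCoeff`;
* `Hecke1/Comm`    : `heckeT1_comm`;
* `Hecke1/Level`   : `levelIncl`, `diamond_levelIncl`, `heckeT1_levelIncl`;
* `Hecke1/Product` : `mulForm`, `mulLevel`, `diamond_mulLevel`, `qCoeff_mulLevel`,
                     `diamond_mulLevel_of_eigen`.
-/
import Fermat.Agent.S48.Hecke1.Comm
import Fermat.Agent.S48.Hecke1.Product
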