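/-
S48 (Deligne–Serre), brick D, analytic core without Liouville (helper51).

`E1 z τ = ζ_Weierstrass(z; ℤτ + ℤ) - G₂(τ) z`, written as an absolutely convergent lattice sum
minus Mathlib's `EisensteinSeries.G2`.  Its transformation law under every `γ ∈ SL(2, ℤ)` follows
from one reindexing of the lattice sum and Mathlib's `G2_slash_action`.
-/
import Mathlib

set_option autoImplicit false

open UpperHalfPlane hiding I
open Complex Real EisensteinSeries ModularForm MatrixGroups Matrix Filter Topology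

noncomputable section

namespace Fermat.Agent.S48.Eis1Zeta

/-- The summand of the Weierstrass zeta function: `1/(z-ω) + 1/ω + z/ω²`; for `ω = 0` it is
`1/z` (division by zero is zero). -/
def zs (z ω : ℂ) : ℂ := 1 / (z - ω) + 1 / ω + z / ω ^ 2

lemma zs_zero_right (z : ℂ) : zs z 0 = 1 / z := by simp [zs]

/-- Homogeneity of the summand. -/
lemma zs_div (c z ω : ℂ) (hc : c ≠ 0) : zs (z / c) (ω / c) = c * zs z ω := by
  unfold zs
  by_cases hω : ω = 0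
  · subst hω
    by_cases hz : z = 0
    · subst hz; simp
    · simp; field_simp
  · by_cases hzω : z - ω = 0
    · have : z / c - ω / c = 0 := by rw [← sub_div, hzω, zero_div]
      rw [this, hzω]; simp; field_simp
    · have h1 : z / c - ω / c ≠ 0 := by
        rw [← sub_div]; exact div_ne_zero hzω hc
      field_simp

/-- The lattice point `v₀ τ + v₁`. -/
def lat (v : Fin 2 → ℤ) (τ : ℍ) : ℂ := (v 0 : ℂ) * (τ : ℂ) + (v 1 : ℂ)

/-- Lattice points under the Möbius action. -/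
lemma lat_smul (v : Fin 2 → ℤ) (γ : SL(2, ℤ)) (τ : ℍ) :
    lat v (γ • τ) = lat (v ᵥ* γ) τ / denom γ τ := by
  have h := eisSummand_SL2_apply (-1) v γ τ
  simp only [eisSummand, neg_neg, zpow_one, _root_.zpow_neg] at h
  unfold lat
  rw [div_eq_inv_mul]
  exact h

/-- The Weierstrass zeta function of the lattice `ℤτ + ℤ`, as an (absolutely convergent) sum over
`ℤ²`; the term of `v = 0` is `1/z`. -/
def Zt (z : ℂ) (τ : ℍ) : ℂ := ∑' v : Fin 2 → ℤ, zs z (lat v τ)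

lemma coe_mul_inv (γ : SL(2, ℤ)) :
    (γ : Matrix (Fin 2) (Fin 2) ℤ) * ((γ⁻¹ : SL(2, ℤ)) : Matrix (Fin 2) (Fin 2) ℤ) = 1 :=
  congrArg Subtype.val (mul_inv_cancel γ)

lemma coe_inv_mul (γ : SL(2, ℤ)) :
    ((γ⁻¹ : SL(2, ℤ)) : Matrix (Fin 2) (Fin 2) ℤ) * (γ : Matrix (Fin 2) (Fin 2) ℤ) = 1 :=
  congrArg Subtype.val (inv_mul_cancel γ)

/-- The equivalence `v ↦ v ᵥ* γ` of `ℤ²`. -/
def vecMulEquiv (γ : SL(2, ℤ)) : (Fin 2 → ℤ) ≃ (Fin 2 → ℤ) where
  toFun v := v ᵥ* (γ : Matrix (Fin 2) (Fin 2) ℤ)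
  invFun v := v ᵥ* ((γ⁻¹ : SL(2, ℤ)) : Matrix (Fin 2) (Fin 2) ℤ)
  left_inv v := by
    show (v ᵥ* (γ : Matrix (Fin 2) (Fin 2) ℤ)) ᵥ* ((γ⁻¹ : SL(2, ℤ)) : Matrix (Fin 2) (Fin 2) ℤ) = v
    rw [vecMul_vecMul, coe_mul_inv, vecMul_one]
  right_inv v := by
    show (v ᵥ* ((γ⁻¹ : SL(2, ℤ)) : Matrix (Fin 2) (Fin 2) ℤ)) ᵥ* (γ : Matrix (Fin 2) (Fin 2) ℤ) = v
    rw [vecMul_vecMul, coe_inv_mul, vecMul_one]

/-- **Homogeneity of the zeta function** under `SL(2, ℤ)`. -/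
theorem Zt_smul (γ : SL(2, ℤ)) (z : ℂ) (τ : ℍ) :
    Zt (z / denom γ τ) (γ • τ) = denom γ τ * Zt z τ := by
  have hd : denom γ τ ≠ 0 := denom_ne_zero γ τ
  unfold Zt
  rw [← tsum_mul_left, ← (vecMulEquiv γ).tsum_eq (fun v => denom γ τ * zs z (lat v τ))]
  refine tsum_congr fun v => ?_
  rw [lat_smul, zs_div _ _ _ hd]
  rfl

/-- The weight one Eisenstein–Kronecker function `E₁(z; τ) = ζ(z; τ) - G₂(τ) z`. -/
def E1 (z : ℂ) (τ : ℍ) : ℂ := Zt z τ - G2 τ * z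

/-- `G₂` under the Möbius action (a restatement of Mathlib's `G2_slash_action`). -/
lemma G2_smul (γ : SL(2, ℤ)) (τ : ℍ) :
    G2 (γ • τ) = denom γ τ ^ 2 * G2 τ - 2 * π * I * (γ 1 0 : ℤ) * denom γ τ := by
  have hd : denom γ τ ≠ 0 := denom_ne_zero γ τ
  have h := congrFun (G2_slash_action γ) τ
  simp only [SL_slash_apply, Pi.sub_apply, D2] at h
  have h2 : G2 (γ • τ) = (G2 τ - 2 * π * I * (γ 1 0 : ℤ) / denom γ τ) * denom γ τ ^ 2 := by
    rw [← h]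
    rw [_root_.zpow_neg, mul_assoc, show (denom γ τ ^ (2 : ℤ))⁻¹ * denom γ τ ^ 2 = 1 by
      rw [zpow_ofNat]; exact inv_mul_cancel₀ (pow_ne_zero 2 hd)]
    rw [mul_one]
  rw [h2]
  field_simp

/-- **The transformation law of `E₁`** under every `γ ∈ SL(2, ℤ)`. -/
theorem E1_smul (γ : SL(2, ℤ)) (z : ℂ) (τ : ℍ) :
    E1 (z / denom γ τ) (γ • τ) = denom γ τ * E1 z τ + 2 * π * I * (γ 1 0 : ℤ) * z := by
  have hd : denom γ τ ≠ 0 := denom_ne_zero γ τ
  unfold E1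
  rw [Zt_smul, G2_smul]
  field_simp
  ring


/-! ### Division values -/

/-- The division value `E_(a,b)(τ) = E₁((aτ + b)/ℓ; τ) + 2πi a/ℓ`. -/
def Ediv (ℓ : ℕ) (a b : ℤ) (τ : ℍ) : ℂ :=
  E1 (((a : ℂ) * (τ : ℂ) + (b : ℂ)) / (ℓ : ℂ)) τ + 2 * π * I * (a : ℂ) / (ℓ : ℂ)

lemma coe_smul_eq (γ : SL(2, ℤ)) (τ : ℍ) :
    ((γ • τ : ℍ) : ℂ) =
      (((γ 0 0 : ℤ) : ℂ) * (τ : ℂ) + ((γ 0 1 : ℤ) : ℂ)) / denom γ τ := by
  have h := lat_smul ![1, 0] γ τ
  simp only [lat, vecMul, vec2_dotProduct] at h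
  simpa using h

lemma denom_eq (γ : SL(2, ℤ)) (τ : ℍ) :
    denom γ τ = ((γ 1 0 : ℤ) : ℂ) * (τ : ℂ) + ((γ 1 1 : ℤ) : ℂ) := by
  simp [denom]

lemma det_eq_one (γ : SL(2, ℤ)) :
    ((γ 0 0 : ℤ) : ℂ) * ((γ 1 1 : ℤ) : ℂ) - ((γ 0 1 : ℤ) : ℂ) * ((γ 1 0 : ℤ) : ℂ) = 1 := by
  have h := γ.det_coe
  rw [Matrix.det_fin_two] at h
  exact_mod_cast h

/-- **The division values are permuted by the weight one slash action of `SL(2, ℤ)`.** -/
theorem Ediv_slash (ℓ : ℕ) [NeZero ℓ] (a b : ℤ) (γ : SL(2, ℤ)) :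
    (Ediv ℓ a b) ∣[(1 : ℤ)] γ =
      Ediv ℓ (a * γ 0 0 + b * γ 1 0) (a * γ 0 1 + b * γ 1 1) := by
  ext τ
  have hd : denom γ τ ≠ 0 := denom_ne_zero γ τ
  rw [SL_slash_apply]
  unfold Ediv
  have hℓ : (ℓ : ℂ) ≠ 0 := Nat.cast_ne_zero.mpr (NeZero.ne ℓ)
  have hz : ((a : ℂ) * ((γ • τ : ℍ) : ℂ) + (b : ℂ)) / (ℓ : ℂ) =
      ((((a * γ 0 0 + b * γ 1 0 : ℤ) : ℂ) * (τ : ℂ) + ((a * γ 0 1 + b * γ 1 1 : ℤ) : ℂ)) /
        (ℓ : ℂ)) / denom γ τ := by
    rw [coe_smul_eq]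
    push_cast
    field_simp
    rw [denom_eq]
    ring
  rw [hz, E1_smul]
  have hdet := det_eq_one γ
  rw [_root_.zpow_neg, zpow_one]
  have e := denom_eq γ τ
  push_cast
  field_simp
  rw [e]
  linear_combination (-(2 * ↑π * I * (a : ℂ))) * hdet

/-! ### The cotangent series -/

local notation "ℂ_ℤ" => Complex.integerComplement

/-- The partial-fraction series of the cotangent, in `HasSum` form, valid also at `w = 0` (where
everything is zero by convention). -/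
lemma hasSum_cotTerm {w : ℂ} (hw : w ∈ ℂ_ℤ ∨ w = 0) :
    HasSum (fun n : ℕ => cotTerm w n) (π * cot (π * w) - 1 / w) := by
  rcases hw with hw | rfl
  · rw [cot_series_rep' hw]
    exact (summable_cotTerm hw).hasSum
  · have h0 : (fun n : ℕ => cotTerm (0 : ℂ) n) = fun _ => 0 := by
      funext n
      simp only [cotTerm, zero_sub, zero_add, one_div]
      rw [inv_neg]; ring
    rw [h0]
    simp [Complex.cot]

/-- Two-sided form: `∑_{n ∈ ℤ} (1/(w-n) + 1/(w'+n)) = π cot πw + π cot πw'`. -/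
lemma tsum_int_cot {w w' : ℂ} (hw : w ∈ ℂ_ℤ ∨ w = 0) (hw' : w' ∈ ℂ_ℤ ∨ w' = 0)
    (hs : Summable fun n : ℤ => 1 / (w - n) + 1 / (w' + n)) :
    ∑' n : ℤ, (1 / (w - n) + 1 / (w' + n)) = π * cot (π * w) + π * cot (π * w') := by
  set g : ℤ → ℂ := fun n => 1 / (w - n) + 1 / (w' + n) with hg
  have h1 : HasSum (fun n : ℕ => g n + g (-n)) (∑' n, g n + g 0) := hs.hasSum.nat_add_neg
  have h2 := (hasSum_nat_add_iff' 1).mpr h1
  have h3 : HasSum (fun n : ℕ => cotTerm w n + cotTerm w' n)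
      ((π * cot (π * w) - 1 / w) + (π * cot (π * w') - 1 / w')) :=
    (hasSum_cotTerm hw).add (hasSum_cotTerm hw')
  have h4 : (fun n : ℕ => g ((n + 1 : ℕ) : ℤ) + g (-((n + 1 : ℕ) : ℤ))) =
      fun n : ℕ => cotTerm w n + cotTerm w' n := by
    funext n
    simp only [hg, cotTerm]
    push_cast
    ring
  rw [h4] at h2
  have h5 := h2.unique h3
  simp only [Finset.range_one, Finset.sum_singleton, hg] at h5
  push_cast at h5
  simp only [neg_zero, sub_zero, add_zero] at h5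
  linear_combination h5


/-! ### Absolute convergence and the rows of the lattice sum -/

lemma zs_eq (z ω : ℂ) (hω : ω ≠ 0) (hzω : z - ω ≠ 0) : zs z ω = z ^ 2 / (ω ^ 2 * (z - ω)) := by
  unfold zs
  field_simp
  ring

/-- The lattice sum defining `Zt` is absolutely convergent. -/
theorem summable_zs (z : ℂ) (τ : ℍ) : Summable fun v : Fin 2 → ℤ => zs z (lat v τ) := by
  apply summable_of_isBigO_rpow_norm (a := 3) (by norm_num)
  have hr : 0 < r τ := r_pos τ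
  refine Asymptotics.IsBigO.of_bound (2 * ‖z‖ ^ 2 / r τ ^ 3) ?_
  have hT : Tendsto (fun v : Fin 2 → ℤ => ‖v‖) cofinite atTop := by
    simpa [Function.comp_def] using
      tendsto_norm_comp_cofinite_atTop_of_isClosedEmbedding
        (IsClosedEmbedding.id : IsClosedEmbedding (id : (Fin 2 → ℤ) → (Fin 2 → ℤ)))
  filter_upwards [hT.eventually (eventually_ge_atTop ((2 * ‖z‖ + 1) / r τ))] with v hv
  have hvpos : 0 < ‖v‖ := lt_of_lt_of_le (by positivity) hv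
  have hv0 : v ≠ 0 := norm_pos_iff.mp hvpos
  have h1 : r τ * ‖v‖ ≤ ‖lat v τ‖ := r_mul_max_le τ hv0
  have h2 : 2 * ‖z‖ + 1 ≤ r τ * ‖v‖ := by
    have := (div_le_iff₀ hr).mp hv
    linarith
  have hω : 2 * ‖z‖ + 1 ≤ ‖lat v τ‖ := h2.trans h1
  have hω0 : lat v τ ≠ 0 := by
    intro h; rw [h, norm_zero] at hω; linarith [norm_nonneg z]
  have hzω : z - lat v τ ≠ 0 := by
    intro h
    have : z = lat v τ := sub_eq_zero.mp h
    rw [← this] at hω; linarith [norm_nonneg z]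
  have h3 : ‖lat v τ‖ / 2 ≤ ‖z - lat v τ‖ := by
    have := norm_sub_norm_le (lat v τ) z
    rw [norm_sub_rev] at this
    linarith
  have hωpos : 0 < ‖lat v τ‖ := norm_pos_iff.mpr hω0
  rw [zs_eq z _ hω0 hzω, norm_div, norm_mul, norm_pow, norm_pow, Real.norm_eq_abs,
    abs_of_nonneg (by positivity : (0 : ℝ) ≤ (‖v‖ ^ (3 : ℝ))⁻¹)]
  have h4 : ‖lat v τ‖ ^ 2 * (‖lat v τ‖ / 2) ≤ ‖lat v τ‖ ^ 2 * ‖z - lat v τ‖ :=
    mul_le_mul_of_nonneg_left h3 (by positivity)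
  have h5 : (r τ * ‖v‖) ^ 3 / 2 ≤ ‖lat v τ‖ ^ 2 * (‖lat v τ‖ / 2) := by
    have : (r τ * ‖v‖) ^ 3 ≤ ‖lat v τ‖ ^ 3 := pow_le_pow_left₀ (by positivity) h1 3
    nlinarith
  have h6 : (0 : ℝ) < (r τ * ‖v‖) ^ 3 / 2 := by positivity
  calc ‖z‖ ^ 2 / (‖lat v τ‖ ^ 2 * ‖z - lat v τ‖)
      ≤ ‖z‖ ^ 2 / ((r τ * ‖v‖) ^ 3 / 2) :=
        div_le_div_of_nonneg_left (by positivity) h6 (h5.trans h4)
    _ = 2 * ‖z‖ ^ 2 / r τ ^ 3 * (‖v‖ ^ (3 : ℝ))⁻¹ := by
        rw [show (‖v‖ ^ (3 : ℝ)) = ‖v‖ ^ (3 : ℕ) by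
          rw [← Real.rpow_natCast]; norm_num]
        field_simp

/-- The same, indexed by `ℤ × ℤ`. -/
lemma summable_zs_prod (z : ℂ) (τ : ℍ) :
    Summable fun p : ℤ × ℤ => zs z ((p.1 : ℂ) * (τ : ℂ) + (p.2 : ℂ)) := by
  have h := (finTwoArrowEquiv ℤ).symm.summable_iff.mpr (summable_zs z τ)
  refine h.congr fun p => ?_
  simp [lat]

/-- `Zt` as an iterated sum. -/
lemma Zt_eq_tsum_tsum (z : ℂ) (τ : ℍ) :
    Zt z τ = ∑' m : ℤ, ∑' n : ℤ, zs z ((m : ℂ) * (τ : ℂ) + (n : ℂ)) := by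
  have h := summable_zs_prod z τ
  rw [← Summable.tsum_prod' h h.prod_factor, Zt, ← (finTwoArrowEquiv ℤ).symm.tsum_eq]
  refine tsum_congr fun p => ?_
  simp [lat]

lemma int_mul_mem_integerComplement_or (m : ℤ) (τ : ℍ) :
    (m : ℂ) * (τ : ℂ) ∈ ℂ_ℤ ∨ (m : ℂ) * (τ : ℂ) = 0 := by
  by_cases hm : m = 0
  · right; simp [hm]
  · left
    rw [Complex.mem_integerComplement_iff]
    rintro ⟨n, hn⟩
    have him := congrArg Complex.im hn
    simp only [Complex.intCast_im, Complex.mul_im, Complex.intCast_re, zero_mul, add_zero] at him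
    have hτ : 0 < (τ : ℂ).im := τ.im_pos
    have : (m : ℝ) * (τ : ℂ).im ≠ 0 := mul_ne_zero (by exact_mod_cast hm) hτ.ne'
    exact this him.symm

/-- The `m`-th row of the lattice sum. -/
theorem tsum_row (z : ℂ) (τ : ℍ) (hz : ∀ v : Fin 2 → ℤ, z ≠ lat v τ) (m : ℤ) :
    ∑' n : ℤ, zs z ((m : ℂ) * (τ : ℂ) + (n : ℂ)) =
      π * cot (π * (z - m * τ)) + π * cot (π * (m * τ)) + z * e2Summand m τ := by
  have hrow : Summable fun n : ℤ => zs z ((m : ℂ) * (τ : ℂ) + (n : ℂ)) :=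
    (summable_zs_prod z τ).prod_factor m
  have he : Summable fun n : ℤ => z * eisSummand 2 ![m, n] τ :=
    (e2Summand_summable m τ).mul_left z
  have hsplit : ∀ n : ℤ, zs z ((m : ℂ) * (τ : ℂ) + (n : ℂ)) =
      (1 / ((z - m * τ) - n) + 1 / ((m : ℂ) * τ + n)) + z * eisSummand 2 ![m, n] τ := by
    intro n
    simp only [zs, eisSummand, Matrix.cons_val_zero, Matrix.cons_val_one, Matrix.cons_val_fin_one]
    rw [show (-(2 : ℤ)) = -((2 : ℕ) : ℤ) by norm_num, _root_.zpow_neg, zpow_natCast]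
    ring
  have hg : Summable fun n : ℤ => 1 / ((z - m * τ) - n) + 1 / ((m : ℂ) * τ + n) := by
    have := hrow.sub he
    refine this.congr fun n => ?_
    rw [hsplit n]; ring
  have hw : (z - m * τ) ∈ ℂ_ℤ ∨ (z - m * τ) = 0 := by
    left
    rw [Complex.mem_integerComplement_iff]
    rintro ⟨n, hn⟩
    apply hz ![m, n]
    simp only [lat, Matrix.cons_val_zero, Matrix.cons_val_one, Matrix.cons_val_fin_one]
    linear_combination -hn
  rw [tsum_congr hsplit, Summable.tsum_add hg he, tsum_int_cot hw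
    (int_mul_mem_integerComplement_or m τ) hg, tsum_mul_left]
  rfl

/-! ### The cotangent form of `E₁` -/

lemma cot_neg_eq (x : ℂ) : cot (-x) = -cot x := by
  rw [Complex.cot_eq_cos_div_sin, Complex.cot_eq_cos_div_sin, Complex.cos_neg, Complex.sin_neg,
    div_neg]

/-- Symmetric partial sums of the rows, paired as `±m`. -/
lemma sum_Icc_rows (z : ℂ) (τ : ℍ) (N : ℕ) :
    ∑ m ∈ Finset.Icc (-(N : ℤ)) N, (π * cot (π * (z - m * τ)) + π * cot (π * (m * τ))) =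
      π * cot (π * z) + ∑ m ∈ Finset.range N,
        (π * cot (π * (z + (m + 1) * τ)) + π * cot (π * (z - (m + 1) * τ))) := by
  induction N with
  | zero => simp [Complex.cot_eq_cos_div_sin]
  | succ N ih =>
    have h := Finset.sum_Icc_succ_eq_add_endpoints
      (fun m : ℤ => (π * cot (π * (z - m * τ)) + π * cot (π * (m * τ)))) (N := N)
    rw [Finset.sum_range_succ, ← add_assoc, ← ih]
    push_cast
    rw [h]
    have e1 : (π : ℂ) * ((-((N : ℂ) + 1)) * (τ : ℂ)) = -(π * (((N : ℂ) + 1) * τ)) := by ring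
    have e2 : (π : ℂ) * (z - (-((N : ℂ) + 1)) * (τ : ℂ)) = π * (z + ((N : ℂ) + 1) * τ) := by ring
    push_cast
    rw [e1, e2, cot_neg_eq]
    ring

/-- **The cotangent form of `E₁`**: for `z` off the lattice,
`E₁(z; τ) = π cot πz + ∑_{m ≥ 1} [π cot π(z + mτ) + π cot π(z - mτ)]`. -/
theorem tendsto_E1_cot (z : ℂ) (τ : ℍ) (hz : ∀ v : Fin 2 → ℤ, z ≠ lat v τ) :
    Tendsto (fun N : ℕ => ∑ m ∈ Finset.range N,
      (π * cot (π * (z + (m + 1) * τ)) + π * cot (π * (z - (m + 1) * τ))))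
      atTop (𝓝 (E1 z τ - π * cot (π * z))) := by
  have h1 : HasSum (fun m : ℤ => ∑' n : ℤ, zs z ((m : ℂ) * (τ : ℂ) + (n : ℂ))) (Zt z τ) := by
    rw [Zt_eq_tsum_tsum]
    exact (summable_zs_prod z τ).prod.hasSum
  have h2 : HasSum (fun m : ℤ => ∑' n : ℤ, zs z ((m : ℂ) * (τ : ℂ) + (n : ℂ))) (Zt z τ)
      (SummationFilter.symmetricIcc ℤ) := h1.mono_left (SummationFilter.symmetricIcc ℤ).le_atTop
  have h3 : HasSum (fun m : ℤ => e2Summand m τ) (G2 τ) (SummationFilter.symmetricIcc ℤ) :=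
    (summable_e2Summand_symmetricIcc τ).hasSum
  have h4 : HasSum (fun m : ℤ => (π * cot (π * (z - m * τ)) + π * cot (π * (m * τ))))
      (Zt z τ - z * G2 τ) (SummationFilter.symmetricIcc ℤ) := by
    have hfun : (fun m : ℤ => (π * cot (π * (z - m * τ)) + π * cot (π * (m * τ)))) =
        fun m : ℤ => (∑' n : ℤ, zs z ((m : ℂ) * (τ : ℂ) + (n : ℂ))) - z * e2Summand m τ := by
      funext m
      rw [tsum_row z τ hz m]
      ring
    rw [hfun]
    exact h2.sub (h3.mul_left z)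
  rw [SummationFilter.hasSum_symmetricIcc_iff] at h4
  have h5 := h4.sub_const (π * cot (π * z))
  have hE : E1 z τ - π * cot (π * z) = Zt z τ - z * G2 τ - π * cot (π * z) := by
    unfold E1; ring
  rw [hE]
  refine h5.congr fun N => ?_
  rw [sum_Icc_rows]
  ring

end Fermat.Agent.S48.Eis1Zeta
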