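/-
S48 (Deligne–Serre), brick D: periodicity of the weight one division values (helper298).

On top of `Fermat.Agent.S48.Eis1Zeta` (helper51): the quasi-periods of the Weierstrass zeta
function `Zt`, computed directly from the absolutely convergent lattice sum, and the resulting
periodicity of `E1` and of the division values `Ediv ℓ a b` in `(a, b)` modulo `ℓ`.

All statements are unconditional: with the convention `1 / 0 = 0` the value of `Zt` at a lattice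
point `ω` is the quasi-period `η(ω)`, so the laws also hold at the poles, and `Ediv ℓ a b = 0`
when `ℓ ∣ a` and `ℓ ∣ b`.
-/
import Mathlib
import Fermat.Agent.S48.Eis1Zeta

set_option autoImplicit false

open UpperHalfPlane hiding I
open Complex Real EisensteinSeries ModularForm MatrixGroups Matrix Filter Topology SummationFilter

noncomputable section

namespace Fermat.Agent.S48.Eis1Per

open Fermat.Agent.S48.Eis1Zeta

/-! ### Absolute convergence of the zeta sum -/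

/-- Closed form of the zeta summand away from its poles. -/
lemma zs_eq (z ω : ℂ) (hω : ω ≠ 0) (hz : z - ω ≠ 0) :
    zs z ω = z ^ 2 / (ω ^ 2 * (z - ω)) := by
  unfold zs
  field_simp
  ring

/-- The cubic decay of the zeta summand. -/
lemma norm_zs_le (z ω : ℂ) (h : 2 * ‖z‖ + 1 ≤ ‖ω‖) :
    ‖zs z ω‖ ≤ 2 * ‖z‖ ^ 2 * (‖ω‖ ^ 3)⁻¹ := by
  have hz0 : 0 ≤ ‖z‖ := norm_nonneg z
  have hωpos : 0 < ‖ω‖ := by linarith
  have hω : ω ≠ 0 := norm_pos_iff.mp hωpos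
  have hsub : ‖ω‖ / 2 ≤ ‖z - ω‖ := by
    have h1 : ‖ω‖ - ‖z‖ ≤ ‖z - ω‖ := by
      rw [norm_sub_rev]; exact norm_sub_norm_le ω z
    linarith
  have hsubpos : 0 < ‖z - ω‖ := by linarith
  have hzω : z - ω ≠ 0 := norm_pos_iff.mp hsubpos
  rw [zs_eq z ω hω hzω, norm_div, norm_mul, norm_pow, norm_pow]
  rw [div_le_iff₀ (by positivity)]
  have h3 : 0 < ‖ω‖ ^ 3 := by positivity
  have key : ‖ω‖ ^ 3 ≤ 2 * (‖ω‖ ^ 2 * ‖z - ω‖) := by nlinarith [sq_nonneg ‖ω‖]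
  calc ‖z‖ ^ 2 = ‖z‖ ^ 2 * (‖ω‖ ^ 3)⁻¹ * ‖ω‖ ^ 3 := by field_simp
    _ ≤ ‖z‖ ^ 2 * (‖ω‖ ^ 3)⁻¹ * (2 * (‖ω‖ ^ 2 * ‖z - ω‖)) := by
        apply mul_le_mul_of_nonneg_left key (by positivity)
    _ = 2 * ‖z‖ ^ 2 * (‖ω‖ ^ 3)⁻¹ * (‖ω‖ ^ 2 * ‖z - ω‖) := by ring

lemma lat_ne_zero {v : Fin 2 → ℤ} (hv : v ≠ 0) (τ : ℍ) : lat v τ ≠ 0 := by
  have h := r_mul_max_le τ hv
  have hr := r_pos τ
  have hv' : 0 < ‖v‖ := norm_pos_iff.mpr hv
  have : 0 < ‖(v 0 : ℂ) * (τ : ℂ) + (v 1 : ℂ)‖ := lt_of_lt_of_le (mul_pos hr hv') h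
  exact norm_pos_iff.mp this

lemma norm_eisSummand_three (v : Fin 2 → ℤ) (τ : ℍ) :
    ‖eisSummand 3 v τ‖ = (‖lat v τ‖ ^ 3)⁻¹ := by
  simp only [eisSummand, lat]
  rw [_root_.zpow_neg, norm_inv, norm_zpow]
  norm_cast

/-- **Absolute convergence of the Weierstrass zeta lattice sum.** -/
theorem summable_zs (z : ℂ) (τ : ℍ) : Summable fun v : Fin 2 → ℤ => zs z (lat v τ) := by
  have h3 : Summable fun v : Fin 2 → ℤ => ‖eisSummand 3 v τ‖ :=
    summable_norm_eisSummand (by norm_num) τ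
  have hg : Summable fun v : Fin 2 → ℤ => 2 * ‖z‖ ^ 2 * ‖eisSummand 3 v τ‖ := h3.mul_left _
  refine Summable.of_norm_bounded_eventually hg ?_
  have hev : ∀ᶠ v : Fin 2 → ℤ in cofinite, ‖eisSummand 3 v τ‖ < ((2 * ‖z‖ + 1) ^ 3)⁻¹ :=
    h3.tendsto_cofinite_zero.eventually_lt_const (by positivity)
  have hne : ∀ᶠ v : Fin 2 → ℤ in cofinite, v ≠ 0 :=
    (Set.finite_singleton (0 : Fin 2 → ℤ)).compl_mem_cofinite
  filter_upwards [hev, hne] with v hv hv0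
  have hω : lat v τ ≠ 0 := lat_ne_zero hv0 τ
  have hωpos : 0 < ‖lat v τ‖ := norm_pos_iff.mpr hω
  rw [norm_eisSummand_three] at hv ⊢
  apply norm_zs_le
  have h1 : (2 * ‖z‖ + 1) ^ 3 < ‖lat v τ‖ ^ 3 := by
    have := (inv_lt_inv₀ (by positivity) (by positivity)).mp hv
    exact this
  exact (lt_of_pow_lt_pow_left₀ 3 (norm_nonneg _) h1).le

/-! ### The quasi-period along `1` -/

lemma zs_add_one_sub (z ω : ℂ) :
    zs (z + 1) ω - zs z ω = 1 / (z + 1 - ω) - 1 / (z - ω) + 1 / ω ^ 2 := by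
  unfold zs
  ring

/-- The difference family on `ℤ × ℤ`. -/
def dfam (z : ℂ) (τ : ℍ) (p : ℤ × ℤ) : ℂ :=
  1 / (z + 1 - ((p.1 : ℂ) * (τ : ℂ) + (p.2 : ℂ))) - 1 / (z - ((p.1 : ℂ) * (τ : ℂ) + (p.2 : ℂ))) +
    eisSummand 2 ![p.1, p.2] τ

lemma dfam_eq (z : ℂ) (τ : ℍ) (p : ℤ × ℤ) :
    dfam z τ p = zs (z + 1) (lat ((finTwoArrowEquiv ℤ).symm p) τ) -
      zs z (lat ((finTwoArrowEquiv ℤ).symm p) τ) := by
  rw [zs_add_one_sub]
  simp [dfam, lat, eisSummand, finTwoArrowEquiv]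

lemma summable_dfam (z : ℂ) (τ : ℍ) : Summable (dfam z τ) := by
  have h := ((summable_zs (z + 1) τ).sub (summable_zs z τ))
  have h2 := (finTwoArrowEquiv ℤ).symm.summable_iff.mpr h
  refine h2.congr fun p => ?_
  rw [dfam_eq]
  rfl

lemma tsum_dfam (z : ℂ) (τ : ℍ) : ∑' p, dfam z τ p = Zt (z + 1) τ - Zt z τ := by
  unfold Zt
  rw [← (summable_zs (z + 1) τ).tsum_sub (summable_zs z τ),
    ← (finTwoArrowEquiv ℤ).symm.tsum_eq]
  exact tsum_congr fun p => dfam_eq z τ p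

/-- The telescoping part of a row has sum zero. -/
lemma tsum_telescope (x : ℂ)
    (hs : Summable fun n : ℤ => 1 / (x + 1 - (n : ℂ)) - 1 / (x - (n : ℂ))) :
    ∑' n : ℤ, (1 / (x + 1 - (n : ℂ)) - 1 / (x - (n : ℂ))) = 0 := by
  have h1 : HasSum (fun n : ℤ => 1 / (x + 1 - (n : ℂ)) - 1 / (x - (n : ℂ)))
      (∑' n : ℤ, (1 / (x + 1 - (n : ℂ)) - 1 / (x - (n : ℂ)))) (symmetricIco ℤ) :=
    Filter.Tendsto.mono_left hs.hasSum (symmetricIco ℤ).le_atTop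
  rw [hasSum_symmetricIco_int_iff] at h1
  have h2 : ∀ N : ℕ, ∑ n ∈ Finset.Ico (-(N : ℤ)) (N : ℤ),
      (1 / (x + 1 - (n : ℂ)) - 1 / (x - (n : ℂ))) =
      1 / (x + 1 + (N : ℂ)) - 1 / (x + 1 - (N : ℂ)) := by
    intro N
    have := Finset.sum_Ico_int_sub N (fun n : ℤ => 1 / (x + 1 - (n : ℂ)))
    simp only [Int.cast_add, Int.cast_one, Int.cast_neg, Int.cast_natCast] at this
    have e : ∀ n : ℤ, x + 1 - ((n : ℂ) + 1) = x - (n : ℂ) := fun n => by ring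
    simp only [e, sub_neg_eq_add] at this
    exact this
  simp only [h2] at h1
  have h3 : Tendsto (fun N : ℕ => 1 / (x + 1 + (N : ℂ)) - 1 / (x + 1 - (N : ℂ))) atTop (𝓝 0) := by
    have ha := tendsto_zero_inv_linear (x + 1) 1
    have hb := tendsto_zero_inv_linear_sub (x + 1) 1
    simpa using ha.sub hb
  exact tendsto_nhds_unique h1 h3

lemma tsum_dfam_row (z : ℂ) (τ : ℍ) (m : ℤ) : ∑' n : ℤ, dfam z τ (m, n) = e2Summand m τ := by
  have hd : Summable fun n : ℤ => dfam z τ (m, n) := (summable_dfam z τ).prod_factor m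
  have he : Summable fun n : ℤ => eisSummand 2 ![m, n] τ := e2Summand_summable m τ
  have ht : Summable fun n : ℤ =>
      1 / (z - (m : ℂ) * (τ : ℂ) + 1 - (n : ℂ)) - 1 / (z - (m : ℂ) * (τ : ℂ) - (n : ℂ)) := by
    refine (hd.sub he).congr fun n => ?_
    simp only [dfam]
    ring
  have h0 := tsum_telescope (z - (m : ℂ) * (τ : ℂ)) ht
  have : (fun n : ℤ => dfam z τ (m, n)) = fun n : ℤ =>
      (1 / (z - (m : ℂ) * (τ : ℂ) + 1 - (n : ℂ)) - 1 / (z - (m : ℂ) * (τ : ℂ) - (n : ℂ))) +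
        eisSummand 2 ![m, n] τ := by
    funext n
    simp only [dfam]
    ring
  rw [this, ht.tsum_add he, h0, zero_add]
  rfl

lemma summable_e2Summand (τ : ℍ) : Summable fun m : ℤ => e2Summand m τ := by
  have h := (summable_dfam 0 τ).prod
  exact h.congr fun m => tsum_dfam_row 0 τ m

lemma G2_eq_tsum (τ : ℍ) : G2 τ = ∑' m : ℤ, e2Summand m τ :=
  tsum_eq_of_summable_unconditional (summable_e2Summand τ)

/-- **The quasi-period of the zeta function along `1` is `G₂`.** -/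
theorem Zt_add_one (z : ℂ) (τ : ℍ) : Zt (z + 1) τ = Zt z τ + G2 τ := by
  have h := tsum_dfam z τ
  rw [(summable_dfam z τ).tsum_prod] at h
  simp only [tsum_dfam_row] at h
  rw [← G2_eq_tsum] at h
  rw [h]; ring

/-- `E₁` is periodic along `1`. -/
theorem E1_add_one (z : ℂ) (τ : ℍ) : E1 (z + 1) τ = E1 z τ := by
  unfold E1
  rw [Zt_add_one]
  ring

/-! ### The quasi-period along `τ` -/

lemma denom_S_eq (τ : ℍ) : denom ModularGroup.S τ = (τ : ℂ) :=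
  ModularGroup.denom_S τ

/-- `E₁` is quasi-periodic along `τ`: this follows from the `SL(2, ℤ)`-law at `γ = S` and the
periodicity along `1`. -/
theorem E1_add_tau (z : ℂ) (τ : ℍ) : E1 (z + τ) τ = E1 z τ - 2 * π * I := by
  have hτ : (τ : ℂ) ≠ 0 := ne_zero τ
  have h1 := E1_smul ModularGroup.S z τ
  have h2 := E1_smul ModularGroup.S (z + τ) τ
  rw [denom_S_eq] at h1 h2
  have hS : ((ModularGroup.S 1 0 : ℤ) : ℂ) = 1 := by simp [ModularGroup.S]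
  rw [hS] at h1 h2
  have h3 : (z + (τ : ℂ)) / (τ : ℂ) = z / (τ : ℂ) + 1 := by field_simp
  rw [h3, E1_add_one, h1] at h2
  have h4 : (τ : ℂ) * (E1 (z + τ) τ - (E1 z τ - 2 * π * I)) = 0 := by linear_combination -h2
  rcases mul_eq_zero.mp h4 with h | h
  · exact absurd h hτ
  · exact sub_eq_zero.mp h

lemma E1_add_int (z : ℂ) (τ : ℍ) (n : ℤ) : E1 (z + (n : ℂ)) τ = E1 z τ := by
  induction n using Int.induction_on with
  | zero => simp
  | succ n ih =>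
    have : z + ((n + 1 : ℤ) : ℂ) = (z + (n : ℂ)) + 1 := by push_cast; ring
    rw [this, E1_add_one]
    exact_mod_cast ih
  | pred n ih =>
    have : z + ((-(n : ℤ) : ℤ) : ℂ) = (z + ((-(n : ℤ) - 1 : ℤ) : ℂ)) + 1 := by push_cast; ring
    rw [this, E1_add_one] at ih
    exact ih

lemma E1_add_int_mul_tau (z : ℂ) (τ : ℍ) (m : ℤ) :
    E1 (z + (m : ℂ) * (τ : ℂ)) τ = E1 z τ - 2 * π * I * (m : ℂ) := by
  induction m using Int.induction_on with
  | zero => simp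
  | succ m ih =>
    have : z + ((m + 1 : ℤ) : ℂ) * (τ : ℂ) = (z + (m : ℂ) * (τ : ℂ)) + τ := by push_cast; ring
    rw [this, E1_add_tau]
    have ih' : E1 (z + (m : ℂ) * (τ : ℂ)) τ = E1 z τ - 2 * π * I * (m : ℂ) := by exact_mod_cast ih
    rw [ih']
    push_cast
    ring
  | pred m ih =>
    have e : z + ((-(m : ℤ) : ℤ) : ℂ) * (τ : ℂ) =
        (z + ((-(m : ℤ) - 1 : ℤ) : ℂ) * (τ : ℂ)) + τ := by push_cast; ring
    rw [e, E1_add_tau] at ih
    have : E1 (z + ((-(m : ℤ) - 1 : ℤ) : ℂ) * (τ : ℂ)) τ =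
        E1 z τ - 2 * π * I * ((-(m : ℤ) : ℤ) : ℂ) + 2 * π * I := by
      linear_combination ih
    rw [this]
    push_cast
    ring

/-- **Quasi-periodicity of `E₁` along the lattice.** -/
theorem E1_add_lat (z : ℂ) (τ : ℍ) (v : Fin 2 → ℤ) :
    E1 (z + lat v τ) τ = E1 z τ - 2 * π * I * (v 0 : ℂ) := by
  have : z + lat v τ = (z + (v 0 : ℂ) * (τ : ℂ)) + (v 1 : ℂ) := by unfold lat; ring
  rw [this, E1_add_int, E1_add_int_mul_tau]

/-! ### Periodicity of the division values -/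

/-- The division values only depend on `(a, b)` modulo `ℓ`. -/
theorem Ediv_add_mul (ℓ : ℕ) [NeZero ℓ] (a b k j : ℤ) :
    Ediv ℓ (a + ℓ * k) (b + ℓ * j) = Ediv ℓ a b := by
  funext τ
  have hℓ : (ℓ : ℂ) ≠ 0 := Nat.cast_ne_zero.mpr (NeZero.ne ℓ)
  unfold Ediv
  have e : (((a + ℓ * k : ℤ) : ℂ) * (τ : ℂ) + ((b + ℓ * j : ℤ) : ℂ)) / (ℓ : ℂ) =
      ((a : ℂ) * (τ : ℂ) + (b : ℂ)) / (ℓ : ℂ) + lat ![k, j] τ := by
    simp only [lat, Matrix.cons_val_zero, Matrix.cons_val_one]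
    push_cast
    field_simp
    ring
  rw [e, E1_add_lat]
  simp only [Matrix.cons_val_zero]
  push_cast
  field_simp
  ring

theorem Ediv_add_left (ℓ : ℕ) [NeZero ℓ] (a b : ℤ) : Ediv ℓ (a + ℓ) b = Ediv ℓ a b := by
  have := Ediv_add_mul ℓ a b 1 0
  simpa using this

theorem Ediv_add_right (ℓ : ℕ) [NeZero ℓ] (a b : ℤ) : Ediv ℓ a (b + ℓ) = Ediv ℓ a b := by
  have := Ediv_add_mul ℓ a b 0 1
  simpa using this

theorem Ediv_congr (ℓ : ℕ) [NeZero ℓ] {a b a' b' : ℤ} (ha : a ≡ a' [ZMOD ℓ])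
    (hb : b ≡ b' [ZMOD ℓ]) : Ediv ℓ a b = Ediv ℓ a' b' := by
  obtain ⟨k, hk⟩ := (Int.modEq_iff_dvd.mp ha)
  obtain ⟨j, hj⟩ := (Int.modEq_iff_dvd.mp hb)
  have e1 : a' = a + ℓ * k := by linarith
  have e2 : b' = b + ℓ * j := by linarith
  rw [e1, e2, Ediv_add_mul]

lemma zs_zero_left (ω : ℂ) : zs 0 ω = 0 := by
  unfold zs
  rw [zero_sub, zero_div, add_zero, one_div, one_div, inv_neg, neg_add_cancel]

/-- On `ℓℤ²` the division values vanish (the junk value is zero). -/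
theorem Ediv_eq_zero (ℓ : ℕ) [NeZero ℓ] {a b : ℤ} (ha : (ℓ : ℤ) ∣ a) (hb : (ℓ : ℤ) ∣ b) :
    Ediv ℓ a b = 0 := by
  obtain ⟨k, rfl⟩ := ha
  obtain ⟨j, rfl⟩ := hb
  have := Ediv_add_mul ℓ 0 0 k j
  simp only [zero_add] at this
  rw [this]
  funext τ
  simp [Ediv, E1, Zt, zs_zero_left]

end Fermat.Agent.S48.Eis1Per
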