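/-
S48 (Deligne–Serre), brick D, analytic half (D1): the exit.

`divData ℓ : Eis1Arith.DivData ℓ` — the weight one division values
`E_(a,b)(τ) = E₁((aτ + b)/ℓ; τ) + 2πi a/ℓ` of every level `ℓ ≥ 1`, with their `SL(2, ℤ)` slash law,
periodicity modulo `ℓ`, holomorphy, boundedness at `i∞` and `q`-expansion.

Assembled from
* `Eis1Zeta` (helper51): definition, slash law, the cotangent-series bridge;
* `Eis1Per` (helper298): periodicity;
* `Eis1/Bdd` (helper16): boundedness at `i∞`;
* `Eis1/QExp`: `q`-expansion and holomorphy.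
-/
import Fermat.Agent.S48.Eis1.QExp
import Fermat.Agent.S48.Eis1.Bdd
import Fermat.Agent.S48.Eis1Per

set_option autoImplicit false

open UpperHalfPlane hiding I
open Complex Real Filter Topology

noncomputable section

namespace Fermat.Agent.S48.Eis1

/-- The cotangent-series bridge holds. -/
theorem cotBridge : CotBridge := fun z τ hz => Eis1Zeta.tendsto_E1_cot z τ hz

/-- **The analytic input of the arithmetic half of brick D**, for every level `ℓ ≥ 1`. -/
def divData (ℓ : ℕ) [NeZero ℓ] : Eis1Arith.DivData ℓ where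
  E := Eis1Zeta.Ediv ℓ
  slash := fun a b γ _ => Eis1Zeta.Ediv_slash ℓ a b γ
  add_left := fun a b _ => Eis1Per.Ediv_add_left ℓ a b
  add_right := fun a b _ => Eis1Per.Ediv_add_right ℓ a b
  holo := fun b hb => mdiff_Ediv_zero cotBridge ℓ b hb
  bdd := fun a b ha0 hal h => bdd_of_bridge cotBridge ℓ a b ha0 hal h
  hasSum := fun b hb τ => hasSum_Ediv_zero cotBridge ℓ b hb τ

@[simp] lemma divData_E (ℓ : ℕ) [NeZero ℓ] : (divData ℓ).E = Eis1Zeta.Ediv ℓ := rfl

end Fermat.Agent.S48.Eis1
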