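import Mathlib

/-!
# S48 (Deligne–Serre), Steps 4 and 5: roots of unity under reduction

`𝔸 = integralClosure ℤ ℂ`.  Level-free algebra used by the assembly:

* `exists_int_dvd`: a nonzero algebraic integer divides a nonzero rational integer, so it is
  killed by ring homs `𝔸 → k` for only finitely many characteristics;
* `eq_of_map_eq`, `exists_pow_eq_one_map_eq`: a ring hom `r : 𝔸 → k` is bijective on `n`-th roots
  of unity as soon as `n ≠ 0` in `k`;
* `unityPairs B`: the finite set of pairs `(α + β, α * β)` with `α, β` roots of unity of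
  order `≤ B`;
* `mem_unityPairs_of_infinite` (Step 4), `eq_of_mem_unityPairs` (Step 5),
  `mem_unityPairs_of_matrix`.
-/

set_option autoImplicit false

namespace Fermat.Agent.S48.UnityRed

open Polynomial

local notation "𝔸" => integralClosure ℤ ℂ

/-- A nonzero algebraic integer divides a nonzero rational integer. -/
theorem exists_int_dvd (a : 𝔸) (ha : a ≠ 0) : ∃ c : ℤ, c ≠ 0 ∧ a ∣ (c : 𝔸) := by
  have hint : IsIntegral ℤ (a : ℂ) := a.2
  have ha' : (a : ℂ) ≠ 0 := fun h => ha (Subtype.ext h)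
  set p : ℤ[X] := minpoly ℤ (a : ℂ) with hp
  have hc : p.coeff 0 ≠ 0 := by
    have h1 : minpoly ℚ (a : ℂ) = p.map (algebraMap ℤ ℚ) :=
      minpoly.isIntegrallyClosed_eq_field_fractions' ℚ hint
    have h2 := minpoly.coeff_zero_ne_zero (A := ℚ) hint.tower_top ha'
    rw [h1, coeff_map] at h2
    intro h0
    exact h2 (by rw [h0, map_zero])
  have h0 : aeval a p = 0 := by
    have h3 : aeval (a : ℂ) p = 0 := minpoly.aeval ℤ (a : ℂ)
    have h4 : ((aeval a p : 𝔸) : ℂ) = aeval (a : ℂ) p := by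
      rw [← Subalgebra.aeval_coe]
    exact Subtype.ext (by rw [h4, h3]; rfl)
  refine ⟨p.coeff 0, hc, ⟨-aeval a p.divX, ?_⟩⟩
  have h5 : p = p.divX * X + C (p.coeff 0) := (divX_mul_X_add p).symm
  have h6 : aeval a p = aeval a p.divX * a + ((p.coeff 0 : ℤ) : 𝔸) := by
    conv_lhs => rw [h5]
    simp
  rw [h0] at h6
  linear_combination (-1 : 𝔸) * h6

/-- Consequence: the characteristics of the fields in which a nonzero `a` dies are bounded. -/
theorem exists_bound_of_map_eq_zero (a : 𝔸) (ha : a ≠ 0) :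
    ∃ c : ℤ, c ≠ 0 ∧ ∀ {k : Type} [Field k] (r : 𝔸 →+* k), r a = 0 → (c : k) = 0 := by
  obtain ⟨c, hc, b, hb⟩ := exists_int_dvd a ha
  refine ⟨c, hc, fun {k} _ r hr => ?_⟩
  have h1 : r (c : 𝔸) = (c : k) := map_intCast r c
  rw [← h1, hb, map_mul, hr, zero_mul]

/-- An `n`-th root of unity of `𝔸` reducing to `1` is `1`, if `n ≠ 0` in `k`. -/
theorem eq_one_of_map_eq_one {k : Type*} [Field k] (r : 𝔸 →+* k) {n : ℕ} (hn : (n : k) ≠ 0)
    {x : 𝔸} (hx : x ^ n = 1) (h : r x = 1) : x = 1 := by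
  by_contra hne
  have h1 : (x - 1) * ∑ i ∈ Finset.range n, x ^ i = 0 := by
    rw [mul_comm, geom_sum_mul, hx, sub_self]
  have h2 : ∑ i ∈ Finset.range n, x ^ i = 0 := by
    rcases mul_eq_zero.mp h1 with h | h
    · exact absurd (sub_eq_zero.mp h) hne
    · exact h
  have h3 := congrArg r h2
  rw [map_sum, map_zero] at h3
  simp only [map_pow, h, one_pow, Finset.sum_const, Finset.card_range, nsmul_eq_mul, mul_one] at h3
  exact hn h3

/-- `r` is injective on `n`-th roots of unity of `𝔸`, if `n ≠ 0` in `k`. -/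
theorem eq_of_map_eq {k : Type*} [Field k] (r : 𝔸 →+* k) {n : ℕ} (hn : (n : k) ≠ 0)
    {x y : 𝔸} (hx : x ^ n = 1) (hy : y ^ n = 1) (h : r x = r y) : x = y := by
  have hn0 : n ≠ 0 := by
    rintro rfl
    exact hn (by simp)
  obtain ⟨m, rfl⟩ : ∃ m, n = m + 1 := Nat.exists_eq_succ_of_ne_zero hn0
  have h1 : (x * y ^ m) ^ (m + 1) = 1 := by
    rw [mul_pow, hx, one_mul, ← pow_mul, mul_comm, pow_mul, hy, one_pow]
  have h2 : r (x * y ^ m) = 1 := by
    rw [map_mul, map_pow, h, ← pow_succ', ← map_pow, hy, map_one]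
  have h3 := eq_one_of_map_eq_one r hn h1 h2
  calc x = x * y ^ (m + 1) := by rw [hy, mul_one]
    _ = (x * y ^ m) * y := by rw [pow_succ, mul_assoc]
    _ = y := by rw [h3, one_mul]

/-- `r` is surjective on `n`-th roots of unity, if `n ≠ 0` in `k`. -/
theorem exists_pow_eq_one_map_eq {k : Type*} [Field k] (r : 𝔸 →+* k) {n : ℕ} (hn : (n : k) ≠ 0)
    {z : k} (hz : z ^ n = 1) : ∃ x : 𝔸, x ^ n = 1 ∧ r x = z := by
  have hn0 : n ≠ 0 := by
    rintro rfl
    exact hn (by simp)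
  have : NeZero n := ⟨hn0⟩
  have hprim : IsPrimitiveRoot (Complex.exp (2 * Real.pi * Complex.I / n)) n :=
    Complex.isPrimitiveRoot_exp n hn0
  have hint : IsIntegral ℤ (Complex.exp (2 * Real.pi * Complex.I / n)) :=
    hprim.isIntegral (Nat.pos_of_ne_zero hn0)
  set ζ : 𝔸 := ⟨_, hint⟩ with hζ
  have hζn : ζ ^ n = 1 := Subtype.ext (by
    rw [hζ]
    simpa using hprim.pow_eq_one)
  have hprim' : IsPrimitiveRoot (r ζ) n := by
    rw [IsPrimitiveRoot.iff_def]
    refine ⟨by rw [← map_pow, hζn, map_one], fun l hl => ?_⟩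
    have h1 : (ζ ^ l) ^ n = 1 := by rw [← pow_mul, mul_comm, pow_mul, hζn, one_pow]
    have h2 : ζ ^ l = 1 :=
      eq_of_map_eq r hn h1 (one_pow n) (by rw [map_pow, hl, map_one])
    have h3 : (Complex.exp (2 * Real.pi * Complex.I / n)) ^ l = 1 := by
      have := congrArg (Subtype.val) h2
      simpa [hζ] using this
    exact hprim.dvd_of_pow_eq_one l h3
  obtain ⟨i, -, hi⟩ := hprim'.eq_pow_of_pow_eq_one hz
  exact ⟨ζ ^ i, by rw [← pow_mul, mul_comm, pow_mul, hζn, one_pow], by rw [map_pow, hi]⟩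

/-- Pairs `(α + β, α * β)` with `α`, `β` roots of unity of order at most `B`. -/
def unityPairs (B : ℕ) : Set (𝔸 × 𝔸) :=
  {x | ∃ α β : 𝔸, ∃ m n : ℕ, 0 < m ∧ m ≤ B ∧ 0 < n ∧ n ≤ B ∧ α ^ m = 1 ∧ β ^ n = 1 ∧
    x = (α + β, α * β)}

theorem mem_unityPairs {B : ℕ} {α β : 𝔸} {m n : ℕ} (hm : 0 < m) (hmB : m ≤ B) (hn : 0 < n)
    (hnB : n ≤ B) (hα : α ^ m = 1) (hβ : β ^ n = 1) : (α + β, α * β) ∈ unityPairs B :=
  ⟨α, β, m, n, hm, hmB, hn, hnB, hα, hβ, rfl⟩

theorem unityPairs_mono {B B' : ℕ} (h : B ≤ B') : unityPairs B ⊆ unityPairs B' := by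
  rintro x ⟨α, β, m, n, hm, hmB, hn, hnB, hα, hβ, rfl⟩
  exact ⟨α, β, m, n, hm, hmB.trans h, hn, hnB.trans h, hα, hβ, rfl⟩

/-- roots of unity of order at most `B` in `𝔸`: a finite set. -/
theorem finite_unity (B : ℕ) : {α : 𝔸 | ∃ m : ℕ, 0 < m ∧ m ≤ B ∧ α ^ m = 1}.Finite := by
  have h : {α : 𝔸 | ∃ m : ℕ, 0 < m ∧ m ≤ B ∧ α ^ m = 1} ⊆
      ⋃ m ∈ Finset.Icc 1 B, ((nthRootsFinset m (1 : 𝔸) : Finset 𝔸) : Set 𝔸) := by
    rintro α ⟨m, hm, hmB, hα⟩
    simp only [Set.mem_iUnion, Finset.mem_coe, Finset.mem_Icc]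
    exact ⟨m, ⟨hm, hmB⟩, (mem_nthRootsFinset hm 1).mpr hα⟩
  exact (Set.Finite.biUnion (Finset.finite_toSet _) fun m _ => Finset.finite_toSet _).subset h

theorem unityPairs_finite (B : ℕ) : (unityPairs B).Finite := by
  have h : unityPairs B ⊆ (fun p : 𝔸 × 𝔸 => (p.1 + p.2, p.1 * p.2)) ''
      ({α : 𝔸 | ∃ m : ℕ, 0 < m ∧ m ≤ B ∧ α ^ m = 1} ×ˢ
        {α : 𝔸 | ∃ m : ℕ, 0 < m ∧ m ≤ B ∧ α ^ m = 1}) := by
    rintro x ⟨α, β, m, n, hm, hmB, hn, hnB, hα, hβ, rfl⟩
    exact ⟨(α, β), ⟨⟨m, hm, hmB, hα⟩, ⟨n, hn, hnB, hβ⟩⟩, rfl⟩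
  exact (((finite_unity B).prod (finite_unity B)).image _).subset h

/-- Eigenvalues of a `2 × 2` matrix of finite order over an algebraically closed field. -/
theorem exists_roots_of_pow_eq_one {K : Type*} [Field K] [IsAlgClosed K]
    (g : Matrix (Fin 2) (Fin 2) K) {m : ℕ} (hg : g ^ m = 1) :
    ∃ a b : K, a ^ m = 1 ∧ b ^ m = 1 ∧ g.trace = a + b ∧ g.det = a * b := by
  obtain ⟨a, ha⟩ : ∃ a : K, a ^ 2 - g.trace * a + g.det = 0 := by
    have hdeg : (X ^ 2 - C g.trace * X + C g.det : K[X]).degree ≠ 0 := by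
      have h1 : (X ^ 2 - C g.trace * X + C g.det : K[X]) = X ^ 2 + (C (-g.trace) * X + C g.det) := by
        rw [map_neg]; ring
      rw [h1, degree_add_eq_left_of_degree_lt]
      · rw [degree_X_pow]; decide
      · rw [degree_X_pow]
        exact lt_of_le_of_lt (degree_linear_le) (by decide)
    obtain ⟨a, ha⟩ := IsAlgClosed.exists_root _ hdeg
    exact ⟨a, by simpa using ha⟩
  have key : ∀ c : K, c ^ 2 - g.trace * c + g.det = 0 → c ^ m = 1 := by
    intro c hc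
    have hdet : (g - c • (1 : Matrix (Fin 2) (Fin 2) K)).det = 0 := by
      rw [Matrix.det_fin_two]
      simp only [Matrix.trace_fin_two, Matrix.det_fin_two] at hc
      simp only [Matrix.sub_apply, Matrix.smul_apply, Matrix.one_apply_eq, smul_eq_mul, mul_one,
        ne_eq, zero_ne_one, not_false_eq_true, Matrix.one_apply_ne, mul_zero, sub_zero,
        one_ne_zero]
      linear_combination hc
    obtain ⟨v, hv, hgv⟩ := Matrix.exists_mulVec_eq_zero_iff.mpr hdet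
    have h1 : g.mulVec v = c • v := by
      rw [Matrix.sub_mulVec, Matrix.smul_mulVec, Matrix.one_mulVec, sub_eq_zero] at hgv
      exact hgv
    have h2 : ∀ j : ℕ, (g ^ j).mulVec v = c ^ j • v := by
      intro j
      induction j with
      | zero => simp
      | succ j ih =>
        rw [pow_succ, ← Matrix.mulVec_mulVec, h1, Matrix.mulVec_smul, ih, smul_smul, pow_succ']
    have h3 := h2 m
    rw [hg, Matrix.one_mulVec] at h3
    by_contra hne
    have h4 : (1 - c ^ m) • v = 0 := by rw [sub_smul, one_smul, ← h3, sub_self]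
    rcases smul_eq_zero.mp h4 with h | h
    · exact hne (sub_eq_zero.mp h).symm
    · exact hv h
  exact ⟨a, g.trace - a, key a ha, key _ (by linear_combination ha), by ring,
    by linear_combination ha⟩

/-- **Step 4.**  If for infinitely many characteristics `ℓ` the pair `(t, d)` reduces to the
(trace, determinant) of a `2 × 2` matrix of order at most `B`, then `(t, d) ∈ unityPairs B`. -/
theorem mem_unityPairs_of_infinite (B : ℕ) (t d : 𝔸) (S : Set ℕ) (hS : S.Infinite)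
    (h : ∀ ℓ ∈ S, ∃ (k : Type) (_ : Field k) (_ : CharP k ℓ) (r : 𝔸 →+* k)
      (g : Matrix (Fin 2) (Fin 2) k) (m : ℕ), 0 < m ∧ m ≤ B ∧ g ^ m = 1 ∧ r t = g.trace ∧
        r d = g.det) : (t, d) ∈ unityPairs B := by
  by_contra hmem
  have key : ∀ x : 𝔸 × 𝔸, x ∈ unityPairs B → ∃ c : ℤ, c ≠ 0 ∧
      ∀ {k : Type} [Field k] (r : 𝔸 →+* k), r t = r x.1 → r d = r x.2 → (c : k) = 0 := by
    intro x hx
    by_cases h1 : t = x.1
    · have h2 : d ≠ x.2 := fun h2 =>
        hmem (by rw [show (t, d) = x from Prod.ext h1 h2]; exact hx)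
      obtain ⟨c, hc, hc'⟩ := exists_bound_of_map_eq_zero (d - x.2) (sub_ne_zero.mpr h2)
      exact ⟨c, hc, fun r _ hr => hc' r (by rw [map_sub, hr, sub_self])⟩
    · obtain ⟨c, hc, hc'⟩ := exists_bound_of_map_eq_zero (t - x.1) (sub_ne_zero.mpr h1)
      exact ⟨c, hc, fun r hr _ => hc' r (by rw [map_sub, hr, sub_self])⟩
  choose! c hc hc' using key
  set C : ℤ := ∏ x ∈ (unityPairs_finite B).toFinset, c x with hCdef
  have hC : C ≠ 0 := Finset.prod_ne_zero_iff.mpr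
    (fun x hx => hc x ((unityPairs_finite B).mem_toFinset.mp hx))
  refine hS ((Set.finite_le_nat (max B C.natAbs)).subset ?_)
  intro ℓ hℓ
  show ℓ ≤ max B C.natAbs
  by_contra hlt
  push_neg at hlt
  obtain ⟨k, _, _, r, g, m, hm, hmB, hg, ht, hd⟩ := h ℓ hℓ
  have hcharK : CharP (AlgebraicClosure k) ℓ :=
    charP_of_injective_algebraMap (algebraMap k (AlgebraicClosure k)).injective ℓ
  have hg' : ((algebraMap k (AlgebraicClosure k)).mapMatrix g) ^ m = 1 := by
    rw [← map_pow, hg, map_one]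
  obtain ⟨a, b, ha, hb, hab, hab'⟩ := exists_roots_of_pow_eq_one _ hg'
  have hmK : (m : AlgebraicClosure k) ≠ 0 := by
    rw [Ne, CharP.cast_eq_zero_iff (AlgebraicClosure k) ℓ]
    intro hdvd
    have := Nat.le_of_dvd hm hdvd
    have := le_max_left B C.natAbs
    omega
  obtain ⟨α, hα, hrα⟩ :=
    exists_pow_eq_one_map_eq ((algebraMap k (AlgebraicClosure k)).comp r) hmK ha
  obtain ⟨β, hβ, hrβ⟩ :=
    exists_pow_eq_one_map_eq ((algebraMap k (AlgebraicClosure k)).comp r) hmK hb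
  have hx : (α + β, α * β) ∈ unityPairs B := mem_unityPairs hm hmB hm hmB hα hβ
  have h1 : ((algebraMap k (AlgebraicClosure k)).comp r) t =
      ((algebraMap k (AlgebraicClosure k)).comp r) (α + β) := by
    rw [map_add, hrα, hrβ, ← hab, RingHom.comp_apply, ht, AddMonoidHom.map_trace]
    rfl
  have h2 : ((algebraMap k (AlgebraicClosure k)).comp r) d =
      ((algebraMap k (AlgebraicClosure k)).comp r) (α * β) := by
    rw [map_mul, hrα, hrβ, ← hab', RingHom.comp_apply, hd, RingHom.map_det]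
  have h3 : ((c (α + β, α * β) : ℤ) : AlgebraicClosure k) = 0 := hc' _ hx _ h1 h2
  have h4 : ((C : ℤ) : AlgebraicClosure k) = 0 := by
    obtain ⟨e, he⟩ : c (α + β, α * β) ∣ C :=
      Finset.dvd_prod_of_mem _ ((unityPairs_finite B).mem_toFinset.mpr hx)
    rw [he, Int.cast_mul, h3, zero_mul]
  have h5 : (ℓ : ℤ) ∣ C := (CharP.intCast_eq_zero_iff (AlgebraicClosure k) ℓ C).mp h4
  have h6 : ℓ ∣ C.natAbs := Int.natCast_dvd.mp h5
  have h7 : ℓ ≤ C.natAbs := Nat.le_of_dvd (Int.natAbs_pos.mpr hC) h6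
  have := le_max_right B C.natAbs
  omega

/-- **Step 5.**  Two elements of `unityPairs B` with the same reduction in characteristic
`ℓ > B` are equal. -/
theorem eq_of_mem_unityPairs {k : Type*} [Field k] {ℓ : ℕ} [CharP k ℓ] (r : 𝔸 →+* k) {B : ℕ}
    (hℓ : B < ℓ) {x y : 𝔸 × 𝔸} (hx : x ∈ unityPairs B) (hy : y ∈ unityPairs B)
    (h1 : r x.1 = r y.1) (h2 : r x.2 = r y.2) : x = y := by
  obtain ⟨α, β, m, n, hm, hmB, hn, hnB, hα, hβ, rfl⟩ := hx
  obtain ⟨α', β', m', n', hm', hmB', hn', hnB', hα', hβ', rfl⟩ := hy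
  have hN : ((B.factorial : ℕ) : k) ≠ 0 := by
    rw [Ne, CharP.cast_eq_zero_iff k ℓ]
    rcases CharP.char_is_prime_or_zero k ℓ with hp | h0
    · rw [hp.dvd_factorial]; omega
    · omega
  have pw : ∀ {z : 𝔸} {j : ℕ}, 0 < j → j ≤ B → z ^ j = 1 → z ^ B.factorial = 1 := by
    intro z j hj hjB hz
    obtain ⟨e, he⟩ := Nat.dvd_factorial hj hjB
    rw [he, pow_mul, hz, one_pow]
  have e1 := pw hm hmB hα
  have e2 := pw hn hnB hβ
  have e1' := pw hm' hmB' hα'
  have e2' := pw hn' hnB' hβ'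
  simp only [map_add, map_mul] at h1 h2
  have h3 : (r α - r α') * (r α - r β') = 0 := by
    linear_combination (r α) * h1 - h2
  rcases mul_eq_zero.mp h3 with h | h
  · have hαα' : α = α' := eq_of_map_eq r hN e1 e1' (sub_eq_zero.mp h)
    have hββ' : β = β' := eq_of_map_eq r hN e2 e2' (by
      rw [hαα'] at h1
      exact add_left_cancel h1)
    rw [hαα', hββ']
  · have hαβ' : α = β' := eq_of_map_eq r hN e1 e2' (sub_eq_zero.mp h)
    have hβα' : β = α' := eq_of_map_eq r hN e2 e1' (by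
      rw [hαβ'] at h1
      linear_combination h1)
    rw [hαβ', hβα', add_comm, mul_comm]

/-- A complex `2 × 2` matrix of order at most `B` has (trace, det) in `unityPairs B`. -/
theorem mem_unityPairs_of_matrix (g : Matrix (Fin 2) (Fin 2) ℂ) {m B : ℕ} (hm : 0 < m)
    (hmB : m ≤ B) (hg : g ^ m = 1) :
    ∃ x ∈ unityPairs B, (x.1 : ℂ) = g.trace ∧ (x.2 : ℂ) = g.det := by
  obtain ⟨a, b, ha, hb, hab, hab'⟩ := exists_roots_of_pow_eq_one g hg
  have ia : IsIntegral ℤ a :=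
    ⟨X ^ m - C 1, monic_X_pow_sub_C 1 hm.ne', by simp [ha]⟩
  have ib : IsIntegral ℤ b :=
    ⟨X ^ m - C 1, monic_X_pow_sub_C 1 hm.ne', by simp [hb]⟩
  refine ⟨((⟨a, ia⟩ : 𝔸) + ⟨b, ib⟩, (⟨a, ia⟩ : 𝔸) * ⟨b, ib⟩),
    mem_unityPairs hm hmB hm hmB (Subtype.ext (by simpa using ha))
      (Subtype.ext (by simpa using hb)), ?_, ?_⟩
  · simp [hab]
  · simp [hab']

end Fermat.Agent.S48.UnityRed
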