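import Mathlib
import Fermat.Prelude.Def_FLTPrelim_Modularity
import Fermat.Agent.S23.Wiring
import Fermat.Agent.S23.Fraction
import Fermat.Agent.S23.NormPoly
import Fermat.Agent.S23.Integrality
import Fermat.Agent.S23.IntegralityGen
import Fermat.Agent.S23.LevelOneSpan
import Fermat.Agent.S23.Interp

/-!
# S48, brick C without an integral structure on `S₂(Γ₁(M))`

Let `f` be a weight-one cusp form on `Γ₁(N)` with nebentypus `ε` and let `E` be an auxiliary
modular form of weight `w` on `Γ₁(M)`, `N ∣ M`, with nebentypus `ε⁻¹` on `Γ₀(M)`.  Then `E * f`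
is a cusp form of weight `w + 1` on `Γ₀(M)` with trivial character, and the (weight-generic)
integral structure of S23 applies to it.  This gives

* `exists_conj_of_aux`: the coefficientwise conjugate of `f` under any ring endomorphism of `ℂ`
  is again a weight-one cusp form on `Γ₁(M)`, provided the conjugate of `E` is a modular form;
* `exists_lattice_of_aux`: the `q`-coefficients of `f` lie in a finitely generated `ℤ`-module,
  provided `E = q + ⋯` has coefficients in `ℤ[ε]`.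
-/

set_option autoImplicit false

namespace Fermat.Agent.S48.ConjEis

open UpperHalfPlane ModularForm CongruenceSubgroup
open Fermat.Agent.S23 Fermat.Agent.S23.Wiring
open scoped MatrixGroups ModularForm Manifold

noncomputable section

/-- `Γ₁(N)` inside `GL(2, ℝ)`. -/
abbrev G1 (N : ℕ) : Subgroup (GL (Fin 2) ℝ) :=
  Subgroup.map (Matrix.SpecialLinearGroup.mapGL ℝ) (Gamma1 N)

theorem one_mem_strictPeriods_G1 (N : ℕ) : (1 : ℝ) ∈ (G1 N).strictPeriods := by
  simp

theorem G1_le_G0 (M : ℕ) : G1 M ≤ G0 M :=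
  Subgroup.map_mono (Gamma1_in_Gamma0 M)

/-- `F` has nebentypus `χ` (a character mod `N`) in weight `k` on `Γ₀(M)`. -/
def HasNeben {N : ℕ} (χ : DirichletCharacter ℂ N) (M : ℕ) (k : ℤ) (F : ℍ → ℂ) : Prop :=
  ∀ γ : SL(2, ℤ), γ ∈ Gamma0 M → F ∣[k] γ = χ ((γ 1 1 : ℤ) : ZMod N) • F

/-! ### Generalities on spans of forms with integral `q`-expansion -/

section span

variable {V : Type*} [AddCommGroup V] [Module ℂ V]

theorem map_smul_ps (σ : ℂ →+* ℂ) (c : ℂ) (x : PowerSeries ℂ) :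
    PowerSeries.map σ (c • x) = σ c • PowerSeries.map σ x := by
  ext n
  simp

/-- In the span of vectors with integral `q`-expansion, coefficientwise conjugation is
realised by a vector. -/
theorem exists_map_of_mem_span (q : V →ₗ[ℂ] PowerSeries ℂ) (S : Set V)
    (hS : ∀ g ∈ S, Defs.IsIntPS (q g)) (σ : ℂ →+* ℂ) {P : V} (hP : P ∈ Submodule.span ℂ S) :
    ∃ P' : V, q P' = PowerSeries.map σ (q P) := by
  induction hP using Submodule.span_induction with
  | mem g hg => exact ⟨g, ((RatSpan.IsIntPS.map_eq (hS g hg) σ)).symm⟩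
  | zero => exact ⟨0, by simp⟩
  | add x y _ _ hx hy =>
    obtain ⟨x', hx'⟩ := hx
    obtain ⟨y', hy'⟩ := hy
    exact ⟨x' + y', by simp [hx', hy']⟩
  | smul c x _ hx =>
    obtain ⟨x', hx'⟩ := hx
    exact ⟨σ c • x', by rw [map_smul, map_smul, hx', map_smul_ps]⟩

/-- In the span of vectors with integral `q`-expansion, the coefficients of any vector lie in a
finitely generated `ℤ`-submodule of `ℂ`. -/
theorem exists_fg_of_mem_span (q : V →ₗ[ℂ] PowerSeries ℂ) (S : Set V)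
    (hS : ∀ g ∈ S, Defs.IsIntPS (q g)) {P : V} (hP : P ∈ Submodule.span ℂ S) :
    ∃ Λ : Submodule ℤ ℂ, Λ.FG ∧ ∀ n : ℕ, PowerSeries.coeff n (q P) ∈ Λ := by
  induction hP using Submodule.span_induction with
  | mem g hg =>
    refine ⟨Submodule.span ℤ {1}, Submodule.fg_span_singleton 1, fun n => ?_⟩
    obtain ⟨m, hm⟩ := hS g hg n
    rw [hm, Submodule.mem_span_singleton]
    exact ⟨m, by simp⟩
  | zero => exact ⟨⊥, Submodule.fg_bot, fun n => by simp⟩
  | add x y _ _ hx hy =>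
    obtain ⟨Λ₁, h₁, hx'⟩ := hx
    obtain ⟨Λ₂, h₂, hy'⟩ := hy
    refine ⟨Λ₁ ⊔ Λ₂, h₁.sup h₂, fun n => ?_⟩
    rw [map_add, map_add]
    exact Submodule.add_mem_sup (hx' n) (hy' n)
  | smul c x _ hx =>
    obtain ⟨Λ₁, h₁, hx'⟩ := hx
    refine ⟨Λ₁.map ((LinearMap.mulLeft ℂ c).restrictScalars ℤ), h₁.map _, fun n => ?_⟩
    rw [map_smul]
    exact ⟨PowerSeries.coeff n (q x), hx' n, by simp⟩

end span

/-- The integral structure of S23, in every weight (same proof as `S23.result`). -/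
theorem hasIntStr (N : ℕ) [NeZero N] (k : ℤ) : CuspForm.HasIntegralStructure N k :=
  Wiring.hasIntegralStructure_of_parts N k
    (fun f => Fraction.exists_fraction N k f)
    (fun f => exists_norm_polynomial N f)
    (fun K g => LevelOneSpan.cusp_mem_span K g)
    (fun P Q hQ n c h => Integrality.integrality_criterion N P Q hQ n c h)

theorem mem_span_int (N : ℕ) [NeZero N] (k : ℤ) (P : CuspForm (G0 N) k) :
    P ∈ Submodule.span ℂ {g : CuspForm (G0 N) k |
      ∀ n : ℕ, ∃ m : ℤ, ModularFormClass.qCoeff g n = (m : ℂ)} := by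
  have h := hasIntStr N k
  unfold CuspForm.HasIntegralStructure CuspForm.intLattice at h
  rw [Submodule.span_span_of_tower] at h
  rw [h]
  exact Submodule.mem_top

/-- Conjugates of cusp forms on `Γ₀(N)` (any weight) are cusp forms. -/
theorem exists_conj_G0 (N : ℕ) [NeZero N] (k : ℤ) (P : CuspForm (G0 N) k) (σ : ℂ →+* ℂ) :
    ∃ P' : CuspForm (G0 N) k, qExpansion 1 P' = PowerSeries.map σ (qExpansion 1 P) :=
  exists_map_of_mem_span (Endgame.qExpLin N k) _ (fun _ hg => hg) σ (mem_span_int N k P)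

/-- The `q`-coefficients of a cusp form on `Γ₀(N)` lie in a finitely generated `ℤ`-module. -/
theorem exists_fg_G0 (N : ℕ) [NeZero N] (k : ℤ) (P : CuspForm (G0 N) k) :
    ∃ Λ : Submodule ℤ ℂ, Λ.FG ∧ ∀ n : ℕ, PowerSeries.coeff n (qExpansion 1 P) ∈ Λ :=
  exists_fg_of_mem_span (Endgame.qExpLin N k) _ (fun _ hg => hg) (mem_span_int N k P)

/-- Conjugates of level-one cusp forms are level-one cusp forms. -/
theorem exists_conj_levelOne (K : ℤ) (c : CuspForm 𝒮ℒ K) (σ : ℂ →+* ℂ) :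
    ∃ c' : CuspForm 𝒮ℒ K, qExpansion 1 c' = PowerSeries.map σ (qExpansion 1 c) :=
  exists_map_of_mem_span (qCF K) _ (fun _ hg => hg) σ (LevelOneSpan.cusp_mem_span K c)

/-! ### The product `E * f` on `Γ₀(M)` -/

theorem gamma0_mono {N M : ℕ} (hNM : N ∣ M) {γ : SL(2, ℤ)} (hγ : γ ∈ Gamma0 M) : γ ∈ Gamma0 N := by
  rw [Gamma0_mem] at hγ ⊢
  rw [ZMod.intCast_zmod_eq_zero_iff_dvd] at hγ ⊢
  exact (Int.natCast_dvd_natCast.mpr hNM).trans hγ

theorem isUnit_lowerRight {N : ℕ} {γ : SL(2, ℤ)} (hγ : γ ∈ Gamma0 N) :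
    IsUnit (((γ 1 1 : ℤ) : ZMod N)) := by
  rw [Gamma0_mem] at hγ
  have hdet : (γ 0 0 : ℤ) * γ 1 1 - γ 0 1 * γ 1 0 = 1 := by
    have := γ.det_coe
    rwa [Matrix.det_fin_two] at this
  have h2 : ((γ 0 0 : ℤ) : ZMod N) * ((γ 1 1 : ℤ) : ZMod N) = 1 := by
    have h3 := congrArg (Int.cast : ℤ → ZMod N) hdet
    push_cast at h3
    rw [hγ, mul_zero, sub_zero] at h3
    exact h3
  exact IsUnit.of_mul_eq_one_right _ h2

theorem inv_mul_apply_of_isUnit {N : ℕ} (ε : DirichletCharacter ℂ N) {d : ZMod N}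
    (hd : IsUnit d) : ε⁻¹ d * ε d = 1 := by
  rw [← MulChar.mul_apply, inv_mul_cancel, MulChar.one_apply hd]

/-- The product of a weight-one cusp form with nebentypus `ε` and a weight-`w` modular form
with nebentypus `ε⁻¹` is a cusp form of weight `w + 1` on `Γ₀(M)` (trivial character). -/
def prodForm {N M : ℕ} [NeZero N] [NeZero M] (hNM : N ∣ M) {w : ℤ} (ε : DirichletCharacter ℂ N)
    (f : CuspForm (G1 N) 1) (hA : HasNeben ε N 1 f)
    (E : ModularForm (G1 M) w) (hE : HasNeben ε⁻¹ M w E) : CuspForm (G0 M) (w + 1) where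
  toFun := (E : ℍ → ℂ) * (f : ℍ → ℂ)
  slash_action_eq' := by
    rintro _ ⟨γ, hγ, rfl⟩
    have h1 := mul_slash_SL2 w 1 γ (E : ℍ → ℂ) (f : ℍ → ℂ)
    have h2 := hE γ hγ
    have h3 := hA γ (gamma0_mono hNM hγ)
    have h4 := inv_mul_apply_of_isUnit ε (isUnit_lowerRight (gamma0_mono hNM hγ))
    change ((E : ℍ → ℂ) * (f : ℍ → ℂ)) ∣[w + 1] γ = _
    rw [h1, h2, h3]
    ext τ
    simp only [Pi.mul_apply, Pi.smul_apply, smul_eq_mul]
    linear_combination ((E : ℍ → ℂ) τ * (f : ℍ → ℂ) τ) * h4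
  holo' := E.holo'.mul f.holo'
  zero_at_cusps' {c} hc := by
    have hc0 : IsCusp c 𝒮ℒ := (Subgroup.IsArithmetic.isCusp_iff_isCusp_SL2Z (G0 M)).mp hc
    have hc1 : IsCusp c (G1 M) := (Subgroup.IsArithmetic.isCusp_iff_isCusp_SL2Z (G1 M)).mpr hc0
    have hc2 : IsCusp c (G1 N) := (Subgroup.IsArithmetic.isCusp_iff_isCusp_SL2Z (G1 N)).mpr hc0
    intro g hg
    have hb := E.bdd_at_cusps' hc1 g hg
    have hz := f.zero_at_cusps' hc2 g hg
    have h := (hz.mul_boundedAtFilter hb).smul (|(g.det : ℝ)|)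
    have he : ((E : ℍ → ℂ) * (f : ℍ → ℂ)) ∣[w + 1] g =
        |(g.det : ℝ)| • ((f : ℍ → ℂ) ∣[(1 : ℤ)] g * (E : ℍ → ℂ) ∣[w] g) := by
      rw [mul_slash, mul_comm ((E : ℍ → ℂ) ∣[w] g)]
    rw [he]
    exact h

@[simp] theorem prodForm_coe {N M : ℕ} [NeZero N] [NeZero M] (hNM : N ∣ M) {w : ℤ}
    (ε : DirichletCharacter ℂ N) (f : CuspForm (G1 N) 1) (hA : HasNeben ε N 1 f)
    (E : ModularForm (G1 M) w) (hE : HasNeben ε⁻¹ M w E) :
    (prodForm hNM ε f hA E hE : ℍ → ℂ) = (E : ℍ → ℂ) * (f : ℍ → ℂ) := rfl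

theorem qExpansion_prodForm {N M : ℕ} [NeZero N] [NeZero M] (hNM : N ∣ M) {w : ℤ}
    (ε : DirichletCharacter ℂ N) (f : CuspForm (G1 N) 1) (hA : HasNeben ε N 1 f)
    (E : ModularForm (G1 M) w) (hE : HasNeben ε⁻¹ M w E) :
    qExpansion 1 (prodForm hNM ε f hA E hE) = qExpansion 1 E * qExpansion 1 f := by
  rw [prodForm_coe]
  exact (isNice_of_modularFormClass (one_mem_strictPeriods_G1 M) E).qExp_mul
    (isNice_of_modularFormClass (one_mem_strictPeriods_G1 N) f)

/-- A cusp form on `Γ₀(M)` as a modular form on `Γ₁(M)`. -/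
def toG1 {M : ℕ} [NeZero M] {k : ℤ} (P : CuspForm (G0 M) k) : ModularForm (G1 M) k where
  toFun := P
  slash_action_eq' γ hγ := P.slash_action_eq' γ (G1_le_G0 M hγ)
  holo' := P.holo'
  bdd_at_cusps' {c} hc := by
    have hc0 : IsCusp c 𝒮ℒ := (Subgroup.IsArithmetic.isCusp_iff_isCusp_SL2Z (G1 M)).mp hc
    have hc1 : IsCusp c (G0 M) := (Subgroup.IsArithmetic.isCusp_iff_isCusp_SL2Z (G0 M)).mpr hc0
    intro g hg
    exact (P.zero_at_cusps' hc1 g hg).isBoundedAtImInfty

@[simp] theorem toG1_coe {M : ℕ} [NeZero M] {k : ℤ} (P : CuspForm (G0 M) k) :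
    (toG1 P : ℍ → ℂ) = (P : ℍ → ℂ) := rfl

/-! ### Conjugates -/

/-- **Conjugates are cusp forms.**  Let `f` be a weight-one cusp form on `Γ₁(N)` with nebentypus
`ε`, `E ≠ 0` a weight-`w` modular form on `Γ₁(M)` (`N ∣ M`) with nebentypus `ε⁻¹`, and `σ` a ring
endomorphism of `ℂ` such that the coefficientwise conjugate of `E` is the `q`-expansion of a
modular form `E'` on `Γ₁(M)`.  Then the coefficientwise conjugate of `f` is the `q`-expansion of
a weight-one cusp form on `Γ₁(M)`. -/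
theorem exists_conj_of_aux {N M : ℕ} [NeZero N] [NeZero M] (hNM : N ∣ M) {w : ℤ}
    (ε : DirichletCharacter ℂ N) (f : CuspForm (G1 N) 1) (hA : HasNeben ε N 1 f)
    (E : ModularForm (G1 M) w) (hE : HasNeben ε⁻¹ M w E) (hE0 : qExpansion 1 E ≠ 0)
    (σ : ℂ →+* ℂ) (E' : ModularForm (G1 M) w)
    (hE' : qExpansion 1 E' = PowerSeries.map σ (qExpansion 1 E)) :
    ∃ h : CuspForm (G1 M) 1, qExpansion 1 h = PowerSeries.map σ (qExpansion 1 f) := by
  classical
  -- the product and its conjugate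
  obtain ⟨P', hP'⟩ := exists_conj_G0 M (w + 1) (prodForm hNM ε f hA E hE) σ
  rw [qExpansion_prodForm, map_mul, ← hE'] at hP'
  -- the norm polynomial of `f` and its conjugate
  obtain ⟨n, c, hrel⟩ : ∃ (n : ℕ) (c : (s : Fin n) → CuspForm 𝒮ℒ (1 * ((s : ℕ) + 1))),
      ∀ τ : ℍ, f τ ^ n + ∑ s : Fin n, c s τ * f τ ^ (n - 1 - (s : ℕ)) = 0 :=
    ⟨_, Interp.exists_charpoly (𝒢 := G1 N) f⟩
  have hc' : ∀ s : Fin n, ∃ c' : CuspForm 𝒮ℒ (1 * ((s : ℕ) + 1)),
      qExpansion 1 c' = PowerSeries.map σ (qExpansion 1 (c s)) :=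
    fun s => exists_conj_levelOne _ (c s) σ
  choose c' hc' using hc'
  -- niceness
  have hfn : IsNice (f : ℍ → ℂ) := isNice_of_modularFormClass (one_mem_strictPeriods_G1 N) f
  have hcn : ∀ s : Fin n, IsNice (c s : ℍ → ℂ) := fun s => isNice_of_modularFormClass hSL (c s)
  have hcn' : ∀ s : Fin n, IsNice (c' s : ℍ → ℂ) :=
    fun s => isNice_of_modularFormClass hSL (c' s)
  have hPn : IsNice (P' : ℍ → ℂ) := isNice_of_modularFormClass (hG0 M) P'
  have hEn : IsNice (E' : ℍ → ℂ) := isNice_of_modularFormClass (one_mem_strictPeriods_G1 M) E'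
  -- the relation for `f` as power series
  have hq : qExpansion 1 f ^ n +
      ∑ s : Fin n, qExpansion 1 (c s) * qExpansion 1 f ^ (n - 1 - (s : ℕ)) = 0 := by
    have hfun : (f : ℍ → ℂ) ^ n +
        ∑ s : Fin n, (c s : ℍ → ℂ) * (f : ℍ → ℂ) ^ (n - 1 - (s : ℕ)) = 0 := by
      funext τ
      simpa using hrel τ
    have hq := congrArg (qExpansion 1) hfun
    rw [(hfn.pow n).qExp_add (IsNice.sum fun s _ => (hcn s).mul (hfn.pow _)),
      hfn.qExp_pow, IsNice.qExp_sum (fun s _ => (hcn s).mul (hfn.pow _)), qExpansion_zero] at hq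
    rw [← hq]
    congr 1
    exact Finset.sum_congr rfl fun s _ => by rw [(hcn s).qExp_mul (hfn.pow _), hfn.qExp_pow]
  -- the conjugate relation
  have hq' : PowerSeries.map σ (qExpansion 1 f) ^ n + ∑ s : Fin n, qExpansion 1 (c' s) *
      PowerSeries.map σ (qExpansion 1 f) ^ (n - 1 - (s : ℕ)) = 0 := by
    have h := congrArg (PowerSeries.map σ) hq
    rw [map_add, map_pow, map_sum, map_zero] at h
    rw [← h]
    congr 1
    exact Finset.sum_congr rfl fun s _ => by rw [map_mul, map_pow, hc' s]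
  -- the relation for `P'`, `E'`
  have hR : (P' : ℍ → ℂ) ^ n + ∑ s : Fin n, (c' s : ℍ → ℂ) *
      (P' : ℍ → ℂ) ^ (n - 1 - (s : ℕ)) * (E' : ℍ → ℂ) ^ ((s : ℕ) + 1) = 0 := by
    have hRn : IsNice ((P' : ℍ → ℂ) ^ n + ∑ s : Fin n, (c' s : ℍ → ℂ) *
        (P' : ℍ → ℂ) ^ (n - 1 - (s : ℕ)) * (E' : ℍ → ℂ) ^ ((s : ℕ) + 1)) :=
      (hPn.pow n).add (IsNice.sum fun s _ => ((hcn' s).mul (hPn.pow _)).mul (hEn.pow _))
    apply hRn.eq_zero
    rw [(hPn.pow n).qExp_add (IsNice.sum fun s _ => ((hcn' s).mul (hPn.pow _)).mul (hEn.pow _)),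
      hPn.qExp_pow, IsNice.qExp_sum (fun s _ => ((hcn' s).mul (hPn.pow _)).mul (hEn.pow _))]
    have hterm : ∀ s : Fin n, qExpansion 1 ((c' s : ℍ → ℂ) * (P' : ℍ → ℂ) ^ (n - 1 - (s : ℕ)) *
        (E' : ℍ → ℂ) ^ ((s : ℕ) + 1)) = qExpansion 1 E' ^ n * (qExpansion 1 (c' s) *
          PowerSeries.map σ (qExpansion 1 f) ^ (n - 1 - (s : ℕ))) := by
      intro s
      rw [((hcn' s).mul (hPn.pow _)).qExp_mul (hEn.pow _), (hcn' s).qExp_mul (hPn.pow _),
        hPn.qExp_pow, hEn.qExp_pow, hP', mul_pow]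
      have h3 : qExpansion 1 E' ^ n =
          qExpansion 1 E' ^ (n - 1 - (s : ℕ)) * qExpansion 1 E' ^ ((s : ℕ) + 1) := by
        rw [← pow_add]
        congr 1
        have := s.2
        omega
      rw [h3]
      ring
    rw [Finset.sum_congr rfl fun s _ => hterm s, ← Finset.mul_sum, hP', mul_pow, ← mul_add, hq',
      mul_zero]
  -- `E' ≠ 0`
  have he'0 : qExpansion 1 E' ≠ 0 := by
    rw [hE']
    exact Cert.map_ne_zero σ hE0
  have hE'0 : E' ≠ 0 := by
    rintro rfl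
    apply he'0
    simpa using qExpansion_zero 1
  -- the integrality criterion
  obtain ⟨F, hF⟩ := IntegralityGen.integrality_criterion_arithmetic (G1 M) (k := 1) (w := w)
    (toG1 P') E' hE'0 n c' (fun τ => by
      have := congrFun hR τ
      simpa using this)
  refine ⟨F, ?_⟩
  have hFn : IsNice (F : ℍ → ℂ) := isNice_of_modularFormClass (one_mem_strictPeriods_G1 M) F
  have h4 : qExpansion 1 F * qExpansion 1 E' =
      PowerSeries.map σ (qExpansion 1 f) * qExpansion 1 E' := by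
    rw [← hFn.qExp_mul hEn, mul_comm (PowerSeries.map σ (qExpansion 1 f)), ← hP']
    congr 1
    funext τ
    exact hF τ
  exact mul_right_cancel₀ he'0 h4

/-! ### Integrality -/

/-- The ring `ℤ[ε]` generated by the values of a Dirichlet character is a finitely generated
`ℤ`-module. -/
theorem adjoin_range_fg {N : ℕ} [NeZero N] (ε : DirichletCharacter ℂ N) :
    (Subalgebra.toSubmodule (Algebra.adjoin ℤ (Set.range ε))).FG := by
  apply fg_adjoin_of_finite (Set.finite_range _)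
  rintro _ ⟨d, rfl⟩
  by_cases hd : IsUnit d
  · obtain ⟨u, rfl⟩ := hd
    have h1 : ε (u : ZMod N) ^ Fintype.card (ZMod N)ˣ = 1 := by
      rw [← map_pow, ← Units.val_pow_eq_pow_val, pow_card_eq_one, Units.val_one, map_one]
    refine IsIntegral.of_pow (Fintype.card_pos (α := (ZMod N)ˣ)) ?_
    rw [h1]
    exact isIntegral_one
  · rw [MulChar.map_nonunit _ hd]
    exact isIntegral_zero

/-- **The coefficients of `f` lie in a finitely generated `ℤ[ε]`-stable lattice.** -/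
theorem exists_lattice_of_aux {N M : ℕ} [NeZero N] [NeZero M] (hNM : N ∣ M) {w : ℤ}
    (ε : DirichletCharacter ℂ N) (f : CuspForm (G1 N) 1) (hA : HasNeben ε N 1 f)
    (E : ModularForm (G1 M) w) (hE : HasNeben ε⁻¹ M w E)
    (hE0 : PowerSeries.coeff 0 (qExpansion 1 E) = 0)
    (hE1 : PowerSeries.coeff 1 (qExpansion 1 E) = 1)
    (hER : ∀ n : ℕ, PowerSeries.coeff n (qExpansion 1 E) ∈ Algebra.adjoin ℤ (Set.range ε)) :
    ∃ Λ : Submodule ℤ ℂ, Λ.FG ∧
      (∀ r ∈ Algebra.adjoin ℤ (Set.range ε), ∀ x ∈ Λ, r * x ∈ Λ) ∧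
      ∀ n : ℕ, PowerSeries.coeff n (qExpansion 1 f) ∈ Λ := by
  classical
  obtain ⟨Λ₀, hΛ₀, hΦ⟩ := exists_fg_G0 M (w + 1) (prodForm hNM ε f hA E hE)
  rw [qExpansion_prodForm] at hΦ
  set R := Algebra.adjoin ℤ (Set.range ε) with hR
  set Λ : Submodule ℤ ℂ := Subalgebra.toSubmodule R * Λ₀ with hΛ
  have hmul : ∀ r ∈ R, ∀ x ∈ Λ, r * x ∈ Λ := by
    intro r hr x hx
    have h1 : r * x ∈ Subalgebra.toSubmodule R * (Subalgebra.toSubmodule R * Λ₀) :=
      Submodule.mul_mem_mul hr hx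
    rwa [← mul_assoc, (Subalgebra.isIdempotentElem_toSubmodule R).eq] at h1
  have hle : ∀ x ∈ Λ₀, x ∈ Λ := by
    intro x hx
    have h1 : (1 : ℂ) * x ∈ Subalgebra.toSubmodule R * Λ₀ :=
      Submodule.mul_mem_mul (one_mem R) hx
    rwa [one_mul] at h1
  refine ⟨Λ, (adjoin_range_fg ε).mul hΛ₀, hmul, fun n => ?_⟩
  induction n using Nat.strong_induction_on with
  | _ n ih =>
    have h1 := hΦ (n + 1)
    rw [PowerSeries.coeff_mul, Finset.Nat.sum_antidiagonal_succ, hE0, zero_mul, zero_add,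
      ← Finset.add_sum_erase _ _ (show ((0, n) : ℕ × ℕ) ∈ Finset.HasAntidiagonal.antidiagonal n by simp)] at h1
    simp only [zero_add, hE1, one_mul] at h1
    have h2 : ∑ x ∈ (Finset.HasAntidiagonal.antidiagonal n).erase (0, n),
        PowerSeries.coeff (x.1 + 1) (qExpansion 1 E) * PowerSeries.coeff x.2 (qExpansion 1 f) ∈ Λ := by
      refine Submodule.sum_mem _ fun x hx => ?_
      rw [Finset.mem_erase, Finset.HasAntidiagonal.mem_antidiagonal] at hx
      refine hmul _ (hER _) _ (ih x.2 ?_)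
      have h3 : x.1 ≠ 0 := by
        intro h0
        apply hx.1
        ext
        · exact h0
        · have := hx.2
          simp only
          omega
      omega
    have h4 : PowerSeries.coeff n (qExpansion 1 f) =
        (PowerSeries.coeff n (qExpansion 1 f) + ∑ x ∈ (Finset.HasAntidiagonal.antidiagonal n).erase (0, n),
          PowerSeries.coeff (x.1 + 1) (qExpansion 1 E) * PowerSeries.coeff x.2 (qExpansion 1 f)) -
        ∑ x ∈ (Finset.HasAntidiagonal.antidiagonal n).erase (0, n),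
          PowerSeries.coeff (x.1 + 1) (qExpansion 1 E) * PowerSeries.coeff x.2 (qExpansion 1 f) := by
      ring
    rw [h4]
    exact Submodule.sub_mem _ (hle _ h1) h2

/-- **Integrality lattice for the Hecke eigenvalues.**  Under the formal Hecke relations of the
frozen statement S48, there is a finitely generated `ℤ`-submodule of `ℂ` containing `1` and
stable under multiplication by the eigenvalues `a_p` (`p ∤ N`) and by the values of `ε`. -/
theorem exists_lattice_of_aux' {N M : ℕ} [NeZero N] [NeZero M] (hNM : N ∣ M) {w : ℤ}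
    (ε : DirichletCharacter ℂ N) (f : CuspForm (G1 N) 1) (hA : HasNeben ε N 1 f)
    (E : ModularForm (G1 M) w) (hE : HasNeben ε⁻¹ M w E)
    (hE0 : ModularFormClass.qCoeff E 0 = 0) (hE1 : ModularFormClass.qCoeff E 1 = 1)
    (hER : ∀ n : ℕ, ModularFormClass.qCoeff E n ∈ Algebra.adjoin ℤ (Set.range ε))
    (hf₁ : ModularFormClass.qCoeff f 1 = 1)
    (hT : ∀ p : ℕ, p.Prime → ¬ p ∣ N → ∀ n : ℕ,
        ModularFormClass.qCoeff f (p * n) +
            ε (p : ZMod N) * (if p ∣ n then ModularFormClass.qCoeff f (n / p) else 0) =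
          ModularFormClass.qCoeff f p * ModularFormClass.qCoeff f n) :
    ∃ Λ : Submodule ℤ ℂ, Λ.FG ∧ (1 : ℂ) ∈ Λ ∧
      (∀ p : ℕ, p.Prime → ¬ p ∣ N → ∀ x ∈ Λ, ModularFormClass.qCoeff f p * x ∈ Λ) ∧
      (∀ d : ZMod N, ∀ x ∈ Λ, ε d * x ∈ Λ) := by
  classical
  obtain ⟨Λ', hfg, hmul, hmem⟩ := exists_lattice_of_aux hNM ε f hA E hE hE0 hE1 hER
  set R := Algebra.adjoin ℤ (Set.range ε) with hR
  have hεR : ∀ d : ZMod N, ε d ∈ R := fun d => Algebra.subset_adjoin (Set.mem_range_self d)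
  set S : Set ℂ := {y | ∃ r ∈ R, ∃ n : ℕ, y = r * ModularFormClass.qCoeff f n} with hS
  have hle : Submodule.span ℤ S ≤ Λ' := by
    rw [Submodule.span_le]
    rintro _ ⟨r, hr, n, rfl⟩
    exact hmul r hr _ (hmem n)
  refine ⟨Submodule.span ℤ S, hfg.of_le hle, ?_, ?_, ?_⟩
  · exact Submodule.subset_span ⟨1, one_mem R, 1, by rw [hf₁, one_mul]⟩
  · intro p hp hpN x hx
    induction hx using Submodule.span_induction with
    | mem y hy =>
      obtain ⟨r, hr, n, rfl⟩ := hy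
      have h1 := hT p hp hpN n
      have h2 : ModularFormClass.qCoeff f p * (r * ModularFormClass.qCoeff f n) =
          r * ModularFormClass.qCoeff f (p * n) + (r * ε (p : ZMod N)) *
            (if p ∣ n then ModularFormClass.qCoeff f (n / p) else 0) := by
        rw [mul_left_comm, ← h1]
        ring
      rw [h2]
      refine Submodule.add_mem _ (Submodule.subset_span ⟨r, hr, p * n, rfl⟩) ?_
      split_ifs
      · exact Submodule.subset_span ⟨r * ε (p : ZMod N), mul_mem hr (hεR _), n / p, rfl⟩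
      · rw [mul_zero]
        exact Submodule.zero_mem _
    | zero => rw [mul_zero]; exact Submodule.zero_mem _
    | add x y _ _ hx hy => rw [mul_add]; exact Submodule.add_mem _ hx hy
    | smul a x _ hx => rw [mul_smul_comm]; exact Submodule.smul_mem _ a hx
  · intro d x hx
    induction hx using Submodule.span_induction with
    | mem y hy =>
      obtain ⟨r, hr, n, rfl⟩ := hy
      rw [← mul_assoc]
      exact Submodule.subset_span ⟨ε d * r, mul_mem (hεR d) hr, n, rfl⟩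
    | zero => rw [mul_zero]; exact Submodule.zero_mem _
    | add x y _ _ hx hy => rw [mul_add]; exact Submodule.add_mem _ hx hy
    | smul a x _ hx => rw [mul_smul_comm]; exact Submodule.smul_mem _ a hx

/-! ### Packaged exits -/

/-- **The auxiliary form, as one `Prop`.**  A modular form `E = q + ⋯` of some weight `w` on
`Γ₁(M)`, `N ∣ M`, with nebentypus `ε⁻¹` on `Γ₀(M)`, coefficients in `ℤ[ε]`, all of whose
coefficientwise conjugates are again modular forms on `Γ₁(M)`. -/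
def HAux (N : ℕ) (ε : DirichletCharacter ℂ N) : Prop :=
  ∃ (M : ℕ) (w : ℤ), N ∣ M ∧ M ≠ 0 ∧ ∃ E : ModularForm (Gamma1 M) w,
    HasNeben ε⁻¹ M w E ∧ ModularFormClass.qCoeff E 0 = 0 ∧ ModularFormClass.qCoeff E 1 = 1 ∧
    (∀ n : ℕ, ModularFormClass.qCoeff E n ∈ Algebra.adjoin ℤ (Set.range ε)) ∧
    ∀ σ : ℂ →+* ℂ, ∃ E' : ModularForm (Gamma1 M) w,
      ∀ n : ℕ, ModularFormClass.qCoeff E' n = σ (ModularFormClass.qCoeff E n)

/-- **Exit (i): the integrality lattice.** -/
theorem exists_lattice (N : ℕ) [NeZero N] (ε : DirichletCharacter ℂ N)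
    (f : CuspForm (Gamma1 N) 1)
    (hf₁ : ModularFormClass.qCoeff f 1 = 1)
    (hT : ∀ p : ℕ, p.Prime → ¬ p ∣ N → ∀ n : ℕ,
        ModularFormClass.qCoeff f (p * n) +
            ε (p : ZMod N) * (if p ∣ n then ModularFormClass.qCoeff f (n / p) else 0) =
          ModularFormClass.qCoeff f p * ModularFormClass.qCoeff f n)
    (hA : HasNeben ε N 1 f) (hAux : HAux N ε) :
    ∃ Λ : Submodule ℤ ℂ, Λ.FG ∧ (1 : ℂ) ∈ Λ ∧
      (∀ p : ℕ, p.Prime → ¬ p ∣ N → ∀ x ∈ Λ, ModularFormClass.qCoeff f p * x ∈ Λ) ∧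
      (∀ d : ZMod N, ∀ x ∈ Λ, ε d * x ∈ Λ) := by
  obtain ⟨M, w, hNM, hM, E, hE, hE0, hE1, hER, -⟩ := hAux
  haveI : NeZero M := ⟨hM⟩
  exact exists_lattice_of_aux' hNM ε f hA E hE hE0 hE1 hER hf₁ hT

/-- The eigenvalues `a_p` (`p ∤ N`) are algebraic integers. -/
theorem isIntegral_qCoeff (N : ℕ) [NeZero N] (ε : DirichletCharacter ℂ N)
    (f : CuspForm (Gamma1 N) 1)
    (hf₁ : ModularFormClass.qCoeff f 1 = 1)
    (hT : ∀ p : ℕ, p.Prime → ¬ p ∣ N → ∀ n : ℕ,
        ModularFormClass.qCoeff f (p * n) +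
            ε (p : ZMod N) * (if p ∣ n then ModularFormClass.qCoeff f (n / p) else 0) =
          ModularFormClass.qCoeff f p * ModularFormClass.qCoeff f n)
    (hA : HasNeben ε N 1 f) (hAux : HAux N ε) (p : ℕ) (hp : p.Prime) (hpN : ¬ p ∣ N) :
    IsIntegral ℤ (ModularFormClass.qCoeff f p) := by
  obtain ⟨Λ, hfg, h1, hp', -⟩ := exists_lattice N ε f hf₁ hT hA hAux
  refine isIntegral_of_smul_mem_submodule Λ ?_ hfg _ (fun x hx => hp' p hp hpN x hx)
  intro h0
  rw [h0, Submodule.mem_bot] at h1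
  exact one_ne_zero h1

/-- The ring generated by the eigenvalues `a_p` (`p ∤ N`) and the values of `ε` is a finitely
generated `ℤ`-module (so its fraction field is a number field). -/
theorem adjoin_fg (N : ℕ) [NeZero N] (ε : DirichletCharacter ℂ N)
    (f : CuspForm (Gamma1 N) 1)
    (hf₁ : ModularFormClass.qCoeff f 1 = 1)
    (hT : ∀ p : ℕ, p.Prime → ¬ p ∣ N → ∀ n : ℕ,
        ModularFormClass.qCoeff f (p * n) +
            ε (p : ZMod N) * (if p ∣ n then ModularFormClass.qCoeff f (n / p) else 0) =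
          ModularFormClass.qCoeff f p * ModularFormClass.qCoeff f n)
    (hA : HasNeben ε N 1 f) (hAux : HAux N ε) :
    (Subalgebra.toSubmodule (Algebra.adjoin ℤ
      ({x : ℂ | ∃ p : ℕ, p.Prime ∧ ¬ p ∣ N ∧ x = ModularFormClass.qCoeff f p} ∪
        Set.range ε))).FG := by
  obtain ⟨Λ, hfg, h1, hp', hd'⟩ := exists_lattice N ε f hf₁ hT hA hAux
  refine hfg.of_le ?_
  have key : ∀ y ∈ Algebra.adjoin ℤ
      ({x : ℂ | ∃ p : ℕ, p.Prime ∧ ¬ p ∣ N ∧ x = ModularFormClass.qCoeff f p} ∪ Set.range ε),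
      ∀ x ∈ Λ, y * x ∈ Λ := by
    intro y hy
    induction hy using Algebra.adjoin_induction with
    | mem y hy =>
      rcases hy with ⟨p, hp, hpN, rfl⟩ | ⟨d, rfl⟩
      · exact hp' p hp hpN
      · exact hd' d
    | algebraMap r =>
      intro x hx
      have h2 : (algebraMap ℤ ℂ r) * x = r • x := by
        rw [zsmul_eq_mul]
        rfl
      rw [h2]
      exact Submodule.smul_mem _ r hx
    | add a b _ _ ha hb =>
      intro x hx
      rw [add_mul]
      exact Submodule.add_mem _ (ha x hx) (hb x hx)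
    | mul a b _ _ ha hb =>
      intro x hx
      rw [mul_assoc]
      exact ha _ (hb x hx)
  intro y hy
  have := key y hy 1 h1
  rwa [mul_one] at this

/-- **Exit (ii): conjugates.**  There is a level `M` such that for every ring endomorphism `σ`
of `ℂ` the coefficientwise conjugate of `f` is a weight-one cusp form on `Γ₁(M)`. -/
theorem exists_conj (N : ℕ) [NeZero N] (ε : DirichletCharacter ℂ N)
    (f : CuspForm (Gamma1 N) 1) (hA : HasNeben ε N 1 f) (hAux : HAux N ε) :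
    ∃ M : ℕ, M ≠ 0 ∧ ∀ σ : ℂ →+* ℂ, ∃ h : CuspForm (Gamma1 M) 1,
      ∀ n : ℕ, ModularFormClass.qCoeff h n = σ (ModularFormClass.qCoeff f n) := by
  obtain ⟨M, w, hNM, hM, E, hE, hE0, hE1, hER, hconj⟩ := hAux
  haveI : NeZero M := ⟨hM⟩
  refine ⟨M, hM, fun σ => ?_⟩
  obtain ⟨E', hE'⟩ := hconj σ
  have hEne : qExpansion 1 E ≠ 0 := by
    intro h0
    have h1 : ModularFormClass.qCoeff E 1 = 0 := by
      unfold ModularFormClass.qCoeff
      rw [h0]
      simp
    rw [hE1] at h1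
    exact one_ne_zero h1
  have hE'' : qExpansion 1 E' = PowerSeries.map σ (qExpansion 1 E) := by
    ext n
    rw [PowerSeries.coeff_map]
    exact hE' n
  obtain ⟨h, hh⟩ := exists_conj_of_aux hNM ε f hA E hE hEne σ E' hE''
  refine ⟨h, fun n => ?_⟩
  unfold ModularFormClass.qCoeff
  rw [hh, PowerSeries.coeff_map]

/-- **Exit (ii) with the conjugate Hecke relations**, in the shape of the frozen hypotheses. -/
theorem exists_conj_rel (N : ℕ) [NeZero N] (ε : DirichletCharacter ℂ N)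
    (f : CuspForm (Gamma1 N) 1)
    (hf₁ : ModularFormClass.qCoeff f 1 = 1)
    (hT : ∀ p : ℕ, p.Prime → ¬ p ∣ N → ∀ n : ℕ,
        ModularFormClass.qCoeff f (p * n) +
            ε (p : ZMod N) * (if p ∣ n then ModularFormClass.qCoeff f (n / p) else 0) =
          ModularFormClass.qCoeff f p * ModularFormClass.qCoeff f n)
    (hA : HasNeben ε N 1 f) (hAux : HAux N ε) :
    ∃ M : ℕ, M ≠ 0 ∧ ∀ σ : ℂ →+* ℂ, ∃ h : CuspForm (Gamma1 M) 1,
      (∀ n : ℕ, ModularFormClass.qCoeff h n = σ (ModularFormClass.qCoeff f n)) ∧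
      ModularFormClass.qCoeff h 1 = 1 ∧
      ∀ p : ℕ, p.Prime → ¬ p ∣ N → ∀ n : ℕ,
        ModularFormClass.qCoeff h (p * n) +
            σ (ε (p : ZMod N)) * (if p ∣ n then ModularFormClass.qCoeff h (n / p) else 0) =
          σ (ModularFormClass.qCoeff f p) * ModularFormClass.qCoeff h n := by
  obtain ⟨M, hM, hconj⟩ := exists_conj N ε f hA hAux
  refine ⟨M, hM, fun σ => ?_⟩
  obtain ⟨h, hh⟩ := hconj σ
  refine ⟨h, hh, by rw [hh, hf₁, map_one], fun p hp hpN n => ?_⟩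
  have h1 := congrArg σ (hT p hp hpN n)
  rw [map_add, map_mul, map_mul] at h1
  simp only [hh]
  rw [← h1]
  congr 2
  split_ifs
  · rfl
  · rw [map_zero]

end

end Fermat.Agent.S48.ConjEis
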