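/-
S48 (Deligne–Serre), brick A: the NEBENTYPUS LEMMA (helper248).

A weight one cusp form `f` on `Γ₁(N)` whose `q`-expansion coefficients satisfy the formal Hecke
relations `a(pn) + ε(p) a(n/p) = a(p) a(n)` for all primes `p ∤ N` has nebentypus `ε`:
`f ∣[1] γ = ε(d_γ) • f` for all `γ ∈ Γ₀(N)`, where `d_γ` is the lower right entry of `γ`.

Proof.  For `p ∤ N` prime and `σ_p ∈ Γ₀(N)` with lower right entry `≡ p`, put
`h := ε(p) f - f ∣ σ_p`.  Then `h` is `Γ₁(N)`-invariant, and so is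
`h ∣ diag(p, 1) = a_p f - T_p f` (where `T_p f = U_p f + (f ∣ σ_p) ∣ diag(p, 1)` is the genuine
Hecke operator on `Γ₁(N)`, `Coset.lean`), by comparing `q`-expansions.  By Lemma V (`LemmaV.lean`)
`h = 0`.  Dirichlet's theorem on primes in arithmetic progressions gives the general case.
-/
import Mathlib
import Fermat.Prelude.Def_FLTPrelim_Modularity
import Fermat.Prelude.Thm_UpperHalfPlane_eq_of_forall_qCoeff_eq
import Fermat.Prelude.Thm_UpperHalfPlane_qCoeff_heckeT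
import Fermat.Prelude.Thm_UpperHalfPlane_qCoeff_heckeU
import Fermat.Prelude.Thm_ModularForm_mdifferentiable_heckeT
import Fermat.Prelude.Thm_ModularForm_mdifferentiable_heckeU
import Fermat.Prelude.Thm_ModularForm_isBoundedAtImInfty_heckeT
import Fermat.Prelude.Thm_ModularForm_isBoundedAtImInfty_heckeU
import Fermat.Prelude.Thm_ModularForm_periodic_heckeT_comp_ofComplex
import Fermat.Prelude.Thm_ModularForm_periodic_heckeU_comp_ofComplex
import Fermat.Agent.S48.Neben.Coset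

set_option autoImplicit false

namespace Fermat.Agent.S48.Neben

open CongruenceSubgroup Matrix.SpecialLinearGroup UpperHalfPlane ModularForm
open scoped MatrixGroups ModularForm Manifold

/-- A function on the upper half plane that is `1`-periodic, holomorphic and bounded at `i∞`. -/
structure Nice (F : ℍ → ℂ) : Prop where
  per : Function.Periodic (F ∘ ofComplex) 1
  hol : MDiff F
  bdd : IsBoundedAtImInfty F

namespace Nice

variable {F G : ℍ → ℂ}

lemma analytic (hF : Nice F) : AnalyticAt ℂ (cuspFunction 1 F) 0 :=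
  analyticAt_cuspFunction_zero one_pos hF.per hF.hol hF.bdd

lemma add (hF : Nice F) (hG : Nice G) : Nice (F + G) where
  per := fun x => by
    simp only [Function.comp_apply, Pi.add_apply]
    have h1 := hF.per x
    have h2 := hG.per x
    simp only [Function.comp_apply] at h1 h2
    rw [h1, h2]
  hol := hF.hol.add hG.hol
  bdd := hF.bdd.add hG.bdd

lemma smul (c : ℂ) (hF : Nice F) : Nice (c • F) where
  per := fun x => by
    simp only [Function.comp_apply, Pi.smul_apply]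
    have h1 := hF.per x
    simp only [Function.comp_apply] at h1
    rw [h1]
  hol := hF.hol.const_smul c
  bdd := hF.bdd.smul c

lemma qCoeff_add (hF : Nice F) (hG : Nice G) (n : ℕ) :
    ModularFormClass.qCoeff (F + G) n
      = ModularFormClass.qCoeff F n + ModularFormClass.qCoeff G n := by
  unfold ModularFormClass.qCoeff
  rw [qExpansion_add hF.analytic hG.analytic, map_add]

lemma qCoeff_smul (c : ℂ) (hF : Nice F) (n : ℕ) :
    ModularFormClass.qCoeff (c • F) n = c * ModularFormClass.qCoeff F n := by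
  unfold ModularFormClass.qCoeff
  rw [qExpansion_smul hF.analytic, PowerSeries.coeff_smul, smul_eq_mul]

lemma heckeU (hF : Nice F) (k : ℤ) (p : ℕ) : Nice (ModularForm.heckeU k p F) where
  per := ModularForm.periodic_heckeU_comp_ofComplex hF.per k p
  hol := ModularForm.mdifferentiable_heckeU hF.hol k p
  bdd := ModularForm.isBoundedAtImInfty_heckeU hF.bdd k p

lemma heckeT (hF : Nice F) (k : ℤ) (p : ℕ) : Nice (ModularForm.heckeT k p F) where
  per := ModularForm.periodic_heckeT_comp_ofComplex hF.per k p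
  hol := ModularForm.mdifferentiable_heckeT hF.hol k p
  bdd := ModularForm.isBoundedAtImInfty_heckeT hF.bdd k p

lemma slash_diag_eq (k : ℤ) (p : ℕ) (F : ℍ → ℂ) :
    F ∣[k] heckeDiagMatrix p = ModularForm.heckeT k p F + (-1 : ℂ) • ModularForm.heckeU k p F := by
  rw [heckeT_eq_heckeU_add]
  funext τ
  simp

lemma slash_diag (hF : Nice F) (k : ℤ) (p : ℕ) : Nice (F ∣[k] heckeDiagMatrix p) := by
  rw [slash_diag_eq]
  exact (hF.heckeT k p).add ((hF.heckeU k p).smul (-1))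

lemma qCoeff_slash_diag (hF : Nice F) (k : ℤ) {p : ℕ} (hp : p ≠ 0) (n : ℕ) :
    ModularFormClass.qCoeff (F ∣[k] heckeDiagMatrix p) n
      = if p ∣ n then (p : ℂ) ^ (k - 1) * ModularFormClass.qCoeff F (n / p) else 0 := by
  rw [slash_diag_eq, qCoeff_add (hF.heckeT k p) ((hF.heckeU k p).smul (-1)),
    qCoeff_smul _ (hF.heckeU k p), UpperHalfPlane.qCoeff_heckeT hF.per hF.hol hF.bdd k hp,
    UpperHalfPlane.qCoeff_heckeU hF.per hF.hol hF.bdd k hp, coeffHeckeT_apply, coeffHeckeU_apply]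
  ring

end Nice

section main

lemma one_mem_strictPeriods_Gamma1 (N : ℕ) :
    (1 : ℝ) ∈ (Gamma1 N : Subgroup (GL (Fin 2) ℝ)).strictPeriods := by
  rw [strictPeriods_Gamma1]
  exact AddSubgroup.mem_zmultiples 1

lemma nice_cuspForm {N : ℕ} [NeZero N] (f : CuspForm (Gamma1 N) 1) : Nice ⇑f where
  per := SlashInvariantFormClass.periodic_comp_ofComplex f (one_mem_strictPeriods_Gamma1 N)
  hol := ModularFormClass.holo f
  bdd :=
    have : Fact (IsCusp OnePoint.infty (Gamma1 N : Subgroup (GL (Fin 2) ℝ))) :=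
      ⟨Subgroup.isCusp_of_mem_strictPeriods one_pos (one_mem_strictPeriods_Gamma1 N)⟩
    ModularFormClass.bdd_at_infty f

lemma inv1_cuspForm {N : ℕ} (f : CuspForm (Gamma1 N) 1) : Inv1 N 1 ⇑f := fun γ hγ =>
  SlashInvariantFormClass.slash_action_eq f (mapGL ℝ γ) (Subgroup.mem_map_of_mem _ hγ)

/-! ### Closure properties of `Γ₁(N)`-invariance -/

lemma inv1_smul {N : ℕ} {k : ℤ} {F : ℍ → ℂ} (c : ℂ) (hF : Inv1 N k F) : Inv1 N k (c • F) :=
  fun γ hγ => by
    have e1 : (c • F) ∣[k] (mapGL ℝ γ) = (c • F) ∣[k] γ := rfl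
    have e2 : F ∣[k] γ = F ∣[k] (mapGL ℝ γ) := rfl
    rw [e1, ModularForm.SL_smul_slash, e2, hF γ hγ]

lemma inv1_add {N : ℕ} {k : ℤ} {F G : ℍ → ℂ} (hF : Inv1 N k F) (hG : Inv1 N k G) :
    Inv1 N k (F + G) := fun γ hγ => by
  rw [SlashAction.add_slash, hF γ hγ, hG γ hγ]

lemma inv1_neg {N : ℕ} {k : ℤ} {F : ℍ → ℂ} (hF : Inv1 N k F) : Inv1 N k (-F) := fun γ hγ => by
  rw [SlashAction.neg_slash, hF γ hγ]

lemma inv1_sub {N : ℕ} {k : ℤ} {F G : ℍ → ℂ} (hF : Inv1 N k F) (hG : Inv1 N k G) :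
    Inv1 N k (F - G) := by
  rw [sub_eq_add_neg]
  exact inv1_add hF (inv1_neg hG)

lemma isUnit_lr {N : ℕ} {g : SL(2, ℤ)} (hg : g ∈ Gamma0 N) :
    IsUnit (((g 1 1 : ℤ) : ZMod N)) := by
  rw [Gamma0_mem] at hg
  have := congrArg (Int.cast : ℤ → ZMod N) (sl_det_eq g)
  push_cast at this
  rw [hg, mul_zero, sub_zero] at this
  exact IsUnit.of_mul_eq_one _ (by rw [mul_comm]; exact this)

/-- `Γ₁(N)` is normalised by `Γ₀(N)`. -/
lemma conj_mem_Gamma1 {N : ℕ} {g γ : SL(2, ℤ)} (hg : g ∈ Gamma0 N) (hγ : γ ∈ Gamma1 N) :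
    g * γ * g⁻¹ ∈ Gamma1 N := by
  have hγ0 : γ ∈ Gamma0 N := Gamma1_in_Gamma0 N hγ
  have hmem0 : g * γ * g⁻¹ ∈ Gamma0 N :=
    (Gamma0 N).mul_mem ((Gamma0 N).mul_mem hg hγ0) ((Gamma0 N).inv_mem hg)
  rw [mem_Gamma1_iff_lr]
  refine ⟨hmem0, ?_⟩
  apply (isUnit_lr hg).mul_right_cancel
  rw [← lr_mul hmem0, inv_mul_cancel_right, lr_mul hg, (mem_Gamma1_iff_lr.mp hγ).2, mul_one,
    one_mul]

lemma inv1_slash_Gamma0 {N : ℕ} {k : ℤ} {F : ℍ → ℂ} (hF : Inv1 N k F) {g : SL(2, ℤ)}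
    (hg : g ∈ Gamma0 N) : Inv1 N k (F ∣[k] mapGL ℝ g) := fun γ hγ => by
  have hmem := conj_mem_Gamma1 hg hγ
  have e : mapGL ℝ g * mapGL ℝ γ = mapGL ℝ (g * γ * g⁻¹) * mapGL ℝ g := by
    rw [← map_mul, ← map_mul, inv_mul_cancel_right]
  rw [← SlashAction.slash_mul, e, SlashAction.slash_mul, hF _ hmem]

/-! ### The main argument -/

variable (N : ℕ) [NeZero N] (ε : DirichletCharacter ℂ N) (f : CuspForm (Gamma1 N) 1)
  (hT : ∀ p : ℕ, p.Prime → ¬ p ∣ N → ∀ n : ℕ,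
    ModularFormClass.qCoeff f (p * n) +
        ε (p : ZMod N) * (if p ∣ n then ModularFormClass.qCoeff f (n / p) else 0)
      = ModularFormClass.qCoeff f p * ModularFormClass.qCoeff f n)
include hT

/-- The formal Hecke relations as an identity of functions. -/
theorem hecke_eq {p : ℕ} (hp : p.Prime) (hpN : ¬ p ∣ N) :
    heckeU 1 p ⇑f + ε (p : ZMod N) • (⇑f ∣[(1 : ℤ)] heckeDiagMatrix p)
      = ModularFormClass.qCoeff f p • ⇑f := by
  have hf := nice_cuspForm f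
  have hU := hf.heckeU 1 p
  have hD := hf.slash_diag 1 p
  have hL := hU.add (hD.smul (ε (p : ZMod N)))
  have hR := hf.smul (ModularFormClass.qCoeff f p)
  refine UpperHalfPlane.eq_of_forall_qCoeff_eq hL.per hL.hol hL.bdd hR.per hR.hol hR.bdd
    fun n => ?_
  rw [Nice.qCoeff_add hU (hD.smul _), Nice.qCoeff_smul _ hD, Nice.qCoeff_smul _ hf,
    UpperHalfPlane.qCoeff_heckeU hf.per hf.hol hf.bdd 1 hp.ne_zero,
    Nice.qCoeff_slash_diag hf 1 hp.ne_zero, coeffHeckeU_apply, ← hT p hp hpN n, mul_comm n p]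
  simp

/-- The nebentypus relation for `γ ∈ Γ₀(N)` whose lower right entry is congruent to a prime
`p ∤ N`. -/
theorem slash_eq_smul_of_prime {p : ℕ} (hp : p.Prime) (hpN : ¬ p ∣ N) (γp : SL(2, ℤ))
    (hγp : γp ∈ Gamma0 N) (hγp1 : ((γp 1 1 : ℤ) : ZMod N) = p) :
    (⇑f) ∣[(1 : ℤ)] (mapGL ℝ γp) = ε (p : ZMod N) • ⇑f := by
  have hf1 := inv1_cuspForm f
  have h1 : Inv1 N 1 (ε (p : ZMod N) • ⇑f - (⇑f) ∣[(1 : ℤ)] (mapGL ℝ γp)) :=
    inv1_sub (inv1_smul _ hf1) (inv1_slash_Gamma0 hf1 hγp)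
  have hhol : MDiff (ε (p : ZMod N) • ⇑f - (⇑f) ∣[(1 : ℤ)] (mapGL ℝ γp)) :=
    ((ModularFormClass.holo f).const_smul _).sub ((ModularFormClass.holo f).slash 1 _)
  have hα : (ε (p : ZMod N) • ⇑f - (⇑f) ∣[(1 : ℤ)] (mapGL ℝ γp)) ∣[(1 : ℤ)] heckeDiagMatrix p
      = ModularFormClass.qCoeff f p • ⇑f
        - (heckeU 1 p ⇑f + ((⇑f) ∣[(1 : ℤ)] mapGL ℝ γp) ∣[(1 : ℤ)] heckeDiagMatrix p) := by
    rw [← hecke_eq N ε f hT hp hpN, sub_eq_add_neg, SlashAction.add_slash,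
      SlashAction.neg_slash, ModularForm.smul_slash, σ_heckeDiagMatrix]
    simp only [ContinuousAlgEquiv.refl_apply]
    abel
  have h2 : Inv1 N 1
      ((ε (p : ZMod N) • ⇑f - (⇑f) ∣[(1 : ℤ)] (mapGL ℝ γp)) ∣[(1 : ℤ)] heckeDiagMatrix p) := by
    rw [hα]
    exact inv1_sub (inv1_smul _ hf1) (inv1_hecke hp hpN 1 hf1 γp hγp hγp1)
  have h0 := lemmaV hp hpN one_ne_zero hhol h1 h2
  rw [sub_eq_zero] at h0
  exact h0.symm

/-- **Nebentypus lemma.** A weight one cusp form on `Γ₁(N)` satisfying the formal Hecke relations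
with character `ε` at all primes not dividing `N` has nebentypus `ε`. -/
theorem slash_eq_smul (γ : SL(2, ℤ)) (hγ : γ ∈ Gamma0 N) :
    (⇑f) ∣[(1 : ℤ)] (mapGL ℝ γ) = ε ((γ 1 1 : ℤ) : ZMod N) • ⇑f := by
  obtain ⟨p, hpN', hp, hpd⟩ := Nat.forall_exists_prime_gt_and_eq_mod (isUnit_lr hγ) N
  have hpN : ¬ p ∣ N := fun hdvd =>
    absurd (Nat.le_of_dvd (Nat.pos_of_ne_zero (NeZero.ne N)) hdvd) (not_le.mpr hpN')
  rw [← hpd]
  exact slash_eq_smul_of_prime N ε f hT hp hpN γ hγ hpd.symm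

end main

end Fermat.Agent.S48.Neben
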