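/-
S48 (Deligne–Serre), brick E.Res.Core (helper72): from the two exits of G1 (`ES1Data` for the
operators `T ℓ`, `Dm u` on a complex vector space `V`, and the residual engine `ResidualExit`)
and abstract congruence data (an element `g` of `V` which is an eigenvector of all `T ℓ`, `Dm u`
"modulo" an additive subgroup `Msub` of `V`), to a residual Galois representation with the
prescribed characteristic polynomials.  Pure algebra: only `S48/G1/Contract` and `S48/ModEigen`.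
-/
import Mathlib
import Fermat.Agent.S48.G1.Contract
import Fermat.Agent.S48.ModEigen

set_option autoImplicit false

open Polynomial

namespace Fermat.Agent.S48.ResCore

open Fermat.Agent.S48.G1

variable {M p : ℕ} [NeZero M] [Fact p.Prime] {V : Type} [AddCommGroup V] [Module ℂ V]
  {T : ℕ → Module.End ℂ V} {Dm : (ZMod M)ˣ → Module.End ℂ V}

/-- The index type of the operator family: the good primes and the units mod `M`. -/
abbrev Idx (M p : ℕ) : Type := {ℓ : ℕ // ℓ.Prime ∧ ¬ ℓ ∣ M ∧ ℓ ≠ p} ⊕ (ZMod M)ˣ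

/-- The operator family `T ℓ` (`ℓ` good), `Dm u`. -/
def fam (p : ℕ) (T : ℕ → Module.End ℂ V) (Dm : (ZMod M)ˣ → Module.End ℂ V) :
    Idx M p → Module.End ℂ V :=
  Sum.elim (fun ℓ => T ℓ.1) Dm

/-- The integer matrices of the family. -/
def mfam (D : ES1Data M p T Dm) : Idx M p → Matrix (Fin D.r) (Fin D.r) ℤ :=
  Sum.elim (fun ℓ => D.t ℓ.1) (fun u => D.d u)

theorem mfam_comm (D : ES1Data M p T Dm) (i j : Idx M p) :
    mfam D i * mfam D j = mfam D j * mfam D i := by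
  rcases i with ℓ | u <;> rcases j with ℓ' | u'
  · exact (D.t_comm ℓ.1 ℓ'.1).eq
  · exact (D.td_comm ℓ.1 u').eq
  · exact (D.td_comm ℓ'.1 u).eq.symm
  · show D.d u * D.d u' = D.d u' * D.d u
    rw [← map_mul, ← map_mul, mul_comm]

theorem exists_intertwine (D : ES1Data M p T Dm) :
    ∃ Φ : V →ₗ[ℂ] (Fin D.r → ℂ), Function.Injective Φ ∧ ∀ (i : Idx M p) (f : V),
      Φ (fam p T Dm i f) = ((mfam D i).map (Int.castRingHom ℂ)).mulVec (Φ f) := by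
  obtain ⟨Φ, hΦ, hT, hD⟩ := D.occ
  refine ⟨Φ, hΦ, ?_⟩
  rintro (ℓ | u) f
  · exact hT ℓ.1 ℓ.2.1 ℓ.2.2.1 ℓ.2.2.2 f
  · exact hD u f

/-- **(RC1)** The space is finite-dimensional. -/
theorem finiteDimensional_of_es1Data (D : ES1Data M p T Dm) : FiniteDimensional ℂ V := by
  obtain ⟨Φ, hΦ, -⟩ := D.occ
  exact FiniteDimensional.of_injective Φ hΦ

/-- **(RC2a)** The operators commute. -/
theorem fam_comm (D : ES1Data M p T Dm) (i j : Idx M p) :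
    fam p T Dm i * fam p T Dm j = fam p T Dm j * fam p T Dm i := by
  obtain ⟨Φ, hΦ, h⟩ := exists_intertwine D
  apply LinearMap.ext
  intro f
  apply hΦ
  rw [Module.End.mul_apply, Module.End.mul_apply, h, h, h, h, Matrix.mulVec_mulVec,
    Matrix.mulVec_mulVec, ← Matrix.map_mul, ← Matrix.map_mul, mfam_comm D i j]

/-- **(RC2b)** The Hecke ring is a finitely generated `ℤ`-module. -/
theorem fg_adjoin (D : ES1Data M p T Dm) :
    (Subalgebra.toSubmodule (Algebra.adjoin ℤ (Set.range (fam p T Dm)))).FG := by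
  classical
  obtain ⟨Φ, hΦ, h⟩ := exists_intertwine D
  let πT : FreeAlgebra ℤ (Idx M p) →ₐ[ℤ] Module.End ℂ V := FreeAlgebra.lift ℤ (fam p T Dm)
  let πm : FreeAlgebra ℤ (Idx M p) →ₐ[ℤ] Matrix (Fin D.r) (Fin D.r) ℤ :=
    FreeAlgebra.lift ℤ (mfam D)
  let c : Matrix (Fin D.r) (Fin D.r) ℤ →+* Matrix (Fin D.r) (Fin D.r) ℂ :=
    (Int.castRingHom ℂ).mapMatrix
  have key : ∀ (x : FreeAlgebra ℤ (Idx M p)) (f : V),
      Φ (πT x f) = (c (πm x)).mulVec (Φ f) := by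
    intro x
    induction x using FreeAlgebra.induction with
    | grade0 n =>
      intro f
      have h1 : c (algebraMap ℤ (Matrix (Fin D.r) (Fin D.r) ℤ) n) =
          (n : ℂ) • (1 : Matrix (Fin D.r) (Fin D.r) ℂ) := by
        rw [Algebra.algebraMap_eq_smul_one, map_zsmul, map_one]
        exact (Int.cast_smul_eq_zsmul ℂ n _).symm
      rw [AlgHom.commutes, AlgHom.commutes, Module.algebraMap_end_apply, map_zsmul, h1,
        Matrix.smul_mulVec, Matrix.one_mulVec]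
      exact (Int.cast_smul_eq_zsmul ℂ n (Φ f)).symm
    | grade1 i =>
      intro f
      show Φ (FreeAlgebra.lift ℤ (fam p T Dm) (FreeAlgebra.ι ℤ i) f) =
        (c (FreeAlgebra.lift ℤ (mfam D) (FreeAlgebra.ι ℤ i))).mulVec (Φ f)
      rw [FreeAlgebra.lift_ι_apply, FreeAlgebra.lift_ι_apply]
      exact h i f
    | add x y hx hy =>
      intro f
      rw [map_add, LinearMap.add_apply, map_add, hx, hy, map_add, map_add, Matrix.add_mulVec]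
    | mul x y hx hy =>
      intro f
      rw [map_mul, map_mul, map_mul, Module.End.mul_apply, hx, hy, Matrix.mulVec_mulVec]
  have hker : LinearMap.ker πm.toLinearMap ≤ LinearMap.ker πT.toLinearMap := by
    intro x hx
    rw [LinearMap.mem_ker, AlgHom.toLinearMap_apply] at hx ⊢
    apply LinearMap.ext
    intro f
    apply hΦ
    rw [key x f, hx, map_zero, Matrix.zero_mulVec, LinearMap.zero_apply, map_zero]
  have hq : Module.Finite ℤ (FreeAlgebra ℤ (Idx M p) ⧸ LinearMap.ker πm.toLinearMap) :=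
    Module.Finite.equiv (LinearMap.quotKerEquivRange πm.toLinearMap).symm
  have hrange : LinearMap.range ((LinearMap.ker πm.toLinearMap).liftQ πT.toLinearMap hker) =
      LinearMap.range πT.toLinearMap := Submodule.range_liftQ _ _ _
  have h1 : (LinearMap.range πT.toLinearMap).FG := by
    rw [← hrange, LinearMap.range_eq_map]
    exact (Module.Finite.fg_top).map _
  have h2 : Subalgebra.toSubmodule (Algebra.adjoin ℤ (Set.range (fam p T Dm))) =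
      LinearMap.range πT.toLinearMap := by
    rw [Algebra.adjoin_range_eq_range_freeAlgebra_lift]
    rfl
  rw [h2]
  exact h1

/-- **(RC3)** A congruence eigenvector lifts to a genuine joint eigenvector of the `T ℓ`
(`ℓ` good) and the `Dm u`, with eigenvalues in `AlgInt` and a residue map `φ` matching the
congruence eigenvalues. -/
theorem exists_eigen_of_congruence (D : ES1Data M p T Dm) {k : Type} [Field k] [IsAlgClosed k]
    (r : AlgInt →+* k) (Msub : AddSubgroup V)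
    (hMA : ∀ (c : AlgInt) (v : V), v ∈ Msub → ((c : AlgInt) : ℂ) • v ∈ Msub)
    (hMT : ∀ ℓ : ℕ, ℓ.Prime → ¬ ℓ ∣ M → ℓ ≠ p → ∀ v ∈ Msub, T ℓ v ∈ Msub)
    (hMD : ∀ u : (ZMod M)ˣ, ∀ v ∈ Msub, Dm u v ∈ Msub)
    (g : V) (α : ℕ → AlgInt) (β : (ZMod M)ˣ → AlgInt)
    (hgT : ∀ ℓ : ℕ, ℓ.Prime → ¬ ℓ ∣ M → ℓ ≠ p → T ℓ g - ((α ℓ : AlgInt) : ℂ) • g ∈ Msub)
    (hgD : ∀ u : (ZMod M)ˣ, Dm u g - ((β u : AlgInt) : ℂ) • g ∈ Msub)
    (hg1 : ∀ c : AlgInt, ((c : AlgInt) : ℂ) • g ∈ Msub → r c = 0) :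
    ∃ (a : ℕ → AlgInt) (e : (ZMod M)ˣ → AlgInt) (v : V) (φ : AlgInt →+* k), v ≠ 0 ∧
      (∀ ℓ : ℕ, ℓ.Prime → ¬ ℓ ∣ M → ℓ ≠ p → T ℓ v = ((a ℓ : AlgInt) : ℂ) • v) ∧
      (∀ u : (ZMod M)ˣ, Dm u v = ((e u : AlgInt) : ℂ) • v) ∧
      (∀ ℓ : ℕ, ℓ.Prime → ¬ ℓ ∣ M → ℓ ≠ p → φ (a ℓ) = r (α ℓ)) ∧
      ∀ u : (ZMod M)ˣ, φ (e u) = r (β u) := by
  classical
  have hfd : FiniteDimensional ℂ V := finiteDimensional_of_es1Data D
  obtain ⟨a', v, φ, hv, hav, hφ⟩ := ModEigen.exists_eigen_lift (fam p T Dm) (fam_comm D)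
    (fg_adjoin D) r Msub hMA
    (by
      rintro (ℓ | u) v hv
      · exact hMT ℓ.1 ℓ.2.1 ℓ.2.2.1 ℓ.2.2.2 v hv
      · exact hMD u v hv)
    g (Sum.elim (fun ℓ => α ℓ.1) β)
    (by
      rintro (ℓ | u)
      · exact hgT ℓ.1 ℓ.2.1 ℓ.2.2.1 ℓ.2.2.2
      · exact hgD u)
    hg1
  refine ⟨fun ℓ => if hℓ : ℓ.Prime ∧ ¬ ℓ ∣ M ∧ ℓ ≠ p then a' (Sum.inl ⟨ℓ, hℓ⟩) else 0,
    fun u => a' (Sum.inr u), v, φ, hv, ?_, ?_, ?_, ?_⟩
  · intro ℓ h1 h2 h3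
    have h : ℓ.Prime ∧ ¬ ℓ ∣ M ∧ ℓ ≠ p := ⟨h1, h2, h3⟩
    simp only [dif_pos h]
    exact hav (Sum.inl ⟨ℓ, h⟩)
  · intro u
    exact hav (Sum.inr u)
  · intro ℓ h1 h2 h3
    have h : ℓ.Prime ∧ ¬ ℓ ∣ M ∧ ℓ ≠ p := ⟨h1, h2, h3⟩
    simp only [dif_pos h]
    exact hφ (Sum.inl ⟨ℓ, h⟩)
  · intro u
    exact hφ (Sum.inr u)

/-- **(RC4)** G1 exits + congruence data give a residual representation. -/
theorem exists_residual_of_congruence (hRes : ResidualExit) (hp2 : p ≠ 2)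
    (D : Nonempty (ES1Data M p T Dm)) {k : Type} [Field k] [CharP k p] [IsAlgClosed k]
    (r : AlgInt →+* k) (Msub : AddSubgroup V)
    (hMA : ∀ (c : AlgInt) (v : V), v ∈ Msub → ((c : AlgInt) : ℂ) • v ∈ Msub)
    (hMT : ∀ ℓ : ℕ, ℓ.Prime → ¬ ℓ ∣ M → ℓ ≠ p → ∀ v ∈ Msub, T ℓ v ∈ Msub)
    (hMD : ∀ u : (ZMod M)ˣ, ∀ v ∈ Msub, Dm u v ∈ Msub)
    (g : V) (α : ℕ → AlgInt) (β : (ZMod M)ˣ → AlgInt)
    (hgT : ∀ ℓ : ℕ, ℓ.Prime → ¬ ℓ ∣ M → ℓ ≠ p → T ℓ g - ((α ℓ : AlgInt) : ℂ) • g ∈ Msub)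
    (hgD : ∀ u : (ZMod M)ˣ, Dm u g - ((β u : AlgInt) : ℂ) • g ∈ Msub)
    (hg1 : ∀ c : AlgInt, ((c : AlgInt) : ℂ) • g ∈ Msub → r c = 0) :
    ∃ ρbar : GQ1 →* GL (Fin 2) k, GaloisFactorsThroughFiniteLevel ρbar ∧
      ∀ ℓ : ℕ, ℓ.Prime → ¬ ℓ ∣ M → ℓ ≠ p →
        ∀ u : (ZMod M)ˣ, (u : ZMod M) = (ℓ : ZMod M) →
          ∀ P : ValuationSubring (AlgebraicClosure ℚ), P.LiesOverPrime ℓ →
            (∀ σ ∈ P.inertiaSubgroupIn ℚ, ρbar σ = 1) ∧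
            ∀ σ : GQ1, P.IsFrobeniusAt σ ℓ →
              ((ρbar σ : GL (Fin 2) k) : Matrix (Fin 2) (Fin 2) k).charpoly
                = X ^ 2 - C (r (α ℓ)) * X + C ((ℓ : k) * r (β u)) := by
  obtain ⟨D0⟩ := D
  obtain ⟨a, e, v, φ, hv, haT, haD, hφa, hφe⟩ :=
    exists_eigen_of_congruence D0 r Msub hMA hMT hMD g α β hgT hgD hg1
  obtain ⟨ρbar, hlev, hloc⟩ := hRes M p hp2 T Dm ⟨D0⟩ v hv a e haT haD φ
  refine ⟨ρbar, hlev, fun ℓ h1 h2 h3 u hu P hP => ?_⟩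
  obtain ⟨hin, hfr⟩ := hloc ℓ h1 h2 h3 u hu P hP
  refine ⟨hin, fun σ hσ => ?_⟩
  rw [hfr σ hσ, hφa ℓ h1 h2 h3, hφe u]

/-- **(RC5)** The same in the shape of the per-prime clause of `Contract.HasBddRes` / `ResRep`:
`N` is a level whose prime divisors, together with `p`, contain those of `M`, and the constant
terms `(q : k) * r (β u)` are `r (ε' q)`. -/
theorem exists_residual_of_congruence' (hRes : ResidualExit) (hp2 : p ≠ 2)
    (D : Nonempty (ES1Data M p T Dm)) {k : Type} [Field k] [CharP k p] [IsAlgClosed k]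
    (r : AlgInt →+* k) (Msub : AddSubgroup V)
    (hMA : ∀ (c : AlgInt) (v : V), v ∈ Msub → ((c : AlgInt) : ℂ) • v ∈ Msub)
    (hMT : ∀ ℓ : ℕ, ℓ.Prime → ¬ ℓ ∣ M → ℓ ≠ p → ∀ v ∈ Msub, T ℓ v ∈ Msub)
    (hMD : ∀ u : (ZMod M)ˣ, ∀ v ∈ Msub, Dm u v ∈ Msub)
    (g : V) (α : ℕ → AlgInt) (β : (ZMod M)ˣ → AlgInt)
    (hgT : ∀ ℓ : ℕ, ℓ.Prime → ¬ ℓ ∣ M → ℓ ≠ p → T ℓ g - ((α ℓ : AlgInt) : ℂ) • g ∈ Msub)
    (hgD : ∀ u : (ZMod M)ˣ, Dm u g - ((β u : AlgInt) : ℂ) • g ∈ Msub)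
    (hg1 : ∀ c : AlgInt, ((c : AlgInt) : ℂ) • g ∈ Msub → r c = 0)
    (N : ℕ) (hNM : ∀ q : ℕ, q.Prime → ¬ q ∣ N → q ≠ p → ¬ q ∣ M)
    (ε' : ℕ → AlgInt)
    (hβ : ∀ q : ℕ, q.Prime → ¬ q ∣ N → q ≠ p → ∀ u : (ZMod M)ˣ,
      (u : ZMod M) = (q : ZMod M) → (q : k) * r (β u) = r (ε' q)) :
    ∃ ρbar : GQ1 →* GL (Fin 2) k, GaloisFactorsThroughFiniteLevel ρbar ∧
      ∀ q : ℕ, q.Prime → ¬ q ∣ N → q ≠ p →
        ∀ P : ValuationSubring (AlgebraicClosure ℚ), P.LiesOverPrime q →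
          (∀ σ ∈ P.inertiaSubgroupIn ℚ, ρbar σ = 1) ∧
          ∀ σ : GQ1, P.IsFrobeniusAt σ q →
            ((ρbar σ : GL (Fin 2) k) : Matrix (Fin 2) (Fin 2) k).charpoly
              = X ^ 2 - C (r (α q)) * X + C (r (ε' q)) := by
  obtain ⟨ρbar, hlev, hloc⟩ :=
    exists_residual_of_congruence hRes hp2 D r Msub hMA hMT hMD g α β hgT hgD hg1
  refine ⟨ρbar, hlev, fun q hq hqN hqp P hP => ?_⟩
  have hqM : ¬ q ∣ M := hNM q hq hqN hqp
  have hcop : Nat.Coprime q M := (Nat.Prime.coprime_iff_not_dvd hq).2 hqM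
  have hu : ((ZMod.unitOfCoprime q hcop : (ZMod M)ˣ) : ZMod M) = (q : ZMod M) :=
    ZMod.coe_unitOfCoprime q hcop
  obtain ⟨hin, hfr⟩ := hloc q hq hqM hqp (ZMod.unitOfCoprime q hcop) hu P hP
  refine ⟨hin, fun σ hσ => ?_⟩
  rw [hfr σ hσ, hβ q hq hqN hqp (ZMod.unitOfCoprime q hcop) hu]

end Fermat.Agent.S48.ResCore
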