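/-
S48 (Deligne–Serre), brick E.Res.Core in the vocabulary of brick B (helper72): the corollary of
`ResCore.exists_residual_of_congruence'` for `V = CuspForm (Gamma1 M) 2` with the operators
`Hecke1.heckeT1 M 2` and `Hecke1.diamond M 2`, from the two exits of G1 in the shape of
`G1/Ops.lean` (`ResidualExit`, `Ops.ProducerExitDS`).
-/
import Fermat.Agent.S48.ResCore
import Fermat.Agent.S48.G1.Ops

set_option autoImplicit false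

namespace Fermat.Agent.S48.ResCore

open CongruenceSubgroup Polynomial
open scoped MatrixGroups
open Fermat.Agent.S48.G1

/-- **(RC6)** G1 exits + a congruence eigenform `g ∈ S₂(Γ₁(M))` give the residual
representation, with the per-prime clause in the shape of `Contract.HasBddRes` / `ResRep`.
POINTWISE form: the Eichler–Shimura data are needed only at the one pair `(M, p)`. -/
theorem exists_residual_DS_of_data (hRes : ResidualExit)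
    (M p : ℕ) [NeZero M] [Fact p.Prime] (hp2 : p ≠ 2)
    (D : Nonempty (ES1Data M p (Ops.Top M) (Ops.Dop M)))
    {k : Type} [Field k] [CharP k p] [IsAlgClosed k] (r : AlgInt →+* k)
    (Msub : AddSubgroup (CuspForm (Gamma1 M) 2))
    (hMA : ∀ (c : AlgInt) (v : CuspForm (Gamma1 M) 2), v ∈ Msub → ((c : AlgInt) : ℂ) • v ∈ Msub)
    (hMT : ∀ (ℓ : ℕ) (hℓ : ℓ.Prime) (hM : ¬ ℓ ∣ M), ℓ ≠ p →
      ∀ v ∈ Msub, Hecke1.heckeT1 M 2 hℓ hM v ∈ Msub)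
    (hMD : ∀ u : (ZMod M)ˣ, ∀ v ∈ Msub, Hecke1.diamond M 2 u v ∈ Msub)
    (g : CuspForm (Gamma1 M) 2) (α : ℕ → AlgInt) (β : (ZMod M)ˣ → AlgInt)
    (hgT : ∀ (ℓ : ℕ) (hℓ : ℓ.Prime) (hM : ¬ ℓ ∣ M), ℓ ≠ p →
      Hecke1.heckeT1 M 2 hℓ hM g - ((α ℓ : AlgInt) : ℂ) • g ∈ Msub)
    (hgD : ∀ u : (ZMod M)ˣ, Hecke1.diamond M 2 u g - ((β u : AlgInt) : ℂ) • g ∈ Msub)
    (hg1 : ∀ c : AlgInt, ((c : AlgInt) : ℂ) • g ∈ Msub → r c = 0)
    (N : ℕ) (hNM : ∀ q : ℕ, q.Prime → ¬ q ∣ N → q ≠ p → ¬ q ∣ M)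
    (ε' : ℕ → AlgInt)
    (hβ : ∀ q : ℕ, q.Prime → ¬ q ∣ N → q ≠ p → ∀ u : (ZMod M)ˣ,
      (u : ZMod M) = (q : ZMod M) → (q : k) * r (β u) = r (ε' q)) :
    ∃ ρbar : GQ1 →* GL (Fin 2) k, GaloisFactorsThroughFiniteLevel ρbar ∧
      ∀ q : ℕ, q.Prime → ¬ q ∣ N → q ≠ p →
        ∀ P : ValuationSubring (AlgebraicClosure ℚ), P.LiesOverPrime q →
          (∀ σ ∈ P.inertiaSubgroupIn ℚ, ρbar σ = 1) ∧
          ∀ σ : GQ1, P.IsFrobeniusAt σ q →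
            ((ρbar σ : GL (Fin 2) k) : Matrix (Fin 2) (Fin 2) k).charpoly
              = X ^ 2 - C (r (α q)) * X + C (r (ε' q)) :=
  exists_residual_of_congruence' (T := Ops.Top M) (Dm := Ops.Dop M) hRes hp2 D r Msub hMA
    (fun ℓ hℓ hM hne v hv => by rw [Ops.Top_apply M hℓ hM]; exact hMT ℓ hℓ hM hne v hv)
    (fun u v hv => by rw [Ops.Dop_apply]; exact hMD u v hv)
    g α β
    (fun ℓ hℓ hM hne => by rw [Ops.Top_apply M hℓ hM]; exact hgT ℓ hℓ hM hne)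
    (fun u => by rw [Ops.Dop_apply]; exact hgD u)
    hg1 N hNM ε' hβ

/-- **(RC6')** The same from the full producer exit `Ops.ProducerExitDS`. -/
theorem exists_residual_DS (hRes : ResidualExit) (hP : Ops.ProducerExitDS)
    (M p : ℕ) [NeZero M] [Fact p.Prime] (hp2 : p ≠ 2)
    {k : Type} [Field k] [CharP k p] [IsAlgClosed k] (r : AlgInt →+* k)
    (Msub : AddSubgroup (CuspForm (Gamma1 M) 2))
    (hMA : ∀ (c : AlgInt) (v : CuspForm (Gamma1 M) 2), v ∈ Msub → ((c : AlgInt) : ℂ) • v ∈ Msub)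
    (hMT : ∀ (ℓ : ℕ) (hℓ : ℓ.Prime) (hM : ¬ ℓ ∣ M), ℓ ≠ p →
      ∀ v ∈ Msub, Hecke1.heckeT1 M 2 hℓ hM v ∈ Msub)
    (hMD : ∀ u : (ZMod M)ˣ, ∀ v ∈ Msub, Hecke1.diamond M 2 u v ∈ Msub)
    (g : CuspForm (Gamma1 M) 2) (α : ℕ → AlgInt) (β : (ZMod M)ˣ → AlgInt)
    (hgT : ∀ (ℓ : ℕ) (hℓ : ℓ.Prime) (hM : ¬ ℓ ∣ M), ℓ ≠ p →
      Hecke1.heckeT1 M 2 hℓ hM g - ((α ℓ : AlgInt) : ℂ) • g ∈ Msub)
    (hgD : ∀ u : (ZMod M)ˣ, Hecke1.diamond M 2 u g - ((β u : AlgInt) : ℂ) • g ∈ Msub)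
    (hg1 : ∀ c : AlgInt, ((c : AlgInt) : ℂ) • g ∈ Msub → r c = 0)
    (N : ℕ) (hNM : ∀ q : ℕ, q.Prime → ¬ q ∣ N → q ≠ p → ¬ q ∣ M)
    (ε' : ℕ → AlgInt)
    (hβ : ∀ q : ℕ, q.Prime → ¬ q ∣ N → q ≠ p → ∀ u : (ZMod M)ˣ,
      (u : ZMod M) = (q : ZMod M) → (q : k) * r (β u) = r (ε' q)) :
    ∃ ρbar : GQ1 →* GL (Fin 2) k, GaloisFactorsThroughFiniteLevel ρbar ∧
      ∀ q : ℕ, q.Prime → ¬ q ∣ N → q ≠ p →
        ∀ P : ValuationSubring (AlgebraicClosure ℚ), P.LiesOverPrime q →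
          (∀ σ ∈ P.inertiaSubgroupIn ℚ, ρbar σ = 1) ∧
          ∀ σ : GQ1, P.IsFrobeniusAt σ q →
            ((ρbar σ : GL (Fin 2) k) : Matrix (Fin 2) (Fin 2) k).charpoly
              = X ^ 2 - C (r (α q)) * X + C (r (ε' q)) :=
  exists_residual_DS_of_data hRes M p hp2 (hP M p) r Msub hMA hMT hMD g α β hgT hgD hg1 N hNM
    ε' hβ

end Fermat.Agent.S48.ResCore
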