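/-
S48 (Deligne–Serre), brick E.Res.Core, `q`-expansion form (helper72).

For a cusp form `g ∈ S₂(Γ₁(M))` which is a genuine eigenvector of the diamond operators
(`⟨u⟩ g = β u • g`) and whose `q`-coefficients satisfy the Hecke relations for `α ℓ` modulo an
`𝔸`-submodule `Lam ⊆ ℂ` ("`ker r • lattice`"), the two exits of G1 give the residual
representation with characteristic polynomials `X² - r(α q) X + r(ε' q)`.

The congruence subgroup is `congrSub M Lam = {v | ∀ u n, a_n(⟨u⟩ v) ∈ Lam}`: stable under the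
diamond operators (they form a group action) and under `T_ℓ` (by the `q`-expansion formula of
brick B), so no passage to the nebentypus eigenspace is needed.
-/
import Fermat.Agent.S48.ResCoreDS
import Fermat.Agent.S48.Hecke1.QExp

set_option autoImplicit false

namespace Fermat.Agent.S48.ResCore

open CongruenceSubgroup Polynomial ModularFormClass
open scoped MatrixGroups
open Fermat.Agent.S48.G1 Fermat.Agent.S48.Hecke1

section qexp

variable {M : ℕ} [NeZero M]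

set_option linter.unusedSectionVars false

theorem qCoeff_form_add (a b : CuspForm (Gamma1 M) 2) (n : ℕ) :
    qCoeff (⇑(a + b)) n = qCoeff (⇑a) n + qCoeff (⇑b) n :=
  qCoeff_add (hasQ_of_form a) (hasQ_of_form b) n

theorem qCoeff_form_sub (a b : CuspForm (Gamma1 M) 2) (n : ℕ) :
    qCoeff (⇑(a - b)) n = qCoeff (⇑a) n - qCoeff (⇑b) n :=
  qCoeff_sub (hasQ_of_form a) (hasQ_of_form b) n

theorem qCoeff_form_smul (c : ℂ) (a : CuspForm (Gamma1 M) 2) (n : ℕ) :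
    qCoeff (⇑(c • a)) n = c * qCoeff (⇑a) n :=
  qCoeff_smul (hasQ_of_form a) c n

theorem mul_mem_of_mem (Lam : Submodule AlgInt ℂ) (c : AlgInt) {x : ℂ} (hx : x ∈ Lam) :
    ((c : AlgInt) : ℂ) * x ∈ Lam :=
  Lam.smul_mem c hx

/-- The subgroup of `S₂(Γ₁(M))` of forms all of whose diamond translates have `q`-coefficients
in `Lam`. -/
def congrSub (M : ℕ) [NeZero M] (Lam : Submodule AlgInt ℂ) :
    AddSubgroup (CuspForm (Gamma1 M) 2) where
  carrier := {v | ∀ (u : (ZMod M)ˣ) (n : ℕ), qCoeff (⇑(diamond M 2 u v)) n ∈ Lam}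
  zero_mem' := by
    intro u n
    have h : qCoeff (⇑(diamond M 2 u (0 : CuspForm (Gamma1 M) 2))) n = 0 := by
      have h0 := qCoeff_form_smul (0 : ℂ) (diamond M 2 u (0 : CuspForm (Gamma1 M) 2)) n
      rw [zero_mul, zero_smul] at h0
      rw [map_zero]
      exact h0
    rw [h]
    exact Lam.zero_mem
  add_mem' := by
    intro a b ha hb u n
    rw [map_add, qCoeff_form_add]
    exact Lam.add_mem (ha u n) (hb u n)
  neg_mem' := by
    intro a ha u n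
    have h : qCoeff (⇑(diamond M 2 u (-a))) n = -qCoeff (⇑(diamond M 2 u a)) n := by
      have h0 := qCoeff_form_smul (-1 : ℂ) (diamond M 2 u a) n
      rw [neg_one_smul, neg_one_mul] at h0
      rw [map_neg]
      exact h0
    rw [h]
    exact Lam.neg_mem (ha u n)

theorem mem_congrSub (Lam : Submodule AlgInt ℂ) (v : CuspForm (Gamma1 M) 2) :
    v ∈ congrSub M Lam ↔ ∀ (u : (ZMod M)ˣ) (n : ℕ), qCoeff (⇑(diamond M 2 u v)) n ∈ Lam :=
  Iff.rfl

theorem congrSub_smul (Lam : Submodule AlgInt ℂ) (c : AlgInt) {v : CuspForm (Gamma1 M) 2}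
    (hv : v ∈ congrSub M Lam) : ((c : AlgInt) : ℂ) • v ∈ congrSub M Lam := by
  intro u n
  rw [map_smul, qCoeff_form_smul]
  exact mul_mem_of_mem Lam c (hv u n)

theorem congrSub_diamond (Lam : Submodule AlgInt ℂ) (e : (ZMod M)ˣ) {v : CuspForm (Gamma1 M) 2}
    (hv : v ∈ congrSub M Lam) : diamond M 2 e v ∈ congrSub M Lam := by
  intro u n
  rw [diamond_mul]
  exact hv (u * e) n

theorem congrSub_heckeT1 (Lam : Submodule AlgInt ℂ) {ℓ : ℕ} (hℓ : ℓ.Prime) (hM : ¬ ℓ ∣ M)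
    {v : CuspForm (Gamma1 M) 2} (hv : v ∈ congrSub M Lam) :
    heckeT1 M 2 hℓ hM v ∈ congrSub M Lam := by
  intro u n
  rw [diamond_heckeT1, qCoeff_heckeT1]
  apply Lam.add_mem (hv u (n * ℓ))
  split_ifs with h
  · rw [diamond_mul]
    have h2 := hv (primeUnit hℓ hM * u) (n / ℓ)
    have h3 : (ℓ : ℂ) ^ ((2 : ℤ) - 1) * qCoeff (⇑(diamond M 2 (primeUnit hℓ hM * u) v)) (n / ℓ) =
        ℓ • qCoeff (⇑(diamond M 2 (primeUnit hℓ hM * u) v)) (n / ℓ) := by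
      norm_num [nsmul_eq_mul]
    rw [h3]
    exact nsmul_mem h2 ℓ
  · exact Lam.zero_mem

end qexp

/-- **(RC7)** E.Res.Core in `q`-expansion form, POINTWISE in the Eichler–Shimura data: they are
needed only at the one pair `(M, p)`. -/
theorem exists_residual_of_qexp_of_data (hRes : ResidualExit)
    (M p : ℕ) [NeZero M] [Fact p.Prime] (hp2 : p ≠ 2)
    (D : Nonempty (ES1Data M p (Ops.Top M) (Ops.Dop M)))
    {k : Type} [Field k] [CharP k p] [IsAlgClosed k] (r : AlgInt →+* k)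
    (Lam : Submodule AlgInt ℂ) (g : CuspForm (Gamma1 M) 2) (α : ℕ → AlgInt)
    (β : (ZMod M)ˣ → AlgInt)
    (hgβ : ∀ u : (ZMod M)ˣ, diamond M 2 u g = ((β u : AlgInt) : ℂ) • g)
    (hcoef : ∀ (ℓ : ℕ) (hℓ : ℓ.Prime) (hM : ¬ ℓ ∣ M), ℓ ≠ p → ∀ n : ℕ,
      qCoeff (⇑g) (ℓ * n) + (ℓ : ℂ) * ((β (primeUnit hℓ hM) : AlgInt) : ℂ) *
          (if ℓ ∣ n then qCoeff (⇑g) (n / ℓ) else 0) - ((α ℓ : AlgInt) : ℂ) * qCoeff (⇑g) n ∈ Lam)
    (h1 : ∀ c : AlgInt, ((c : AlgInt) : ℂ) * qCoeff (⇑g) 1 ∈ Lam → r c = 0)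
    (N : ℕ) (hNM : ∀ q : ℕ, q.Prime → ¬ q ∣ N → q ≠ p → ¬ q ∣ M)
    (ε' : ℕ → AlgInt)
    (hβ : ∀ q : ℕ, q.Prime → ¬ q ∣ N → q ≠ p → ∀ u : (ZMod M)ˣ,
      (u : ZMod M) = (q : ZMod M) → (q : k) * r (β u) = r (ε' q)) :
    ∃ ρbar : GQ1 →* GL (Fin 2) k, GaloisFactorsThroughFiniteLevel ρbar ∧
      ∀ q : ℕ, q.Prime → ¬ q ∣ N → q ≠ p →
        ∀ P : ValuationSubring (AlgebraicClosure ℚ), P.LiesOverPrime q →
          (∀ σ ∈ P.inertiaSubgroupIn ℚ, ρbar σ = 1) ∧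
          ∀ σ : GQ1, P.IsFrobeniusAt σ q →
            ((ρbar σ : GL (Fin 2) k) : Matrix (Fin 2) (Fin 2) k).charpoly
              = X ^ 2 - C (r (α q)) * X + C (r (ε' q)) := by
  refine exists_residual_DS_of_data hRes M p hp2 D r (congrSub M Lam)
    (fun c v hv => congrSub_smul Lam c hv)
    (fun ℓ hℓ hM _ v hv => congrSub_heckeT1 Lam hℓ hM hv)
    (fun u v hv => congrSub_diamond Lam u hv)
    g α β ?_ ?_ ?_ N hNM ε' hβ
  · intro ℓ hℓ hM hne u n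
    have e1 : diamond M 2 u (heckeT1 M 2 hℓ hM g - ((α ℓ : AlgInt) : ℂ) • g) =
        ((β u : AlgInt) : ℂ) • (heckeT1 M 2 hℓ hM g - ((α ℓ : AlgInt) : ℂ) • g) := by
      rw [map_sub, map_smul, diamond_heckeT1, hgβ u, map_smul, smul_sub, smul_comm]
    rw [e1, qCoeff_form_smul, qCoeff_form_sub, qCoeff_form_smul, qCoeff_heckeT1]
    apply mul_mem_of_mem
    have h := hcoef ℓ hℓ hM hne n
    have e2 : qCoeff (⇑g) (n * ℓ) +
          (if ℓ ∣ n then (ℓ : ℂ) ^ ((2 : ℤ) - 1) *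
            qCoeff (⇑(diamond M 2 (primeUnit hℓ hM) g)) (n / ℓ) else 0) -
          ((α ℓ : AlgInt) : ℂ) * qCoeff (⇑g) n =
        qCoeff (⇑g) (ℓ * n) + (ℓ : ℂ) * ((β (primeUnit hℓ hM) : AlgInt) : ℂ) *
          (if ℓ ∣ n then qCoeff (⇑g) (n / ℓ) else 0) - ((α ℓ : AlgInt) : ℂ) * qCoeff (⇑g) n := by
      rw [hgβ (primeUnit hℓ hM), qCoeff_form_smul, mul_comm n ℓ]
      split_ifs
      · norm_num
        ring
      · norm_num
    rw [e2]
    exact h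
  · intro u
    rw [hgβ u, sub_self]
    exact (congrSub M Lam).zero_mem
  · intro c hc
    have h := hc 1 1
    rw [diamond_one, qCoeff_form_smul] at h
    exact h1 c h

/-- **(RC7')** The same from the full producer exit `Ops.ProducerExitDS`. -/
theorem exists_residual_of_qexp (hRes : ResidualExit) (hP : Ops.ProducerExitDS)
    (M p : ℕ) [NeZero M] [Fact p.Prime] (hp2 : p ≠ 2)
    {k : Type} [Field k] [CharP k p] [IsAlgClosed k] (r : AlgInt →+* k)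
    (Lam : Submodule AlgInt ℂ) (g : CuspForm (Gamma1 M) 2) (α : ℕ → AlgInt)
    (β : (ZMod M)ˣ → AlgInt)
    (hgβ : ∀ u : (ZMod M)ˣ, diamond M 2 u g = ((β u : AlgInt) : ℂ) • g)
    (hcoef : ∀ (ℓ : ℕ) (hℓ : ℓ.Prime) (hM : ¬ ℓ ∣ M), ℓ ≠ p → ∀ n : ℕ,
      qCoeff (⇑g) (ℓ * n) + (ℓ : ℂ) * ((β (primeUnit hℓ hM) : AlgInt) : ℂ) *
          (if ℓ ∣ n then qCoeff (⇑g) (n / ℓ) else 0) - ((α ℓ : AlgInt) : ℂ) * qCoeff (⇑g) n ∈ Lam)
    (h1 : ∀ c : AlgInt, ((c : AlgInt) : ℂ) * qCoeff (⇑g) 1 ∈ Lam → r c = 0)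
    (N : ℕ) (hNM : ∀ q : ℕ, q.Prime → ¬ q ∣ N → q ≠ p → ¬ q ∣ M)
    (ε' : ℕ → AlgInt)
    (hβ : ∀ q : ℕ, q.Prime → ¬ q ∣ N → q ≠ p → ∀ u : (ZMod M)ˣ,
      (u : ZMod M) = (q : ZMod M) → (q : k) * r (β u) = r (ε' q)) :
    ∃ ρbar : GQ1 →* GL (Fin 2) k, GaloisFactorsThroughFiniteLevel ρbar ∧
      ∀ q : ℕ, q.Prime → ¬ q ∣ N → q ≠ p →
        ∀ P : ValuationSubring (AlgebraicClosure ℚ), P.LiesOverPrime q →
          (∀ σ ∈ P.inertiaSubgroupIn ℚ, ρbar σ = 1) ∧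
          ∀ σ : GQ1, P.IsFrobeniusAt σ q →
            ((ρbar σ : GL (Fin 2) k) : Matrix (Fin 2) (Fin 2) k).charpoly
              = X ^ 2 - C (r (α q)) * X + C (r (ε' q)) :=
  exists_residual_of_qexp_of_data hRes M p hp2 (hP M p) r Lam g α β hgβ hcoef h1 N hNM ε' hβ

end Fermat.Agent.S48.ResCore
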