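/-
S48 (Deligne–Serre), PROGRAM DS — brick E final, "E.Res.Conc" (helper49): the Step-2 exit
`J1.ResRep N ε f` from the two exits of G1.

For the weight-one form `f` of the frozen statement and every large prime `ℓ`
(`ℓ > max |D| 2`, `D` the denominator of `Denom.step2`), every algebraically closed field `k` of
characteristic `ℓ` and every `r : 𝔸 → k`:

* (a) `Denom.step2` (helper187): the coefficients of `f` lie in a finitely generated lattice, so
  congruences modulo `ker r • Λ` make sense and detect `r`;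
* (b) `Eis1Arith.exists_eis_congr` with `Eis1.divData ℓ` (helper116, helper119): the weight-one
  Eisenstein series `G ≡ 1 (mod ker r)` on `Γ₁(ℓ)` with nebentypus `χ = ω⁻¹`;
* (c) `ERes.FG.prodFG` (helper248): `g = f · G ∈ S₂(Γ₁(N ℓ))`, its Cauchy-product coefficients and
  its nebentypus `β(u) = ε(u mod N) χ(u mod ℓ)`;
* (d), (e), (f) `ResCore.exists_residual_of_qexp` (helper72): the congruence eigensystem of `g`
  lifts to characteristic zero and the two exits of G1 (`G1.ResidualExit`,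
  `G1.Ops.ProducerExitDS`) give `ρ̄` with `charpoly ρ̄(Frob_q) = X² - r(a_q) X + r(ε(q))`.

Exits:
* `resRep_core` : everything as hypotheses — the two outputs of brick C (integrality of the
  eigenvalues `J1.IntEig`, the lattice of coefficients) and the Eichler–Shimura data ONLY at the
  levels `N ℓ` with `p = ℓ ≥ 5`, `ℓ ∤ N`;
* `resRep_of`   : the same with brick C discharged (`CAlg.intEig`, `Eis3.exists_finset_span`);
* `resRep`      : from the two exits of G1.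
-/
import Mathlib
import Fermat.Agent.S48.J1
import Fermat.Agent.S48.ResQ
import Fermat.Agent.S48.ERes.Prod
import Fermat.Agent.S48.Eis1
import Fermat.Agent.S48.Eis1Arith.Teich
import Fermat.Agent.S48.CAlg
import Fermat.Agent.S48.Eis3.Span

set_option autoImplicit false

namespace Fermat.Agent.S48.ERes

open CongruenceSubgroup Polynomial ModularFormClass
open scoped MatrixGroups
open Fermat.Agent.S48

local notation "𝔸" => integralClosure ℤ ℂ

/-- **E.Res.Conc, core**: the two outputs of brick C and the Eichler–Shimura data at the levels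
`N ℓ` (`p = ℓ ≥ 5`, `ℓ ∤ N`) as hypotheses. -/
theorem resRep_core (hR : G1.ResidualExit)
    (N : ℕ) [NeZero N] (ε : DirichletCharacter ℂ N) (f : CuspForm (Gamma1 N) 1)
    (hf₁ : qCoeff f 1 = 1)
    (hT : Contract.Rel N (qCoeff f) (qCoeff f) (fun p => ε (p : ZMod N)))
    (hInt : J1.IntEig N f)
    (hSpan : ∃ T0 : Finset ℂ, ∀ n, qCoeff f n ∈ Submodule.span ℤ (T0 : Set ℂ))
    (hPN : ∀ (l : ℕ) [Fact l.Prime] [NeZero (N * l)], 5 ≤ l → ¬ l ∣ N →
      Nonempty (G1.ES1Data (N * l) l (G1.Ops.Top (N * l)) (G1.Ops.Dop (N * l)))) :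
    J1.ResRep N ε f := by
  classical
  obtain ⟨T0, hT0⟩ := hSpan
  have ha0 : qCoeff f 0 = 0 :=
    CuspFormClass.qExpansion_coeff_zero (k := 1) f one_pos (Hecke1.one_mem_strictPeriods_Gamma1 N)
  -- (a) the denominator
  obtain ⟨D, hD0, hstep⟩ := Denom.step2.{0} (fun n => qCoeff f n) T0 hT0 ha0 hf₁
  refine ⟨max (max D.natAbs N) 4, fun ℓ hℓ hB k _ _ _ r _ => ?_⟩
  have : Fact ℓ.Prime := ⟨hℓ⟩
  have : NeZero ℓ := ⟨hℓ.ne_zero⟩
  have hℓ5 : 5 ≤ ℓ := lt_of_le_of_lt (le_max_right _ _) hB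
  have hℓ2 : ℓ ≠ 2 := by omega
  have hℓD : D.natAbs < ℓ :=
    lt_of_le_of_lt ((le_max_left _ _).trans (le_max_left _ _)) hB
  have hℓN : ¬ ℓ ∣ N := fun hd =>
    absurd (Nat.le_of_dvd (Nat.pos_of_ne_zero (NeZero.ne N)) hd)
      (not_le.mpr (lt_of_le_of_lt ((le_max_right _ _).trans (le_max_left _ _)) hB))
  have hrD : r (D : 𝔸) ≠ 0 := by
    rw [map_intCast]
    intro h0
    have h1 : (ℓ : ℤ) ∣ D := (CharP.intCast_eq_zero_iff k ℓ D).mp h0
    have h2 : ℓ ∣ D.natAbs := Int.natCast_dvd.mp h1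
    have h3 : 0 < D.natAbs := Int.natAbs_pos.mpr hD0
    exact absurd (Nat.le_of_dvd h3 h2) (not_le.mpr hℓD)
  -- (b) the Eisenstein series
  obtain ⟨χ, X, c, -, hX, hXr, hc, hc0, hcn⟩ :=
    Eis1Arith.exists_eis_congr hℓ2 (Eis1.divData ℓ) r
  obtain ⟨hcong, hone⟩ := hstep k r hrD c hc0 (fun n hn => hcn n (Nat.one_le_iff_ne_zero.mp hn))
  -- (c) the product
  have hG : ∀ γ : SL(2, ℤ), γ ∈ Gamma0 ℓ →
      SlashAction.map (1 : ℤ) γ (⇑(Eis1Arith.eis (Eis1.divData ℓ) χ))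
        = χ ((γ 1 1 : ℤ) : ZMod ℓ) • ⇑(Eis1Arith.eis (Eis1.divData ℓ) χ) :=
    fun γ hγ => Eis1Arith.eis_slash (Eis1.divData ℓ) χ γ hγ
  have hT' : ∀ p : ℕ, p.Prime → ¬ p ∣ N → ∀ n : ℕ,
      qCoeff f (p * n) + ε (p : ZMod N) * (if p ∣ n then qCoeff f (n / p) else 0)
        = qCoeff f p * qCoeff f n := hT
  let g : CuspForm (Gamma1 (N * ℓ)) 2 := FG.prodFG f (Eis1Arith.eis (Eis1.divData ℓ) χ)
  have hgq : ∀ n, qCoeff (⇑g) n = Denom.cauchy (fun n => qCoeff f n) c n := fun n =>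
    FG.qCoeff_prodFG_cauchy f (Eis1Arith.eis (Eis1.divData ℓ) χ) c hc n
  let εA : ZMod N → 𝔸 := fun a => ⟨ε a, J1.isIntegral_dirichlet ε a⟩
  let β : (ZMod (N * ℓ))ˣ → 𝔸 := fun u =>
    εA (((u : ZMod (N * ℓ)).cast : ZMod N)) * X (((u : ZMod (N * ℓ)).cast : ZMod ℓ))
  have hgβ : ∀ u : (ZMod (N * ℓ))ˣ, Hecke1.diamond (N * ℓ) 2 u g = ((β u : 𝔸) : ℂ) • g := by
    intro u
    have h := FG.diamond_prodFG ε f hT' χ (Eis1Arith.eis (Eis1.divData ℓ) χ) hG u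
    have e : ((β u : 𝔸) : ℂ) = ε (((u : ZMod (N * ℓ)).cast : ZMod N)) *
        χ (((u : ZMod (N * ℓ)).cast : ZMod ℓ)) := by
      show ((εA _ * X _ : 𝔸) : ℂ) = _
      rw [Subalgebra.coe_mul, hX]
    rw [e]
    exact h
  -- the integral eigenvalues
  let α : ℕ → 𝔸 := fun q => if h : IsIntegral ℤ (qCoeff f q) then ⟨_, h⟩ else 0
  have hα : ∀ q : ℕ, q.Prime → ¬ q ∣ N → ((α q : 𝔸) : ℂ) = qCoeff f q := by
    intro q hq hqN
    simp only [α, dif_pos (hInt q hq hqN)]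
  have hN_of : ∀ {q : ℕ}, ¬ q ∣ N * ℓ → ¬ q ∣ N := fun h hd => h (Dvd.dvd.mul_right hd ℓ)
  have hℓ_of : ∀ {q : ℕ}, q.Prime → q ≠ ℓ → ¬ ℓ ∣ q := fun hq hne hd =>
    hne ((Nat.prime_dvd_prime_iff_eq hℓ hq).mp hd).symm
  -- value of `β` at a unit congruent to `q`
  have hβq : ∀ (q : ℕ) (u : (ZMod (N * ℓ))ˣ), (u : ZMod (N * ℓ)) = (q : ZMod (N * ℓ)) →
      β u = εA (q : ZMod N) * X (q : ZMod ℓ) := by
    intro q u hu
    show εA _ * X _ = _
    rw [hu, ZMod.cast_natCast (Dvd.intro ℓ rfl) q, ZMod.cast_natCast (Dvd.intro_left N rfl) q]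
  have hrβ : ∀ (q : ℕ), q.Prime → q ≠ ℓ → ∀ u : (ZMod (N * ℓ))ˣ,
      (u : ZMod (N * ℓ)) = (q : ZMod (N * ℓ)) → (q : k) * r (β u) = r (εA (q : ZMod N)) := by
    intro q hq hne u hu
    rw [hβq q u hu, map_mul]
    have h1 := hXr q (hℓ_of hq hne)
    calc (q : k) * (r (εA (q : ZMod N)) * r (X (q : ZMod ℓ)))
        = r (εA (q : ZMod N)) * (r (X (q : ZMod ℓ)) * (q : k)) := by ring
      _ = r (εA (q : ZMod N)) := by rw [h1, mul_one]
  -- (d), (e), (f)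
  have hcoef : ∀ (q : ℕ) (hq : q.Prime) (hM : ¬ q ∣ N * ℓ), q ≠ ℓ → ∀ n : ℕ,
      qCoeff (⇑g) (q * n) + (q : ℂ) * ((β (Hecke1.primeUnit hq hM) : 𝔸) : ℂ) *
          (if q ∣ n then qCoeff (⇑g) (n / q) else 0) - ((α q : 𝔸) : ℂ) * qCoeff (⇑g) n
        ∈ (RingHom.ker r) • Denom.coeffSpan T0 := by
    intro q hq hM hne n
    have hψ : r ((q : 𝔸) * β (Hecke1.primeUnit hq hM)) = r (εA (q : ZMod N)) := by
      rw [map_mul, map_natCast]
      exact hrβ q hq hne _ (Hecke1.coe_primeUnit hq hM)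
    have key := hcong q (α q) (εA (q : ZMod N)) (β (Hecke1.primeUnit hq hM)) hψ
      (fun n => by
        rw [hα q hq (hN_of hM)]
        exact hT' q hq (hN_of hM) n) n
    rw [hgq, hgq, hgq]
    exact key
  have h1 : ∀ c' : 𝔸, ((c' : 𝔸) : ℂ) * qCoeff (⇑g) 1 ∈ (RingHom.ker r) • Denom.coeffSpan T0 →
      r c' = 0 := by
    intro c' hc'
    rw [hgq] at hc'
    exact hone c' hc'
  have hNM : ∀ q : ℕ, q.Prime → ¬ q ∣ N → q ≠ ℓ → ¬ q ∣ N * ℓ := by
    intro q hq hqN hne hd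
    rcases (Nat.Prime.dvd_mul hq).mp hd with h | h
    · exact hqN h
    · exact hne ((Nat.prime_dvd_prime_iff_eq hq hℓ).mp h)
  obtain ⟨ρbar, hlev, hloc⟩ := ResCore.exists_residual_of_qexp_of_data hR (N * ℓ) ℓ hℓ2
    (hPN ℓ hℓ5 hℓN) r ((RingHom.ker r) • Denom.coeffSpan T0) g α β hgβ hcoef h1 N hNM
    (fun q => εA (q : ZMod N)) (fun q hq _ hne u hu => hrβ q hq hne u hu)
  refine ⟨ρbar, hlev, fun p hp hpN hpℓ P hP' => ⟨(hloc p hp hpN hpℓ P hP').1, fun σ hσ => ?_⟩⟩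
  exact ⟨α p, εA (p : ZMod N), hα p hp hpN, rfl, (hloc p hp hpN hpℓ P hP').2 σ hσ⟩

/-- **E.Res.Conc** from `G1.ResidualExit` and the Eichler–Shimura data at the levels `N ℓ`
(`p = ℓ ≥ 5`, `ℓ ∤ N`) only. -/
theorem resRep_of (hR : G1.ResidualExit)
    (N : ℕ) [NeZero N] (ε : DirichletCharacter ℂ N) (f : CuspForm (Gamma1 N) 1)
    (hf₁ : qCoeff f 1 = 1)
    (hT : Contract.Rel N (qCoeff f) (qCoeff f) (fun p => ε (p : ZMod N)))
    (hPN : ∀ (l : ℕ) [Fact l.Prime] [NeZero (N * l)], 5 ≤ l → ¬ l ∣ N →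
      Nonempty (G1.ES1Data (N * l) l (G1.Ops.Top (N * l)) (G1.Ops.Dop (N * l)))) :
    J1.ResRep N ε f :=
  resRep_core hR N ε f hf₁ hT (CAlg.intEig N ε f hf₁ hT)
    (Eis3.exists_finset_span N ε f hf₁ hT) hPN

/-- **E.Res.Conc** (the exit of brick E): `J1.ResRep` from the two exits of G1. -/
theorem resRep (hR : G1.ResidualExit) (hP : G1.Ops.ProducerExitDS)
    (N : ℕ) [NeZero N] (ε : DirichletCharacter ℂ N) (f : CuspForm (Gamma1 N) 1)
    (hf₁ : qCoeff f 1 = 1)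
    (hT : Contract.Rel N (qCoeff f) (qCoeff f) (fun p => ε (p : ZMod N))) :
    J1.ResRep N ε f :=
  resRep_of hR N ε f hf₁ hT (fun l _ _ _ _ => hP (N * l) l)

end Fermat.Agent.S48.ERes
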