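import Mathlib
import Fermat.Prelude.Def_GaloisRep_Residual
import Fermat.Agent.Lib.FrobeniusDensity
import Fermat.Agent.S48.UnityRed

/-!
# S48 (Deligne–Serre), Step 6: gluing the information of two auxiliary primes

Two complex `2`-dimensional Galois representations of finite level whose Frobenius elements
have the same (trace, determinant) outside a finite set of primes have the same
(trace, determinant) everywhere (`trace_det_eq_of_frobenius`, from the landed Frobenius density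
theorem).  Consequently, if `ρ₁` is "good" outside `S₁` and `ρ₂` is good outside `S₂`, then
`ρ₁` is good outside `S₁ ∩ S₂` (`glue`).
-/

set_option autoImplicit false

namespace Fermat.Agent.S48.TwoPrimes

local notation "Qb" => AlgebraicClosure ℚ
local notation "Γ" => (AlgebraicClosure ℚ ≃ₐ[ℚ] AlgebraicClosure ℚ)

open Matrix

/-- Cayley–Hamilton for `2 × 2` matrices. -/
theorem sq_eq {R : Type*} [CommRing R] (M : Matrix (Fin 2) (Fin 2) R) :
    M ^ 2 = M.trace • M - M.det • (1 : Matrix (Fin 2) (Fin 2) R) := by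
  ext i j
  fin_cases i <;> fin_cases j <;>
    simp [pow_two, Matrix.mul_apply, Fin.sum_univ_two, Matrix.trace_fin_two,
      Matrix.det_fin_two] <;> ring

theorem trace_pow_add_two {R : Type*} [CommRing R] (M : Matrix (Fin 2) (Fin 2) R) (b : ℕ) :
    (M ^ (b + 2)).trace = M.trace * (M ^ (b + 1)).trace - M.det * (M ^ b).trace := by
  have h : M ^ (b + 2) = M.trace • M ^ (b + 1) - M.det • M ^ b := by
    rw [pow_add, sq_eq, mul_sub, Matrix.mul_smul, Matrix.mul_smul, mul_one, pow_succ]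
  rw [h, Matrix.trace_sub, Matrix.trace_smul, Matrix.trace_smul, smul_eq_mul, smul_eq_mul]

/-- The traces of the powers of a `2 × 2` matrix depend only on its trace and determinant. -/
theorem trace_pow_eq {R : Type*} [CommRing R] (M M' : Matrix (Fin 2) (Fin 2) R)
    (ht : M.trace = M'.trace) (hd : M.det = M'.det) (b : ℕ) :
    (M ^ b).trace = (M' ^ b).trace := by
  have key : ∀ b : ℕ, (M ^ b).trace = (M' ^ b).trace ∧ (M ^ (b + 1)).trace = (M' ^ (b + 1)).trace := by
    intro b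
    induction b with
    | zero => exact ⟨by simp, by simpa using ht⟩
    | succ b ih =>
      refine ⟨ih.2, ?_⟩
      rw [trace_pow_add_two, trace_pow_add_two, ht, hd, ih.1, ih.2]
  exact (key b).1

/-- A complex `2 × 2` matrix of finite order and trace `2` is the identity. -/
theorem matrix_eq_one_of_trace_eq_two (g : Matrix (Fin 2) (Fin 2) ℂ) {n : ℕ} (hn : 0 < n)
    (hg : g ^ n = 1) (ht : g.trace = 2) : g = 1 := by
  obtain ⟨a, b, ha, hb, hab, hab'⟩ := UnityRed.exists_roots_of_pow_eq_one g hg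
  have na : ‖a‖ = 1 := Complex.norm_eq_one_of_pow_eq_one ha hn.ne'
  have nb : ‖b‖ = 1 := Complex.norm_eq_one_of_pow_eq_one hb hn.ne'
  have hsum : a + b = 2 := by rw [← hab, ht]
  have hre : a.re + b.re = 2 := by
    have := congrArg Complex.re hsum
    simpa using this
  have ha_le : a.re ≤ 1 := na ▸ Complex.re_le_norm a
  have hb_le : b.re ≤ 1 := nb ▸ Complex.re_le_norm b
  have hare : a.re = 1 := by linarith
  have hbre : b.re = 1 := by linarith
  have one_of : ∀ z : ℂ, ‖z‖ = 1 → z.re = 1 → z = 1 := by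
    intro z hz hzre
    have h1 : Complex.normSq z = 1 := by
      rw [Complex.normSq_eq_norm_sq, hz, one_pow]
    rw [Complex.normSq_apply, hzre] at h1
    have h2 : z.im = 0 := by nlinarith
    exact Complex.ext (by simpa using hzre) (by simpa using h2)
  have ha1 : a = 1 := one_of a na hare
  have hb1 : b = 1 := one_of b nb hbre
  have hdet : g.det = 1 := by rw [hab', ha1, hb1, mul_one]
  -- `N = g - 1` squares to zero
  have hN : (g - 1) * (g - 1) = 0 := by
    have h1 := sq_eq g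
    rw [ht, hdet, one_smul] at h1
    have h2 : (g - 1) * (g - 1) = g ^ 2 - (2 : ℂ) • g + 1 := by
      rw [pow_two, two_smul]
      noncomm_ring
    rw [h2, h1]
    abel
  have hNg : (g - 1) * g = g - 1 := by
    have h3 : (g - 1) * g = (g - 1) * (g - 1) + (g - 1) := by noncomm_ring
    rw [h3, hN, zero_add]
  have hpow : ∀ j : ℕ, g ^ j = 1 + (j : ℂ) • (g - 1) := by
    intro j
    induction j with
    | zero => simp
    | succ j ih =>
      rw [pow_succ, ih, add_mul, one_mul, Matrix.smul_mul, hNg, Nat.cast_succ, add_smul,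
        one_smul]
      abel
  have h4 := hpow n
  rw [hg] at h4
  have h5 : (n : ℂ) • (g - 1) = 0 := by
    have : (1 : Matrix (Fin 2) (Fin 2) ℂ) + (n : ℂ) • (g - 1) = 1 + 0 := by rw [add_zero]; exact h4.symm
    exact add_left_cancel this
  rcases smul_eq_zero.mp h5 with h | h
  · exact absurd (Nat.cast_eq_zero.mp h) hn.ne'
  · exact sub_eq_zero.mp h

/-- An element of `GL₂(ℂ)` of finite order and trace `2` is the identity. -/
theorem eq_one_of_trace_eq_two (g : GL (Fin 2) ℂ) {n : ℕ} (hn : 0 < n) (hg : g ^ n = 1)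
    (ht : g.val.trace = 2) : g = 1 := by
  apply Units.ext
  refine matrix_eq_one_of_trace_eq_two g.val hn ?_ ht
  rw [← Units.val_pow_eq_pow_val, hg, Units.val_one]

/-- A representation of finite level takes values of finite order. -/
theorem exists_pow_eq_one {M : Type} [Monoid M] (ρ : Γ →* M)
    (hρ : GaloisFactorsThroughFiniteLevel ρ) (σ : Γ) : ∃ n : ℕ, 0 < n ∧ ρ σ ^ n = 1 := by
  obtain ⟨L, hL, h1⟩ := hρ
  have := hL
  obtain ⟨N, hLN, hNfin, hNnorm⟩ := Fermat.Agent.Lib.FrobeniusDensity.exists_normal_finite_ge L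
  have := hNfin
  have := hNnorm
  set τ : N ≃ₐ[ℚ] N := AlgEquiv.restrictNormalHom N σ with hτ
  refine ⟨orderOf τ, orderOf_pos τ, ?_⟩
  rw [← map_pow]
  apply h1
  intro x hx
  have h2 : AlgEquiv.restrictNormalHom N (σ ^ orderOf τ) = 1 := by
    rw [map_pow, ← hτ, pow_orderOf_eq_one]
  have h3 := AlgEquiv.restrictNormal_commutes (σ ^ orderOf τ) N ⟨x, hLN hx⟩
  have h4 : (σ ^ orderOf τ).restrictNormal N = 1 := h2
  rw [h4] at h3
  exact h3.symm

/-- **Step 6, comparison.**  Two complex representations of finite level whose Frobenius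
elements outside a finite set `S` have equal trace and determinant have equal trace and
determinant everywhere. -/
theorem trace_det_eq_of_frobenius (ρ ρ' : Γ →* GL (Fin 2) ℂ)
    (hρ : GaloisFactorsThroughFiniteLevel ρ) (hρ' : GaloisFactorsThroughFiniteLevel ρ')
    (S : Finset ℕ)
    (h : ∀ p : ℕ, p.Prime → p ∉ S → ∀ A : ValuationSubring Qb, A.LiesOverPrime p →
      ∀ σ : Γ, A.IsFrobeniusAt σ p →
        (ρ σ).val.trace = (ρ' σ).val.trace ∧ (ρ σ).val.det = (ρ' σ).val.det) (g : Γ) :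
    (ρ g).val.trace = (ρ' g).val.trace ∧ (ρ g).val.det = (ρ' g).val.det := by
  obtain ⟨L, hL, h1⟩ := hρ
  obtain ⟨L', hL', h1'⟩ := hρ'
  have := hL
  have := hL'
  obtain ⟨ℓ, A, s, b, hℓ, hℓS, hA, hs, -, hsb⟩ :=
    Fermat.Agent.Lib.FrobeniusDensity.exists_frobenius_pow_eq (L ⊔ L') S g
  have hfix : ∀ x ∈ L ⊔ L', (g⁻¹ * s ^ b) x = x := by
    intro x hx
    rw [AlgEquiv.mul_apply, hsb x hx]
    exact g.symm_apply_apply x
  have e1 : ρ g = ρ s ^ b := by
    have h2 : ρ (g⁻¹ * s ^ b) = 1 := h1 _ (fun x hx => hfix x (le_sup_left (a := L) hx))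
    rw [map_mul, map_inv, inv_mul_eq_one, map_pow] at h2
    exact h2
  have e1' : ρ' g = ρ' s ^ b := by
    have h2 : ρ' (g⁻¹ * s ^ b) = 1 := h1' _ (fun x hx => hfix x (le_sup_right (b := L') hx))
    rw [map_mul, map_inv, inv_mul_eq_one, map_pow] at h2
    exact h2
  obtain ⟨ht, hd⟩ := h ℓ hℓ hℓS A hA s hs
  rw [e1, e1']
  refine ⟨?_, ?_⟩
  · rw [Units.val_pow_eq_pow_val, Units.val_pow_eq_pow_val]
    exact trace_pow_eq _ _ ht hd b
  · rw [Units.val_pow_eq_pow_val, Units.val_pow_eq_pow_val, Matrix.det_pow, Matrix.det_pow, hd]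

/-- **Step 6, gluing.**  If `ρ₁` is unramified with prescribed Frobenius (trace, det) `(a p, e p)`
at the primes outside `S₁`, and `ρ₂` has the same property outside `S₂`, then `ρ₁` has it outside
`S₁ ∩ S₂`. -/
theorem glue (ρ₁ ρ₂ : Γ →* GL (Fin 2) ℂ)
    (h₁ : GaloisFactorsThroughFiniteLevel ρ₁) (h₂ : GaloisFactorsThroughFiniteLevel ρ₂)
    (a e : ℕ → ℂ) (S₁ S₂ : Finset ℕ)
    (H₁ : ∀ p : ℕ, p.Prime → p ∉ S₁ → ∀ A : ValuationSubring Qb, A.LiesOverPrime p →
      (∀ σ ∈ A.inertiaSubgroupIn ℚ, ρ₁ σ = 1) ∧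
      ∀ σ : Γ, A.IsFrobeniusAt σ p → (ρ₁ σ).val.trace = a p ∧ (ρ₁ σ).val.det = e p)
    (H₂ : ∀ p : ℕ, p.Prime → p ∉ S₂ → ∀ A : ValuationSubring Qb, A.LiesOverPrime p →
      (∀ σ ∈ A.inertiaSubgroupIn ℚ, ρ₂ σ = 1) ∧
      ∀ σ : Γ, A.IsFrobeniusAt σ p → (ρ₂ σ).val.trace = a p ∧ (ρ₂ σ).val.det = e p)
    (p : ℕ) (hp : p.Prime) (hpS : p ∉ S₁ ∩ S₂) (A : ValuationSubring Qb)
    (hA : A.LiesOverPrime p) :
    (∀ σ ∈ A.inertiaSubgroupIn ℚ, ρ₁ σ = 1) ∧
      ∀ σ : Γ, A.IsFrobeniusAt σ p → (ρ₁ σ).val.trace = a p ∧ (ρ₁ σ).val.det = e p := by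
  by_cases hp1 : p ∈ S₁
  · have hp2 : p ∉ S₂ := fun hp2 => hpS (Finset.mem_inter.mpr ⟨hp1, hp2⟩)
    have agree := trace_det_eq_of_frobenius ρ₁ ρ₂ h₁ h₂ (S₁ ∪ S₂) (by
      intro q hq hqS B hB σ hσ
      rw [Finset.mem_union, not_or] at hqS
      obtain ⟨t1, d1⟩ := (H₁ q hq hqS.1 B hB).2 σ hσ
      obtain ⟨t2, d2⟩ := (H₂ q hq hqS.2 B hB).2 σ hσ
      exact ⟨t1.trans t2.symm, d1.trans d2.symm⟩)
    obtain ⟨hin, hfr⟩ := H₂ p hp hp2 A hA
    refine ⟨fun σ hσ => ?_, fun σ hσ => ?_⟩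
    · obtain ⟨n, hn, hpow⟩ := exists_pow_eq_one ρ₁ h₁ σ
      refine eq_one_of_trace_eq_two _ hn hpow ?_
      rw [(agree σ).1, hin σ hσ]
      simp
    · obtain ⟨t2, d2⟩ := hfr σ hσ
      exact ⟨(agree σ).1.trans t2, (agree σ).2.trans d2⟩
  · exact H₁ p hp hp1 A hA

end Fermat.Agent.S48.TwoPrimes
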