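import Mathlib
import Fermat.Prelude.Def_GaloisRep_Residual
import Fermat.Prelude.Def_Deformations_MatrixRepresentation
import Fermat.Agent.S48.TwoPrimes

/-!
# S48 (Deligne–Serre), Step 7, algebraic half: reducible `2`-dimensional representations

* `isIrreducible_of_no_line`: a representation `ρ : G → GL₂(k)` without a common eigenvector is
  irreducible in the sense of `Deformation.matrixRepresentation`/`Representation.IsIrreducible`;
* `exists_characters_of_not_isIrreducible`: a reducible one has two characters `χ₁`, `χ₂` with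
  `tr ρ = χ₁ + χ₂` and `det ρ = χ₁ χ₂` (no semisimplicity needed);
* `exists_characters`, `exists_character_normSq`: the Galois case over `ℂ` with finite level:
  `|tr ρ(g)|² = 2 + 2 Re ψ(g)` for the finite-level character `ψ = χ₁ χ₂⁻¹`.
-/

set_option autoImplicit false

namespace Fermat.Agent.S48.Reducible

universe u

open Matrix

section general

variable {G : Type u} [Group G] {k : Type u} [Field k]

/-- A `2`-dimensional matrix representation without an invariant line is irreducible. -/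
theorem isIrreducible_of_no_line (ρ : G →* GL (Fin 2) k)
    (h : ∀ v : Fin 2 → k, v ≠ 0 → ∃ g : G, ∀ c : k, (ρ g).val *ᵥ v ≠ c • v) :
    (Deformation.matrixRepresentation ρ).IsIrreducible := by
  have hnt : Nontrivial (Subrepresentation (Deformation.matrixRepresentation ρ)) := by
    refine ⟨⊥, ⊤, fun hbt => ?_⟩
    have h1 : (⊥ : Submodule k (Fin 2 → k)) = ⊤ := congrArg Subrepresentation.toSubmodule hbt
    exact bot_ne_top h1
  refine { toNontrivial := hnt, eq_bot_or_eq_top := fun W => ?_ }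
  have hle : Module.finrank k W.toSubmodule ≤ 2 := by
    have := Submodule.finrank_le W.toSubmodule
    simpa using this
  have hcases : Module.finrank k W.toSubmodule = 0 ∨ Module.finrank k W.toSubmodule = 1 ∨
      Module.finrank k W.toSubmodule = 2 := by omega
  rcases hcases with h0 | h1 | h2
  · left
    apply Subrepresentation.toSubmodule_injective
    exact Submodule.finrank_eq_zero.mp h0
  · exfalso
    obtain ⟨v, hv, hspan⟩ := finrank_eq_one_iff'.mp h1
    have hv' : (v : Fin 2 → k) ≠ 0 := fun h0 => hv (Subtype.ext h0)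
    obtain ⟨g, hg⟩ := h v hv'
    have hmem : Deformation.matrixRepresentation ρ g (v : Fin 2 → k) ∈ W.toSubmodule :=
      W.apply_mem_toSubmodule g v.2
    obtain ⟨c, hc⟩ := hspan ⟨_, hmem⟩
    apply hg c
    have h3 := congrArg Subtype.val hc
    simp only [Submodule.coe_smul, Deformation.matrixRepresentation_apply,
      Matrix.mulVecLin_apply] at h3
    exact h3.symm
  · right
    apply Subrepresentation.toSubmodule_injective
    exact Submodule.eq_top_of_finrank_eq (by simpa using h2)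

/-- A reducible `2`-dimensional matrix representation has an invariant line. -/
theorem exists_line_of_not_isIrreducible (ρ : G →* GL (Fin 2) k)
    (h : ¬ (Deformation.matrixRepresentation ρ).IsIrreducible) :
    ∃ v : Fin 2 → k, v ≠ 0 ∧ ∀ g : G, ∃ c : k, (ρ g).val *ᵥ v = c • v := by
  by_contra hcon
  push_neg at hcon
  exact h (isIrreducible_of_no_line ρ hcon)

/-- An eigenvalue of a `2 × 2` matrix is a root of `X² - tr X + det`. -/
theorem eigen_quadratic (M : Matrix (Fin 2) (Fin 2) k) {v : Fin 2 → k} (hv : v ≠ 0) {c : k}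
    (h : M *ᵥ v = c • v) : c ^ 2 - M.trace * c + M.det = 0 := by
  have hdet : (M - c • (1 : Matrix (Fin 2) (Fin 2) k)).det = 0 := by
    rw [← Matrix.exists_mulVec_eq_zero_iff]
    exact ⟨v, hv, by rw [Matrix.sub_mulVec, Matrix.smul_mulVec, Matrix.one_mulVec, h, sub_self]⟩
  rw [Matrix.det_fin_two] at hdet
  simp only [Matrix.sub_apply, Matrix.smul_apply, Matrix.one_apply_eq, smul_eq_mul, mul_one,
    ne_eq, zero_ne_one, not_false_eq_true, Matrix.one_apply_ne, mul_zero, sub_zero,
    one_ne_zero] at hdet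
  rw [Matrix.trace_fin_two, Matrix.det_fin_two]
  linear_combination hdet

/-- The two characters of a representation with an invariant line. -/
theorem exists_characters_of_line (ρ : G →* GL (Fin 2) k) (v : Fin 2 → k) (hv : v ≠ 0)
    (hline : ∀ g : G, ∃ c : k, (ρ g).val *ᵥ v = c • v) :
    ∃ χ₁ χ₂ : G →* kˣ, (∀ g, (ρ g).val *ᵥ v = (χ₁ g : k) • v) ∧
      ∀ g, (ρ g).val.trace = (χ₁ g : k) + (χ₂ g : k) ∧
        (ρ g).val.det = (χ₁ g : k) * (χ₂ g : k) := by
  choose c hc using hline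
  have hinj : Function.Injective fun a : k => a • v := smul_left_injective k hv
  have hone : c 1 = 1 := by
    apply hinj
    show c 1 • v = (1 : k) • v
    rw [← hc 1, map_one, Units.val_one, Matrix.one_mulVec, one_smul]
  have hmul : ∀ g h : G, c (g * h) = c g * c h := by
    intro g h
    apply hinj
    show c (g * h) • v = (c g * c h) • v
    rw [← hc (g * h), map_mul, Units.val_mul, ← Matrix.mulVec_mulVec, hc h, Matrix.mulVec_smul,
      hc g, smul_smul, mul_comm]
  let φ : G →* k := { toFun := c, map_one' := hone, map_mul' := hmul }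
  have hφ : ∀ g, ((φ.toHomUnits g : kˣ) : k) = c g := fun g => rfl
  refine ⟨φ.toHomUnits, (Matrix.GeneralLinearGroup.det.comp ρ) / φ.toHomUnits,
    fun g => by rw [hφ]; exact hc g, fun g => ?_⟩
  have hne : c g ≠ 0 := by rw [← hφ]; exact Units.ne_zero _
  have hq := eigen_quadratic (ρ g).val hv (hc g)
  have h2 : (((Matrix.GeneralLinearGroup.det.comp ρ) / φ.toHomUnits) g : kˣ) =
      Matrix.GeneralLinearGroup.det (ρ g) / φ.toHomUnits g := rfl
  rw [h2, Units.val_div_eq_div_val, hφ, Matrix.GeneralLinearGroup.val_det_apply]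
  refine ⟨?_, ?_⟩
  · field_simp
    linear_combination -hq
  · field_simp

/-- A reducible `2`-dimensional representation: `tr ρ = χ₁ + χ₂`, `det ρ = χ₁ χ₂`, and the
characters are trivial where `ρ` is. -/
theorem exists_characters_of_not_isIrreducible (ρ : G →* GL (Fin 2) k)
    (h : ¬ (Deformation.matrixRepresentation ρ).IsIrreducible) :
    ∃ χ₁ χ₂ : G →* kˣ, (∀ g, ρ g = 1 → χ₁ g = 1 ∧ χ₂ g = 1) ∧
      ∀ g, (ρ g).val.trace = (χ₁ g : k) + (χ₂ g : k) ∧
        (ρ g).val.det = (χ₁ g : k) * (χ₂ g : k) := by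
  obtain ⟨v, hv, hline⟩ := exists_line_of_not_isIrreducible ρ h
  obtain ⟨χ₁, χ₂, h1, h2⟩ := exists_characters_of_line ρ v hv hline
  refine ⟨χ₁, χ₂, fun g hg => ?_, h2⟩
  have hinj : Function.Injective fun a : k => a • v := smul_left_injective k hv
  have e1 : (χ₁ g : k) = 1 := by
    apply hinj
    show (χ₁ g : k) • v = (1 : k) • v
    rw [← h1 g, hg, Units.val_one, Matrix.one_mulVec, one_smul]
  have e2 : (χ₂ g : k) = 1 := by
    have h3 := (h2 g).2
    rw [hg, Units.val_one, Matrix.det_one, e1, one_mul] at h3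
    exact h3.symm
  exact ⟨Units.ext e1, Units.ext e2⟩

end general

local notation "Γ" => (AlgebraicClosure ℚ ≃ₐ[ℚ] AlgebraicClosure ℚ)

/-- **Step 7, algebra.**  A reducible complex Galois representation of finite level: two
finite-level characters of absolute value one with `tr ρ = χ₁ + χ₂`, `det ρ = χ₁ χ₂`. -/
theorem exists_characters (ρ : Γ →* GL (Fin 2) ℂ) (hρ : GaloisFactorsThroughFiniteLevel ρ)
    (h : ¬ (Deformation.matrixRepresentation ρ).IsIrreducible) :
    ∃ χ₁ χ₂ : Γ →* ℂˣ, GaloisFactorsThroughFiniteLevel χ₁ ∧ GaloisFactorsThroughFiniteLevel χ₂ ∧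
      ∀ g : Γ, (ρ g).val.trace = (χ₁ g : ℂ) + (χ₂ g : ℂ) ∧
        (ρ g).val.det = (χ₁ g : ℂ) * (χ₂ g : ℂ) ∧ ‖(χ₁ g : ℂ)‖ = 1 ∧ ‖(χ₂ g : ℂ)‖ = 1 := by
  obtain ⟨χ₁, χ₂, h1, h2⟩ := exists_characters_of_not_isIrreducible ρ h
  have hfl : ∀ i : Bool, GaloisFactorsThroughFiniteLevel (if i then χ₁ else χ₂) := by
    obtain ⟨L, hL, hL1⟩ := hρ
    intro i
    refine ⟨L, hL, fun σ hσ => ?_⟩
    cases i
    · exact (h1 σ (hL1 σ hσ)).2
    · exact (h1 σ (hL1 σ hσ)).1
  have hf1 : GaloisFactorsThroughFiniteLevel χ₁ := hfl true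
  have hf2 : GaloisFactorsThroughFiniteLevel χ₂ := hfl false
  have hnorm : ∀ χ : Γ →* ℂˣ, GaloisFactorsThroughFiniteLevel χ → ∀ g, ‖(χ g : ℂ)‖ = 1 := by
    intro χ hχ g
    obtain ⟨n, hn, hpow⟩ := TwoPrimes.exists_pow_eq_one χ hχ g
    have h3 : (χ g : ℂ) ^ n = 1 := by
      rw [← Units.val_pow_eq_pow_val, hpow, Units.val_one]
    exact Complex.norm_eq_one_of_pow_eq_one h3 hn.ne'
  exact ⟨χ₁, χ₂, hf1, hf2, fun g => ⟨(h2 g).1, (h2 g).2, hnorm χ₁ hf1 g, hnorm χ₂ hf2 g⟩⟩

/-- **Step 7, algebra, one-character form.**  For a reducible complex Galois representation of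
finite level there is a finite-level character `ψ` (`= χ₁ χ₂⁻¹`) with
`|tr ρ(g)|² = 2 + 2 Re ψ(g)` for all `g`. -/
theorem exists_character_normSq (ρ : Γ →* GL (Fin 2) ℂ) (hρ : GaloisFactorsThroughFiniteLevel ρ)
    (h : ¬ (Deformation.matrixRepresentation ρ).IsIrreducible) :
    ∃ ψ : Γ →* ℂˣ, GaloisFactorsThroughFiniteLevel ψ ∧ (∀ g : Γ, ‖(ψ g : ℂ)‖ = 1) ∧
      ∀ g : Γ, Complex.normSq (ρ g).val.trace = 2 + 2 * (ψ g : ℂ).re := by
  obtain ⟨χ₁, χ₂, hf1, hf2, h2⟩ := exists_characters ρ hρ h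
  have hψ : ∀ g, ((χ₁ / χ₂) g : ℂ) = (χ₁ g : ℂ) / (χ₂ g : ℂ) := fun g => by
    rw [MonoidHom.div_apply, Units.val_div_eq_div_val]
  refine ⟨χ₁ / χ₂, ?_, fun g => ?_, fun g => ?_⟩
  · obtain ⟨L, hL, hL1⟩ := hf1
    obtain ⟨L', hL', hL1'⟩ := hf2
    have := hL
    have := hL'
    refine ⟨L ⊔ L', inferInstance, fun σ hσ => ?_⟩
    rw [MonoidHom.div_apply, hL1 σ (fun x hx => hσ x (le_sup_left (a := L) hx)),
      hL1' σ (fun x hx => hσ x (le_sup_right (b := L') hx)), div_one]
  · obtain ⟨-, -, n1, n2⟩ := h2 g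
    rw [hψ, norm_div, n1, n2, div_one]
  · obtain ⟨ht, -, n1, n2⟩ := h2 g
    have q1 : Complex.normSq (χ₁ g : ℂ) = 1 := by
      rw [Complex.normSq_eq_norm_sq, n1, one_pow]
    have q2 : Complex.normSq (χ₂ g : ℂ) = 1 := by
      rw [Complex.normSq_eq_norm_sq, n2, one_pow]
    have hinv : ((χ₂ g : ℂ))⁻¹ = (starRingEnd ℂ) (χ₂ g : ℂ) := by
      rw [Complex.inv_def, q2]
      simp
    rw [hψ, div_eq_mul_inv, hinv, ht, Complex.normSq_add, q1, q2]
    ring

end Fermat.Agent.S48.Reducible
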