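import Mathlib
import Fermat.Agent.S48.Contract
import Fermat.Agent.S48.Dens.Basic
import Fermat.Agent.S48.Rankin
import Fermat.Agent.S48.Reducible

/-!
# S48 (Deligne–Serre), brick J3 = Step 7: irreducibility

`irredStatement : Dens.ChebLower → Contract.IrredStatement`.

If the complex representation `ρ` attached to the weight one form were reducible, then
`|a_p|² = 2 + 2 Re ψ(Frob_p)` for a character `ψ` of finite order (`exists_character`).  By the
lower-density half of Chebotarev's theorem (up to inversion) applied to the level sets of `Re` on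
the finite image of `ψ`, the sums `∑ |a_p|² p^{-s}` grow at least like `2 log (1/(s-1))`
(`core_contradiction`), against the Rankin-type bound `≤ log (1/(s-1)) + O(1)`.
-/

set_option autoImplicit false

namespace Fermat.Agent.S48.Irred

open Fermat.Agent.S48

local notation "Qb" => AlgebraicClosure ℚ
local notation "Γ" => (AlgebraicClosure ℚ ≃ₐ[ℚ] AlgebraicClosure ℚ)

/-- **Analytic core of Step 7.**  Disjoint sets of primes `Q c` (`c` in a finite set `R` of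
reals in `[-1, 1]`) of lower density `δ c`, on which `v = 2 + 2c`, with mean value
`∑ (2 + 2c) δ c ≥ 2`, contradict the bound `∑ v p / p^s ≤ log (1/(s-1)) + K`. -/
theorem core_contradiction (R : Finset ℝ) (δ : ℝ → ℝ) (Q : ℝ → Set ℕ) (v : ℕ → ℝ) (K : ℝ)
    (hR : ∀ c ∈ R, -1 ≤ c ∧ c ≤ 1)
    (hδ : 2 ≤ ∑ c ∈ R, (2 + 2 * c) * δ c)
    (hv : ∀ c ∈ R, ∀ p ∈ Q c, v p = 2 + 2 * c)
    (hlow : ∀ c ∈ R, Dens.LowDens (Q c) (δ c))
    (hup : ∀ s : ℝ, 1 < s → s ≤ 2 → ∀ P : Finset ℕ, (∀ p ∈ P, ∃ c ∈ R, p ∈ Q c) →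
      ∑ p ∈ P, v p * (1 / (p : ℝ) ^ s) ≤ Real.log (1 / (s - 1)) + K) : False := by
  classical
  have hRne : R.Nonempty := by
    by_contra hemp
    rw [Finset.not_nonempty_iff_eq_empty] at hemp
    rw [hemp, Finset.sum_empty] at hδ
    linarith
  have hmpos' : (0 : ℝ) < (R.card : ℝ) := by exact_mod_cast Finset.card_pos.mpr hRne
  set m : ℝ := (R.card : ℝ) with hm
  have hmpos : 0 < m := hmpos'
  set ε : ℝ := 1 / (8 * m) with hε
  have hεpos : 0 < ε := by positivity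
  have hex : ∀ c : ℝ, ∃ C : ℝ, c ∈ R → ∀ s : ℝ, 1 < s → s ≤ 2 → ∃ P : Finset ℕ,
      (∀ p ∈ P, p.Prime ∧ p ∈ Q c) ∧
        (δ c - ε) * Real.log (1 / (s - 1)) - C ≤ ∑ p ∈ P, 1 / (p : ℝ) ^ s := by
    intro c
    by_cases hc : c ∈ R
    · obtain ⟨C, hC⟩ := hlow c hc ε hεpos
      exact ⟨C, fun _ => hC⟩
    · exact ⟨0, fun h => absurd h hc⟩
  choose C hC using hex
  set Ctot : ℝ := ∑ c ∈ R, |C c| with hCtot
  obtain ⟨s, hs, hs2, hB⟩ := Dens.exists_log_scale_gt (2 * (K + 4 * Ctot))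
  set L : ℝ := Real.log (1 / (s - 1)) with hL
  have hL0 : 0 ≤ L := Dens.log_scale_nonneg hs hs2
  have hex2 : ∀ c : ℝ, ∃ P : Finset ℕ, c ∈ R → (∀ p ∈ P, p.Prime ∧ p ∈ Q c) ∧
      (δ c - ε) * L - C c ≤ ∑ p ∈ P, 1 / (p : ℝ) ^ s := by
    intro c
    by_cases hc : c ∈ R
    · obtain ⟨P, hP⟩ := hC c hc s hs hs2
      exact ⟨P, fun _ => hP⟩
    · exact ⟨∅, fun h => absurd h hc⟩
  choose P hP using hex2
  have hdisj : ∀ c ∈ R, ∀ c' ∈ R, c ≠ c' → Disjoint (P c) (P c') := by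
    intro c hc c' hc' hne
    rw [Finset.disjoint_left]
    intro p hp hp'
    have h1 := hv c hc p ((hP c hc).1 p hp).2
    have h2 := hv c' hc' p ((hP c' hc').1 p hp').2
    exact hne (by linarith)
  have hsum : ∑ p ∈ R.biUnion P, v p * (1 / (p : ℝ) ^ s) =
      ∑ c ∈ R, ∑ p ∈ P c, v p * (1 / (p : ℝ) ^ s) :=
    Finset.sum_biUnion (fun c hc c' hc' hne => hdisj c hc c' hc' hne)
  have hupper := hup s hs hs2 (R.biUnion P) (by
    intro p hp
    rw [Finset.mem_biUnion] at hp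
    obtain ⟨c, hc, hpc⟩ := hp
    exact ⟨c, hc, ((hP c hc).1 p hpc).2⟩)
  rw [hsum] at hupper
  have hterm : ∀ c ∈ R, (2 + 2 * c) * δ c * L - 4 * ε * L - 4 * |C c| ≤
      ∑ p ∈ P c, v p * (1 / (p : ℝ) ^ s) := by
    intro c hc
    have h1 : ∑ p ∈ P c, v p * (1 / (p : ℝ) ^ s) =
        (2 + 2 * c) * ∑ p ∈ P c, 1 / (p : ℝ) ^ s := by
      rw [Finset.mul_sum]
      apply Finset.sum_congr rfl
      intro p hp
      rw [hv c hc p ((hP c hc).1 p hp).2]
    rw [h1]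
    have h2 := (hP c hc).2
    have hc1 := hR c hc
    have h3 : 0 ≤ 2 + 2 * c := by linarith [hc1.1]
    have h4 : 2 + 2 * c ≤ 4 := by linarith [hc1.2]
    have h5 : (2 + 2 * c) * ((δ c - ε) * L - C c) ≤ (2 + 2 * c) * ∑ p ∈ P c, 1 / (p : ℝ) ^ s :=
      mul_le_mul_of_nonneg_left h2 h3
    have h6 : (2 + 2 * c) * (ε * L) ≤ 4 * (ε * L) :=
      mul_le_mul_of_nonneg_right h4 (by positivity)
    have h7 : (2 + 2 * c) * C c ≤ 4 * |C c| :=
      calc (2 + 2 * c) * C c ≤ (2 + 2 * c) * |C c| :=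
            mul_le_mul_of_nonneg_left (le_abs_self _) h3
        _ ≤ 4 * |C c| := mul_le_mul_of_nonneg_right h4 (abs_nonneg _)
    linarith
  have hlower : ∑ c ∈ R, ((2 + 2 * c) * δ c * L - 4 * ε * L - 4 * |C c|) ≤
      ∑ c ∈ R, ∑ p ∈ P c, v p * (1 / (p : ℝ) ^ s) := Finset.sum_le_sum hterm
  have hexp : ∑ c ∈ R, ((2 + 2 * c) * δ c * L - 4 * ε * L - 4 * |C c|) =
      (∑ c ∈ R, (2 + 2 * c) * δ c) * L - m * (4 * ε * L) - 4 * Ctot := by
    rw [Finset.sum_sub_distrib, Finset.sum_sub_distrib, ← Finset.sum_mul, Finset.sum_const,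
      nsmul_eq_mul, ← Finset.mul_sum]
  have hmε : m * (4 * ε * L) = L / 2 := by
    rw [hε]
    field_simp
    ring
  have h8 : 2 * L ≤ (∑ c ∈ R, (2 + 2 * c) * δ c) * L := mul_le_mul_of_nonneg_right hδ hL0
  linarith

/-- The sum of the elements of a finite subgroup of `ℂˣ` has nonnegative real part (it is `0`
or `1`). -/
theorem sum_units_re_nonneg (G : Subgroup ℂˣ) (Gf : Finset ℂˣ) (hGf : ∀ x, x ∈ Gf ↔ x ∈ G) :
    0 ≤ (∑ x ∈ Gf, (x : ℂ)).re := by
  classical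
  by_cases htriv : ∀ x ∈ Gf, x = 1
  · have h1 : Gf = {1} := by
      ext x
      rw [Finset.mem_singleton]
      exact ⟨htriv x, fun h => h ▸ (hGf 1).mpr G.one_mem⟩
    rw [h1]
    simp
  · push Not at htriv
    obtain ⟨g, hg, hg1⟩ := htriv
    have hmul : (g : ℂ) * ∑ x ∈ Gf, (x : ℂ) = ∑ x ∈ Gf, (x : ℂ) := by
      rw [Finset.mul_sum]
      refine Finset.sum_nbij' (fun x => g * x) (fun x => g⁻¹ * x) ?_ ?_ ?_ ?_ ?_
      · intro x hx
        exact (hGf _).mpr (G.mul_mem ((hGf g).mp hg) ((hGf x).mp hx))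
      · intro x hx
        exact (hGf _).mpr (G.mul_mem (G.inv_mem ((hGf g).mp hg)) ((hGf x).mp hx))
      · intro x _
        simp
      · intro x _
        simp
      · intro x _
        simp
    have h0 : ∑ x ∈ Gf, (x : ℂ) = 0 := by
      have h1 : ((g : ℂ) - 1) * ∑ x ∈ Gf, (x : ℂ) = 0 := by
        rw [sub_mul, hmul, one_mul, sub_self]
      rcases mul_eq_zero.mp h1 with h | h
      · exact absurd (Units.ext (sub_eq_zero.mp h)) hg1
      · exact h
    rw [h0]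
    simp

/-- A reducible complex Galois representation of finite level: a character `ψ`, trivial where
`ρ` is, of absolute value one, with `|tr ρ(g)|² = 2 + 2 Re ψ(g)`. -/
theorem exists_character (ρ : Γ →* GL (Fin 2) ℂ) (hρ : GaloisFactorsThroughFiniteLevel ρ)
    (h : ¬ (Deformation.matrixRepresentation ρ).IsIrreducible) :
    ∃ ψ : Γ →* ℂˣ, (∀ g, ρ g = 1 → ψ g = 1) ∧ (∀ g, ‖(ψ g : ℂ)‖ = 1) ∧
      ∀ g, Complex.normSq (ρ g).val.trace = 2 + 2 * (ψ g : ℂ).re := by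
  obtain ⟨χ₁, χ₂, h1, h2⟩ := Reducible.exists_characters_of_not_isIrreducible ρ h
  have hf1 : GaloisFactorsThroughFiniteLevel χ₁ :=
    Dens.finiteLevel_of_ker_le ρ χ₁ hρ (fun g hg => (h1 g hg).1)
  have hf2 : GaloisFactorsThroughFiniteLevel χ₂ :=
    Dens.finiteLevel_of_ker_le ρ χ₂ hρ (fun g hg => (h1 g hg).2)
  have hnorm : ∀ χ : Γ →* ℂˣ, GaloisFactorsThroughFiniteLevel χ → ∀ g, ‖(χ g : ℂ)‖ = 1 := by
    intro χ hχ g
    obtain ⟨n, hn, hpow⟩ := TwoPrimes.exists_pow_eq_one χ hχ g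
    have h3 : (χ g : ℂ) ^ n = 1 := by
      rw [← Units.val_pow_eq_pow_val, hpow, Units.val_one]
    exact Complex.norm_eq_one_of_pow_eq_one h3 hn.ne'
  have hψ : ∀ g, ((χ₁ / χ₂) g : ℂ) = (χ₁ g : ℂ) / (χ₂ g : ℂ) := fun g => by
    rw [MonoidHom.div_apply, Units.val_div_eq_div_val]
  refine ⟨χ₁ / χ₂, fun g hg => ?_, fun g => ?_, fun g => ?_⟩
  · rw [MonoidHom.div_apply, (h1 g hg).1, (h1 g hg).2, div_one]
  · rw [hψ, norm_div, hnorm χ₁ hf1 g, hnorm χ₂ hf2 g, div_one]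
  · have n1 := hnorm χ₁ hf1 g
    have n2 := hnorm χ₂ hf2 g
    have q1 : Complex.normSq (χ₁ g : ℂ) = 1 := by
      rw [Complex.normSq_eq_norm_sq, n1, one_pow]
    have q2 : Complex.normSq (χ₂ g : ℂ) = 1 := by
      rw [Complex.normSq_eq_norm_sq, n2, one_pow]
    have hinv : ((χ₂ g : ℂ))⁻¹ = (starRingEnd ℂ) (χ₂ g : ℂ) := by
      rw [Complex.inv_def, q2]
      simp
    rw [hψ, div_eq_mul_inv, hinv, (h2 g).1, Complex.normSq_add, q1, q2]
    ring

/-- **Step 7.**  A complex Galois representation of finite level whose Frobenius traces `a p`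
(outside a finite set `S`) satisfy the Rankin-type bound `∑ |a p|² p^{-s} ≤ log (1/(s-1)) + C`
is irreducible. -/
theorem irreducible_of_bound (hcheb : Dens.ChebLower) (ρ : Γ →* GL (Fin 2) ℂ)
    (hfin : GaloisFactorsThroughFiniteLevel ρ) (S : Finset ℕ) (a : ℕ → ℂ)
    (ha : ∀ p : ℕ, p.Prime → p ∉ S → ∀ (A : ValuationSubring Qb) (σ : Γ), A.LiesOverPrime p →
      A.IsFrobeniusAt σ p → (ρ σ).val.trace = a p)
    (hF : ∃ C : ℝ, ∀ s : ℝ, 1 < s → s ≤ 2 → ∀ P : Finset ℕ,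
      (∀ p ∈ P, p.Prime ∧ p ∉ S ∧ ‖a p‖ ≤ 2) →
        ∑ p ∈ P, ‖a p‖ ^ 2 * (p : ℝ) ^ (-s) ≤ Real.log (1 / (s - 1)) + C) :
    (Deformation.matrixRepresentation ρ).IsIrreducible := by
  classical
  by_contra hirr
  obtain ⟨ψ, hψker, hψnorm, hψtr⟩ := exists_character ρ hfin hirr
  have hψfin : GaloisFactorsThroughFiniteLevel ψ := Dens.finiteLevel_of_ker_le ρ ψ hfin hψker
  have hfinr : Finite ψ.range := Dens.finite_range ψ hψfin
  obtain ⟨K, hK⟩ := hF
  have hGfin : (ψ.range : Set ℂˣ).Finite := Set.toFinite _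
  set Gf : Finset ℂˣ := hGfin.toFinset with hGf
  have hmem : ∀ x, x ∈ Gf ↔ x ∈ ψ.range := fun x => by
    rw [hGf, Set.Finite.mem_toFinset]
    rfl
  have hnorm : ∀ x ∈ Gf, ‖(x : ℂ)‖ = 1 := by
    intro x hx
    obtain ⟨g, rfl⟩ := (hmem x).mp hx
    exact hψnorm g
  have hcard : (Nat.card ψ.range : ℝ) = (Gf.card : ℝ) := by
    have h1 : Nat.card ψ.range = (ψ.range : Set ℂˣ).ncard := Nat.card_coe_set_eq _
    rw [h1, Set.ncard_eq_toFinset_card (ψ.range : Set ℂˣ) hGfin]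
  have hnpos' : (0 : ℝ) < (Gf.card : ℝ) := by
    have hne : Gf.Nonempty := ⟨1, (hmem 1).mpr ψ.range.one_mem⟩
    exact_mod_cast Finset.card_pos.mpr hne
  set n : ℝ := (Gf.card : ℝ) with hn
  have hnpos : 0 < n := hnpos'
  set R : Finset ℝ := Gf.image (fun x : ℂˣ => (x : ℂ).re) with hRdef
  let X : ℝ → Set ℂˣ := fun c => {x | ‖(x : ℂ)‖ = 1 ∧ (x : ℂ).re = c}
  let δ : ℝ → ℝ := fun c => ((Gf.filter (fun x : ℂˣ => (x : ℂ).re = c)).card : ℝ) / n
  refine core_contradiction R δ (fun c => Dens.FrobPrimes ψ S (X c)) (fun p => ‖a p‖ ^ 2) K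
    ?_ ?_ ?_ ?_ ?_
  · -- the real parts lie in `[-1, 1]`
    intro c hc
    rw [hRdef, Finset.mem_image] at hc
    obtain ⟨x, hx, rfl⟩ := hc
    have h2 := Complex.abs_re_le_norm (x : ℂ)
    rw [hnorm x hx] at h2
    exact abs_le.mp h2
  · -- the mean value is at least `2`
    have h1 : ∀ c ∈ R, (2 + 2 * c) * δ c =
        (∑ x ∈ Gf.filter (fun x : ℂˣ => (x : ℂ).re = c), (2 + 2 * (x : ℂ).re)) / n := by
      intro c _
      have h0 : ∑ x ∈ Gf.filter (fun x : ℂˣ => (x : ℂ).re = c), (2 + 2 * (x : ℂ).re) =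
          ∑ _x ∈ Gf.filter (fun x : ℂˣ => (x : ℂ).re = c), (2 + 2 * c) :=
        Finset.sum_congr rfl (fun x hx => by rw [(Finset.mem_filter.mp hx).2])
      rw [h0, Finset.sum_const, nsmul_eq_mul]
      simp only [δ]
      ring
    have h2 : ∑ c ∈ R, (2 + 2 * c) * δ c = (∑ x ∈ Gf, (2 + 2 * (x : ℂ).re)) / n := by
      rw [Finset.sum_congr rfl h1, ← Finset.sum_div]
      congr 1
      exact Finset.sum_fiberwise_of_maps_to (fun x hx => Finset.mem_image_of_mem _ hx) _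
    have h3 : ∑ x ∈ Gf, (2 + 2 * (x : ℂ).re) = 2 * n + 2 * (∑ x ∈ Gf, (x : ℂ)).re := by
      rw [Finset.sum_add_distrib, Finset.sum_const, nsmul_eq_mul, ← Finset.mul_sum,
        Complex.re_sum]
      ring
    have h4 := sum_units_re_nonneg ψ.range Gf hmem
    rw [h2, h3, le_div_iff₀ hnpos]
    linarith
  · -- on `Q c` the value `|a p|²` is `2 + 2c`
    intro c _ p hp
    obtain ⟨hpp, hpS, A, σ, hA, hσ, hX⟩ := hp
    have h1 := ha p hpp hpS A σ hA hσ
    have h2 := hψtr σ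
    rw [h1, hX.2, Complex.normSq_eq_norm_sq] at h2
    exact h2
  · -- Chebotarev
    intro c _
    have h1 := hcheb ℂˣ ψ hψfin S (X c)
      (fun g hg h _ => by
        have e : h * g * h⁻¹ = g := by rw [mul_comm h g, mul_inv_cancel_right]
        rw [e]
        exact hg)
      (fun g hg => by
        obtain ⟨hg1, hg2⟩ := hg
        have q : Complex.normSq (g : ℂ) = 1 := by
          rw [Complex.normSq_eq_norm_sq, hg1, one_pow]
        refine ⟨?_, ?_⟩
        · rw [Units.val_inv_eq_inv_val, norm_inv, hg1, inv_one]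
        · rw [Units.val_inv_eq_inv_val, Complex.inv_re, q, div_one]
          exact hg2)
    have h2 : X c ∩ (ψ.range : Set ℂˣ) = ↑(Gf.filter (fun x : ℂˣ => (x : ℂ).re = c)) := by
      ext x
      rw [Finset.coe_filter]
      constructor
      · rintro ⟨⟨-, hre⟩, hx⟩
        exact ⟨(hmem x).mpr hx, hre⟩
      · rintro ⟨hx, hre⟩
        exact ⟨⟨hnorm x hx, hre⟩, (hmem x).mp hx⟩
    rw [h2, Set.ncard_coe_finset, hcard] at h1
    exact h1
  · -- the Rankin bound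
    intro s hs hs2 P hP
    have h1 := hK s hs hs2 P (fun p hp => by
      obtain ⟨c, _, hpp, hpS, A, σ, hA, hσ, hX⟩ := hP p hp
      refine ⟨hpp, hpS, ?_⟩
      have h2 := hψtr σ
      rw [ha p hpp hpS A σ hA hσ, Complex.normSq_eq_norm_sq] at h2
      have h3 : (ψ σ : ℂ).re ≤ 1 := (hψnorm σ) ▸ Complex.re_le_norm _
      have h4 : ‖a p‖ ^ 2 ≤ 2 ^ 2 := by rw [h2]; linarith
      exact abs_le_of_sq_le_sq' h4 (by norm_num) |>.2)
    have h5 : ∑ p ∈ P, ‖a p‖ ^ 2 * (1 / (p : ℝ) ^ s) = ∑ p ∈ P, ‖a p‖ ^ 2 * (p : ℝ) ^ (-s) :=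
      Finset.sum_congr rfl (fun p _ => by rw [Real.rpow_neg (Nat.cast_nonneg p), one_div])
    rw [h5]
    exact h1

/-- **(J3)** Step 7 of the route, from the lower-density half of Chebotarev's theorem. -/
theorem irredStatement (hcheb : Dens.ChebLower) : Contract.IrredStatement := by
  intro N _ ε f hf1 hrel ρ hρ hloc
  have hf : f ≠ 0 := by
    rintro rfl
    have h0 : ModularFormClass.qCoeff (⇑(0 : CuspForm (CongruenceSubgroup.Gamma1 N) 1)) 1 = 0 := by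
      unfold ModularFormClass.qCoeff
      rw [FunLike.coe_zero, UpperHalfPlane.qExpansion_zero]
      simp
    rw [h0] at hf1
    exact zero_ne_one hf1
  obtain ⟨K', n0, hn0, -, hK'⟩ := Rankin.exists_sq_bound f hf (fun p => ε (p : ZMod N))
    (fun p => ModularFormClass.qCoeff f p) hrel
  have hne : N * n0 ≠ 0 := mul_ne_zero (NeZero.ne N) hn0.ne'
  refine irreducible_of_bound hcheb ρ hρ (N * n0).primeFactors
    (fun p => ModularFormClass.qCoeff f p) ?_ ⟨K', ?_⟩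
  · intro p hp hpS A σ hA hσ
    have hpN : ¬ p ∣ N := fun h =>
      hpS (Nat.mem_primeFactors.mpr ⟨hp, h.mul_right n0, hne⟩)
    exact ((hloc p hp hpN A hA).2 σ hσ).1
  · intro s hs hs2 P hP
    exact hK' s hs hs2 P (fun p hp => by
      obtain ⟨hpp, hpS, hle⟩ := hP p hp
      have hnd : ¬ p ∣ N * n0 := fun h => hpS (Nat.mem_primeFactors.mpr ⟨hpp, h, hne⟩)
      exact ⟨hpp, fun h => hnd (h.mul_right n0), fun h => hnd (h.mul_left N), hle⟩)

end Fermat.Agent.S48.Irred
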