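/-
S48 (Deligne–Serre), brick J.456 (helper72): STEPS 4–6 of the route, ASSEMBLED, in abstract form.

From mod-`ℓ` representations `ρbar_ℓ : G_ℚ → GL₂(k_ℓ)` (`k_ℓ` a field of characteristic `ℓ`,
`r_ℓ : 𝔸 → k_ℓ` a surjective ring hom from the ring `𝔸` of algebraic integers of `ℂ`) of finite
level, with image of order `≤ A`, unramified outside `N ℓ` and with characteristic polynomial
`X² - r_ℓ(a_p) X + r_ℓ(e_p)` at the Frobenius elements of the primes `p ∤ N ℓ`, given for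
arbitrarily large primes `ℓ`, we construct ONE complex representation `ρ : G_ℚ → GL₂(ℂ)` of finite
level, unramified at EVERY prime `p ∤ N` and with trace `a_p` and determinant `e_p` (equivalently
characteristic polynomial `X² - a_p X + e_p`) at every Frobenius element of every `p ∤ N`.

Inputs (all landed): brick I `Fermat.Agent.S48.LiftRep.exists_lift_two` (helper151), the leaves
`Fermat.Agent.S48.UnityRed` and `Fermat.Agent.S48.TwoPrimes.glue` (helper234), and the Frobenius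
existence lemma `Fermat.Agent.Lib.Frobenius.exists_frobenius`.
-/
import Mathlib
import Fermat.Agent.Lib.Frobenius
import Fermat.Agent.Lib.FrobeniusDensity
import Fermat.Agent.S48.UnityRed
import Fermat.Agent.S48.TwoPrimes
import Fermat.Agent.S48.LiftRep.Main

set_option autoImplicit false

open Polynomial
open scoped MatrixGroups

namespace Fermat.Agent.S48.Patch

local notation "Qb" => AlgebraicClosure ℚ
local notation "Γ" => (AlgebraicClosure ℚ ≃ₐ[ℚ] AlgebraicClosure ℚ)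
local notation "AA" => (integralClosure ℤ ℂ)

/-! ## Small lemmas -/

/-- A homomorphism of finite level has finite range. -/
theorem finite_range_of_level {M : Type} [Group M] (ρ : Γ →* M)
    (h : GaloisFactorsThroughFiniteLevel ρ) : Finite ρ.range := by
  obtain ⟨L, hL, hker⟩ := h
  have : Algebra.IsAlgebraic ℚ Qb := AlgebraicClosure.isAlgebraic ℚ
  have : IsAlgClosure ℚ Qb := AlgebraicClosure.instIsAlgClosure ℚ
  have hgal : IsGalois ℚ Qb := inferInstance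
  have hidx : L.fixingSubgroup.index ≠ 0 := by
    rw [← IntermediateField.finrank_eq_fixingSubgroup_index (F := ℚ) (E' := Qb) L]
    exact Module.finrank_pos.ne'
  have hle : L.fixingSubgroup ≤ ρ.ker := by
    intro σ hσ
    rw [MonoidHom.mem_ker]
    exact hker σ (fun x hx => (IntermediateField.mem_fixingSubgroup_iff L σ).1 hσ x hx)
  have hfi0 : L.fixingSubgroup.FiniteIndex := ⟨hidx⟩
  have hfi : ρ.ker.FiniteIndex := Subgroup.finiteIndex_of_le hle
  have : Finite (Γ ⧸ ρ.ker) := Subgroup.finite_quotient_of_finiteIndex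
  exact Finite.of_equiv _ (QuotientGroup.quotientKerEquivRange ρ).toEquiv

/-- Trace and determinant of a `2 × 2` matrix from its characteristic polynomial. -/
theorem trace_det_of_charpoly_eq {K : Type*} [Field K] (M : Matrix (Fin 2) (Fin 2) K) (t d : K)
    (h : M.charpoly = X ^ 2 - C t * X + C d) : M.trace = t ∧ M.det = d := by
  rw [Matrix.charpoly_fin_two] at h
  constructor
  · have h1 := congrArg (fun q => coeff q 1) h
    simpa [coeff_X, coeff_C] using h1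
  · have h0 := congrArg (fun q => coeff q 0) h
    simpa [coeff_X, coeff_C] using h0

/-- The characteristic polynomial of a `2 × 2` matrix from its trace and determinant. -/
theorem charpoly_eq_of_trace_det {K : Type*} [Field K] (M : Matrix (Fin 2) (Fin 2) K) (t d : K)
    (ht : M.trace = t) (hd : M.det = d) : M.charpoly = X ^ 2 - C t * X + C d := by
  rw [Matrix.charpoly_fin_two, ht, hd]

/-! ## Step 4: the eigenvalue pairs are sums and products of roots of unity of bounded order -/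

/-- **Step 4.** If residual representations with image of order `≤ A` exist for arbitrarily large
`ℓ`, then for every `p ∤ N` the pair `(a_p, e_p)` is `(α + β, α β)` for roots of unity `α`, `β` of
order `≤ A`. -/
theorem mem_unityPairs_of_family (N : ℕ) (a e : ℕ → AA) (A : ℕ)
    (H : ∀ B : ℕ, ∃ ℓ : ℕ, ℓ.Prime ∧ B < ℓ ∧ ∃ (k : Type) (_ : Field k) (_ : CharP k ℓ)
      (r : AA →+* k) (ρbar : Γ →* GL (Fin 2) k),
      Function.Surjective r ∧ GaloisFactorsThroughFiniteLevel ρbar ∧ Nat.card ρbar.range ≤ A ∧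
      ∀ p : ℕ, p.Prime → ¬ p ∣ N → p ≠ ℓ → ∀ P : ValuationSubring Qb, P.LiesOverPrime p →
        (∀ σ ∈ P.inertiaSubgroupIn ℚ, ρbar σ = 1) ∧
        ∀ σ : Γ, P.IsFrobeniusAt σ p →
          (ρbar σ).val.charpoly = X ^ 2 - C (r (a p)) * X + C (r (e p)))
    (p : ℕ) (hp : p.Prime) (hpN : ¬ p ∣ N) : (a p, e p) ∈ UnityRed.unityPairs A := by
  refine UnityRed.mem_unityPairs_of_infinite A (a p) (e p)
    {ℓ : ℕ | ∃ (k : Type) (_ : Field k) (_ : CharP k ℓ) (r : AA →+* k)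
      (g : Matrix (Fin 2) (Fin 2) k) (m : ℕ), 0 < m ∧ m ≤ A ∧ g ^ m = 1 ∧ r (a p) = g.trace ∧
        r (e p) = g.det} ?_ (fun ℓ hℓ => hℓ)
  rw [Set.infinite_iff_exists_gt]
  intro B
  obtain ⟨ℓ, -, hBℓ, k, _, _, r, ρbar, -, hlev, hcard, hloc⟩ := H (max B p)
  refine ⟨ℓ, ?_, lt_of_le_of_lt (le_max_left _ _) hBℓ⟩
  have hpℓ : p ≠ ℓ := (lt_of_le_of_lt (le_max_right _ _) hBℓ).ne
  obtain ⟨P, σ, hP, hσ⟩ := Fermat.Agent.Lib.Frobenius.exists_frobenius hp
  have hfin : Finite ρbar.range := finite_range_of_level ρbar hlev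
  obtain ⟨ht, hd⟩ := trace_det_of_charpoly_eq _ _ _ ((hloc p hp hpN hpℓ P hP).2 σ hσ)
  refine ⟨k, inferInstance, inferInstance, r, (ρbar σ).val, Nat.card ρbar.range, Nat.card_pos,
    hcard, ?_, ht.symm, hd.symm⟩
  have h1 : (⟨ρbar σ, σ, rfl⟩ : ρbar.range) ^ Nat.card ρbar.range = 1 := pow_card_eq_one'
  have h2 : ρbar σ ^ Nat.card ρbar.range = 1 := by
    have := congrArg Subtype.val h1
    simpa using this
  rw [← Units.val_pow_eq_pow_val, h2, Units.val_one]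

/-! ## Step 5: the lift at one prime `ℓ > A` -/

/-- **Step 5.** The complex lift of one residual representation at `ℓ > A`: finite level,
unramified outside `N ℓ`, with the right trace and determinant at Frobenius elements of the
primes `p ∤ N ℓ`. -/
theorem exists_lift_at (N : ℕ) (a e : ℕ → AA) (A : ℕ)
    (hS4 : ∀ p : ℕ, p.Prime → ¬ p ∣ N → (a p, e p) ∈ UnityRed.unityPairs A)
    {ℓ : ℕ} (hAℓ : A < ℓ) {k : Type} [Field k] [CharP k ℓ] (r : AA →+* k)
    (hr : Function.Surjective r) (ρbar : Γ →* GL (Fin 2) k)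
    (hlev : GaloisFactorsThroughFiniteLevel ρbar) (hcard : Nat.card ρbar.range ≤ A)
    (hloc : ∀ p : ℕ, p.Prime → ¬ p ∣ N → p ≠ ℓ → ∀ P : ValuationSubring Qb, P.LiesOverPrime p →
      (∀ σ ∈ P.inertiaSubgroupIn ℚ, ρbar σ = 1) ∧
      ∀ σ : Γ, P.IsFrobeniusAt σ p →
        (ρbar σ).val.charpoly = X ^ 2 - C (r (a p)) * X + C (r (e p))) :
    ∃ ρ : Γ →* GL (Fin 2) ℂ, GaloisFactorsThroughFiniteLevel ρ ∧
      ∀ p : ℕ, p.Prime → ¬ p ∣ N → p ≠ ℓ → ∀ P : ValuationSubring Qb, P.LiesOverPrime p →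
        (∀ σ ∈ P.inertiaSubgroupIn ℚ, ρ σ = 1) ∧
        ∀ σ : Γ, P.IsFrobeniusAt σ p →
          (ρ σ).val.trace = (a p : ℂ) ∧ (ρ σ).val.det = (e p : ℂ) := by
  have hfin : Finite ρbar.range := finite_range_of_level ρbar hlev
  have hpos : 0 < Nat.card ρbar.range := Nat.card_pos
  have hG : (Nat.card ρbar.range : k) ≠ 0 := by
    rw [Ne, CharP.cast_eq_zero_iff k ℓ]
    intro hdvd
    have := Nat.le_of_dvd hpos hdvd
    omega
  obtain ⟨ρ0, hρ0⟩ := LiftRep.exists_lift_two r hr hG ρbar.range.subtype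
  refine ⟨ρ0.comp ρbar.rangeRestrict, ?_, ?_⟩
  · obtain ⟨L, hL, hker⟩ := hlev
    refine ⟨L, hL, fun σ hσ => ?_⟩
    have h1 : ρbar.rangeRestrict σ = 1 := Subtype.ext (hker σ hσ)
    rw [MonoidHom.comp_apply, h1, map_one]
  · intro p hp hpN hpℓ P hP
    obtain ⟨hin, hfr⟩ := hloc p hp hpN hpℓ P hP
    refine ⟨fun σ hσ => ?_, fun σ hσ => ?_⟩
    · have h1 : ρbar.rangeRestrict σ = 1 := Subtype.ext (hin σ hσ)
      rw [MonoidHom.comp_apply, h1, map_one]
    · obtain ⟨α, β, hα, hβ, -, -, ht, hd, htk, hdk⟩ := hρ0 (ρbar.rangeRestrict σ)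
      obtain ⟨htk', hdk'⟩ := trace_det_of_charpoly_eq _ _ _ (hfr σ hσ)
      have hsub : ρbar.range.subtype (ρbar.rangeRestrict σ) = ρbar σ := rfl
      rw [hsub] at htk hdk
      have hx : (α + β, α * β) ∈ UnityRed.unityPairs A :=
        UnityRed.mem_unityPairs hpos hcard hpos hcard hα hβ
      have hxy : (α + β, α * β) = (a p, e p) :=
        UnityRed.eq_of_mem_unityPairs r hAℓ hx (hS4 p hp hpN)
          (by rw [map_add]; exact htk.symm.trans htk')
          (by rw [map_mul]; exact hdk.symm.trans hdk')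
      have h1 : α + β = a p := congrArg Prod.fst hxy
      have h2 : α * β = e p := congrArg Prod.snd hxy
      rw [MonoidHom.comp_apply, ht, hd, ← h1, ← h2]
      exact ⟨by push_cast; rfl, by push_cast; rfl⟩

/-! ## Step 6 and the assembly -/

/-- **Steps 4–6, assembled (trace/determinant form = the per-prime conjunct of frozen S48).** -/
theorem exists_complex_rep (N : ℕ) (a e : ℕ → AA) (A : ℕ)
    (H : ∀ B : ℕ, ∃ ℓ : ℕ, ℓ.Prime ∧ B < ℓ ∧ ∃ (k : Type) (_ : Field k) (_ : CharP k ℓ)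
      (r : AA →+* k) (ρbar : Γ →* GL (Fin 2) k),
      Function.Surjective r ∧ GaloisFactorsThroughFiniteLevel ρbar ∧ Nat.card ρbar.range ≤ A ∧
      ∀ p : ℕ, p.Prime → ¬ p ∣ N → p ≠ ℓ → ∀ P : ValuationSubring Qb, P.LiesOverPrime p →
        (∀ σ ∈ P.inertiaSubgroupIn ℚ, ρbar σ = 1) ∧
        ∀ σ : Γ, P.IsFrobeniusAt σ p →
          (ρbar σ).val.charpoly = X ^ 2 - C (r (a p)) * X + C (r (e p))) :
    ∃ ρ : Γ →* GL (Fin 2) ℂ, GaloisFactorsThroughFiniteLevel ρ ∧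
      ∀ p : ℕ, p.Prime → ¬ p ∣ N → ∀ P : ValuationSubring Qb, P.LiesOverPrime p →
        (∀ σ ∈ P.inertiaSubgroupIn ℚ, ρ σ = 1) ∧
        ∀ σ : Γ, P.IsFrobeniusAt σ p →
          (ρ σ).val.trace = (a p : ℂ) ∧ (ρ σ).val.det = (e p : ℂ) := by
  by_cases hN : N = 0
  · subst hN
    exact ⟨1, ⟨⊥, inferInstance, fun σ _ => rfl⟩, fun p _ hpN => absurd (dvd_zero p) hpN⟩
  have hS4 : ∀ p : ℕ, p.Prime → ¬ p ∣ N → (a p, e p) ∈ UnityRed.unityPairs A :=
    fun p hp hpN => mem_unityPairs_of_family N a e A H p hp hpN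
  obtain ⟨ℓ1, -, hAℓ1, k1, _, _, r1, ρbar1, hr1, hlev1, hcard1, hloc1⟩ := H A
  obtain ⟨ℓ2, -, hAℓ2, k2, _, _, r2, ρbar2, hr2, hlev2, hcard2, hloc2⟩ := H (max A ℓ1)
  obtain ⟨ρ1, hρ1, h1⟩ := exists_lift_at N a e A hS4 hAℓ1 r1 hr1 ρbar1 hlev1 hcard1 hloc1
  obtain ⟨ρ2, hρ2, h2⟩ := exists_lift_at N a e A hS4 (lt_of_le_of_lt (le_max_left _ _) hAℓ2)
    r2 hr2 ρbar2 hlev2 hcard2 hloc2
  have hne : ℓ1 ≠ ℓ2 := (lt_of_le_of_lt (le_max_right _ _) hAℓ2).ne
  refine ⟨ρ1, hρ1, fun p hp hpN P hP => ?_⟩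
  refine TwoPrimes.glue ρ1 ρ2 hρ1 hρ2 (fun p => (a p : ℂ)) (fun p => (e p : ℂ))
    (N.primeFactors ∪ {ℓ1}) (N.primeFactors ∪ {ℓ2}) ?_ ?_ p hp ?_ P hP
  · intro q hq hqS Q hQ
    simp only [Finset.mem_union, Nat.mem_primeFactors, Finset.mem_singleton, not_or] at hqS
    exact h1 q hq (fun hd => hqS.1 ⟨hq, hd, hN⟩) hqS.2 Q hQ
  · intro q hq hqS Q hQ
    simp only [Finset.mem_union, Nat.mem_primeFactors, Finset.mem_singleton, not_or] at hqS
    exact h2 q hq (fun hd => hqS.1 ⟨hq, hd, hN⟩) hqS.2 Q hQ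
  · intro hmem
    simp only [Finset.mem_inter, Finset.mem_union, Nat.mem_primeFactors,
      Finset.mem_singleton] at hmem
    obtain ⟨h3 | h3, h4 | h4⟩ := hmem
    · exact hpN h3.2.1
    · exact hpN h3.2.1
    · exact hpN h4.2.1
    · exact hne (h3.symm.trans h4)

/-- **Steps 4–6, assembled (characteristic polynomial form).** -/
theorem exists_complex_rep_charpoly (N : ℕ) (a e : ℕ → AA) (A : ℕ)
    (H : ∀ B : ℕ, ∃ ℓ : ℕ, ℓ.Prime ∧ B < ℓ ∧ ∃ (k : Type) (_ : Field k) (_ : CharP k ℓ)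
      (r : AA →+* k) (ρbar : Γ →* GL (Fin 2) k),
      Function.Surjective r ∧ GaloisFactorsThroughFiniteLevel ρbar ∧ Nat.card ρbar.range ≤ A ∧
      ∀ p : ℕ, p.Prime → ¬ p ∣ N → p ≠ ℓ → ∀ P : ValuationSubring Qb, P.LiesOverPrime p →
        (∀ σ ∈ P.inertiaSubgroupIn ℚ, ρbar σ = 1) ∧
        ∀ σ : Γ, P.IsFrobeniusAt σ p →
          (ρbar σ).val.charpoly = X ^ 2 - C (r (a p)) * X + C (r (e p))) :
    ∃ ρ : Γ →* GL (Fin 2) ℂ, GaloisFactorsThroughFiniteLevel ρ ∧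
      ∀ p : ℕ, p.Prime → ¬ p ∣ N → ∀ P : ValuationSubring Qb, P.LiesOverPrime p →
        (∀ σ ∈ P.inertiaSubgroupIn ℚ, ρ σ = 1) ∧
        ∀ σ : Γ, P.IsFrobeniusAt σ p →
          (ρ σ).val.charpoly = X ^ 2 - C (a p : ℂ) * X + C (e p : ℂ) := by
  obtain ⟨ρ, hρ, h⟩ := exists_complex_rep N a e A H
  refine ⟨ρ, hρ, fun p hp hpN P hP => ⟨(h p hp hpN P hP).1, fun σ hσ => ?_⟩⟩
  obtain ⟨ht, hd⟩ := (h p hp hpN P hP).2 σ hσ
  exact charpoly_eq_of_trace_det _ _ _ ht hd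

end Fermat.Agent.S48.Patch
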