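/-
S48 (Deligne–Serre), PROGRAM DS — FINAL WIRING (helper221, DS captain).

Everything except the residual representations (brick E final, `J1.ResRep`) is proved on main:
Chebotarev (`Lib.Chebotarev.Main.chebLower`), brick C (`CAlg.intEig`, `CAlg.conjBound`),
J1 (`J1.exists_hasBddRes`), J2 (`Patch.patchStatement`), J3 (`Irred.irredStatement`).

* `conclusion_of_resRep` : the conclusion of the frozen statement for ONE form `(N, ε, f)` from
  `J1.ResRep N ε f`.
* `conclusion_of_resRep6` (ROUTE B, insurance): the same for EVERY level, from `J1.ResRep` at the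
  levels divisible by `2` or `3` only: the form is raised to the levels `2N` and `3N` and the two
  representations are glued by `TwoPrimes.glue`.
-/
import Mathlib
import Fermat.Agent.S48.Contract
import Fermat.Agent.S48.J1
import Fermat.Agent.S48.Patch.Final
import Fermat.Agent.S48.Irred
import Fermat.Agent.S48.CAlg
import Fermat.Agent.S48.TwoPrimes
import Fermat.Agent.S48.Hecke1.Level
import Fermat.Agent.Lib.Chebotarev.Main

set_option autoImplicit false

open CongruenceSubgroup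
open scoped MatrixGroups

namespace Fermat.Agent.S48.Final

open Fermat.Agent.S48 Fermat.Agent.S48.Contract

/-- The conclusion of the frozen statement S48 for one form. -/
def Conclusion (N : ℕ) [NeZero N] (ε : DirichletCharacter ℂ N) (f : CuspForm (Gamma1 N) 1) :
    Prop :=
  ∃ ρ : GQ →* GL (Fin 2) ℂ, GaloisFactorsThroughFiniteLevel ρ ∧
    (Deformation.matrixRepresentation ρ).IsIrreducible ∧
    ∀ p : ℕ, p.Prime → ¬ p ∣ N →
      LocalAt ρ p (ModularFormClass.qCoeff f p) (ε (p : ZMod N))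

/-- **The pipeline for one form**: `J1.ResRep N ε f` gives the conclusion of S48 for `f`. -/
theorem conclusion_of_resRep (N : ℕ) [NeZero N] (ε : DirichletCharacter ℂ N)
    (f : CuspForm (Gamma1 N) 1) (hf₁ : ModularFormClass.qCoeff f 1 = 1)
    (hT : Rel N (ModularFormClass.qCoeff f) (ModularFormClass.qCoeff f)
      (fun p => ε (p : ZMod N)))
    (hres : J1.ResRep N ε f) : Conclusion N ε f := by
  have hcheb : Dens.ChebLower := Fermat.Agent.Lib.Chebotarev.Main.chebLower
  obtain ⟨a, e, A, hae, hH⟩ := J1.exists_hasBddRes hcheb N ε f (CAlg.intEig N ε f hf₁ hT)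
    (J1.fewEig_of_conjBound N f (CAlg.conjBound N ε f hf₁ hT)) hres
  obtain ⟨ρ, hρ, hloc⟩ := Patch.patchStatement N a e A hH
  have hloc' : ∀ p : ℕ, p.Prime → ¬ p ∣ N →
      LocalAt ρ p (ModularFormClass.qCoeff f p) (ε (p : ZMod N)) := by
    intro p hp hpN
    have h := hloc p hp hpN
    rw [(hae p hp hpN).1, (hae p hp hpN).2] at h
    exact h
  exact ⟨ρ, hρ, Irred.irredStatement hcheb N ε f hf₁ hT ρ hρ hloc', hloc'⟩

/-! ### Route B: levels divisible by `2` or `3` suffice -/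

/-- The character `ε` at level `c * N`. -/
noncomputable def epsUp (c : ℕ) {N : ℕ} (ε : DirichletCharacter ℂ N) :
    DirichletCharacter ℂ (c * N) :=
  DirichletCharacter.changeLevel (Dvd.intro_left c rfl) ε

/-- The form `f` at level `c * N`. -/
noncomputable def formUp (c : ℕ) {N : ℕ} (f : CuspForm (Gamma1 N) 1) :
    CuspForm (Gamma1 (c * N)) 1 :=
  Hecke1.levelIncl (Dvd.intro_left c rfl) 1 f

theorem qCoeff_formUp (c : ℕ) {N : ℕ} (f : CuspForm (Gamma1 N) 1) (n : ℕ) :
    ModularFormClass.qCoeff (formUp c f) n = ModularFormClass.qCoeff f n := rfl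

theorem epsUp_apply (c : ℕ) {N : ℕ} (ε : DirichletCharacter ℂ N) {p : ℕ} (hp : p.Prime)
    (hpN : ¬ p ∣ c * N) : epsUp c ε (p : ZMod (c * N)) = ε (p : ZMod N) := by
  have hcop : IsCoprime (p : ℤ) ((c * N : ℕ) : ℤ) :=
    Nat.isCoprime_iff_coprime.mpr ((Nat.Prime.coprime_iff_not_dvd hp).mpr hpN)
  have h := DirichletCharacter.changeLevel_eq_cast_of_dvd' ε (Dvd.intro_left c rfl) hcop
  simpa [epsUp] using h

theorem rel_up (c : ℕ) {N : ℕ} (ε : DirichletCharacter ℂ N) (f : CuspForm (Gamma1 N) 1)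
    (hT : Rel N (ModularFormClass.qCoeff f) (ModularFormClass.qCoeff f)
      (fun p => ε (p : ZMod N))) :
    Rel (c * N) (ModularFormClass.qCoeff (formUp c f)) (ModularFormClass.qCoeff (formUp c f))
      (fun p => epsUp c ε (p : ZMod (c * N))) := by
  intro p hp hpN n
  have hpN' : ¬ p ∣ N := fun h => hpN (Dvd.dvd.mul_left h c)
  simp only [qCoeff_formUp]
  rw [epsUp_apply c ε hp hpN]
  exact hT p hp hpN' n

/-- What the pipeline gives at level `c * N`, in terms of the original `f` and `ε`. -/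
theorem exists_rep_up (c : ℕ) [NeZero c] {N : ℕ} [NeZero N] (ε : DirichletCharacter ℂ N)
    (f : CuspForm (Gamma1 N) 1) (hf₁ : ModularFormClass.qCoeff f 1 = 1)
    (hT : Rel N (ModularFormClass.qCoeff f) (ModularFormClass.qCoeff f)
      (fun p => ε (p : ZMod N)))
    (hres : J1.ResRep (c * N) (epsUp c ε) (formUp c f)) :
    ∃ ρ : GQ →* GL (Fin 2) ℂ, GaloisFactorsThroughFiniteLevel ρ ∧
      (Deformation.matrixRepresentation ρ).IsIrreducible ∧
      ∀ p : ℕ, p.Prime → ¬ p ∣ c * N →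
        LocalAt ρ p (ModularFormClass.qCoeff f p) (ε (p : ZMod N)) := by
  obtain ⟨ρ, hρ, hirr, hloc⟩ := conclusion_of_resRep (c * N) (epsUp c ε) (formUp c f)
    (by rw [qCoeff_formUp]; exact hf₁) (rel_up c ε f hT) hres
  refine ⟨ρ, hρ, hirr, fun p hp hpN => ?_⟩
  have h := hloc p hp hpN
  rw [qCoeff_formUp, epsUp_apply c ε hp hpN] at h
  exact h

/-- **Route B.**  If `J1.ResRep` holds for all normalised eigenforms of levels divisible by `2`
or `3`, then the conclusion of S48 holds at every level. -/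
theorem conclusion_of_resRep6
    (hres6 : ∀ (N : ℕ) [NeZero N] (ε : DirichletCharacter ℂ N) (f : CuspForm (Gamma1 N) 1),
      (2 ∣ N ∨ 3 ∣ N) → ModularFormClass.qCoeff f 1 = 1 →
      Rel N (ModularFormClass.qCoeff f) (ModularFormClass.qCoeff f) (fun p => ε (p : ZMod N)) →
      J1.ResRep N ε f)
    (N : ℕ) [NeZero N] (ε : DirichletCharacter ℂ N) (f : CuspForm (Gamma1 N) 1)
    (hf₁ : ModularFormClass.qCoeff f 1 = 1)
    (hT : Rel N (ModularFormClass.qCoeff f) (ModularFormClass.qCoeff f)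
      (fun p => ε (p : ZMod N))) : Conclusion N ε f := by
  have hN : N ≠ 0 := NeZero.ne N
  obtain ⟨ρ₂, hρ₂, -, hloc₂⟩ := exists_rep_up 2 ε f hf₁ hT
    (hres6 (2 * N) (epsUp 2 ε) (formUp 2 f) (Or.inl (dvd_mul_right 2 N))
      (by rw [qCoeff_formUp]; exact hf₁) (rel_up 2 ε f hT))
  obtain ⟨ρ₃, hρ₃, hirr₃, hloc₃⟩ := exists_rep_up 3 ε f hf₁ hT
    (hres6 (3 * N) (epsUp 3 ε) (formUp 3 f) (Or.inr (dvd_mul_right 3 N))
      (by rw [qCoeff_formUp]; exact hf₁) (rel_up 3 ε f hT))
  refine ⟨ρ₃, hρ₃, hirr₃, fun p hp hpN A hA => ?_⟩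
  refine TwoPrimes.glue ρ₃ ρ₂ hρ₃ hρ₂ (fun p => ModularFormClass.qCoeff f p)
    (fun p => ε (p : ZMod N)) (3 * N).primeFactors (2 * N).primeFactors ?_ ?_ p hp ?_ A hA
  · intro q hq hqS B hB
    have hq3 : ¬ q ∣ 3 * N := fun h =>
      hqS (Nat.mem_primeFactors.mpr ⟨hq, h, Nat.mul_ne_zero (by norm_num) hN⟩)
    exact hloc₃ q hq hq3 B hB
  · intro q hq hqS B hB
    have hq2 : ¬ q ∣ 2 * N := fun h =>
      hqS (Nat.mem_primeFactors.mpr ⟨hq, h, Nat.mul_ne_zero (by norm_num) hN⟩)
    exact hloc₂ q hq hq2 B hB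
  · intro hmem
    rw [Finset.mem_inter, Nat.mem_primeFactors, Nat.mem_primeFactors] at hmem
    obtain ⟨⟨-, h3, -⟩, ⟨-, h2, -⟩⟩ := hmem
    have h1 : p ∣ 3 * N - 2 * N := Nat.dvd_sub h3 h2
    have h2' : 3 * N - 2 * N = N := by omega
    rw [h2'] at h1
    exact hpN h1

end Fermat.Agent.S48.Final
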