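/-
S48 (Deligne–Serre), PROGRAM DS — FINAL WIRING, ROUTE B (helper221, DS captain).

G1 DEAL #3 (helper210): the G1 producer is delivered ONLY at the levels `M` with `2 ∣ M ∨ 3 ∣ M`
and for the exponents `5 ≤ l`:

  `ProducerExitB : ∀ M l [NeZero M] [Fact l.Prime], 5 ≤ l → (2 ∣ M ∨ 3 ∣ M) →
      Nonempty (G1.ES1Data M l (G1.Ops.Top M) (G1.Ops.Dop M))`.

This file closes S48 from that single Prop:

* `resRep_of_producerB` : `J1.ResRep N ε f` at every level `N` with `2 ∣ N ∨ 3 ∣ N`
  (`ERes.resRep_of` — the producer is only used at the levels `N * l`, exponent `l`,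
  `5 ≤ l` — with `G1.ResidualField.residualExit`);
* `conclusion_of_producerB` : `Final.Conclusion N ε f` for EVERY level `N`
  (`Final.conclusion_of_resRep6`: the pipeline at the levels `2 N` and `3 N`, glued by
  `TwoPrimes.glue`).

`Fermat/Agent/S48.lean` is then `conclusion_of_producerB <the G1 exit> N ε f hf₁ hT`.
-/
import Mathlib
import Fermat.Agent.S48.Final
import Fermat.Agent.S48.ERes
import Fermat.Agent.S48.G1.ResidualField

set_option autoImplicit false

namespace Fermat.Agent.S48.FinalB

open CongruenceSubgroup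
open scoped MatrixGroups
open Fermat.Agent.S48 Fermat.Agent.S48.Contract

/-- **The G1 producer exit, ROUTE B**: Eichler–Shimura data at every level divisible by `2` or
`3`, for every exponent `l ≥ 5`. -/
def ProducerExitB : Prop :=
  ∀ (M l : ℕ) [NeZero M] [Fact l.Prime], 5 ≤ l → (2 ∣ M ∨ 3 ∣ M) →
    Nonempty (G1.ES1Data M l (G1.Ops.Top M) (G1.Ops.Dop M))

/-- The full producer exit implies the route-B one. -/
theorem producerExitB_of_DS (hP : G1.Ops.ProducerExitDS) : ProducerExitB :=
  fun M l _ _ _ _ => hP M l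

/-- Step 2 (residual representations) at the levels divisible by `2` or `3`. -/
theorem resRep_of_producerB (hB : ProducerExitB)
    (N : ℕ) [NeZero N] (ε : DirichletCharacter ℂ N) (f : CuspForm (Gamma1 N) 1)
    (h6 : 2 ∣ N ∨ 3 ∣ N)
    (hf₁ : ModularFormClass.qCoeff f 1 = 1)
    (hT : Rel N (ModularFormClass.qCoeff f) (ModularFormClass.qCoeff f)
      (fun p => ε (p : ZMod N))) : J1.ResRep N ε f :=
  ERes.resRep_of G1.ResidualField.residualExit N ε f hf₁ hT
    (fun l _ _ hl5 _ => hB (N * l) l hl5
      (h6.imp (fun h => Dvd.dvd.mul_right h l) (fun h => Dvd.dvd.mul_right h l)))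

/-- **S48 from the route-B producer exit.** -/
theorem conclusion_of_producerB (hB : ProducerExitB)
    (N : ℕ) [NeZero N] (ε : DirichletCharacter ℂ N) (f : CuspForm (Gamma1 N) 1)
    (hf₁ : ModularFormClass.qCoeff f 1 = 1)
    (hT : Rel N (ModularFormClass.qCoeff f) (ModularFormClass.qCoeff f)
      (fun p => ε (p : ZMod N))) : Final.Conclusion N ε f :=
  Final.conclusion_of_resRep6
    (fun N _ ε f h6 hf₁ hT => resRep_of_producerB hB N ε f h6 hf₁ hT) N ε f hf₁ hT

end Fermat.Agent.S48.FinalB
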