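import Mathlib
import Fermat.Agent.S48.Sep1.QExp
import Fermat.Agent.S23.TForm
import Fermat.Agent.S23.RatSpan
import Fermat.Agent.S23.LevelOneSpan

/-!
# A separating integral modular form for `±Γ₁(M)`

`sepForm M = tForm M * E₄ ^ 3 + uHat M 1 * Δ` is a modular form of weight `16` on `Γ₁(M)` with
integral `q`-expansion, and the only `γ ∈ SL(2, ℤ)` with `sepForm M ∣[16] γ = sepForm M` are
those with `γ ∈ Γ₁(M)` or `-γ ∈ Γ₁(M)` (for `2 ≤ M`).
-/

set_option autoImplicit false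

open scoped Manifold MatrixGroups ModularForm Topology Nat
open UpperHalfPlane EisensteinSeries Matrix CongruenceSubgroup Filter Complex Real ModularForm

noncomputable section

namespace Fermat.Agent.S48.Sep1

open Fermat.Agent.S30.EisChar Fermat.Agent.S23 Fermat.Agent.S23.Defs Fermat.Agent.S23.RatSpan

/-! ### The slash action of `Γ₀(M)` on `uSep` -/

theorem cSep_vecMul_inv {M : ℕ} (x : ZMod M) {A : SL(2, ℤ)} (hA : A ∈ Gamma0 M)
    (w : Fin 2 → ℤ) :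
    cSep M x (w ᵥ* ((A⁻¹ : SL(2, ℤ)) : Matrix (Fin 2) (Fin 2) ℤ)) =
      cSep M (x * ((A 0 0 : ℤ) : ZMod M)) w := by
  have hc : ((A 1 0 : ℤ) : ZMod M) = 0 := Gamma0_mem.mp hA
  have hdet : ((A 0 0 : ℤ) : ZMod M) * ((A 1 1 : ℤ) : ZMod M) = 1 := by
    have h := A.det_coe
    rw [Matrix.det_fin_two] at h
    have h2 := congrArg (Int.cast : ℤ → ZMod M) h
    push_cast at h2
    rw [hc, mul_zero, sub_zero] at h2
    exact h2
  have hfirst : (((w ᵥ* ((A⁻¹ : SL(2, ℤ)) : Matrix (Fin 2) (Fin 2) ℤ)) 0 : ℤ) : ZMod M) =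
      (w 0 : ZMod M) * ((A 1 1 : ℤ) : ZMod M) := by
    rw [Matrix.SpecialLinearGroup.coe_inv, Matrix.adjugate_fin_two]
    simp only [Matrix.vecMul, dotProduct, Fin.sum_univ_two, Matrix.of_apply, Matrix.cons_val_zero,
      Matrix.cons_val_one]
    push_cast
    rw [hc]
    ring
  unfold cSep ind
  rw [hfirst]
  refine if_congr ?_ rfl rfl
  constructor
  · rintro (h | h)
    · left
      rw [← h, mul_assoc, mul_comm ((A 1 1 : ℤ) : ZMod M), hdet, mul_one]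
    · right
      rw [← neg_mul, ← h, mul_assoc, mul_comm ((A 1 1 : ℤ) : ZMod M), hdet, mul_one]
  · rintro (h | h)
    · left
      rw [h, mul_assoc, hdet, mul_one]
    · right
      rw [h, neg_mul, mul_assoc, hdet, mul_one]

theorem uSep_slash {M : ℕ} (x : ZMod M) {A : SL(2, ℤ)} (hA : A ∈ Gamma0 M) :
    uSep M x ∣[(4 : ℤ)] A = uSep M (x * ((A 0 0 : ℤ) : ZMod M)) := by
  unfold uSep
  rw [eisC_slash]
  congr 1
  funext w
  exact cSep_vecMul_inv x hA w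

theorem uHat_slash_Gamma0 {M : ℕ} (x : ZMod M) {A : SL(2, ℤ)} (hA : A ∈ Gamma0 M) :
    uHat M x ∣[(4 : ℤ)] A = uHat M (x * ((A 0 0 : ℤ) : ZMod M)) := by
  rw [uHat_slash, uSep_slash x hA]
  rfl

theorem uHat_slash_Gamma1 {M : ℕ} (x : ZMod M) {A : SL(2, ℤ)} (hA : A ∈ Gamma1 M) :
    uHat M x ∣[(4 : ℤ)] A = uHat M x := by
  have h := (Gamma1_mem M A).mp hA
  rw [uHat_slash_Gamma0 x (Gamma0_mem.mpr h.2.2), h.1, mul_one]

/-! ### The separating form -/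

/-- The weight-`16` slash of `T * E ^ 3 + U * D` in terms of the slashes of the factors. -/
theorem slash_sep (T E U D : ℍ → ℂ) (A : SL(2, ℤ)) :
    (T * E ^ 3 + U * D) ∣[(16 : ℤ)] A =
      (T ∣[(4 : ℤ)] A) * (E ∣[(4 : ℤ)] A) ^ 3 + (U ∣[(4 : ℤ)] A) * (D ∣[(12 : ℤ)] A) := by
  ext τ
  simp only [ModularForm.SL_slash_apply, Pi.add_apply, Pi.mul_apply, Pi.pow_apply]
  have hd : denom A τ ≠ 0 := denom_ne_zero _ τ
  have h16 : denom A τ ^ (-(16 : ℤ)) = denom A τ ^ (-(4 : ℤ)) * (denom A τ ^ (-(4 : ℤ))) ^ 3 := by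
    rw [← zpow_natCast (denom A τ ^ (-(4 : ℤ))) 3, ← _root_.zpow_mul, ← zpow_add₀ hd]
    norm_num
  have h12 : denom A τ ^ (-(12 : ℤ)) = (denom A τ ^ (-(4 : ℤ))) ^ 3 := by
    rw [← zpow_natCast (denom A τ ^ (-(4 : ℤ))) 3, ← _root_.zpow_mul]
    norm_num
  rw [h16, h12]
  ring

variable (M : ℕ) [NeZero M]

/-- The underlying function of the separating form. -/
def sepFun : ℍ → ℂ := ⇑(TForm.tForm M) * ⇑E₄ ^ 3 + uHat M 1 * ModularForm.discriminant

theorem E₄_slash (A : SL(2, ℤ)) : (⇑E₄ : ℍ → ℂ) ∣[(4 : ℤ)] A = ⇑E₄ :=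
  SlashInvariantForm.slash_action_eqn E₄ _ ⟨A, rfl⟩

theorem disc_slash (A : SL(2, ℤ)) :
    (ModularForm.discriminant : ℍ → ℂ) ∣[(12 : ℤ)] A = ModularForm.discriminant :=
  SlashInvariantFormClass.slash_action_eq CuspForm.discriminant _ ⟨A, rfl⟩

theorem tForm_slash {A : SL(2, ℤ)} (hA : A ∈ Gamma0 M) :
    (⇑(TForm.tForm M) : ℍ → ℂ) ∣[(4 : ℤ)] A = ⇑(TForm.tForm M) :=
  SlashInvariantFormClass.slash_action_eq (TForm.tForm M) _ ⟨A, hA, rfl⟩

theorem sepFun_slash (A : SL(2, ℤ)) :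
    sepFun M ∣[(16 : ℤ)] A =
      ((⇑(TForm.tForm M) : ℍ → ℂ) ∣[(4 : ℤ)] A) * ⇑E₄ ^ 3 +
        (uHat M 1 ∣[(4 : ℤ)] A) * ModularForm.discriminant := by
  unfold sepFun
  rw [slash_sep, E₄_slash, disc_slash]

theorem sepFun_slash_Gamma0 {A : SL(2, ℤ)} (hA : A ∈ Gamma0 M) :
    sepFun M ∣[(16 : ℤ)] A =
      ⇑(TForm.tForm M) * ⇑E₄ ^ 3 + uHat M ((A 0 0 : ℤ) : ZMod M) * ModularForm.discriminant := by
  rw [sepFun_slash, tForm_slash M hA, uHat_slash_Gamma0 1 hA, one_mul]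

theorem sepFun_slash_Gamma1 {A : SL(2, ℤ)} (hA : A ∈ Gamma1 M) :
    sepFun M ∣[(16 : ℤ)] A = sepFun M := by
  have h := (Gamma1_mem M A).mp hA
  rw [sepFun_slash_Gamma0 M (Gamma0_mem.mpr h.2.2), h.1]
  rfl

theorem sepFun_mdifferentiable : MDifferentiable 𝓘(ℂ) 𝓘(ℂ) (sepFun M) :=
  ((ModularFormClass.holo (TForm.tForm M)).mul ((ModularFormClass.holo E₄).pow 3)).add
    ((uHat_mdifferentiable M 1).mul (ModularFormClass.holo CuspForm.discriminant))

theorem isBoundedAtImInfty_sepFun_slash (A : SL(2, ℤ)) :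
    IsBoundedAtImInfty (sepFun M ∣[(16 : ℤ)] A) := by
  rw [sepFun_slash]
  have h1 : IsBoundedAtImInfty ((⇑(TForm.tForm M) : ℍ → ℂ) ∣[(4 : ℤ)] A) :=
    ModularFormClass.bdd_at_infty_slash (TForm.tForm M) A
  have h2 : IsBoundedAtImInfty (⇑E₄ : ℍ → ℂ) := ModularFormClass.bdd_at_infty E₄
  have h3 : IsBoundedAtImInfty (ModularForm.discriminant : ℍ → ℂ) :=
    ModularFormClass.bdd_at_infty CuspForm.discriminant
  have h4 : (⇑E₄ : ℍ → ℂ) ^ 3 = ⇑E₄ * ⇑E₄ * ⇑E₄ := by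
    ext τ
    simp only [Pi.mul_apply, Pi.pow_apply]
    ring
  rw [h4]
  exact (h1.mul ((h2.mul h2).mul h2)).add ((isBoundedAtImInfty_uHat_slash M 1 A).mul h3)

/-- **The separating form**: `tForm M * E₄ ^ 3 + uHat M 1 * Δ`, of weight `16` on `Γ₁(M)`. -/
def sepForm : ModularForm (Gamma1 M) 16 where
  toFun := sepFun M
  slash_action_eq' := by
    intro γ hγ
    obtain ⟨g, hg, rfl⟩ := hγ
    exact sepFun_slash_Gamma1 M hg
  holo' := sepFun_mdifferentiable M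
  bdd_at_cusps' := by
    intro c hc'
    rw [Subgroup.IsArithmetic.isCusp_iff_isCusp_SL2Z] at hc'
    rw [OnePoint.isBoundedAt_iff_forall_SL2Z hc']
    intro A _
    exact isBoundedAtImInfty_sepFun_slash M A

theorem coe_sepForm : (⇑(sepForm M) : ℍ → ℂ) = sepFun M := rfl

/-! ### Integrality of the `q`-expansion -/

omit [NeZero M] in
theorem nice_uHat {x : ZMod M} (hx : x ≠ 0) : Nice (uHat M x) :=
  ⟨periodic_of_vadd_one (uHat_vadd_one hx), uHat_mdifferentiable M x, isBoundedAtImInfty_uHat M x⟩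

omit [NeZero M] in
theorem isIntPS_uHat {x : ZMod M} (hx : x ≠ 0) : IsIntPS (qExpansion 1 (uHat M x)) := by
  intro n
  obtain ⟨m, hm⟩ := aSep_int M x n
  exact ⟨m, by rw [← hm]; exact qExpansion_uHat_coeff hx n⟩

theorem isIntPS_sepFun (h1 : (1 : ZMod M) ≠ 0) : IsIntPS (qExpansion 1 (sepFun M)) := by
  have nT : Nice (⇑(TForm.tForm M)) :=
    Nice.of_modularForm (CongruenceSubgroup.one_mem_strictPeriods_Gamma0 M) (TForm.tForm M)
  have nE : Nice (⇑E₄) := Nice.of_modularForm one_mem_strictPeriods_SL E₄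
  have nD : Nice (ModularForm.discriminant : ℍ → ℂ) :=
    Nice.of_modularForm one_mem_strictPeriods_SL CuspForm.discriminant
  have nU : Nice (uHat M 1) := nice_uHat M h1
  have h4 : (⇑E₄ : ℍ → ℂ) ^ 3 = ⇑E₄ * ⇑E₄ * ⇑E₄ := by
    ext τ
    simp only [Pi.mul_apply, Pi.pow_apply]
    ring
  have nE3 : Nice ((⇑E₄ : ℍ → ℂ) * ⇑E₄ * ⇑E₄) := (nE.mul nE).mul nE
  have hE3 : IsIntPS (qExpansion 1 ((⇑E₄ : ℍ → ℂ) * ⇑E₄ * ⇑E₄)) := by
    rw [qExpansion_mul (nE.mul nE).analytic nE.analytic, qExpansion_mul nE.analytic nE.analytic]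
    exact IsIntPS.mul (IsIntPS.mul TForm.isIntPS_E₄ TForm.isIntPS_E₄) TForm.isIntPS_E₄
  unfold sepFun
  rw [h4, qExpansion_add (nT.mul nE3).analytic (nU.mul nD).analytic,
    qExpansion_mul nT.analytic nE3.analytic, qExpansion_mul nU.analytic nD.analytic]
  exact IsIntPS.add (IsIntPS.mul (TForm.isIntPS_tForm M) hE3)
    (IsIntPS.mul (isIntPS_uHat M h1) LevelOneSpan.isIntPS_qExpansion_discriminant)

theorem isIntPS_sepForm (h1 : (1 : ZMod M) ≠ 0) : IsIntPS (qExpansion 1 (sepForm M)) :=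
  isIntPS_sepFun M h1

/-! ### Separation -/

theorem tendsto_sepFun : Tendsto (sepFun M) atImInfty (𝓝 1) := by
  have hT : Tendsto (⇑(TForm.tForm M)) atImInfty (𝓝 1) := TForm.tendsto_tForm M
  have hE : Tendsto (⇑E₄) atImInfty (𝓝 1) := CuspSep.tendsto_E₄_atImInfty
  have hD : IsZeroAtImInfty (uHat M 1 * ModularForm.discriminant) :=
    (isBoundedAtImInfty_uHat M 1).mul_zeroAtFilter ModularForm.discriminant_isZeroAtImInfty
  have h := (hT.mul (hE.pow 3)).add hD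
  simp only [one_pow, mul_one, add_zero] at h
  exact h

theorem tendsto_sepFun_slash {γ : SL(2, ℤ)} {c' : ℂ}
    (hc : Tendsto ((⇑(TForm.tForm M) : ℍ → ℂ) ∣[(4 : ℤ)] γ) atImInfty (𝓝 c')) :
    Tendsto (sepFun M ∣[(16 : ℤ)] γ) atImInfty (𝓝 c') := by
  rw [sepFun_slash]
  have hE : Tendsto (⇑E₄) atImInfty (𝓝 1) := CuspSep.tendsto_E₄_atImInfty
  have hD : IsZeroAtImInfty ((uHat M 1 ∣[(4 : ℤ)] γ) * ModularForm.discriminant) :=
    (isBoundedAtImInfty_uHat_slash M 1 γ).mul_zeroAtFilter ModularForm.discriminant_isZeroAtImInfty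
  have h := (hc.mul (hE.pow 3)).add hD
  simp only [one_pow, mul_one, add_zero] at h
  exact h

/-- A stabiliser of `sepFun` lies in `Γ₀(M)`. -/
theorem mem_Gamma0_of_sepFun_slash {γ : SL(2, ℤ)} (h : sepFun M ∣[(16 : ℤ)] γ = sepFun M) :
    γ ∈ Gamma0 M := by
  by_contra hγ
  obtain ⟨c', hc', ht⟩ := TForm.exists_tendsto_slash_ne M hγ
  have h1 := tendsto_sepFun_slash M ht
  rw [h] at h1
  exact hc' (tendsto_nhds_unique h1 (tendsto_sepFun M))

omit [NeZero M] in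
theorem uHat_injective_aux {x y : ZMod M} (hx : x ≠ 0) (hy : y ≠ 0) (h : uHat M x = uHat M y) :
    ind M x 1 = ind M y 1 := by
  rw [← aSep_one, ← aSep_one, ← qExpansion_uHat_coeff hx, ← qExpansion_uHat_coeff hy, h]

omit [NeZero M] in
theorem ind_one_one : ind M 1 1 = 1 := by
  unfold ind
  rw [if_pos]
  left
  push_cast
  rfl

/-- **Separation**: a stabiliser of `sepFun` lies in `±Γ₁(M)`. -/
theorem sepFun_sep (h1 : (1 : ZMod M) ≠ 0) {γ : SL(2, ℤ)}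
    (h : sepFun M ∣[(16 : ℤ)] γ = sepFun M) : γ ∈ Gamma1 M ∨ -γ ∈ Gamma1 M := by
  have hγ : γ ∈ Gamma0 M := mem_Gamma0_of_sepFun_slash M h
  have hc : ((γ 1 0 : ℤ) : ZMod M) = 0 := Gamma0_mem.mp hγ
  have hdet : ((γ 0 0 : ℤ) : ZMod M) * ((γ 1 1 : ℤ) : ZMod M) = 1 := by
    have h' := γ.det_coe
    rw [Matrix.det_fin_two] at h'
    have h2 := congrArg (Int.cast : ℤ → ZMod M) h'
    push_cast at h2
    rw [hc, mul_zero, sub_zero] at h2
    exact h2
  have ha0 : ((γ 0 0 : ℤ) : ZMod M) ≠ 0 := by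
    intro h0
    rw [h0, zero_mul] at hdet
    exact h1 hdet.symm
  rw [sepFun_slash_Gamma0 M hγ] at h
  have hu : uHat M ((γ 0 0 : ℤ) : ZMod M) = uHat M 1 := by
    ext τ
    have hτ := congrFun h τ
    unfold sepFun at hτ
    simp only [Pi.add_apply, Pi.mul_apply] at hτ
    exact mul_right_cancel₀ (ModularForm.discriminant_ne_zero τ) (add_left_cancel hτ)
  have hind := uHat_injective_aux M ha0 h1 hu
  rw [ind_one_one] at hind
  have hpm : ((1 : ℤ) : ZMod M) = ((γ 0 0 : ℤ) : ZMod M) ∨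
      ((1 : ℤ) : ZMod M) = -((γ 0 0 : ℤ) : ZMod M) := by
    by_contra hne
    unfold ind at hind
    rw [if_neg hne] at hind
    exact zero_ne_one hind
  rcases hpm with ha | ha
  · left
    rw [Gamma1_mem]
    have ha' : ((γ 0 0 : ℤ) : ZMod M) = 1 := by rw [← ha]; push_cast; rfl
    refine ⟨ha', ?_, hc⟩
    rw [ha', one_mul] at hdet
    exact hdet
  · right
    rw [Gamma1_mem]
    have ha' : ((γ 0 0 : ℤ) : ZMod M) = -1 := by
      have := congrArg Neg.neg ha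
      rw [neg_neg] at this
      rw [← this]
      push_cast
      rfl
    have hd' : ((γ 1 1 : ℤ) : ZMod M) = -1 := by
      rw [ha', neg_one_mul] at hdet
      rw [← hdet, neg_neg]
    have e00 : (-γ : SL(2, ℤ)) 0 0 = -(γ 0 0) := by
      rw [Matrix.SpecialLinearGroup.coe_neg]; rfl
    have e11 : (-γ : SL(2, ℤ)) 1 1 = -(γ 1 1) := by
      rw [Matrix.SpecialLinearGroup.coe_neg]; rfl
    have e10 : (-γ : SL(2, ℤ)) 1 0 = -(γ 1 0) := by
      rw [Matrix.SpecialLinearGroup.coe_neg]; rfl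
    refine ⟨?_, ?_, ?_⟩
    · rw [e00]; push_cast; rw [ha', neg_neg]
    · rw [e11]; push_cast; rw [hd', neg_neg]
    · rw [e10]; push_cast; rw [hc, neg_zero]

omit [NeZero M] in
theorem one_ne_zero_zmod (hM : 2 ≤ M) : (1 : ZMod M) ≠ 0 := by
  have : Fact (1 < M) := ⟨hM⟩
  exact one_ne_zero

/-- **Exit of the brick**: for `2 ≤ M` there is a weight-`16` modular form on `Γ₁(M)` with
integral `q`-expansion whose stabiliser in `SL(2, ℤ)` is contained in `±Γ₁(M)`. -/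
theorem exists_sep (hM : 2 ≤ M) :
    ∃ t : ModularForm (Gamma1 M) 16, IsIntPS (qExpansion 1 t) ∧
      ∀ γ : SL(2, ℤ), (⇑t : ℍ → ℂ) ∣[(16 : ℤ)] γ = ⇑t → γ ∈ Gamma1 M ∨ -γ ∈ Gamma1 M :=
  ⟨sepForm M, isIntPS_sepForm M (one_ne_zero_zmod M hM),
    fun _ h => sepFun_sep M (one_ne_zero_zmod M hM) h⟩

end Fermat.Agent.S48.Sep1
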