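import Mathlib
import Fermat.Agent.S30.Congr

/-!
# S48 / G1: the formal Kronecker / Eichler–Shimura congruence WITH DIAMOND

Twin of `S30/Congr.lean` for levels with nebentypus.  On `q`-expansions the multiplicative Hecke
operator of `Γ₁(M)` is

  `T_ℓ f (q) = (⟨ℓ⟩ f)(q ^ ℓ) · ∏_{i < ℓ} f (zⁱ q^{1/ℓ})`,

so we introduce the two-argument operator `heckeMul2 ℓ hℓ z x y = expand ℓ y * normL ℓ z x`
(`x` the function, `y` its diamond translate; `heckeMul2 x x = heckeMul x`) and prove, for a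
Frobenius element `σ` at a valuation subring `A` of `ℚ̄` over `ℓ`:

* `red_heckeMul2_frob` : `T_ℓ(σ u, σ v) ≡ v ^ ℓ · σ²(u)` modulo the maximal ideal of `A`;
* `es_cross2` + `red_esNum2` : if `f = P / Q` and `g = DP / DQ` (`g` the diamond translate of
  `f`) with integral `P, Q, DP, DQ`, then
  `σ²(f) · g ^ ℓ / T_ℓ(σ f, σ g) = Num / Den` with `Num`, `Den` integral with the SAME reduction.

Nothing here depends on how the function field of `X₁(M)` or the diamond automorphism are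
defined: the consumer takes `g := ⟨ℓ⟩ f` (which commutes with the coefficientwise Galois action
in the `μ_M`-model), and gets the relation `σ² − T_ℓ σ + ℓ ⟨ℓ⟩ = 0` on Kummer classes.
-/

set_option autoImplicit false

open HahnSeries ModularCurve

namespace Fermat.Agent.S48.CongrD

open Fermat.Agent.S30.Congr

section Ops

variable {R S : Type*} [CommRing R] [CommRing S]

/-- The multiplicative Hecke operator with diamond:
`heckeMul2 ℓ hℓ z x y (q) = y (q ^ ℓ) · ∏_{i < ℓ} x (zⁱ q^{1/ℓ})`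
(`x` the function, `y` its diamond translate `⟨ℓ⟩ x`). -/
noncomputable def heckeMul2 (ℓ : ℕ) (hℓ : 0 < ℓ) (z : Rˣ) (x y : LaurentSeries R) :
    LaurentSeries R :=
  expand ℓ hℓ y * normL ℓ hℓ z x

theorem heckeMul2_self (ℓ : ℕ) (hℓ : 0 < ℓ) (z : Rˣ) (x : LaurentSeries R) :
    heckeMul2 ℓ hℓ z x x = heckeMul ℓ hℓ z x := rfl

theorem heckeMul2_one (ℓ : ℕ) (hℓ : 0 < ℓ) (z : Rˣ) :
    heckeMul2 ℓ hℓ z (1 : LaurentSeries R) 1 = 1 := by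
  unfold heckeMul2
  rw [map_one, normL_one, mul_one]

theorem heckeMul2_mul [IsDomain R] (ℓ : ℕ) (hℓ : 0 < ℓ) (z : Rˣ) (hz : IsPrimitiveRoot z ℓ)
    (x x' y y' : LaurentSeries R) :
    heckeMul2 ℓ hℓ z (x * x') (y * y') = heckeMul2 ℓ hℓ z x y * heckeMul2 ℓ hℓ z x' y' := by
  unfold heckeMul2
  rw [map_mul, normL_mul ℓ hℓ z hz]
  ring

/-- `heckeMul2` splits as (the diamond part) times (the norm part). -/
theorem heckeMul2_eq (ℓ : ℕ) (hℓ : 0 < ℓ) (z : Rˣ) (x y : LaurentSeries R) :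
    heckeMul2 ℓ hℓ z x y = expand ℓ hℓ y * normL ℓ hℓ z x := rfl

theorem coeffMap_heckeMul2 (φ : R →+* S) (ℓ : ℕ) (hℓ : 0 < ℓ) (z : Rˣ)
    (x y : LaurentSeries R) :
    coeffMap φ (heckeMul2 ℓ hℓ z x y) =
      heckeMul2 ℓ hℓ (Units.map (φ : R →* S) z) (coeffMap φ x) (coeffMap φ y) := by
  unfold heckeMul2
  rw [map_mul, coeffMap_expand, coeffMap_normL]

/-- In characteristic `ℓ` (with `z = 1`): `T_ℓ (x, y) = y(q ^ ℓ) · Frob(x)`. -/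
theorem heckeMul2_one_unit (ℓ : ℕ) [Fact ℓ.Prime] [CharP R ℓ] (hℓ : 0 < ℓ)
    (x y : LaurentSeries R) :
    heckeMul2 ℓ hℓ (1 : Rˣ) x y = expand ℓ hℓ y * coeffMap (frobenius R ℓ) x := by
  unfold heckeMul2
  rw [normL_one_unit]

end Ops

section Galois

local notation "Qb" => AlgebraicClosure ℚ
local notation "Gq" => (AlgebraicClosure ℚ ≃ₐ[ℚ] AlgebraicClosure ℚ)

variable (A : ValuationSubring Qb)

/-- **Kronecker congruence with diamond**: `T_ℓ(σ u, σ v) ≡ v ^ ℓ · σ²(u)` modulo the maximal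
ideal of `A`, for `σ` a Frobenius at `A`. -/
theorem red_heckeMul2_frob {ℓ : ℕ} [Fact ℓ.Prime] (hℓ : 0 < ℓ) (hA : A.LiesOverPrime ℓ) {ζ : Qb}
    (hζ : ζ ^ ℓ = 1) {σ : Gq} (hσ : A.IsFrobeniusAt σ ℓ) (u v : LaurentSeries A) :
    red A (heckeMul2 ℓ hℓ (unitA A hℓ hζ)
        (actA A ⟨σ, hσ.mem_decompositionSubgroup⟩ u)
        (actA A ⟨σ, hσ.mem_decompositionSubgroup⟩ v)) =
      red A v ^ ℓ * red A (actA A ⟨σ, hσ.mem_decompositionSubgroup⟩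
        (actA A ⟨σ, hσ.mem_decompositionSubgroup⟩ u)) := by
  unfold heckeMul2
  rw [map_mul, red_normL A hℓ hA hζ hσ]
  congr 1
  rw [red, coeffMap_expand]
  exact expand_red_actA_frob A hℓ hA hσ v

/-- Numerator of `σ²(f) · g ^ ℓ / T_ℓ(σ f, σ g)` for `f = P / Q`, `g = DP / DQ`. -/
noncomputable def esNum2 {ℓ : ℕ} (hℓ : 0 < ℓ) {ζ : Qb} (hζ : ζ ^ ℓ = 1)
    (s : A.decompositionSubgroup ℚ) (P Q DP DQ : LaurentSeries A) : LaurentSeries A :=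
  actA A s (actA A s P) * DP ^ ℓ *
    heckeMul2 ℓ hℓ (unitA A hℓ hζ) (actA A s Q) (actA A s DQ)

/-- Denominator of `σ²(f) · g ^ ℓ / T_ℓ(σ f, σ g)` for `f = P / Q`, `g = DP / DQ`. -/
noncomputable def esDen2 {ℓ : ℕ} (hℓ : 0 < ℓ) {ζ : Qb} (hζ : ζ ^ ℓ = 1)
    (s : A.decompositionSubgroup ℚ) (P Q DP DQ : LaurentSeries A) : LaurentSeries A :=
  esNum2 A hℓ hζ s Q P DQ DP

/-- With trivial diamond (`DP = P`, `DQ = Q`) this is the numerator of `S30.Congr`. -/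
theorem esNum2_self {ℓ : ℕ} (hℓ : 0 < ℓ) {ζ : Qb} (hζ : ζ ^ ℓ = 1)
    (s : A.decompositionSubgroup ℚ) (P Q : LaurentSeries A) :
    esNum2 A hℓ hζ s P Q P Q = esNum A hℓ hζ s P Q := rfl

/-- The numerator and the denominator of `σ²(f) · g ^ ℓ / T_ℓ(σ f, σ g)` have the same
reduction. -/
theorem red_esNum2 {ℓ : ℕ} [Fact ℓ.Prime] (hℓ : 0 < ℓ) (hA : A.LiesOverPrime ℓ) {ζ : Qb}
    (hζ : ζ ^ ℓ = 1) {σ : Gq} (hσ : A.IsFrobeniusAt σ ℓ) (P Q DP DQ : LaurentSeries A) :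
    red A (esNum2 A hℓ hζ ⟨σ, hσ.mem_decompositionSubgroup⟩ P Q DP DQ) =
      red A (esDen2 A hℓ hζ ⟨σ, hσ.mem_decompositionSubgroup⟩ P Q DP DQ) := by
  unfold esDen2 esNum2
  rw [map_mul, map_mul, map_mul, map_mul, map_pow, map_pow,
    red_heckeMul2_frob A hℓ hA hζ hσ, red_heckeMul2_frob A hℓ hA hζ hσ]
  ring

theorem red_esNum2_ne_zero {ℓ : ℕ} [Fact ℓ.Prime] (hℓ : 0 < ℓ) (hA : A.LiesOverPrime ℓ) {ζ : Qb}
    (hζ : ζ ^ ℓ = 1) {σ : Gq} (hσ : A.IsFrobeniusAt σ ℓ) {P Q DP DQ : LaurentSeries A}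
    (hP : red A P ≠ 0) (hQ : red A Q ≠ 0) (hDP : red A DP ≠ 0) (hDQ : red A DQ ≠ 0) :
    red A (esNum2 A hℓ hζ ⟨σ, hσ.mem_decompositionSubgroup⟩ P Q DP DQ) ≠ 0 := by
  unfold esNum2
  rw [map_mul, map_mul, map_pow, red_heckeMul2_frob A hℓ hA hζ hσ]
  have h1 := red_actA_ne_zero A hA hσ (red_actA_ne_zero A hA hσ hP)
  have h2 := red_actA_ne_zero A hA hσ (red_actA_ne_zero A hA hσ hQ)
  exact mul_ne_zero (mul_ne_zero h1 (pow_ne_zero _ hDP)) (mul_ne_zero (pow_ne_zero _ hDQ) h2)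

theorem red_esDen2_ne_zero {ℓ : ℕ} [Fact ℓ.Prime] (hℓ : 0 < ℓ) (hA : A.LiesOverPrime ℓ) {ζ : Qb}
    (hζ : ζ ^ ℓ = 1) {σ : Gq} (hσ : A.IsFrobeniusAt σ ℓ) {P Q DP DQ : LaurentSeries A}
    (hP : red A P ≠ 0) (hQ : red A Q ≠ 0) (hDP : red A DP ≠ 0) (hDQ : red A DQ ≠ 0) :
    red A (esDen2 A hℓ hζ ⟨σ, hσ.mem_decompositionSubgroup⟩ P Q DP DQ) ≠ 0 :=
  red_esNum2_ne_zero A hℓ hA hζ hσ hQ hP hDQ hDP

theorem incl_heckeMul2 {ℓ : ℕ} (hℓ : 0 < ℓ) (z : Qbˣ) (hz : (z : Qb) ^ ℓ = 1)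
    (u v : LaurentSeries A) :
    incl A (heckeMul2 ℓ hℓ (unitA A hℓ hz) u v) = heckeMul2 ℓ hℓ z (incl A u) (incl A v) := by
  rw [incl, coeffMap_heckeMul2, map_subtype_unitA A hℓ hz z rfl]

/-- **(ES) with diamond, cross-multiplied fraction form.**  If `f = P / Q` and `g = DP / DQ`
with `P, Q, DP, DQ` integral, then `σ²(f) · g ^ ℓ / T_ℓ(σ f, σ g) = Num / Den` with `Num, Den`
integral with the same reduction (`red_esNum2`).  Apply with `g = ⟨ℓ⟩ f`. -/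
theorem es_cross2 {ℓ : ℕ} (hℓ : 0 < ℓ) (z : Qbˣ) (hz : IsPrimitiveRoot z ℓ)
    (hz1 : (z : Qb) ^ ℓ = 1) (σ : A.decompositionSubgroup ℚ)
    (f g : LaurentSeries Qb) (P Q DP DQ : LaurentSeries A)
    (hf : f * incl A Q = incl A P) (hg : g * incl A DQ = incl A DP) :
    coeffMap (((σ : Gq) : Qb ≃ₐ[ℚ] Qb) : Qb →+* Qb)
        (coeffMap (((σ : Gq) : Qb ≃ₐ[ℚ] Qb) : Qb →+* Qb) f) * g ^ ℓ *
        incl A (esDen2 A hℓ hz1 σ P Q DP DQ) =
      heckeMul2 ℓ hℓ z (coeffMap (((σ : Gq) : Qb ≃ₐ[ℚ] Qb) : Qb →+* Qb) f)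
          (coeffMap (((σ : Gq) : Qb ≃ₐ[ℚ] Qb) : Qb →+* Qb) g) *
        incl A (esNum2 A hℓ hz1 σ P Q DP DQ) := by
  set F : LaurentSeries Qb →+* LaurentSeries Qb :=
    coeffMap (((σ : Gq) : Qb ≃ₐ[ℚ] Qb) : Qb →+* Qb) with hF
  have hFf : F f * F (incl A Q) = F (incl A P) := by rw [← map_mul, hf]
  have hFg : F g * F (incl A DQ) = F (incl A DP) := by rw [← map_mul, hg]
  have hFFf : F (F f) * F (F (incl A Q)) = F (F (incl A P)) := by rw [← map_mul, hFf]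
  have hT : heckeMul2 ℓ hℓ z (F f) (F g) * heckeMul2 ℓ hℓ z (F (incl A Q)) (F (incl A DQ)) =
      heckeMul2 ℓ hℓ z (F (incl A P)) (F (incl A DP)) := by
    rw [← heckeMul2_mul ℓ hℓ z hz, hFf, hFg]
  have hpow : g ^ ℓ * incl A DQ ^ ℓ = incl A DP ^ ℓ := by rw [← mul_pow, hg]
  unfold esDen2 esNum2
  simp only [map_mul, map_pow, incl_heckeMul2 A hℓ z hz1, incl_actA, ← hF]
  calc F (F f) * g ^ ℓ *
        (F (F (incl A Q)) * incl A DQ ^ ℓ * heckeMul2 ℓ hℓ z (F (incl A P)) (F (incl A DP)))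
      = (F (F f) * F (F (incl A Q))) * (g ^ ℓ * incl A DQ ^ ℓ) *
          heckeMul2 ℓ hℓ z (F (incl A P)) (F (incl A DP)) := by ring
    _ = F (F (incl A P)) * incl A DP ^ ℓ *
          (heckeMul2 ℓ hℓ z (F f) (F g) *
            heckeMul2 ℓ hℓ z (F (incl A Q)) (F (incl A DQ))) := by
        rw [hFFf, hpow, hT]
    _ = heckeMul2 ℓ hℓ z (F f) (F g) *
          (F (F (incl A P)) * incl A DP ^ ℓ *
            heckeMul2 ℓ hℓ z (F (incl A Q)) (F (incl A DQ))) := by ring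

end Galois

end Fermat.Agent.S48.CongrD
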