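import Mathlib
import Fermat.Agent.S48.CongrD

/-!
# S48 / G1: (K1) ⇒ (unr) and (ES with diamond) on Kummer classes, for a GENERIC function field

Generic twin of `S30/E4/{Defs,Exit}.lean`.  `F` is ANY intermediate field of `ℚ̄((q)) / ℚ̄`
(e.g. the function field of `X₁(M)`), with

* `Setting F` : a coefficientwise Galois action `gal` on `F` and a predicate `Dv m f`
  ("`m ∣ div f`") closed under products, inverses, `m`-th powers and `gal`;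
* `K1 S ℓ A` : the Kummer statement, function form (quotient of two integral `q`-series of `F`
  with the same nonzero reduction and divisor divisible by `m`, `ℓ ∤ m`, is an `m`-th power);
* `HasGaussNorm F A` : every nonzero `f ∈ F` is `c · P / Q`, `P, Q` integral with nonzero reduction;
* two "twists" `d₁ d₂ : F →+* F` (ring endomorphisms fixing the constants, commuting with `gal`,
  preserving `Dv` and Gauss-integral series with nonzero reduction), and the multiplicative Hecke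
  operator `T x = (d₂ x)(q ^ ℓ) · ∏_{i<ℓ} (d₁ x)(zⁱ q^{1/ℓ}) = heckeMul2 (d₁ x) (d₂ x)`.

Results:

* `inertia_trivial` : `τ f = f · h ^ m` for `τ` in the inertia group at `A`;
* `es_two` : `σ²(d₁ f) · (d₂ f) ^ ℓ = T(σ f) · h ^ m` for `σ` a Frobenius at `A`.

Instances: `d₁ = id, d₂ = ⟨ℓ⟩` gives `σ² − T_ℓ σ + ℓ ⟨ℓ⟩ = 0` (diamond in the `q ^ ℓ` factor);
`d₁ = ⟨ℓ⟩, d₂ = id` gives the other normalisation (diamond in the norm factor);
`d₁ = d₂ = id` is the `Γ₀` statement of `S30/E4/Exit`.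
-/

set_option autoImplicit false

open HahnSeries ModularCurve

namespace Fermat.Agent.S48.ExitD

open Fermat.Agent.S30 Fermat.Agent.S48.CongrD

local notation "Qb" => AlgebraicClosure ℚ
local notation "Gq" => (AlgebraicClosure ℚ ≃ₐ[ℚ] AlgebraicClosure ℚ)

/-- A coefficientwise Galois action on `F` and an abstract "`m ∣ div f`" predicate. -/
structure Setting (F : IntermediateField Qb (LaurentSeries Qb)) where
  /-- the coefficientwise action of `Gal(ℚ̄/ℚ)` on `F` -/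
  gal : Gq → F →+* F
  coe_gal : ∀ (σ : Gq) (x : F),
    ((gal σ x : F) : LaurentSeries Qb) = coeffMap (σ : Qb →+* Qb) (x : LaurentSeries Qb)
  /-- `Dv m f` : "the divisor of `f` is divisible by `m`" -/
  Dv : ℕ → F → Prop
  dv_mul : ∀ {m : ℕ} {f g : F}, f ≠ 0 → g ≠ 0 → Dv m f → Dv m g → Dv m (f * g)
  dv_inv : ∀ {m : ℕ} {f : F}, Dv m f → Dv m f⁻¹
  dv_pow_self : ∀ (m : ℕ) (f : F), Dv m (f ^ m)
  dv_gal : ∀ {m : ℕ} (σ : Gq) {f : F}, Dv m f → Dv m (gal σ f)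

variable {F : IntermediateField Qb (LaurentSeries Qb)}

theorem Setting.dv_one (S : Setting F) (m : ℕ) : S.Dv m 1 := by
  have h := S.dv_pow_self m (1 : F)
  rwa [one_pow] at h

theorem Setting.dv_pow (S : Setting F) {m : ℕ} {f : F} (hf0 : f ≠ 0) (hf : S.Dv m f) (k : ℕ) :
    S.Dv m (f ^ k) := by
  induction k with
  | zero => rw [pow_zero]; exact S.dv_one m
  | succ k ih => rw [pow_succ]; exact S.dv_mul (pow_ne_zero _ hf0) hf0 ih hf

theorem Setting.dv_div (S : Setting F) {m : ℕ} {f g : F} (hf0 : f ≠ 0) (hg0 : g ≠ 0)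
    (hf : S.Dv m f) (hg : S.Dv m g) : S.Dv m (f / g) := by
  rw [div_eq_mul_inv]
  exact S.dv_mul hf0 (inv_ne_zero hg0) hf (S.dv_inv hg)

/-- **(K1)**, function form, for the field `F`: a quotient `U / W` of two integral `q`-series
of `F` with the same nonzero reduction and `Dv m (U / W)` (`ℓ ∤ m`) is an `m`-th power in `F`. -/
def K1 (S : Setting F) (ℓ : ℕ) (A : ValuationSubring Qb) : Prop :=
  ∀ m : ℕ, ¬ ℓ ∣ m → ∀ (U W : LaurentSeries A)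
    (hU : Congr.incl A U ∈ F) (hW : Congr.incl A W ∈ F),
    Congr.red A U = Congr.red A W → Congr.red A U ≠ 0 →
    S.Dv m ((⟨_, hU⟩ : F) / (⟨_, hW⟩ : F)) →
    ∃ H : F, Congr.incl A U = (H : LaurentSeries Qb) ^ m * Congr.incl A W

/-- Gauss normalisation: every nonzero element of `F` is a constant times a quotient of two
integral `q`-series of `F` with nonzero reduction. -/
def HasGaussNorm (F : IntermediateField Qb (LaurentSeries Qb)) (A : ValuationSubring Qb) : Prop :=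
  ∀ f : F, f ≠ 0 → ∃ (c : Qb) (P Q : LaurentSeries A)
    (hP : Congr.incl A P ∈ F) (hQ : Congr.incl A Q ∈ F),
    c ≠ 0 ∧ Congr.red A P ≠ 0 ∧ Congr.red A Q ≠ 0 ∧
      f * (⟨_, hQ⟩ : F) = algebraMap Qb F c * (⟨_, hP⟩ : F)

/-- A twist: a ring endomorphism of `F` fixing the constants, commuting with the Galois action
and preserving `Dv` (e.g. a diamond automorphism, or the identity). -/
structure Twist (S : Setting F) (d : F →+* F) : Prop where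
  const : ∀ c : Qb, d (algebraMap Qb F c) = algebraMap Qb F c
  comm_gal : ∀ (σ : Gq) (x : F), d (S.gal σ x) = S.gal σ (d x)
  dv : ∀ {m : ℕ} {f : F}, S.Dv m f → S.Dv m (d f)

theorem Twist.id (S : Setting F) : Twist S (RingHom.id F) :=
  ⟨fun _ => rfl, fun _ _ => rfl, fun h => h⟩

/-- `d` maps integral `q`-series of `F` with nonzero reduction to such series
(`d` preserves the Gauss valuation). -/
def IntPres (A : ValuationSubring Qb) (d : F →+* F) : Prop :=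
  ∀ (P : LaurentSeries A) (hP : Congr.incl A P ∈ F), Congr.red A P ≠ 0 →
    ∃ P₁ : LaurentSeries A, Congr.incl A P₁ = ((d ⟨_, hP⟩ : F) : LaurentSeries Qb) ∧
      Congr.red A P₁ ≠ 0

theorem IntPres.id (A : ValuationSubring Qb) : IntPres A (RingHom.id F) :=
  fun P _ hP => ⟨P, rfl, hP⟩

/-- The multiplicative Hecke operator `T x = heckeMul2 (d₁ x) (d₂ x)` preserves `F` and `Dv`. -/
def HeckeClosed2 (S : Setting F) (ℓ : ℕ) (hℓ : 0 < ℓ) (z : Qbˣ) (d₁ d₂ : F →+* F) : Prop :=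
  ∃ hmem : ∀ x : F, heckeMul2 ℓ hℓ z ((d₁ x : F) : LaurentSeries Qb)
      ((d₂ x : F) : LaurentSeries Qb) ∈ F,
    ∀ (m : ℕ) (f : F), f ≠ 0 → S.Dv m f → S.Dv m ⟨_, hmem f⟩

theorem mk_ne_zero_of_red_ne_zero (A : ValuationSubring Qb) {P : LaurentSeries A}
    (hPm : Congr.incl A P ∈ F) (hP : Congr.red A P ≠ 0) : (⟨_, hPm⟩ : F) ≠ 0 := by
  intro h
  apply hP
  have h1 : Congr.incl A P = 0 := congrArg Subtype.val h
  have h2 : P = 0 := Congr.incl_injective A (by rw [h1, map_zero])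
  rw [h2, map_zero]

/-- **(unr)** for a generic field: inertia acts trivially on Kummer classes. -/
theorem inertia_trivial (S : Setting F) {q m : ℕ} (A : ValuationSubring Qb)
    (hG : HasGaussNorm F A) (hK1 : K1 S q A) (hqm : ¬ q ∣ m)
    {τ : Gq} (hτ : τ ∈ A.inertiaSubgroupIn ℚ)
    (f : F) (hf : f ≠ 0) (hdiv : S.Dv m f) :
    ∃ h : F, h ≠ 0 ∧ S.gal τ f = f * h ^ m := by
  have hm : 0 < m := Nat.pos_of_ne_zero (fun h => hqm (h ▸ dvd_zero q))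
  obtain ⟨τ', hτ', rfl⟩ := hτ
  obtain ⟨c, P, Q, hPm, hQm, hc, hP, hQ, hfPQ⟩ := hG f hf
  obtain ⟨b, hb⟩ := IsAlgClosed.exists_pow_nat_eq c hm
  have hb0 : b ≠ 0 := by
    rintro rfl
    rw [zero_pow hm.ne'] at hb
    exact hc hb.symm
  set B : F := algebraMap Qb F b with hB
  have hB0 : B ≠ 0 := by
    rw [hB]
    exact (map_ne_zero (algebraMap Qb F)).2 hb0
  have hBm : B ^ m = algebraMap Qb F c := by rw [hB, ← map_pow, hb]
  set P' : F := ⟨_, hPm⟩ with hP'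
  set Q' : F := ⟨_, hQm⟩ with hQ'
  have hP0 : P' ≠ 0 := mk_ne_zero_of_red_ne_zero A hPm hP
  have hQ0 : Q' ≠ 0 := mk_ne_zero_of_red_ne_zero A hQm hQ
  obtain ⟨f₀, hf₀⟩ : ∃ f₀ : F, f₀ = P' / Q' := ⟨_, rfl⟩
  have hf₀Q : f₀ * Q' = P' := by rw [hf₀]; exact div_mul_cancel₀ _ hQ0
  have hf₀0 : f₀ ≠ 0 := by rw [hf₀]; exact div_ne_zero hP0 hQ0
  have hff₀ : f = B ^ m * f₀ := by
    rw [hBm, hf₀, mul_div_assoc', ← hfPQ, mul_div_assoc, div_self hQ0, mul_one]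
  have hdiv₀ : S.Dv m f₀ := by
    have h1 : f₀ = f * (B ^ m)⁻¹ := by
      rw [hff₀, mul_comm (B ^ m), mul_assoc, mul_inv_cancel₀ (pow_ne_zero _ hB0), mul_one]
    rw [h1]
    exact S.dv_mul hf (inv_ne_zero (pow_ne_zero _ hB0)) hdiv (S.dv_inv (S.dv_pow_self m B))
  set g : F →+* F := S.gal ((A.decompositionSubgroup ℚ).subtype τ') with hg
  have g0 : ∀ x : F, x ≠ 0 → g x ≠ 0 := fun x hx => (map_ne_zero g).2 hx
  -- numerator and denominator of `τ f₀ / f₀`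
  set U : LaurentSeries A := Congr.actA A τ' P * Q with hU
  set W : LaurentSeries A := Congr.actA A τ' Q * P with hW
  have hU' : Congr.incl A U = ((g P' * Q' : F) : LaurentSeries Qb) := by
    rw [hU, map_mul, Congr.incl_actA]
    show _ = ((g P' : F) : LaurentSeries Qb) * ((Q' : F) : LaurentSeries Qb)
    rw [hg, S.coe_gal]
    rfl
  have hW' : Congr.incl A W = ((g Q' * P' : F) : LaurentSeries Qb) := by
    rw [hW, map_mul, Congr.incl_actA]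
    show _ = ((g Q' : F) : LaurentSeries Qb) * ((P' : F) : LaurentSeries Qb)
    rw [hg, S.coe_gal]
    rfl
  have hUm : Congr.incl A U ∈ F := by rw [hU']; exact (g P' * Q').2
  have hWm : Congr.incl A W ∈ F := by rw [hW']; exact (g Q' * P').2
  have hUe : (⟨_, hUm⟩ : F) = g P' * Q' := Subtype.ext hU'
  have hWe : (⟨_, hWm⟩ : F) = g Q' * P' := Subtype.ext hW'
  have hgP0 : g P' ≠ 0 := g0 _ hP0
  have hgQ0 : g Q' ≠ 0 := g0 _ hQ0
  have hgf0 : g f₀ ≠ 0 := g0 _ hf₀0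
  have hcross : g f₀ * (g Q' * P') = f₀ * (g P' * Q') := by
    calc g f₀ * (g Q' * P') = g (f₀ * Q') * P' := by rw [map_mul, mul_assoc]
      _ = g P' * (f₀ * Q') := by rw [hf₀Q]
      _ = f₀ * (g P' * Q') := by ring
  have hquot : (g P' * Q') / (g Q' * P') = g f₀ / f₀ := by
    rw [div_eq_div_iff (mul_ne_zero hgQ0 hP0) hf₀0]
    rw [mul_comm (g P' * Q') f₀, ← hcross]
  obtain ⟨H, hH⟩ := hK1 m hqm U W hUm hWm (Congr.red_unr A τ' hτ' P Q)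
    (Congr.red_unr_ne_zero A τ' hτ' hP hQ) (by
      rw [hUe, hWe, hquot]
      exact S.dv_div hgf0 hf₀0 (S.dv_gal _ hdiv₀) hdiv₀)
  have hH' : g P' * Q' = H ^ m * (g Q' * P') := Subtype.ext (by rw [← hU', hH, hW']; rfl)
  have hH0 : H ≠ 0 := by
    rintro rfl
    rw [zero_pow hm.ne', zero_mul] at hH'
    exact mul_ne_zero hgP0 hQ0 hH'
  have hgf₀ : g f₀ = f₀ * H ^ m := by
    have h1 : g f₀ * (g Q' * P') = (f₀ * H ^ m) * (g Q' * P') := by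
      rw [hcross, hH']; ring
    exact mul_right_cancel₀ (mul_ne_zero hgQ0 hP0) h1
  have hgB0 : g B ≠ 0 := g0 _ hB0
  refine ⟨g B * H / B, div_ne_zero (mul_ne_zero hgB0 hH0) hB0, ?_⟩
  rw [hff₀, map_mul, map_pow, hgf₀, div_pow, mul_pow]
  field_simp

/-- **(ES) with two twists**, for a generic field: for `σ` a Frobenius at `A` (over `ℓ`, `ℓ ∤ m`)
and `f ∈ F` with `m ∣ div f`:  `σ²(d₁ f) · (d₂ f) ^ ℓ = T(σ f) · h ^ m`, where
`T x = heckeMul2 (d₁ x) (d₂ x) = (d₂ x)(q ^ ℓ) · ∏_{i<ℓ} (d₁ x)(zⁱ q^{1/ℓ})`. -/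
theorem es_two (S : Setting F) {ℓ m : ℕ} [Fact ℓ.Prime] (hℓ : 0 < ℓ) (A : ValuationSubring Qb)
    (hA : A.LiesOverPrime ℓ) (hG : HasGaussNorm F A) (hK1 : K1 S ℓ A) (z : Qbˣ)
    (hz : IsPrimitiveRoot z ℓ) (d₁ d₂ : F →+* F) (h₁ : Twist S d₁) (h₂ : Twist S d₂)
    (hi₁ : IntPres A d₁) (hi₂ : IntPres A d₂)
    (hT : HeckeClosed2 S ℓ hℓ z d₁ d₂) (hℓm : ¬ ℓ ∣ m)
    {σ : Gq} (hσ : A.IsFrobeniusAt σ ℓ)
    (f : F) (hf : f ≠ 0) (hdiv : S.Dv m f) :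
    ∃ h : F, h ≠ 0 ∧
      ((S.gal σ (S.gal σ (d₁ f)) : F) : LaurentSeries Qb) *
          ((d₂ f : F) : LaurentSeries Qb) ^ ℓ =
        heckeMul2 ℓ hℓ z ((d₁ (S.gal σ f) : F) : LaurentSeries Qb)
            ((d₂ (S.gal σ f) : F) : LaurentSeries Qb) *
          (h : LaurentSeries Qb) ^ m := by
  have hm : 0 < m := Nat.pos_of_ne_zero (fun h => hℓm (h ▸ dvd_zero ℓ))
  obtain ⟨hmem, hTdiv⟩ := hT
  have hz1 : (z : Qb) ^ ℓ = 1 := by
    have h := congrArg Units.val hz.pow_eq_one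
    rwa [Units.val_pow_eq_pow_val, Units.val_one] at h
  -- the Hecke operator on `F`
  let hk : F →* F :=
    { toFun := fun x => ⟨heckeMul2 ℓ hℓ z ((d₁ x : F) : LaurentSeries Qb)
        ((d₂ x : F) : LaurentSeries Qb), hmem x⟩
      map_one' := Subtype.ext (by
        show heckeMul2 ℓ hℓ z ((d₁ 1 : F) : LaurentSeries Qb) ((d₂ 1 : F) : LaurentSeries Qb) = 1
        rw [map_one, map_one]
        exact heckeMul2_one ℓ hℓ z)
      map_mul' := fun x y => Subtype.ext (by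
        show heckeMul2 ℓ hℓ z ((d₁ (x * y) : F) : LaurentSeries Qb)
            ((d₂ (x * y) : F) : LaurentSeries Qb) =
          heckeMul2 ℓ hℓ z ((d₁ x : F) : LaurentSeries Qb) ((d₂ x : F) : LaurentSeries Qb) *
            heckeMul2 ℓ hℓ z ((d₁ y : F) : LaurentSeries Qb) ((d₂ y : F) : LaurentSeries Qb)
        rw [map_mul, map_mul]
        exact heckeMul2_mul ℓ hℓ z hz _ _ _ _) }
  have hk_coe : ∀ x : F, ((hk x : F) : LaurentSeries Qb) =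
      heckeMul2 ℓ hℓ z ((d₁ x : F) : LaurentSeries Qb) ((d₂ x : F) : LaurentSeries Qb) :=
    fun x => rfl
  have hk0 : ∀ x : F, x ≠ 0 → hk x ≠ 0 := fun x hx h => by
    have h1 : hk x * hk x⁻¹ = 1 := by rw [← map_mul, mul_inv_cancel₀ hx, map_one]
    rw [h, zero_mul] at h1
    exact zero_ne_one h1
  obtain ⟨c, P, Q, hPm, hQm, hc, hP, hQ, hfPQ⟩ := hG f hf
  obtain ⟨b, hb⟩ := IsAlgClosed.exists_pow_nat_eq c hm
  have hb0 : b ≠ 0 := by
    rintro rfl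
    rw [zero_pow hm.ne'] at hb
    exact hc hb.symm
  set B : F := algebraMap Qb F b with hB
  have hB0 : B ≠ 0 := by
    rw [hB]
    exact (map_ne_zero (algebraMap Qb F)).2 hb0
  have hBm : B ^ m = algebraMap Qb F c := by rw [hB, ← map_pow, hb]
  have hd₁B : d₁ B = B := h₁.const b
  have hd₂B : d₂ B = B := h₂.const b
  set P' : F := ⟨_, hPm⟩ with hP'
  set Q' : F := ⟨_, hQm⟩ with hQ'
  have hP0 : P' ≠ 0 := mk_ne_zero_of_red_ne_zero A hPm hP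
  have hQ0 : Q' ≠ 0 := mk_ne_zero_of_red_ne_zero A hQm hQ
  obtain ⟨f₀, hf₀⟩ : ∃ f₀ : F, f₀ = P' / Q' := ⟨_, rfl⟩
  have hf₀Q : f₀ * Q' = P' := by rw [hf₀]; exact div_mul_cancel₀ _ hQ0
  have hf₀0 : f₀ ≠ 0 := by rw [hf₀]; exact div_ne_zero hP0 hQ0
  have hff₀ : f = B ^ m * f₀ := by
    rw [hBm, hf₀, mul_div_assoc', ← hfPQ, mul_div_assoc, div_self hQ0, mul_one]
  have hdiv₀ : S.Dv m f₀ := by
    have h1 : f₀ = f * (B ^ m)⁻¹ := by
      rw [hff₀, mul_comm (B ^ m), mul_assoc, mul_inv_cancel₀ (pow_ne_zero _ hB0), mul_one]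
    rw [h1]
    exact S.dv_mul hf (inv_ne_zero (pow_ne_zero _ hB0)) hdiv (S.dv_inv (S.dv_pow_self m B))
  set g : F →+* F := S.gal σ with hg
  have g0 : ∀ x : F, x ≠ 0 → g x ≠ 0 := fun x hx => (map_ne_zero g).2 hx
  have e0₁ : ∀ x : F, x ≠ 0 → d₁ x ≠ 0 := fun x hx => (map_ne_zero d₁).2 hx
  have e0₂ : ∀ x : F, x ≠ 0 → d₂ x ≠ 0 := fun x hx => (map_ne_zero d₂).2 hx
  set s : A.decompositionSubgroup ℚ := ⟨σ, hσ.mem_decompositionSubgroup⟩ with hs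
  -- integral representatives of the twists of `P'`, `Q'`
  obtain ⟨P₁, hP₁e, hP₁⟩ := hi₁ P hPm hP
  obtain ⟨Q₁, hQ₁e, hQ₁⟩ := hi₁ Q hQm hQ
  obtain ⟨P₂, hP₂e, hP₂⟩ := hi₂ P hPm hP
  obtain ⟨Q₂, hQ₂e, hQ₂⟩ := hi₂ Q hQm hQ
  -- numerator and denominator of `σ²(d₁ f₀) · (d₂ f₀) ^ ℓ / T (σ f₀)`
  set U : LaurentSeries A := esNum2 A hℓ hz1 s P₁ Q₁ P₂ Q₂ with hU
  set W : LaurentSeries A := esDen2 A hℓ hz1 s P₁ Q₁ P₂ Q₂ with hW
  set U' : F := g (g (d₁ P')) * d₂ P' ^ ℓ * hk (g Q') with hU'd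
  set W' : F := g (g (d₁ Q')) * d₂ Q' ^ ℓ * hk (g P') with hW'd
  have hgg : ∀ x : F, ((g (g x) : F) : LaurentSeries Qb) =
      coeffMap (σ : Qb →+* Qb) (coeffMap (σ : Qb →+* Qb) (x : LaurentSeries Qb)) := fun x => by
    rw [hg, S.coe_gal, S.coe_gal]
  have hkg : ∀ x : F, ((hk (g x) : F) : LaurentSeries Qb) =
      heckeMul2 ℓ hℓ z (coeffMap (σ : Qb →+* Qb) ((d₁ x : F) : LaurentSeries Qb))
        (coeffMap (σ : Qb →+* Qb) ((d₂ x : F) : LaurentSeries Qb)) := fun x => by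
    rw [hk_coe, hg, h₁.comm_gal, h₂.comm_gal, S.coe_gal, S.coe_gal]
  have hU' : Congr.incl A U = (U' : LaurentSeries Qb) := by
    rw [hU, esNum2, map_mul, map_mul, map_pow, incl_heckeMul2 A hℓ z hz1,
      Congr.incl_actA, Congr.incl_actA, Congr.incl_actA, Congr.incl_actA, hP₁e, hP₂e, hQ₁e, hQ₂e]
    show _ = ((g (g (d₁ P')) : F) : LaurentSeries Qb) * ((d₂ P' : F) : LaurentSeries Qb) ^ ℓ *
      ((hk (g Q') : F) : LaurentSeries Qb)
    rw [hgg, hkg]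
  have hW' : Congr.incl A W = (W' : LaurentSeries Qb) := by
    rw [hW, esDen2, esNum2, map_mul, map_mul, map_pow, incl_heckeMul2 A hℓ z hz1,
      Congr.incl_actA, Congr.incl_actA, Congr.incl_actA, Congr.incl_actA, hP₁e, hP₂e, hQ₁e, hQ₂e]
    show _ = ((g (g (d₁ Q')) : F) : LaurentSeries Qb) * ((d₂ Q' : F) : LaurentSeries Qb) ^ ℓ *
      ((hk (g P') : F) : LaurentSeries Qb)
    rw [hgg, hkg]
  have hUm : Congr.incl A U ∈ F := by rw [hU']; exact U'.2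
  have hWm : Congr.incl A W ∈ F := by rw [hW']; exact W'.2
  have hUe : (⟨_, hUm⟩ : F) = U' := Subtype.ext hU'
  have hWe : (⟨_, hWm⟩ : F) = W' := Subtype.ext hW'
  have hU0 : U' ≠ 0 :=
    mul_ne_zero (mul_ne_zero (g0 _ (g0 _ (e0₁ _ hP0))) (pow_ne_zero _ (e0₂ _ hP0)))
      (hk0 _ (g0 _ hQ0))
  have hW0 : W' ≠ 0 :=
    mul_ne_zero (mul_ne_zero (g0 _ (g0 _ (e0₁ _ hQ0))) (pow_ne_zero _ (e0₂ _ hQ0)))
      (hk0 _ (g0 _ hP0))
  have hggf : g (g (d₁ f₀)) * g (g (d₁ Q')) = g (g (d₁ P')) := by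
    rw [← map_mul, ← map_mul, ← map_mul, hf₀Q]
  have hpow : d₂ f₀ ^ ℓ * d₂ Q' ^ ℓ = d₂ P' ^ ℓ := by rw [← mul_pow, ← map_mul, hf₀Q]
  have hkf : hk (g f₀) * hk (g Q') = hk (g P') := by rw [← map_mul, ← map_mul, hf₀Q]
  have hcross : (g (g (d₁ f₀)) * d₂ f₀ ^ ℓ) * W' = hk (g f₀) * U' := by
    calc (g (g (d₁ f₀)) * d₂ f₀ ^ ℓ) * W'
        = (g (g (d₁ f₀)) * g (g (d₁ Q'))) * (d₂ f₀ ^ ℓ * d₂ Q' ^ ℓ) * hk (g P') := by
          rw [hW'd]; ring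
      _ = g (g (d₁ P')) * d₂ P' ^ ℓ * (hk (g f₀) * hk (g Q')) := by rw [hggf, hpow, hkf]
      _ = hk (g f₀) * U' := by rw [hU'd]; ring
  have hnum0 : g (g (d₁ f₀)) * d₂ f₀ ^ ℓ ≠ 0 :=
    mul_ne_zero (g0 _ (g0 _ (e0₁ _ hf₀0))) (pow_ne_zero _ (e0₂ _ hf₀0))
  have hkgf0 : hk (g f₀) ≠ 0 := hk0 _ (g0 _ hf₀0)
  have hdivT : S.Dv m (hk (g f₀)) := hTdiv m (g f₀) (g0 _ hf₀0) (S.dv_gal σ hdiv₀)
  have hquot : U' / W' = (g (g (d₁ f₀)) * d₂ f₀ ^ ℓ) / hk (g f₀) := by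
    rw [div_eq_div_iff hW0 hkgf0, mul_comm U' (hk (g f₀)), ← hcross]
  obtain ⟨H, hH⟩ := hK1 m hℓm U W hUm hWm (red_esNum2 A hℓ hA hz1 hσ P₁ Q₁ P₂ Q₂)
    (red_esNum2_ne_zero A hℓ hA hz1 hσ hP₁ hQ₁ hP₂ hQ₂) (by
      rw [hUe, hWe, hquot]
      exact S.dv_div hnum0 hkgf0
        (S.dv_mul (g0 _ (g0 _ (e0₁ _ hf₀0))) (pow_ne_zero _ (e0₂ _ hf₀0))
          (S.dv_gal σ (S.dv_gal σ (h₁.dv hdiv₀))) (S.dv_pow (e0₂ _ hf₀0) (h₂.dv hdiv₀) ℓ))
        hdivT)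
  have hH' : U' = H ^ m * W' := Subtype.ext (by rw [← hU', hH, hW']; rfl)
  have hH0 : H ≠ 0 := by
    rintro rfl
    rw [zero_pow hm.ne', zero_mul] at hH'
    exact hU0 hH'
  have hes₀ : g (g (d₁ f₀)) * d₂ f₀ ^ ℓ = hk (g f₀) * H ^ m := by
    have h1 : (g (g (d₁ f₀)) * d₂ f₀ ^ ℓ) * W' = (hk (g f₀) * H ^ m) * W' := by
      rw [hcross, hH']; ring
    exact mul_right_cancel₀ hW0 h1
  have hkgB0 : hk (g B) ≠ 0 := hk0 _ (g0 _ hB0)
  refine ⟨g (g B) * B ^ ℓ * H / hk (g B),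
    div_ne_zero (mul_ne_zero (mul_ne_zero (g0 _ (g0 _ hB0)) (pow_ne_zero _ hB0)) hH0) hkgB0, ?_⟩
  have key : g (g (d₁ f)) * d₂ f ^ ℓ = hk (g f) * (g (g B) * B ^ ℓ * H / hk (g B)) ^ m := by
    have e1 : g (g (d₁ f)) = g (g B) ^ m * g (g (d₁ f₀)) := by
      rw [hff₀, map_mul, map_mul, map_mul, map_pow, map_pow, map_pow, hd₁B]
    have e2 : hk (g f) = hk (g B) ^ m * hk (g f₀) := by
      rw [hff₀, map_mul, map_mul, map_pow, map_pow]
    have e3 : d₂ f ^ ℓ = (B ^ ℓ) ^ m * d₂ f₀ ^ ℓ := by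
      rw [hff₀, map_mul, map_pow, hd₂B, mul_pow, ← pow_mul, ← pow_mul, mul_comm m ℓ]
    rw [e1, e2, e3, div_pow, mul_pow, mul_pow]
    have h2 : g (g B) ^ m * g (g (d₁ f₀)) * ((B ^ ℓ) ^ m * d₂ f₀ ^ ℓ) =
        g (g B) ^ m * (B ^ ℓ) ^ m * (g (g (d₁ f₀)) * d₂ f₀ ^ ℓ) := by ring
    rw [h2, hes₀]
    field_simp
  exact congrArg Subtype.val key

end Fermat.Agent.S48.ExitD
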