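import Mathlib
import Fermat.Prelude.Def_ModularCurve_ArithmeticGalois
import Fermat.Agent.S48.ExitD

/-!
# S48 / G1: the generic exit `ExitD` instantiated on places

For ANY `F₀ : IntermediateField ℚ (LaurentSeries ℚ)` (e.g. the function field of `X₁(M)` with
rational `q`-expansions) and `F = laurentBaseChange ℚ̄ F₀` (Prelude), with the Prelude's
coefficientwise Galois action `arithmeticRingAut F₀` and `DivBy m f := ∀ P : Place ℚ̄ F, m ∣ ord_P f`:

* `placeSetting F₀ : ExitD.Setting F` ;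
* `k1_of_k1Ord` : the `ord`-difference form of (K1) (the shape of `S30.E4.K1`) gives `ExitD.K1`;
* `es_dia`  : `σ²(f) · (δ f) ^ ℓ = T(σ f) · h ^ m`, `T x = (δ x)(q ^ ℓ) · ∏ x(zⁱ q^{1/ℓ})`
  (diamond `δ` in the `q ^ ℓ` factor);
* `es_dia'` : `σ²(δ f) · f ^ ℓ = T'(σ f) · h ^ m`, `T' x = x(q ^ ℓ) · ∏ (δ x)(zⁱ q^{1/ℓ})`
  (diamond in the norm factor);
* `divBy_algEquiv`, `twist_of_algEquiv` : a `ℚ̄`-automorphism of `F` commuting with Galois (a
  diamond operator) is a `Twist` of the place setting.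
-/

set_option autoImplicit false

open HahnSeries ModularCurve AlgebraicCurve

namespace Fermat.Agent.S48.ExitD

open Fermat.Agent.S30 Fermat.Agent.S48.CongrD

local notation "Qb" => AlgebraicClosure ℚ
local notation "Gq" => (AlgebraicClosure ℚ ≃ₐ[ℚ] AlgebraicClosure ℚ)

/-- `m ∣ div f`: the order of `f` at every place of `F / ℚ̄` is divisible by `m`. -/
def DivBy (F : IntermediateField Qb (LaurentSeries Qb)) (m : ℕ) (f : F) : Prop :=
  ∀ P : Place Qb F, (m : ℤ) ∣ P.ord f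

/-- The canonical setting of a base-changed field of `q`-series: Prelude Galois action and
divisibility of divisors through places. -/
noncomputable def placeSetting (F₀ : IntermediateField ℚ (LaurentSeries ℚ)) :
    Setting (laurentBaseChange Qb F₀) where
  gal σ := (arithmeticRingAut F₀ σ).toRingHom
  coe_gal _ _ := rfl
  Dv := DivBy (laurentBaseChange Qb F₀)
  dv_mul := fun hf0 hg0 hf hg P => by
    rw [P.ord_mul hf0 hg0]
    exact dvd_add (hf P) (hg P)
  dv_inv := fun hf P => by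
    rw [P.ord_inv]
    exact (dvd_neg).2 (hf P)
  dv_pow_self := fun m f P => by
    have h := P.ord_zpow f (m : ℤ)
    rw [zpow_natCast] at h
    rw [h]
    exact Dvd.intro _ rfl
  dv_gal := fun {m} σ {f} hf P => by
    set g : SemilinearAut Qb (laurentBaseChange Qb F₀) := arithmeticGalois F₀ σ with hg
    have h1 : (g • (g⁻¹ • P)).ord (g • f) = (g⁻¹ • P).ord f :=
      SemilinearAut.ord_smul g (g⁻¹ • P) f
    rw [smul_inv_smul] at h1
    have h2 : g • f = (arithmeticRingAut F₀ σ).toRingHom f := rfl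
    rw [← h2, h1]
    exact hf _

theorem placeSetting_gal_apply (F₀ : IntermediateField ℚ (LaurentSeries ℚ)) (σ : Gq)
    (x : laurentBaseChange Qb F₀) :
    (placeSetting F₀).gal σ x = arithmeticRingAut F₀ σ x := rfl

theorem placeSetting_dv (F₀ : IntermediateField ℚ (LaurentSeries ℚ)) (m : ℕ)
    (f : laurentBaseChange Qb F₀) :
    (placeSetting F₀).Dv m f ↔ ∀ P : Place Qb (laurentBaseChange Qb F₀), (m : ℤ) ∣ P.ord f :=
  Iff.rfl

/-- (K1) in the `ord`-difference form of `S30.E4.K1`. -/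
def K1Ord (F₀ : IntermediateField ℚ (LaurentSeries ℚ)) (ℓ : ℕ) (A : ValuationSubring Qb) : Prop :=
  ∀ m : ℕ, ¬ ℓ ∣ m → ∀ (U W : LaurentSeries A)
    (hU : Congr.incl A U ∈ laurentBaseChange Qb F₀) (hW : Congr.incl A W ∈ laurentBaseChange Qb F₀),
    Congr.red A U = Congr.red A W → Congr.red A U ≠ 0 →
    (∀ P : Place Qb (laurentBaseChange Qb F₀),
      (m : ℤ) ∣ P.ord (⟨_, hU⟩ : laurentBaseChange Qb F₀) -
        P.ord (⟨_, hW⟩ : laurentBaseChange Qb F₀)) →
    ∃ H : laurentBaseChange Qb F₀, Congr.incl A U = (H : LaurentSeries Qb) ^ m * Congr.incl A W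

theorem k1_of_k1Ord {F₀ : IntermediateField ℚ (LaurentSeries ℚ)} {ℓ : ℕ}
    {A : ValuationSubring Qb} (h : K1Ord F₀ ℓ A) : K1 (placeSetting F₀) ℓ A := by
  intro m hm U W hU hW hred hU0 hdv
  have hW0 : Congr.red A W ≠ 0 := hred ▸ hU0
  have hU' : (⟨_, hU⟩ : laurentBaseChange Qb F₀) ≠ 0 := mk_ne_zero_of_red_ne_zero A hU hU0
  have hW' : (⟨_, hW⟩ : laurentBaseChange Qb F₀) ≠ 0 := mk_ne_zero_of_red_ne_zero A hW hW0
  refine h m hm U W hU hW hred hU0 fun P => ?_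
  have h1 := hdv P
  rw [div_eq_mul_inv, P.ord_mul hU' (inv_ne_zero hW'), P.ord_inv] at h1
  rwa [sub_eq_add_neg]

variable {F : IntermediateField Qb (LaurentSeries Qb)}

/-- **(ES), diamond in the `q ^ ℓ` factor**: `σ²(f) · (δ f) ^ ℓ = T(σ f) · h ^ m` with
`T x = heckeMul2 x (δ x)`. -/
theorem es_dia (S : Setting F) {ℓ m : ℕ} [Fact ℓ.Prime] (hℓ : 0 < ℓ) (A : ValuationSubring Qb)
    (hA : A.LiesOverPrime ℓ) (hG : HasGaussNorm F A) (hK1 : K1 S ℓ A) (z : Qbˣ)
    (hz : IsPrimitiveRoot z ℓ) (δ : F →+* F) (hδ : Twist S δ) (hi : IntPres A δ)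
    (hT : HeckeClosed2 S ℓ hℓ z (RingHom.id F) δ) (hℓm : ¬ ℓ ∣ m)
    {σ : Gq} (hσ : A.IsFrobeniusAt σ ℓ)
    (f : F) (hf : f ≠ 0) (hdiv : S.Dv m f) :
    ∃ h : F, h ≠ 0 ∧
      ((S.gal σ (S.gal σ f) : F) : LaurentSeries Qb) * ((δ f : F) : LaurentSeries Qb) ^ ℓ =
        heckeMul2 ℓ hℓ z ((S.gal σ f : F) : LaurentSeries Qb)
            ((δ (S.gal σ f) : F) : LaurentSeries Qb) *
          (h : LaurentSeries Qb) ^ m :=
  es_two S hℓ A hA hG hK1 z hz (RingHom.id F) δ (Twist.id S) hδ (IntPres.id A) hi hT hℓm hσ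
    f hf hdiv

/-- **(ES), diamond in the norm factor**: `σ²(δ f) · f ^ ℓ = T'(σ f) · h ^ m` with
`T' x = heckeMul2 (δ x) x`. -/
theorem es_dia' (S : Setting F) {ℓ m : ℕ} [Fact ℓ.Prime] (hℓ : 0 < ℓ) (A : ValuationSubring Qb)
    (hA : A.LiesOverPrime ℓ) (hG : HasGaussNorm F A) (hK1 : K1 S ℓ A) (z : Qbˣ)
    (hz : IsPrimitiveRoot z ℓ) (δ : F →+* F) (hδ : Twist S δ) (hi : IntPres A δ)
    (hT : HeckeClosed2 S ℓ hℓ z δ (RingHom.id F)) (hℓm : ¬ ℓ ∣ m)
    {σ : Gq} (hσ : A.IsFrobeniusAt σ ℓ)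
    (f : F) (hf : f ≠ 0) (hdiv : S.Dv m f) :
    ∃ h : F, h ≠ 0 ∧
      ((S.gal σ (S.gal σ (δ f)) : F) : LaurentSeries Qb) * ((f : F) : LaurentSeries Qb) ^ ℓ =
        heckeMul2 ℓ hℓ z ((δ (S.gal σ f) : F) : LaurentSeries Qb)
            ((S.gal σ f : F) : LaurentSeries Qb) *
          (h : LaurentSeries Qb) ^ m :=
  es_two S hℓ A hA hG hK1 z hz δ (RingHom.id F) hδ (Twist.id S) hi (IntPres.id A) hT hℓm hσ
    f hf hdiv

/-- An automorphism of `F` over `ℚ̄` permutes the places, hence preserves `DivBy`. -/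
theorem divBy_algEquiv (e : F ≃ₐ[Qb] F) {m : ℕ} {f : F} (hf : DivBy F m f) :
    DivBy F m (e f) := fun P => by
  have h := Place.ord_smul e (e⁻¹ • P) f
  rw [smul_inv_smul] at h
  rw [h]
  exact hf _

/-- **Twist from a `ℚ̄`-automorphism** (the shape of a diamond operator `⟨u⟩`): a `ℚ̄`-algebra
automorphism of `F₀ ⊗ ℚ̄` commuting with the coefficientwise Galois action is a `Twist` of the
place setting. -/
theorem twist_of_algEquiv (F₀ : IntermediateField ℚ (LaurentSeries ℚ))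
    (e : laurentBaseChange Qb F₀ ≃ₐ[Qb] laurentBaseChange Qb F₀)
    (hcomm : ∀ (σ : Gq) (x : laurentBaseChange Qb F₀),
      e (arithmeticRingAut F₀ σ x) = arithmeticRingAut F₀ σ (e x)) :
    Twist (placeSetting F₀) (e : laurentBaseChange Qb F₀ →+* laurentBaseChange Qb F₀) where
  const := fun c => e.commutes c
  comm_gal := fun σ x => hcomm σ x
  dv := fun hf => divBy_algEquiv e hf

end Fermat.Agent.S48.ExitD
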