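import Mathlib
import Fermat.Agent.S48.ExitDPlaces

/-!
# S48 / G1: the Eichler–Shimura exit with diamond WITHOUT an integrality hypothesis on the twists

`ExitD.es_two` assumes that the twists `d₁ d₂` preserve Gauss-integral `q`-series (`IntPres`).
This file removes that hypothesis (remark of helper103): the Gauss normalisation is applied to
`d₁ f` and `d₂ f` themselves.

* `exists_unit_of_const_mul` : Gauss lemma for constants: `c · X = Y` with `X, Y` integral with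
  nonzero reduction forces `c ∈ Aˣ`;
* `k1_ratio` : RATIO form of (K1), from `K1` and `HasGaussNorm`: if `g ∈ F` is a quotient `U / W`
  of two integral series of `ℚ̄((q))` (NOT assumed to lie in `F`) with the same nonzero reduction
  and `m ∣ div g`, `ℓ ∤ m`, then `g` is an `m`-th power in `F`;
* `es_two_gauss` : `σ²(d₁ f) · (d₂ f) ^ ℓ = T(σ f) · h ^ m`, `T x = heckeMul2 (d₁ x) (d₂ x)`,
  from `HasGaussNorm`, `K1`, `Twist d₁`, `Twist d₂`, `HeckeClosed2` only;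
* `es_dia_gauss`, `es_dia_gauss'` : the two diamond normalisations;
* `es_place` : the packaged statement for `F = laurentBaseChange ℚ̄ F₀` with the place setting and
  a `ℚ̄`-automorphism `δ` of `F` commuting with the Galois action (contract convention:
  diamond in the `q ^ ℓ` factor).
-/

set_option autoImplicit false

open HahnSeries ModularCurve AlgebraicCurve

namespace Fermat.Agent.S48.ExitD

open Fermat.Agent.S30 Fermat.Agent.S48.CongrD

local notation "Qb" => AlgebraicClosure ℚ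
local notation "Gq" => (AlgebraicClosure ℚ ≃ₐ[ℚ] AlgebraicClosure ℚ)

section Const

variable {R : Type*} [CommRing R]

theorem rescale_single_zero (w : Rˣ) (a : R) :
    Congr.rescale w (HahnSeries.single 0 a : LaurentSeries R) = HahnSeries.single 0 a := by
  ext n
  rw [Congr.coeff_rescale]
  by_cases hn : n = 0
  · subst hn
    simp
  · rw [HahnSeries.coeff_single_of_ne hn, mul_zero]

theorem single_zero_pow (a : R) (k : ℕ) :
    (HahnSeries.single 0 a : LaurentSeries R) ^ k = HahnSeries.single 0 (a ^ k) := by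
  induction k with
  | zero => rw [pow_zero, pow_zero]; rfl
  | succ k ih => rw [pow_succ, ih, HahnSeries.single_mul_single, add_zero, pow_succ]

theorem conjProd_single_zero (ℓ : ℕ) (z : Rˣ) (a : R) :
    Congr.conjProd ℓ z (HahnSeries.single 0 a : LaurentSeries R) = HahnSeries.single 0 (a ^ ℓ) := by
  unfold Congr.conjProd
  rw [Finset.prod_congr rfl fun i _ => rescale_single_zero (z ^ i) a, Finset.prod_const,
    Finset.card_range, single_zero_pow]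

theorem contract_single_zero (ℓ : ℕ) (hℓ : 0 < ℓ) (a : R) :
    Congr.contract ℓ hℓ (HahnSeries.single 0 a : LaurentSeries R) = HahnSeries.single 0 a := by
  ext n
  rw [Congr.coeff_contract]
  by_cases hn : n = 0
  · subst hn
    rw [mul_zero]
  · have hℓ' : (ℓ : ℤ) ≠ 0 := by exact_mod_cast hℓ.ne'
    rw [HahnSeries.coeff_single_of_ne hn, HahnSeries.coeff_single_of_ne (mul_ne_zero hℓ' hn)]

/-- The multiplicative Hecke operator on constants. -/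
theorem heckeMul2_single_zero (ℓ : ℕ) (hℓ : 0 < ℓ) (z : Rˣ) (a b : R) :
    heckeMul2 ℓ hℓ z (HahnSeries.single 0 a : LaurentSeries R) (HahnSeries.single 0 b) =
      HahnSeries.single 0 (b * a ^ ℓ) := by
  unfold heckeMul2 Congr.normL
  rw [Congr.expand_single, mul_zero, conjProd_single_zero, contract_single_zero,
    HahnSeries.single_mul_single, add_zero]

end Const

section Gauss

variable (A : ValuationSubring Qb)

theorem incl_single_zero (a : A) :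
    Congr.incl A (HahnSeries.single 0 a) = HahnSeries.single 0 (a : Qb) :=
  coeffMap_single _ _ _

theorem red_single_zero (a : A) :
    Congr.red A (HahnSeries.single 0 a) = HahnSeries.single 0 (IsLocalRing.residue A a) :=
  coeffMap_single _ _ _

theorem red_ne_zero_of_incl_ne (X : LaurentSeries A) (hX : Congr.red A X ≠ 0) :
    Congr.incl A X ≠ 0 := by
  intro h
  apply hX
  rw [Congr.incl_injective A (h.trans (map_zero _).symm), map_zero]

/-- **Gauss lemma for constants**: if `c · X = Y` with `X`, `Y` integral `q`-series with nonzero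
reduction, then `c` is a unit of `A`. -/
theorem exists_unit_of_const_mul {c : Qb} {X Y : LaurentSeries A}
    (hX : Congr.red A X ≠ 0) (hY : Congr.red A Y ≠ 0)
    (h : HahnSeries.single 0 c * Congr.incl A X = Congr.incl A Y) :
    ∃ a : A, (a : Qb) = c ∧ IsLocalRing.residue A a ≠ 0 := by
  rcases A.mem_or_inv_mem c with hc | hc
  · refine ⟨⟨c, hc⟩, rfl, fun h0 => hY ?_⟩
    have h1 : Congr.incl A (HahnSeries.single 0 (⟨c, hc⟩ : A) * X) = Congr.incl A Y := by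
      rw [map_mul, incl_single_zero]
      exact h
    have h2 := Congr.incl_injective A h1
    rw [← h2, map_mul, red_single_zero, h0, HahnSeries.single_eq_zero, zero_mul]
  · have hc0 : c ≠ 0 := by
      rintro rfl
      rw [HahnSeries.single_eq_zero, zero_mul] at h
      exact red_ne_zero_of_incl_ne A Y hY h.symm
    have h1 : Congr.incl A (HahnSeries.single 0 (⟨c⁻¹, hc⟩ : A) * Y) = Congr.incl A X := by
      rw [map_mul, incl_single_zero, ← h, ← mul_assoc, HahnSeries.single_mul_single, add_zero]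
      show HahnSeries.single 0 (c⁻¹ * c) * Congr.incl A X = Congr.incl A X
      rw [inv_mul_cancel₀ hc0]
      exact one_mul _
    have h2 := Congr.incl_injective A h1
    have h3 : IsLocalRing.residue A (⟨c⁻¹, hc⟩ : A) ≠ 0 := by
      intro h0
      apply hX
      rw [← h2, map_mul, red_single_zero, h0, HahnSeries.single_eq_zero, zero_mul]
    have h4 : IsUnit (⟨c⁻¹, hc⟩ : A) := by
      by_contra hnu
      exact h3 ((IsLocalRing.residue_eq_zero_iff _).2 ((IsLocalRing.mem_maximalIdeal _).2 hnu))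
    obtain ⟨u, hu⟩ := h4
    have h5 : (((u⁻¹ : Aˣ) : A) : Qb) * c⁻¹ = 1 := by
      have h6 : ((u⁻¹ : Aˣ) : A) * (u : A) = 1 := Units.inv_mul u
      have h7 := congrArg (Subtype.val) h6
      rw [hu] at h7
      exact h7
    refine ⟨((u⁻¹ : Aˣ) : A), ?_, ?_⟩
    · have h8 : (((u⁻¹ : Aˣ) : A) : Qb) = (((u⁻¹ : Aˣ) : A) : Qb) * c⁻¹ * c := by
        rw [mul_assoc, inv_mul_cancel₀ hc0, mul_one]
      rw [h8, h5, one_mul]
    · intro h0
      have h9 : ¬ IsUnit ((u⁻¹ : Aˣ) : A) :=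
        (IsLocalRing.mem_maximalIdeal _).1 ((IsLocalRing.residue_eq_zero_iff _).1 h0)
      exact h9 (Units.isUnit _)

end Gauss

variable {F : IntermediateField Qb (LaurentSeries Qb)}

theorem coe_algebraMap_eq_single (c : Qb) :
    ((algebraMap Qb F c : F) : LaurentSeries Qb) = HahnSeries.single 0 c :=
  algebraMap_laurentSeries_eq_single Qb c

theorem Setting.gal_algebraMap (S : Setting F) (σ : Gq) (c : Qb) :
    S.gal σ (algebraMap Qb F c) = algebraMap Qb F (σ c) := by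
  apply Subtype.ext
  rw [S.coe_gal, coe_algebraMap_eq_single, coe_algebraMap_eq_single, coeffMap_single]
  rfl

/-- Constants have divisor divisible by every `m > 0`. -/
theorem Setting.dv_const (S : Setting F) {m : ℕ} (hm : 0 < m) (c : Qb) :
    S.Dv m (algebraMap Qb F c) := by
  obtain ⟨b, hb⟩ := IsAlgClosed.exists_pow_nat_eq c hm
  rw [← hb, map_pow]
  exact S.dv_pow_self m _

/-- **Ratio form of (K1).**  If `g ∈ F` is a quotient `U / W` of two integral `q`-series (not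
assumed to lie in `F`) with the same nonzero reduction, and `m ∣ div g` with `ℓ ∤ m`, then `g`
is an `m`-th power in `F`. -/
theorem k1_ratio (S : Setting F) {ℓ m : ℕ} (A : ValuationSubring Qb) (hG : HasGaussNorm F A)
    (hK1 : K1 S ℓ A) (hℓm : ¬ ℓ ∣ m) (U W : LaurentSeries A) (g : F)
    (hg : (g : LaurentSeries Qb) * Congr.incl A W = Congr.incl A U)
    (hred : Congr.red A U = Congr.red A W) (hU : Congr.red A U ≠ 0) (hdv : S.Dv m g) :
    ∃ H : F, g = H ^ m := by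
  have hW : Congr.red A W ≠ 0 := hred ▸ hU
  have hg0 : g ≠ 0 := by
    rintro rfl
    apply red_ne_zero_of_incl_ne A U hU
    rw [← hg]
    exact zero_mul _
  obtain ⟨c, P, Q, hPm, hQm, hc, hP, hQ, hgPQ⟩ := hG g hg0
  have hcoe : (g : LaurentSeries Qb) * Congr.incl A Q =
      HahnSeries.single 0 c * Congr.incl A P := by
    have h0 := congrArg (fun x : F => (x : LaurentSeries Qb)) hgPQ
    have h1 : ((algebraMap Qb F c * (⟨_, hPm⟩ : F) : F) : LaurentSeries Qb) =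
        HahnSeries.single 0 c * Congr.incl A P := by
      show ((algebraMap Qb F c : F) : LaurentSeries Qb) * Congr.incl A P = _
      rw [coe_algebraMap_eq_single]
    exact h0.trans h1
  have h1 : HahnSeries.single 0 c * Congr.incl A (P * W) = Congr.incl A (U * Q) := by
    rw [map_mul, map_mul, ← mul_assoc, ← hcoe, ← hg]
    ring
  obtain ⟨a, hac, ha⟩ := exists_unit_of_const_mul A (X := P * W) (Y := U * Q)
    (by rw [map_mul]; exact mul_ne_zero hP hW) (by rw [map_mul]; exact mul_ne_zero hU hQ) h1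
  set P₁ : LaurentSeries A := HahnSeries.single 0 a * P with hP₁
  have hP₁i : Congr.incl A P₁ = HahnSeries.single 0 c * Congr.incl A P := by
    rw [hP₁, map_mul, incl_single_zero, hac]
  have hP₁m : Congr.incl A P₁ ∈ F := by
    rw [hP₁i, ← hcoe]
    exact (g * (⟨_, hQm⟩ : F)).2
  have hP₁r : Congr.red A P₁ = Congr.red A Q := by
    have h2 : P₁ * W = U * Q := Congr.incl_injective A (by
      rw [map_mul (Congr.incl A) P₁ W, hP₁i, mul_assoc, ← map_mul, h1])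
    have h3 : Congr.red A P₁ * Congr.red A W = Congr.red A U * Congr.red A Q := by
      rw [← map_mul, h2, map_mul]
    rw [hred] at h3
    exact mul_right_cancel₀ hW (h3.trans (mul_comm _ _))
  have hP₁0 : Congr.red A P₁ ≠ 0 := hP₁r ▸ hQ
  have hQ0 : (⟨_, hQm⟩ : F) ≠ 0 := mk_ne_zero_of_red_ne_zero A hQm hQ
  have hgQ : g * (⟨_, hQm⟩ : F) = (⟨_, hP₁m⟩ : F) := Subtype.ext (by
    show (g : LaurentSeries Qb) * Congr.incl A Q = Congr.incl A P₁
    rw [hP₁i, hcoe])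
  have hgq : (⟨_, hP₁m⟩ : F) / (⟨_, hQm⟩ : F) = g := by
    rw [div_eq_iff hQ0, hgQ]
  obtain ⟨H, hH⟩ := hK1 m hℓm P₁ Q hP₁m hQm hP₁r hP₁0 (by rw [hgq]; exact hdv)
  refine ⟨H, ?_⟩
  have h4 : g * (⟨_, hQm⟩ : F) = H ^ m * (⟨_, hQm⟩ : F) := by
    rw [hgQ]
    exact Subtype.ext hH
  exact mul_right_cancel₀ hQ0 h4

/-- **(ES) with two twists, no integrality hypothesis on the twists.**  For `σ` a Frobenius at
`A` (over `ℓ`, `ℓ ∤ m`) and `f ∈ F` with `m ∣ div f`: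
`σ²(d₁ f) · (d₂ f) ^ ℓ = T(σ f) · h ^ m`, `T x = heckeMul2 (d₁ x) (d₂ x)`. -/
theorem es_two_gauss (S : Setting F) {ℓ m : ℕ} [Fact ℓ.Prime] (hℓ : 0 < ℓ)
    (A : ValuationSubring Qb) (hA : A.LiesOverPrime ℓ) (hG : HasGaussNorm F A) (hK1 : K1 S ℓ A)
    (z : Qbˣ) (hz : IsPrimitiveRoot z ℓ) (d₁ d₂ : F →+* F) (h₁ : Twist S d₁) (h₂ : Twist S d₂)
    (hT : HeckeClosed2 S ℓ hℓ z d₁ d₂) (hℓm : ¬ ℓ ∣ m)
    {σ : Gq} (hσ : A.IsFrobeniusAt σ ℓ)
    (f : F) (hf : f ≠ 0) (hdiv : S.Dv m f) :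
    ∃ h : F, h ≠ 0 ∧
      ((S.gal σ (S.gal σ (d₁ f)) : F) : LaurentSeries Qb) *
          ((d₂ f : F) : LaurentSeries Qb) ^ ℓ =
        heckeMul2 ℓ hℓ z ((d₁ (S.gal σ f) : F) : LaurentSeries Qb)
            ((d₂ (S.gal σ f) : F) : LaurentSeries Qb) *
          (h : LaurentSeries Qb) ^ m := by
  have hm : 0 < m := Nat.pos_of_ne_zero (fun h => hℓm (h ▸ dvd_zero ℓ))
  obtain ⟨hmem, hTdiv⟩ := hT
  have hz1 : (z : Qb) ^ ℓ = 1 := by
    have h := congrArg Units.val hz.pow_eq_one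
    rwa [Units.val_pow_eq_pow_val, Units.val_one] at h
  set g : F →+* F := S.gal σ with hg
  have g0 : ∀ x : F, x ≠ 0 → g x ≠ 0 := fun x hx => (map_ne_zero g).2 hx
  have e0₁ : ∀ x : F, x ≠ 0 → d₁ x ≠ 0 := fun x hx => (map_ne_zero d₁).2 hx
  have e0₂ : ∀ x : F, x ≠ 0 → d₂ x ≠ 0 := fun x hx => (map_ne_zero d₂).2 hx
  set s : A.decompositionSubgroup ℚ := ⟨σ, hσ.mem_decompositionSubgroup⟩ with hs
  -- the value of the Hecke operator at `σ f`
  set Tf : F := ⟨_, hmem (g f)⟩ with hTf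
  have hTf_coe : (Tf : LaurentSeries Qb) =
      heckeMul2 ℓ hℓ z ((d₁ (g f) : F) : LaurentSeries Qb) ((d₂ (g f) : F) : LaurentSeries Qb) :=
    rfl
  have hTf_dv : S.Dv m Tf := hTdiv m (g f) (g0 f hf) (S.dv_gal σ hdiv)
  -- Gauss normalisation of the two twists of `f`
  obtain ⟨c₁, P₁, Q₁, hP₁m, hQ₁m, hc₁, hP₁, hQ₁, e₁⟩ := hG (d₁ f) (e0₁ f hf)
  obtain ⟨c₂, P₂, Q₂, hP₂m, hQ₂m, hc₂, hP₂, hQ₂, e₂⟩ := hG (d₂ f) (e0₂ f hf)
  set C₁ : F := algebraMap Qb F c₁ with hC₁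
  set C₂ : F := algebraMap Qb F c₂ with hC₂
  have hC₁0 : C₁ ≠ 0 := (map_ne_zero (algebraMap Qb F)).2 hc₁
  have hC₂0 : C₂ ≠ 0 := (map_ne_zero (algebraMap Qb F)).2 hc₂
  have hQ₁0 : (⟨_, hQ₁m⟩ : F) ≠ 0 := mk_ne_zero_of_red_ne_zero A hQ₁m hQ₁
  have hQ₂0 : (⟨_, hQ₂m⟩ : F) ≠ 0 := mk_ne_zero_of_red_ne_zero A hQ₂m hQ₂
  have hP₁0 : (⟨_, hP₁m⟩ : F) ≠ 0 := mk_ne_zero_of_red_ne_zero A hP₁m hP₁
  have hP₂0 : (⟨_, hP₂m⟩ : F) ≠ 0 := mk_ne_zero_of_red_ne_zero A hP₂m hP₂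
  obtain ⟨u₁, hu₁⟩ : ∃ u₁ : F, u₁ = (⟨_, hP₁m⟩ : F) / (⟨_, hQ₁m⟩ : F) := ⟨_, rfl⟩
  obtain ⟨u₂, hu₂⟩ : ∃ u₂ : F, u₂ = (⟨_, hP₂m⟩ : F) / (⟨_, hQ₂m⟩ : F) := ⟨_, rfl⟩
  have hu₁0 : u₁ ≠ 0 := by rw [hu₁]; exact div_ne_zero hP₁0 hQ₁0
  have hu₂0 : u₂ ≠ 0 := by rw [hu₂]; exact div_ne_zero hP₂0 hQ₂0
  have hu₁Q : u₁ * (⟨_, hQ₁m⟩ : F) = (⟨_, hP₁m⟩ : F) := by
    rw [hu₁]; exact div_mul_cancel₀ _ hQ₁0
  have hu₂Q : u₂ * (⟨_, hQ₂m⟩ : F) = (⟨_, hP₂m⟩ : F) := by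
    rw [hu₂]; exact div_mul_cancel₀ _ hQ₂0
  have hd₁ : d₁ f = C₁ * u₁ := by
    rw [hu₁, mul_div_assoc', ← e₁, mul_div_assoc, div_self hQ₁0, mul_one]
  have hd₂ : d₂ f = C₂ * u₂ := by
    rw [hu₂, mul_div_assoc', ← e₂, mul_div_assoc, div_self hQ₂0, mul_one]
  have hu₁dv : S.Dv m u₁ := by
    have h1 : u₁ = d₁ f * C₁⁻¹ := by
      rw [hd₁, mul_comm C₁, mul_assoc, mul_inv_cancel₀ hC₁0, mul_one]
    rw [h1]
    exact S.dv_mul (e0₁ f hf) (inv_ne_zero hC₁0) (h₁.dv hdiv) (S.dv_inv (S.dv_const hm c₁))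
  have hu₂dv : S.Dv m u₂ := by
    have h1 : u₂ = d₂ f * C₂⁻¹ := by
      rw [hd₂, mul_comm C₂, mul_assoc, mul_inv_cancel₀ hC₂0, mul_one]
    rw [h1]
    exact S.dv_mul (e0₂ f hf) (inv_ne_zero hC₂0) (h₂.dv hdiv) (S.dv_inv (S.dv_const hm c₂))
  -- the constant `K = T(σ C₁, σ C₂)`
  set K : F := algebraMap Qb F (σ c₂ * σ c₁ ^ ℓ) with hK
  have hK0 : K ≠ 0 := by
    rw [hK]
    refine (map_ne_zero (algebraMap Qb F)).2 (mul_ne_zero ?_ (pow_ne_zero _ ?_))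
    · exact (map_ne_zero σ).2 hc₂
    · exact (map_ne_zero σ).2 hc₁
  have hgC₁ : g C₁ = algebraMap Qb F (σ c₁) := S.gal_algebraMap σ c₁
  have hgC₂ : g C₂ = algebraMap Qb F (σ c₂) := S.gal_algebraMap σ c₂
  -- `T(σ f) = K · T(σ u₁, σ u₂)`
  have hTf_split : (Tf : LaurentSeries Qb) = (K : LaurentSeries Qb) *
      heckeMul2 ℓ hℓ z ((g u₁ : F) : LaurentSeries Qb) ((g u₂ : F) : LaurentSeries Qb) := by
    rw [hTf_coe, hg, h₁.comm_gal, h₂.comm_gal, ← hg, hd₁, hd₂, map_mul, map_mul, hgC₁, hgC₂]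
    show heckeMul2 ℓ hℓ z
        (((algebraMap Qb F (σ c₁) : F) : LaurentSeries Qb) * ((g u₁ : F) : LaurentSeries Qb))
        (((algebraMap Qb F (σ c₂) : F) : LaurentSeries Qb) * ((g u₂ : F) : LaurentSeries Qb)) = _
    rw [heckeMul2_mul ℓ hℓ z hz, coe_algebraMap_eq_single, coe_algebraMap_eq_single,
      heckeMul2_single_zero, hK, coe_algebraMap_eq_single]
  -- `T₀ = T(σ u₁, σ u₂)` as an element of `F`
  obtain ⟨T₀, hT₀⟩ : ∃ T₀ : F, T₀ = Tf / K := ⟨_, rfl⟩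
  have hT₀K : K * T₀ = Tf := by rw [hT₀, mul_div_cancel₀ _ hK0]
  have hTf0 : Tf ≠ 0 := by
    intro h0
    have h1 : (Tf : LaurentSeries Qb) = 0 := congrArg Subtype.val h0
    rw [hTf_split] at h1
    have hKc : (K : LaurentSeries Qb) ≠ 0 := fun h => hK0 (Subtype.ext h)
    have h2 := (mul_eq_zero.1 h1).resolve_left hKc
    -- `heckeMul2` of nonzero series is nonzero (multiplicativity + inverse)
    have h3 : heckeMul2 ℓ hℓ z ((g u₁ : F) : LaurentSeries Qb) ((g u₂ : F) : LaurentSeries Qb) *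
        heckeMul2 ℓ hℓ z ((g u₁⁻¹ : F) : LaurentSeries Qb) ((g u₂⁻¹ : F) : LaurentSeries Qb) =
        1 := by
      rw [← heckeMul2_mul ℓ hℓ z hz]
      have h4 : ((g u₁ : F) : LaurentSeries Qb) * ((g u₁⁻¹ : F) : LaurentSeries Qb) = 1 := by
        have : g u₁ * g u₁⁻¹ = 1 := by rw [← map_mul, mul_inv_cancel₀ hu₁0, map_one]
        exact congrArg Subtype.val this
      have h5 : ((g u₂ : F) : LaurentSeries Qb) * ((g u₂⁻¹ : F) : LaurentSeries Qb) = 1 := by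
        have : g u₂ * g u₂⁻¹ = 1 := by rw [← map_mul, mul_inv_cancel₀ hu₂0, map_one]
        exact congrArg Subtype.val this
      rw [h4, h5]
      exact heckeMul2_one ℓ hℓ z
    rw [h2, zero_mul] at h3
    exact zero_ne_one h3
  have hT₀0 : T₀ ≠ 0 := by rw [hT₀]; exact div_ne_zero hTf0 hK0
  have hT₀_coe : (T₀ : LaurentSeries Qb) =
      heckeMul2 ℓ hℓ z ((g u₁ : F) : LaurentSeries Qb) ((g u₂ : F) : LaurentSeries Qb) := by
    have hKc : (K : LaurentSeries Qb) ≠ 0 := fun h => hK0 (Subtype.ext h)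
    have h1 : (K : LaurentSeries Qb) * (T₀ : LaurentSeries Qb) = (Tf : LaurentSeries Qb) :=
      congrArg Subtype.val hT₀K
    rw [hTf_split] at h1
    exact mul_left_cancel₀ hKc h1
  have hT₀dv : S.Dv m T₀ := by
    rw [hT₀]
    exact S.dv_div hTf0 hK0 hTf_dv (S.dv_const hm _)
  -- numerator and denominator of `σ²(u₁) · u₂ ^ ℓ / T₀`
  set U : LaurentSeries A := esNum2 A hℓ hz1 s P₁ Q₁ P₂ Q₂ with hU
  set W : LaurentSeries A := esDen2 A hℓ hz1 s P₁ Q₁ P₂ Q₂ with hW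
  have hcross := es_cross2 A hℓ z hz hz1 s (u₁ : LaurentSeries Qb) (u₂ : LaurentSeries Qb)
    P₁ Q₁ P₂ Q₂ (congrArg Subtype.val hu₁Q) (congrArg Subtype.val hu₂Q)
  have hgg : ∀ x : F, ((g (g x) : F) : LaurentSeries Qb) =
      coeffMap (σ : Qb →+* Qb) (coeffMap (σ : Qb →+* Qb) (x : LaurentSeries Qb)) := fun x => by
    rw [hg, S.coe_gal, S.coe_gal]
  have hg1 : ∀ x : F, ((g x : F) : LaurentSeries Qb) =
      coeffMap (σ : Qb →+* Qb) (x : LaurentSeries Qb) := fun x => by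
    rw [hg, S.coe_gal]
  obtain ⟨g₀, hg₀⟩ : ∃ g₀ : F, g₀ = g (g u₁) * u₂ ^ ℓ / T₀ := ⟨_, rfl⟩
  have hg₀T : g₀ * T₀ = g (g u₁) * u₂ ^ ℓ := by rw [hg₀, div_mul_cancel₀ _ hT₀0]
  have hnum0 : g (g u₁) * u₂ ^ ℓ ≠ 0 := mul_ne_zero (g0 _ (g0 _ hu₁0)) (pow_ne_zero _ hu₂0)
  have hg₀UW : (g₀ : LaurentSeries Qb) * Congr.incl A W = Congr.incl A U := by
    have hT₀c : (T₀ : LaurentSeries Qb) ≠ 0 := fun h => hT₀0 (Subtype.ext h)
    have h1 : (g₀ : LaurentSeries Qb) * (T₀ : LaurentSeries Qb) =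
        ((g (g u₁) : F) : LaurentSeries Qb) * (u₂ : LaurentSeries Qb) ^ ℓ :=
      congrArg Subtype.val hg₀T
    have h2 : (T₀ : LaurentSeries Qb) * ((g₀ : LaurentSeries Qb) * Congr.incl A W) =
        (T₀ : LaurentSeries Qb) * Congr.incl A U := by
      rw [hT₀_coe, hg1, hg1, ← hcross, ← hgg, ← h1, hT₀_coe, hg1, hg1]
      ring
    exact mul_left_cancel₀ hT₀c h2
  have hg₀dv : S.Dv m g₀ := by
    rw [hg₀]
    exact S.dv_div hnum0 hT₀0
      (S.dv_mul (g0 _ (g0 _ hu₁0)) (pow_ne_zero _ hu₂0) (S.dv_gal σ (S.dv_gal σ hu₁dv))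
        (S.dv_pow hu₂0 hu₂dv ℓ)) hT₀dv
  obtain ⟨H, hH⟩ := k1_ratio S A hG hK1 hℓm U W g₀ hg₀UW
    (red_esNum2 A hℓ hA hz1 hσ P₁ Q₁ P₂ Q₂)
    (red_esNum2_ne_zero A hℓ hA hz1 hσ hP₁ hQ₁ hP₂ hQ₂) hg₀dv
  have hg₀0 : g₀ ≠ 0 := by rw [hg₀]; exact div_ne_zero hnum0 hT₀0
  have hH0 : H ≠ 0 := by
    rintro rfl
    rw [zero_pow hm.ne'] at hH
    exact hg₀0 hH
  -- the remaining constant is an `m`-th power
  obtain ⟨b, hb⟩ := IsAlgClosed.exists_pow_nat_eq (σ (σ c₁) * c₂ ^ ℓ / (σ c₂ * σ c₁ ^ ℓ)) hm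
  set B : F := algebraMap Qb F b with hB
  have hBm : B ^ m * K = g (g C₁) * C₂ ^ ℓ := by
    have h1 : σ c₂ * σ c₁ ^ ℓ ≠ 0 :=
      mul_ne_zero ((map_ne_zero σ).2 hc₂) (pow_ne_zero _ ((map_ne_zero σ).2 hc₁))
    have h2 : g (g C₁) = algebraMap Qb F (σ (σ c₁)) := by
      rw [hgC₁]
      exact S.gal_algebraMap σ _
    have h3 : b ^ m * (σ c₂ * σ c₁ ^ ℓ) = σ (σ c₁) * c₂ ^ ℓ := by
      rw [hb]
      exact div_mul_cancel₀ _ h1
    calc B ^ m * K = algebraMap Qb F (b ^ m * (σ c₂ * σ c₁ ^ ℓ)) := by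
          rw [hB, hK, map_mul (algebraMap Qb F) (b ^ m), map_pow (algebraMap Qb F) b]
      _ = algebraMap Qb F (σ (σ c₁) * c₂ ^ ℓ) := by rw [h3]
      _ = g (g C₁) * C₂ ^ ℓ := by
          rw [h2, hC₂, map_mul (algebraMap Qb F) (σ (σ c₁)), map_pow (algebraMap Qb F) c₂]
  have hB0 : B ≠ 0 := by
    rintro h0
    rw [h0, zero_pow hm.ne', zero_mul] at hBm
    exact mul_ne_zero (g0 _ (g0 _ hC₁0)) (pow_ne_zero _ hC₂0) hBm.symm
  refine ⟨B * H, mul_ne_zero hB0 hH0, ?_⟩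
  have hfin : g (g (d₁ f)) * d₂ f ^ ℓ = Tf * (B * H) ^ m := by
    rw [hd₁, hd₂, map_mul, map_mul, mul_pow, mul_pow, ← hH, ← hT₀K]
    have h1 : g (g C₁) * g (g u₁) * (C₂ ^ ℓ * u₂ ^ ℓ) =
        (g (g C₁) * C₂ ^ ℓ) * (g₀ * T₀) := by rw [hg₀T]; ring
    rw [h1, ← hBm]
    ring
  have hfin' := congrArg (fun x : F => (x : LaurentSeries Qb)) hfin
  exact hfin'

/-- **(ES), diamond in the `q ^ ℓ` factor, no integrality hypothesis on `δ`**:
`σ²(f) · (δ f) ^ ℓ = T(σ f) · h ^ m` with `T x = heckeMul2 x (δ x)`. -/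
theorem es_dia_gauss (S : Setting F) {ℓ m : ℕ} [Fact ℓ.Prime] (hℓ : 0 < ℓ)
    (A : ValuationSubring Qb) (hA : A.LiesOverPrime ℓ) (hG : HasGaussNorm F A) (hK1 : K1 S ℓ A)
    (z : Qbˣ) (hz : IsPrimitiveRoot z ℓ) (δ : F →+* F) (hδ : Twist S δ)
    (hT : HeckeClosed2 S ℓ hℓ z (RingHom.id F) δ) (hℓm : ¬ ℓ ∣ m)
    {σ : Gq} (hσ : A.IsFrobeniusAt σ ℓ)
    (f : F) (hf : f ≠ 0) (hdiv : S.Dv m f) :
    ∃ h : F, h ≠ 0 ∧
      ((S.gal σ (S.gal σ f) : F) : LaurentSeries Qb) * ((δ f : F) : LaurentSeries Qb) ^ ℓ =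
        heckeMul2 ℓ hℓ z ((S.gal σ f : F) : LaurentSeries Qb)
            ((δ (S.gal σ f) : F) : LaurentSeries Qb) *
          (h : LaurentSeries Qb) ^ m :=
  es_two_gauss S hℓ A hA hG hK1 z hz (RingHom.id F) δ (Twist.id S) hδ hT hℓm hσ f hf hdiv

/-- **(ES), diamond in the norm factor, no integrality hypothesis on `δ`**:
`σ²(δ f) · f ^ ℓ = T'(σ f) · h ^ m` with `T' x = heckeMul2 (δ x) x`. -/
theorem es_dia_gauss' (S : Setting F) {ℓ m : ℕ} [Fact ℓ.Prime] (hℓ : 0 < ℓ)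
    (A : ValuationSubring Qb) (hA : A.LiesOverPrime ℓ) (hG : HasGaussNorm F A) (hK1 : K1 S ℓ A)
    (z : Qbˣ) (hz : IsPrimitiveRoot z ℓ) (δ : F →+* F) (hδ : Twist S δ)
    (hT : HeckeClosed2 S ℓ hℓ z δ (RingHom.id F)) (hℓm : ¬ ℓ ∣ m)
    {σ : Gq} (hσ : A.IsFrobeniusAt σ ℓ)
    (f : F) (hf : f ≠ 0) (hdiv : S.Dv m f) :
    ∃ h : F, h ≠ 0 ∧
      ((S.gal σ (S.gal σ (δ f)) : F) : LaurentSeries Qb) * ((f : F) : LaurentSeries Qb) ^ ℓ =
        heckeMul2 ℓ hℓ z ((δ (S.gal σ f) : F) : LaurentSeries Qb)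
            ((S.gal σ f : F) : LaurentSeries Qb) *
          (h : LaurentSeries Qb) ^ m :=
  es_two_gauss S hℓ A hA hG hK1 z hz δ (RingHom.id F) hδ (Twist.id S) hT hℓm hσ f hf hdiv

/-- **Packaged (ES) for a base-changed field of `q`-series** (contract convention).
`F = laurentBaseChange ℚ̄ F₀` with the Prelude Galois action and divisors through places; `δ` a
`ℚ̄`-automorphism of `F` commuting with Galois (the diamond `⟨ℓ⟩`); then for `σ` a Frobenius at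
`A` over `ℓ ∤ m` and `f ≠ 0` with `m ∣ div f`:
`σ²(f) · (δ f) ^ ℓ = (δ σ f)(q ^ ℓ) · ∏_{i<ℓ} (σ f)(zⁱ q^{1/ℓ}) · h ^ m`. -/
theorem es_place (F₀ : IntermediateField ℚ (LaurentSeries ℚ)) {ℓ m : ℕ} [Fact ℓ.Prime]
    (hℓ : 0 < ℓ) (A : ValuationSubring Qb) (hA : A.LiesOverPrime ℓ)
    (hG : HasGaussNorm (laurentBaseChange Qb F₀) A) (hK1 : K1Ord F₀ ℓ A)
    (z : Qbˣ) (hz : IsPrimitiveRoot z ℓ)
    (δ : laurentBaseChange Qb F₀ ≃ₐ[Qb] laurentBaseChange Qb F₀)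
    (hcomm : ∀ (σ : Gq) (x : laurentBaseChange Qb F₀),
      δ (arithmeticRingAut F₀ σ x) = arithmeticRingAut F₀ σ (δ x))
    (hT : HeckeClosed2 (placeSetting F₀) ℓ hℓ z (RingHom.id _)
      (δ : laurentBaseChange Qb F₀ →+* laurentBaseChange Qb F₀))
    (hℓm : ¬ ℓ ∣ m) {σ : Gq} (hσ : A.IsFrobeniusAt σ ℓ)
    (f : laurentBaseChange Qb F₀) (hf : f ≠ 0)
    (hdiv : ∀ P : Place Qb (laurentBaseChange Qb F₀), (m : ℤ) ∣ P.ord f) :
    ∃ h : laurentBaseChange Qb F₀, h ≠ 0 ∧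
      ((arithmeticRingAut F₀ σ (arithmeticRingAut F₀ σ f) : laurentBaseChange Qb F₀) :
          LaurentSeries Qb) * ((δ f : laurentBaseChange Qb F₀) : LaurentSeries Qb) ^ ℓ =
        heckeMul2 ℓ hℓ z ((arithmeticRingAut F₀ σ f : laurentBaseChange Qb F₀) : LaurentSeries Qb)
            ((δ (arithmeticRingAut F₀ σ f) : laurentBaseChange Qb F₀) : LaurentSeries Qb) *
          (h : LaurentSeries Qb) ^ m :=
  es_dia_gauss (placeSetting F₀) hℓ A hA hG (k1_of_k1Ord hK1) z hz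
    (δ : laurentBaseChange Qb F₀ →+* laurentBaseChange Qb F₀) (twist_of_algEquiv F₀ δ hcomm)
    hT hℓm hσ f hf hdiv

/-- **Packaged (unr) for a base-changed field of `q`-series.** -/
theorem unr_place (F₀ : IntermediateField ℚ (LaurentSeries ℚ)) {q m : ℕ}
    (A : ValuationSubring Qb) (hG : HasGaussNorm (laurentBaseChange Qb F₀) A)
    (hK1 : K1Ord F₀ q A) (hqm : ¬ q ∣ m) {τ : Gq} (hτ : τ ∈ A.inertiaSubgroupIn ℚ)
    (f : laurentBaseChange Qb F₀) (hf : f ≠ 0)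
    (hdiv : ∀ P : Place Qb (laurentBaseChange Qb F₀), (m : ℤ) ∣ P.ord f) :
    ∃ h : laurentBaseChange Qb F₀, h ≠ 0 ∧ arithmeticRingAut F₀ τ f = f * h ^ m :=
  inertia_trivial (placeSetting F₀) A hG (k1_of_k1Ord hK1) hqm hτ f hf hdiv

end Fermat.Agent.S48.ExitD
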