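import Fermat.Agent.S48.ConjEisInst
import Fermat.Agent.S48.Neben

/-!
# S48, brick C from the frozen hypotheses alone

`S48/Neben.lean` (brick A) gives the nebentypus of a weight-one cusp form `f` on `Γ₁(N)`
satisfying the formal Hecke relations of the frozen statement S48; `S48/ConjEisInst.lean` then
gives, with NO further hypothesis:

* `conj_of_rel`       : for every ring endomorphism `σ` of `ℂ` the coefficientwise conjugate of
  `f` is a weight-one cusp form on `Γ₁(N)`, normalised, satisfying the conjugate relations;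
* `isIntegral_of_rel` : the eigenvalues `a_p`, `p ∤ N`, are algebraic integers;
* `lattice_of_rel`, `adjoin_fg_of_rel` : the integrality lattice; `ℤ[a_p, ε]` is a finitely
  generated `ℤ`-module.
-/

set_option autoImplicit false

namespace Fermat.Agent.S48.ConjEis

open UpperHalfPlane ModularForm CongruenceSubgroup
open scoped MatrixGroups ModularForm Manifold

/-- Brick A in the vocabulary of this directory. -/
theorem hasNeben_of_rel (N : ℕ) [NeZero N] (ε : DirichletCharacter ℂ N)
    (f : CuspForm (Gamma1 N) 1)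
    (hT : ∀ p : ℕ, p.Prime → ¬ p ∣ N → ∀ n : ℕ,
        ModularFormClass.qCoeff f (p * n) +
            ε (p : ZMod N) * (if p ∣ n then ModularFormClass.qCoeff f (n / p) else 0) =
          ModularFormClass.qCoeff f p * ModularFormClass.qCoeff f n) :
    HasNeben ε N 1 f :=
  fun γ hγ => Neben.slash_eq_smul N ε f hT γ hγ

/-- **Conjugates.**  Under the frozen hypotheses of S48, for every ring endomorphism `σ` of `ℂ`
there is a normalised weight-one cusp form on `Γ₁(N)` with `q`-coefficients `σ (a_n(f))`; it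
satisfies the formal Hecke relations with `(σ a_p, σ ∘ ε)`. -/
theorem conj_of_rel (N : ℕ) [NeZero N] (ε : DirichletCharacter ℂ N)
    (f : CuspForm (Gamma1 N) 1)
    (hf₁ : ModularFormClass.qCoeff f 1 = 1)
    (hT : ∀ p : ℕ, p.Prime → ¬ p ∣ N → ∀ n : ℕ,
        ModularFormClass.qCoeff f (p * n) +
            ε (p : ZMod N) * (if p ∣ n then ModularFormClass.qCoeff f (n / p) else 0) =
          ModularFormClass.qCoeff f p * ModularFormClass.qCoeff f n)
    (σ : ℂ →+* ℂ) :
    ∃ h : CuspForm (Gamma1 N) 1,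
      (∀ n : ℕ, ModularFormClass.qCoeff h n = σ (ModularFormClass.qCoeff f n)) ∧
      ModularFormClass.qCoeff h 1 = 1 ∧
      ∀ p : ℕ, p.Prime → ¬ p ∣ N → ∀ n : ℕ,
        ModularFormClass.qCoeff h (p * n) +
            σ (ε (p : ZMod N)) * (if p ∣ n then ModularFormClass.qCoeff h (n / p) else 0) =
          σ (ModularFormClass.qCoeff f p) * ModularFormClass.qCoeff h n :=
  conj_rel N ε f hf₁ hT (hasNeben_of_rel N ε f hT) σ

/-- Conjugates of ANY form satisfying the relations (no normalisation needed). -/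
theorem conj_of_rel' (N : ℕ) [NeZero N] (ε : DirichletCharacter ℂ N)
    (f : CuspForm (Gamma1 N) 1)
    (hT : ∀ p : ℕ, p.Prime → ¬ p ∣ N → ∀ n : ℕ,
        ModularFormClass.qCoeff f (p * n) +
            ε (p : ZMod N) * (if p ∣ n then ModularFormClass.qCoeff f (n / p) else 0) =
          ModularFormClass.qCoeff f p * ModularFormClass.qCoeff f n)
    (σ : ℂ →+* ℂ) :
    ∃ h : CuspForm (Gamma1 N) 1,
      ∀ n : ℕ, ModularFormClass.qCoeff h n = σ (ModularFormClass.qCoeff f n) :=
  conj_cuspForm N ε f (hasNeben_of_rel N ε f hT) σ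

/-- **Integrality.**  Under the frozen hypotheses of S48 the eigenvalues `a_p`, `p ∤ N`, are
algebraic integers. -/
theorem isIntegral_of_rel (N : ℕ) [NeZero N] (ε : DirichletCharacter ℂ N)
    (f : CuspForm (Gamma1 N) 1)
    (hf₁ : ModularFormClass.qCoeff f 1 = 1)
    (hT : ∀ p : ℕ, p.Prime → ¬ p ∣ N → ∀ n : ℕ,
        ModularFormClass.qCoeff f (p * n) +
            ε (p : ZMod N) * (if p ∣ n then ModularFormClass.qCoeff f (n / p) else 0) =
          ModularFormClass.qCoeff f p * ModularFormClass.qCoeff f n)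
    (p : ℕ) (hp : p.Prime) (hpN : ¬ p ∣ N) :
    IsIntegral ℤ (ModularFormClass.qCoeff f p) :=
  isIntegral_eigen N ε f hf₁ hT (hasNeben_of_rel N ε f hT) p hp hpN

/-- **The integrality lattice** under the frozen hypotheses. -/
theorem lattice_of_rel (N : ℕ) [NeZero N] (ε : DirichletCharacter ℂ N)
    (f : CuspForm (Gamma1 N) 1)
    (hf₁ : ModularFormClass.qCoeff f 1 = 1)
    (hT : ∀ p : ℕ, p.Prime → ¬ p ∣ N → ∀ n : ℕ,
        ModularFormClass.qCoeff f (p * n) +
            ε (p : ZMod N) * (if p ∣ n then ModularFormClass.qCoeff f (n / p) else 0) =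
          ModularFormClass.qCoeff f p * ModularFormClass.qCoeff f n) :
    ∃ Λ : Submodule ℤ ℂ, Λ.FG ∧ (1 : ℂ) ∈ Λ ∧
      (∀ p : ℕ, p.Prime → ¬ p ∣ N → ∀ x ∈ Λ, ModularFormClass.qCoeff f p * x ∈ Λ) ∧
      (∀ d : ZMod N, ∀ x ∈ Λ, ε d * x ∈ Λ) :=
  lattice N ε f hf₁ hT (hasNeben_of_rel N ε f hT)

/-- `ℤ[a_p (p ∤ N), ε]` is a finitely generated `ℤ`-module under the frozen hypotheses. -/
theorem adjoin_fg_of_rel (N : ℕ) [NeZero N] (ε : DirichletCharacter ℂ N)
    (f : CuspForm (Gamma1 N) 1)
    (hf₁ : ModularFormClass.qCoeff f 1 = 1)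
    (hT : ∀ p : ℕ, p.Prime → ¬ p ∣ N → ∀ n : ℕ,
        ModularFormClass.qCoeff f (p * n) +
            ε (p : ZMod N) * (if p ∣ n then ModularFormClass.qCoeff f (n / p) else 0) =
          ModularFormClass.qCoeff f p * ModularFormClass.qCoeff f n) :
    (Subalgebra.toSubmodule (Algebra.adjoin ℤ
      ({x : ℂ | ∃ p : ℕ, p.Prime ∧ ¬ p ∣ N ∧ x = ModularFormClass.qCoeff f p} ∪
        Set.range ε))).FG :=
  adjoin_eigen_fg N ε f hf₁ hT (hasNeben_of_rel N ε f hT)

end Fermat.Agent.S48.ConjEis
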