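import Fermat.Agent.S48.ConjEis
import Fermat.Agent.S48.TwistC.Eis3

/-!
# S48, brick C: the auxiliary form is the weight-3 Eisenstein series with character

`HAux N ε` of `S48/ConjEis.lean` is discharged by `TwistC.eis3 ε⁻¹` (level `M = N`, weight
`w = 3`), for every odd Dirichlet character `ε`.  Hence, for a weight-one cusp form `f` on
`Γ₁(N)` with nebentypus `ε` (brick A):

* `conj_cuspForm`     : every coefficientwise conjugate of `f` is a weight-one cusp form on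
  `Γ₁(N)` (the same level);
* `lattice`           : the integrality lattice for the eigenvalues `a_p`, `p ∤ N`;
* `isIntegral_eigen`  : the `a_p` are algebraic integers;
* `adjoin_eigen_fg`   : `ℤ[a_p, ε]` is a finitely generated `ℤ`-module.
-/

set_option autoImplicit false

namespace Fermat.Agent.S48.ConjEis

open UpperHalfPlane ModularForm CongruenceSubgroup
open scoped MatrixGroups ModularForm Manifold

/-- `ε⁻¹` is odd when `ε` is. -/
theorem inv_neg_one {N : ℕ} (ε : DirichletCharacter ℂ N) (hodd : ε (-1) = -1) :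
    ε⁻¹ (-1) = -1 := by
  have h1 : IsUnit (-1 : ZMod N) := isUnit_one.neg
  have h2 := inv_mul_apply_of_isUnit ε h1
  rw [hodd] at h2
  linear_combination -h2

/-- The values of `ε⁻¹` are values of `ε`. -/
theorem inv_apply_mem_range {N : ℕ} (ε : DirichletCharacter ℂ N) (a : ZMod N) :
    ε⁻¹ a ∈ Set.range ε := by
  rw [MulChar.inv_apply]
  exact Set.mem_range_self _

theorem dsum_mem_adjoin {N : ℕ} (ε : DirichletCharacter ℂ N) (n : ℕ) :
    TwistC.dsum (TwistC.chiN ε⁻¹) 2 n ∈ Algebra.adjoin ℤ (Set.range ε) := by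
  unfold TwistC.dsum
  refine Subalgebra.sum_mem _ fun x _ => ?_
  refine Subalgebra.mul_mem _ (Algebra.subset_adjoin (inv_apply_mem_range ε _)) ?_
  exact Subalgebra.pow_mem _ (natCast_mem _ _) _

theorem map_dsum_chiN {N : ℕ} (χ : DirichletCharacter ℂ N) (σ : ℂ →+* ℂ) (n : ℕ) :
    σ (TwistC.dsum (TwistC.chiN χ) 2 n) = TwistC.dsum (TwistC.chiN (χ.ringHomComp σ)) 2 n := by
  unfold TwistC.dsum TwistC.chiN
  rw [map_sum]
  refine Finset.sum_congr rfl fun x _ => ?_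
  rw [map_mul, map_pow, map_natCast σ, MulChar.ringHomComp_apply]

/-- **`HAux` holds for every odd character**, with `M = N` and `w = 3`. -/
theorem hAux (N : ℕ) [NeZero N] (ε : DirichletCharacter ℂ N) (hodd : ε (-1) = -1) :
    HAux N ε := by
  have hχ : ε⁻¹ (-1) = -1 := inv_neg_one ε hodd
  refine ⟨N, 3, dvd_rfl, NeZero.ne N, TwistC.eis3 ε⁻¹, ?_, ?_, ?_, ?_, ?_⟩
  · intro γ hγ
    rw [TwistC.coe_eis3]
    exact TwistC.eis3Fun_slash ε⁻¹ hγ
  · unfold ModularFormClass.qCoeff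
    rw [TwistC.qExpansion_eis3_coeff ε⁻¹ hχ, TwistC.dsum_zero]
  · unfold ModularFormClass.qCoeff
    rw [TwistC.qExpansion_eis3_coeff ε⁻¹ hχ, TwistC.dsum_one]
    simp [TwistC.chiN]
  · intro n
    unfold ModularFormClass.qCoeff
    rw [TwistC.qExpansion_eis3_coeff ε⁻¹ hχ]
    exact dsum_mem_adjoin ε n
  · intro σ
    have hσχ : (ε⁻¹.ringHomComp σ) (-1) = -1 := by
      rw [MulChar.ringHomComp_apply, hχ, map_neg, map_one]
    refine ⟨TwistC.eis3 (ε⁻¹.ringHomComp σ), fun n => ?_⟩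
    unfold ModularFormClass.qCoeff
    rw [TwistC.qExpansion_eis3_coeff _ hσχ, TwistC.qExpansion_eis3_coeff ε⁻¹ hχ, map_dsum_chiN]

/-- A nonzero weight-one form with nebentypus `ε` forces `ε` to be odd. -/
theorem odd_of_neben {N : ℕ} (ε : DirichletCharacter ℂ N) {F : ℍ → ℂ} (hF : F ≠ 0)
    (hA : HasNeben ε N 1 F) : ε (-1) = -1 := by
  have hmem : (-1 : SL(2, ℤ)) ∈ Gamma0 N := by
    rw [Gamma0_mem]
    simp
  have h1 := hA (-1) hmem
  obtain ⟨τ, hτ⟩ : ∃ τ : ℍ, F τ ≠ 0 := by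
    by_contra hcon
    push Not at hcon
    exact hF (funext hcon)
  have h2 := congrFun h1 τ
  rw [SL_slash_apply, Pi.smul_apply, smul_eq_mul] at h2
  have h3 : ((-1 : SL(2, ℤ)) • τ : ℍ) = τ := by
    have := ModularGroup.SL_neg_smul (1 : SL(2, ℤ)) τ
    rwa [one_smul] at this
  have h4 : denom ((-1 : SL(2, ℤ)) : GL (Fin 2) ℝ) τ = -1 := by
    simp [denom]
  rw [h3, h4] at h2
  have h5 : (((-1 : SL(2, ℤ)) 1 1 : ℤ) : ZMod N) = -1 := by simp
  rw [h5] at h2
  have h6 : F τ * (-1 : ℂ) ^ (-(1 : ℤ)) = -F τ := by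
    rw [zpow_neg_one]
    norm_num
  rw [h6] at h2
  have h7 : (ε (-1) + 1) * F τ = 0 := by linear_combination -h2
  rcases mul_eq_zero.mp h7 with h | h
  · linear_combination h
  · exact absurd h hτ

theorem ne_zero_of_qCoeff_one {N : ℕ} (f : CuspForm (Gamma1 N) 1)
    (hf₁ : ModularFormClass.qCoeff f 1 = 1) : (f : ℍ → ℂ) ≠ 0 := by
  intro h0
  unfold ModularFormClass.qCoeff at hf₁
  rw [h0] at hf₁
  have h1 : qExpansion 1 (0 : ℍ → ℂ) = 0 := qExpansion_zero 1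
  rw [h1] at hf₁
  simp at hf₁

/-- **Conjugates, at the same level.**  If `f ∈ S₁(Γ₁(N))` has nebentypus `ε`, then for every
ring endomorphism `σ` of `ℂ` the coefficientwise conjugate of `f` is the `q`-expansion of a
weight-one cusp form on `Γ₁(N)`. -/
theorem conj_cuspForm (N : ℕ) [NeZero N] (ε : DirichletCharacter ℂ N)
    (f : CuspForm (Gamma1 N) 1) (hA : HasNeben ε N 1 f) (σ : ℂ →+* ℂ) :
    ∃ h : CuspForm (Gamma1 N) 1,
      ∀ n : ℕ, ModularFormClass.qCoeff h n = σ (ModularFormClass.qCoeff f n) := by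
  by_cases hf : (f : ℍ → ℂ) = 0
  · refine ⟨0, fun n => ?_⟩
    unfold ModularFormClass.qCoeff
    rw [hf]
    have h1 : qExpansion 1 (0 : ℍ → ℂ) = 0 := qExpansion_zero 1
    have h2 : qExpansion 1 ((0 : CuspForm (Gamma1 N) 1) : ℍ → ℂ) = 0 := h1
    rw [h2, h1]
    simp
  have hodd : ε (-1) = -1 := odd_of_neben ε hf hA
  have hχ : ε⁻¹ (-1) = -1 := inv_neg_one ε hodd
  have hσχ : (ε⁻¹.ringHomComp σ) (-1) = -1 := by
    rw [MulChar.ringHomComp_apply, hχ, map_neg, map_one]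
  have hE : HasNeben ε⁻¹ N 3 (TwistC.eis3 ε⁻¹) := by
    intro γ hγ
    rw [TwistC.coe_eis3]
    exact TwistC.eis3Fun_slash ε⁻¹ hγ
  have hE0 : qExpansion 1 (TwistC.eis3 ε⁻¹) ≠ 0 := by
    intro h0
    have h1 := TwistC.qExpansion_eis3_coeff ε⁻¹ hχ 1
    rw [h0, TwistC.dsum_one] at h1
    simp [TwistC.chiN] at h1
  have hE' : qExpansion 1 (TwistC.eis3 (ε⁻¹.ringHomComp σ)) =
      PowerSeries.map σ (qExpansion 1 (TwistC.eis3 ε⁻¹)) := by
    ext n
    rw [PowerSeries.coeff_map, TwistC.qExpansion_eis3_coeff _ hσχ,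
      TwistC.qExpansion_eis3_coeff ε⁻¹ hχ, map_dsum_chiN]
  obtain ⟨h, hh⟩ := exists_conj_of_aux (dvd_refl N) ε f hA (TwistC.eis3 ε⁻¹) hE hE0 σ
    (TwistC.eis3 (ε⁻¹.ringHomComp σ)) hE'
  refine ⟨h, fun n => ?_⟩
  unfold ModularFormClass.qCoeff
  rw [hh, PowerSeries.coeff_map]

/-- **Conjugates with the conjugate Hecke relations**, at the same level. -/
theorem conj_rel (N : ℕ) [NeZero N] (ε : DirichletCharacter ℂ N)
    (f : CuspForm (Gamma1 N) 1)
    (hf₁ : ModularFormClass.qCoeff f 1 = 1)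
    (hT : ∀ p : ℕ, p.Prime → ¬ p ∣ N → ∀ n : ℕ,
        ModularFormClass.qCoeff f (p * n) +
            ε (p : ZMod N) * (if p ∣ n then ModularFormClass.qCoeff f (n / p) else 0) =
          ModularFormClass.qCoeff f p * ModularFormClass.qCoeff f n)
    (hA : HasNeben ε N 1 f) (σ : ℂ →+* ℂ) :
    ∃ h : CuspForm (Gamma1 N) 1,
      (∀ n : ℕ, ModularFormClass.qCoeff h n = σ (ModularFormClass.qCoeff f n)) ∧
      ModularFormClass.qCoeff h 1 = 1 ∧
      ∀ p : ℕ, p.Prime → ¬ p ∣ N → ∀ n : ℕ,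
        ModularFormClass.qCoeff h (p * n) +
            σ (ε (p : ZMod N)) * (if p ∣ n then ModularFormClass.qCoeff h (n / p) else 0) =
          σ (ModularFormClass.qCoeff f p) * ModularFormClass.qCoeff h n := by
  obtain ⟨h, hh⟩ := conj_cuspForm N ε f hA σ
  refine ⟨h, hh, by rw [hh, hf₁, map_one], fun p hp hpN n => ?_⟩
  have h1 := congrArg σ (hT p hp hpN n)
  rw [map_add, map_mul, map_mul] at h1
  simp only [hh]
  rw [← h1]
  congr 2
  split_ifs
  · rfl
  · rw [map_zero]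

/-- **The integrality lattice**, from brick A alone. -/
theorem lattice (N : ℕ) [NeZero N] (ε : DirichletCharacter ℂ N)
    (f : CuspForm (Gamma1 N) 1)
    (hf₁ : ModularFormClass.qCoeff f 1 = 1)
    (hT : ∀ p : ℕ, p.Prime → ¬ p ∣ N → ∀ n : ℕ,
        ModularFormClass.qCoeff f (p * n) +
            ε (p : ZMod N) * (if p ∣ n then ModularFormClass.qCoeff f (n / p) else 0) =
          ModularFormClass.qCoeff f p * ModularFormClass.qCoeff f n)
    (hA : HasNeben ε N 1 f) :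
    ∃ Λ : Submodule ℤ ℂ, Λ.FG ∧ (1 : ℂ) ∈ Λ ∧
      (∀ p : ℕ, p.Prime → ¬ p ∣ N → ∀ x ∈ Λ, ModularFormClass.qCoeff f p * x ∈ Λ) ∧
      (∀ d : ZMod N, ∀ x ∈ Λ, ε d * x ∈ Λ) :=
  exists_lattice N ε f hf₁ hT hA
    (hAux N ε (odd_of_neben ε (ne_zero_of_qCoeff_one f hf₁) hA))

/-- The eigenvalues `a_p`, `p ∤ N`, are algebraic integers. -/
theorem isIntegral_eigen (N : ℕ) [NeZero N] (ε : DirichletCharacter ℂ N)
    (f : CuspForm (Gamma1 N) 1)
    (hf₁ : ModularFormClass.qCoeff f 1 = 1)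
    (hT : ∀ p : ℕ, p.Prime → ¬ p ∣ N → ∀ n : ℕ,
        ModularFormClass.qCoeff f (p * n) +
            ε (p : ZMod N) * (if p ∣ n then ModularFormClass.qCoeff f (n / p) else 0) =
          ModularFormClass.qCoeff f p * ModularFormClass.qCoeff f n)
    (hA : HasNeben ε N 1 f) (p : ℕ) (hp : p.Prime) (hpN : ¬ p ∣ N) :
    IsIntegral ℤ (ModularFormClass.qCoeff f p) :=
  isIntegral_qCoeff N ε f hf₁ hT hA
    (hAux N ε (odd_of_neben ε (ne_zero_of_qCoeff_one f hf₁) hA)) p hp hpN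

/-- `ℤ[a_p (p ∤ N), ε]` is a finitely generated `ℤ`-module. -/
theorem adjoin_eigen_fg (N : ℕ) [NeZero N] (ε : DirichletCharacter ℂ N)
    (f : CuspForm (Gamma1 N) 1)
    (hf₁ : ModularFormClass.qCoeff f 1 = 1)
    (hT : ∀ p : ℕ, p.Prime → ¬ p ∣ N → ∀ n : ℕ,
        ModularFormClass.qCoeff f (p * n) +
            ε (p : ZMod N) * (if p ∣ n then ModularFormClass.qCoeff f (n / p) else 0) =
          ModularFormClass.qCoeff f p * ModularFormClass.qCoeff f n)
    (hA : HasNeben ε N 1 f) :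
    (Subalgebra.toSubmodule (Algebra.adjoin ℤ
      ({x : ℂ | ∃ p : ℕ, p.Prime ∧ ¬ p ∣ N ∧ x = ModularFormClass.qCoeff f p} ∪
        Set.range ε))).FG :=
  adjoin_fg N ε f hf₁ hT hA
    (hAux N ε (odd_of_neben ε (ne_zero_of_qCoeff_one f hf₁) hA))

end Fermat.Agent.S48.ConjEis
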