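/-
S48 (Deligne–Serre), brick D: CLOSED exits for the weight one Eisenstein series with character.

`eisChi ℓ χ := Eis1Arith.eis (Eis1.divData ℓ) χ` for every level `ℓ ≥ 1` and every Dirichlet
character `χ` mod `ℓ` (of interest: `χ` odd):

* `qCoeff_eisChi_zero` : constant coefficient `-∑_{a<ℓ} χ(a) a`;
* `qCoeff_eisChi` : `N`-th coefficient `2ℓ ∑_{d ∣ N} χ(d)`, `N ≥ 1`;
* `eisChi_slash`, `eisChi_slash_mapGL` : nebentypus `χ` on `Γ₀(ℓ)`;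
* `exists_eisChi_congr` : for `ℓ` an odd prime and `r : 𝔸 →+* k`, `char k = ℓ`, the series for
  `χ = ω⁻¹` has coefficients `c n ∈ 𝔸` with `r (c 0) = 1`, `r (c n) = 0` (`n ≥ 1`).

Also the closed rational family `eisHa ℓ a := Eis1Arith.eisH (Eis1.divData ℓ) a`.
-/
import Mathlib
import Fermat.Prelude.Def_FLTPrelim_Modularity
import Fermat.Agent.S48.Eis1
import Fermat.Agent.S48.Eis1Arith.Teich
import Fermat.Agent.S48.Eis1Arith.EisH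

set_option autoImplicit false

namespace Fermat.Agent.S48.Eis1Char

open UpperHalfPlane ModularForm CongruenceSubgroup ModularFormClass Matrix.SpecialLinearGroup
open scoped MatrixGroups Manifold

noncomputable section

local notation "𝔸" => integralClosure ℤ ℂ

/-- The weight one Eisenstein series of level `ℓ` with character `χ`, integral normalisation:
`-∑_{a<ℓ} χ(a) a + 2ℓ ∑_{N ≥ 1} (∑_{d ∣ N} χ(d)) q^N` for `χ` odd. -/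
def eisChi (ℓ : ℕ) [NeZero ℓ] (χ : DirichletCharacter ℂ ℓ) :
    ModularForm (Gamma1 ℓ : Subgroup (GL (Fin 2) ℝ)) 1 :=
  Eis1Arith.eis (Eis1.divData ℓ) χ

theorem qCoeff_eisChi_zero (ℓ : ℕ) [NeZero ℓ] {χ : DirichletCharacter ℂ ℓ} (hχ : χ.Odd) :
    qCoeff (eisChi ℓ χ) 0 = -∑ a ∈ Finset.range ℓ, χ (a : ZMod ℓ) * a :=
  Eis1Arith.qCoeff_eis_zero _ hχ

theorem qCoeff_eisChi (ℓ : ℕ) [NeZero ℓ] {χ : DirichletCharacter ℂ ℓ} (hχ : χ.Odd) {N : ℕ}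
    (hN : N ≠ 0) :
    qCoeff (eisChi ℓ χ) N = 2 * ℓ * ∑ d ∈ N.divisors, χ (d : ZMod ℓ) :=
  Eis1Arith.qCoeff_eis _ hχ hN

/-- Nebentypus of `eisChi ℓ χ`, slash by elements of `SL(2, ℤ)`. -/
theorem eisChi_slash (ℓ : ℕ) [NeZero ℓ] (χ : DirichletCharacter ℂ ℓ) (γ : SL(2, ℤ))
    (hγ : γ ∈ Gamma0 ℓ) :
    (⇑(eisChi ℓ χ)) ∣[(1 : ℤ)] γ = χ ((γ 1 1 : ℤ) : ZMod ℓ) • ⇑(eisChi ℓ χ) :=
  Eis1Arith.eis_slash _ χ γ hγ

/-- Nebentypus of `eisChi ℓ χ`, in the shape consumed by `Hecke1.diamondMF_eq_smul_of_slash`. -/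
theorem eisChi_slash_mapGL (ℓ : ℕ) [NeZero ℓ] (χ : DirichletCharacter ℂ ℓ) :
    ∀ γ ∈ Gamma0 ℓ, (eisChi ℓ χ : ℍ → ℂ) ∣[(1 : ℤ)] (mapGL ℝ γ)
      = (fun x : ZMod ℓ => χ x) ((γ 1 1 : ℤ) : ZMod ℓ) • (eisChi ℓ χ : ℍ → ℂ) :=
  fun γ hγ => eisChi_slash ℓ χ γ hγ

/-- All coefficients of `eisChi ℓ χ` lie in the ring generated by the values of `χ`; in
particular they are algebraic integers. -/
theorem isIntegral_qCoeff_eisChi (ℓ : ℕ) [NeZero ℓ] {χ : DirichletCharacter ℂ ℓ} (hχ : χ.Odd)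
    (n : ℕ) : IsIntegral ℤ (qCoeff (eisChi ℓ χ) n) := by
  have hval : ∀ a : ZMod ℓ, IsIntegral ℤ (χ a) := by
    intro a
    by_cases ha : IsUnit a
    · have h1 : (χ a) ^ (Fintype.card (ZMod ℓ)ˣ) = 1 := by
        obtain ⟨u, rfl⟩ := ha
        rw [← map_pow, ← Units.val_pow_eq_pow_val, pow_card_eq_one, Units.val_one, map_one]
      exact IsIntegral.of_pow Fintype.card_pos (h1 ▸ isIntegral_one)
    · rw [MulChar.map_nonunit χ ha]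
      exact isIntegral_zero
  by_cases hn : n = 0
  · subst hn
    rw [qCoeff_eisChi_zero ℓ hχ]
    exact (IsIntegral.sum _ fun a _ => (hval _).mul (isIntegral_natCast a)).neg
  · rw [qCoeff_eisChi ℓ hχ hn]
    have h2 : (2 : ℂ) * ℓ = ((2 * ℓ : ℕ) : ℂ) := by push_cast; ring
    rw [h2]
    exact (isIntegral_natCast (2 * ℓ)).mul (IsIntegral.sum _ fun d _ => hval _)

/-- **Exit of brick D (congruence form), closed.**  For an odd prime `ℓ`, a field `k` of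
characteristic `ℓ` and `r : 𝔸 →+* k`: the Eisenstein series `eisChi ℓ χ` for `χ = ω⁻¹`
(`r (χ a) * a = 1` for `ℓ ∤ a`) has integral coefficients `c n`, with `r (c 0) = 1` and
`r (c n) = 0` for `n ≥ 1`. -/
theorem exists_eisChi_congr {ℓ : ℕ} [Fact ℓ.Prime] (hℓ2 : ℓ ≠ 2) {k : Type*} [Field k]
    [CharP k ℓ] (r : 𝔸 →+* k) :
    ∃ (χ : DirichletCharacter ℂ ℓ) (X : ZMod ℓ → 𝔸) (c : ℕ → 𝔸), χ.Odd ∧
      (∀ a, (X a : ℂ) = χ a) ∧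
      (∀ a : ℕ, ¬ ℓ ∣ a → r (X (a : ZMod ℓ)) * (a : k) = 1) ∧
      (∀ n, qCoeff (eisChi ℓ χ) n = (c n : ℂ)) ∧ r (c 0) = 1 ∧ ∀ n, n ≠ 0 → r (c n) = 0 :=
  Eis1Arith.exists_eis_congr hℓ2 (Eis1.divData ℓ) r

/-! ### The rational family -/

/-- The rational weight one Eisenstein series `H_a` of level `ℓ`. -/
def eisHa (ℓ : ℕ) [NeZero ℓ] (a : ZMod ℓ) : ModularForm (Gamma1 ℓ : Subgroup (GL (Fin 2) ℝ)) 1 :=
  Eis1Arith.eisH (Eis1.divData ℓ) a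

theorem qCoeff_eisHa_zero (ℓ : ℕ) [NeZero ℓ] {a : ZMod ℓ} (ha : a ≠ 0) :
    qCoeff (eisHa ℓ a) 0 = (a.val : ℂ) / ℓ - 1 / 2 :=
  Eis1Arith.qCoeff_eisH_zero _ ha

theorem qCoeff_eisHa (ℓ : ℕ) [NeZero ℓ] (a : ZMod ℓ) {M : ℕ} (hM : M ≠ 0) :
    qCoeff (eisHa ℓ a) M
      = -(((M.divisors.filter fun d : ℕ => (d : ZMod ℓ) = a).card : ℂ)
          - ((M.divisors.filter fun d : ℕ => (d : ZMod ℓ) = -a).card : ℂ)) :=
  Eis1Arith.qCoeff_eisH _ a hM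

theorem eisHa_slash (ℓ : ℕ) [NeZero ℓ] (a : ZMod ℓ) (γ : SL(2, ℤ)) (hγ : γ ∈ Gamma0 ℓ) :
    (⇑(eisHa ℓ a)) ∣[(1 : ℤ)] γ = ⇑(eisHa ℓ (a * ((γ 0 0 : ℤ) : ZMod ℓ))) :=
  Eis1Arith.eisH_slash _ a γ hγ

end

end Fermat.Agent.S48.Eis1Char
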