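/-
DS brick C1.EisG (S48, Deligne-Serre): the `Γ₁(M)`-specific integral forms needed by the port of
the S23 chain (integral `q`-basis of `S_k(Γ₁(M))`).

For `k ≥ 3` and `a : ZMod M`, `gEis M k hk a` is the modular form of weight `k` on `Γ₁(M)`

  `(k-1)!/(-2πi)^k · ∑_{(m,n) ∈ ℤ², m ≡ a (M)} (m τ + n)^(-k)`.

* `qExpansion_gEis_coeff` : for `a ≠ 0` its `n`-th `q`-coefficient is the INTEGER
  `coeffG M k a n = ∑_{d e = n} ([d ≡ a] + (-1)^k [d ≡ -a]) e^(k-1)`;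
* `gEis_slash` : for `A ∈ Γ₀(M)`, `gEis M k a ∣[k] A = gEis M k (a * A₀₀)`;
* `gEis_one_ne_zero`, `gEis_one_slash_ne` : `gEis M k 1 ≠ 0`, and it is moved by every element of
  `Γ₀(M)` outside `±Γ₁(M)` (`M ≥ 3`).

Built on the landed `Lib/EisCharGen` (weighted lattice sums `eisW`).
-/
import Mathlib
import Fermat.Agent.Lib.EisCharGen

set_option autoImplicit false

open ModularForm Complex Matrix CongruenceSubgroup Set Filter Topology
open UpperHalfPlane hiding I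
open EisensteinSeries Nat
open scoped MatrixGroups Manifold Real

namespace Fermat.Agent.S48.EisG

open Fermat.Agent.Lib.EisCharGen

noncomputable section

section defs

variable (M : ℕ)

/-- Indicator of the residue class `m ≡ a (mod M)`. -/
def ind (a : ZMod M) (m : ℤ) : ℂ := if (m : ZMod M) = a then 1 else 0

/-- Indicator weight of the rows `v` with `v 0 ≡ a (mod M)`. -/
def wA (a : ZMod M) (v : Fin 2 → ℤ) : ℂ := ind M a (v 0)

lemma norm_ind_le (a : ZMod M) (m : ℤ) : ‖ind M a m‖ ≤ 1 := by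
  unfold ind; split_ifs <;> simp

lemma norm_wA_le (a : ZMod M) (v : Fin 2 → ℤ) : ‖wA M a v‖ ≤ 1 := norm_ind_le M a _

/-- The unnormalised lattice sum `∑_{m ≡ a (M), n} (m τ + n)^(-k)`. -/
def gRaw (k : ℤ) (a : ZMod M) : ℍ → ℂ := eisW (wA M a) k

lemma wA_vecMul_inv (a : ZMod M) (A : SL(2, ℤ)) (hA : A ∈ Gamma0 M) (v : Fin 2 → ℤ) :
    wA M a (v ᵥ* A⁻¹.1) = wA M (a * ((A.1 0 0 : ℤ) : ZMod M)) v := by
  have h10 : ((A.1 1 0 : ℤ) : ZMod M) = 0 := Gamma0_mem.mp hA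
  have hdet : A.1 0 0 * A.1 1 1 - A.1 0 1 * A.1 1 0 = 1 := by
    have := A.2
    rw [Matrix.det_fin_two] at this
    exact this
  have hdet' : ((A.1 0 0 : ℤ) : ZMod M) * ((A.1 1 1 : ℤ) : ZMod M) = 1 := by
    have := congrArg (Int.cast : ℤ → ZMod M) hdet
    push_cast at this
    rw [h10, mul_zero, sub_zero] at this
    exact this
  have hv : (((v ᵥ* A⁻¹.1) 0 : ℤ) : ZMod M) = ((v 0 : ℤ) : ZMod M) * ((A.1 1 1 : ℤ) : ZMod M) := by
    rw [Matrix.SpecialLinearGroup.coe_inv, Matrix.adjugate_fin_two]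
    simp [Matrix.vecMul, dotProduct, Fin.sum_univ_two, h10]
  unfold wA ind
  rw [hv]
  congr 1
  apply propext
  constructor
  · intro h
    rw [← h, mul_assoc, mul_comm ((A.1 1 1 : ℤ) : ZMod M), hdet', mul_one]
  · intro h
    rw [h, mul_assoc, hdet', mul_one]

lemma gRaw_slash (k : ℤ) (a : ZMod M) (A : SL(2, ℤ)) (hA : A ∈ Gamma0 M) :
    gRaw M k a ∣[k] A = gRaw M k (a * ((A.1 0 0 : ℤ) : ZMod M)) := by
  unfold gRaw
  rw [eisW_slash]
  congr 1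
  funext v
  exact wA_vecMul_inv M a A hA v

lemma gRaw_slash_Gamma1 (k : ℤ) (a : ZMod M) (A : SL(2, ℤ)) (hA : A ∈ Gamma1 M) :
    gRaw M k a ∣[k] A = gRaw M k a := by
  have h := (Gamma1_mem M A).mp hA
  rw [gRaw_slash M k a A (Gamma0_mem.mpr h.2.2), h.1, mul_one]

/-- The lattice sum as a modular form on `Γ₁(M)`. -/
def gRawMF [NeZero M] {k : ℤ} (hk : 3 ≤ k) (a : ZMod M) :
    ModularForm ((Gamma1 M : Subgroup SL(2, ℤ)) : Subgroup (GL (Fin 2) ℝ)) k where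
  toFun := gRaw M k a
  slash_action_eq' A hA := by
    obtain ⟨A, hA, rfl⟩ := hA
    exact gRaw_slash_Gamma1 M k a A hA
  holo' := eisW_mdifferentiable (norm_wA_le M a) hk
  bdd_at_cusps' {c} hc := by
    rw [Subgroup.IsArithmetic.isCusp_iff_isCusp_SL2Z] at hc
    rw [OnePoint.isBoundedAt_iff_forall_SL2Z hc]
    intro γ _
    exact isBoundedAtImInfty_eisW_slash (norm_wA_le M a) hk γ

end defs

section qexp

variable {M : ℕ}

lemma eisSummand_eq (k : ℕ) (m n : ℤ) (τ : ℍ) :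
    eisSummand k ![m, n] τ = 1 / ((m : ℂ) * τ + n) ^ k := by
  simp [eisSummand]

/-- Row sums of the lattice sum. -/
def rowSum (k : ℕ) (τ : ℍ) (m : ℤ) : ℂ := ∑' n : ℤ, eisSummand k ![m, n] τ

lemma rowSum_neg (k : ℕ) (τ : ℍ) (m : ℤ) : rowSum k τ (-m) = (-1) ^ k * rowSum k τ m := by
  unfold rowSum
  rw [← tsum_comp_neg, ← tsum_mul_left]
  refine tsum_congr fun n => ?_
  rw [eisSummand_eq, eisSummand_eq]
  have h : ((-m : ℤ) : ℂ) * τ + ((-n : ℤ) : ℂ) = -((m : ℂ) * τ + n) := by push_cast; ring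
  rw [h, neg_pow]
  rcases Nat.even_or_odd k with hk | hk
  · simp [hk.neg_one_pow]
  · simp [hk.neg_one_pow]

lemma rowSum_pnat {k : ℕ} (hk : 3 ≤ k) (τ : ℍ) (m : ℕ+) :
    rowSum k τ (m : ℤ) = ((-2 * π * I) ^ k / (k - 1)!) *
      ∑' d : ℕ+, (d : ℂ) ^ (k - 1) * cexp (2 * π * I * τ) ^ ((m : ℕ) * (d : ℕ)) := by
  have hm : 0 < ((m : ℂ) * (τ : ℂ)).im := by simpa using τ.2
  have H := qExpansion_identity_pnat (k := k - 1) (by omega) ⟨(m : ℂ) * τ, hm⟩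
  rw [show k - 1 + 1 = k by omega] at H
  unfold rowSum
  have h1 : ∀ n : ℤ, eisSummand k ![(m : ℤ), n] τ = 1 / (((⟨(m : ℂ) * τ, hm⟩ : ℍ) : ℂ) + n) ^ k := by
    intro n
    rw [eisSummand_eq]
    simp
  rw [tsum_congr h1, H]
  congr 1
  refine tsum_congr fun d => ?_
  congr 1
  rw [← Complex.exp_nat_mul, ← Complex.exp_nat_mul]
  congr 1
  push_cast
  ring

/-- Summability of the weighted family over `ℤ × ℤ`. -/
lemma summable_prod_ind {k : ℕ} (hk : 3 ≤ k) (a : ZMod M) (τ : ℍ) :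
    Summable fun x : ℤ × ℤ => ind M a x.1 * eisSummand k ![x.1, x.2] τ := by
  have h := summable_norm_iff.mpr (summable_prod_eisSummand hk τ)
  refine Summable.of_norm_bounded h (fun x => ?_)
  rw [norm_mul]
  exact mul_le_of_le_one_left (norm_nonneg _) (norm_ind_le M a _)

lemma gRaw_eq_tsum_rows {k : ℕ} (hk : 3 ≤ k) (a : ZMod M) (τ : ℍ) :
    gRaw M k a τ = ∑' m : ℤ, ind M a m * rowSum k τ m := by
  unfold gRaw eisW
  rw [← (finTwoArrowEquiv ℤ).symm.tsum_eq]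
  simp only [finTwoArrowEquiv_symm_apply, wA, Matrix.cons_val_zero]
  rw [Summable.tsum_prod (summable_prod_ind hk a τ)]
  refine tsum_congr fun m => ?_
  unfold rowSum
  dsimp only
  rw [tsum_mul_left]

lemma summable_rows {k : ℕ} (hk : 3 ≤ k) (a : ZMod M) (τ : ℍ) :
    Summable fun m : ℤ => ind M a m * rowSum k τ m := by
  refine (summable_prod_ind hk a τ).prod.congr fun m => ?_
  unfold rowSum
  dsimp only
  rw [tsum_mul_left]

lemma ind_zero {a : ZMod M} (ha : a ≠ 0) : ind M a 0 = 0 := by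
  unfold ind
  rw [if_neg]
  simpa using ha.symm

/-- The integer weight `[m ≡ a] + (-1)^k [m ≡ -a]`. -/
def uU (M : ℕ) (k : ℕ) (a : ZMod M) (m : ℕ) : ℤ :=
  (if (m : ZMod M) = a then 1 else 0) + (-1) ^ k * (if (m : ZMod M) = -a then 1 else 0)

lemma ind_add_eq_uU (k : ℕ) (a : ZMod M) (m : ℕ) :
    ind M a (m : ℤ) + (-1) ^ k * ind M a (-(m : ℤ)) = (uU M k a m : ℂ) := by
  unfold ind uU
  have h : (((-(m : ℤ) : ℤ) : ZMod M) = a) ↔ ((m : ZMod M) = -a) := by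
    push_cast
    exact neg_eq_iff_eq_neg
  simp only [Int.cast_natCast, h]
  push_cast
  rfl

lemma gRaw_eq_pnat {k : ℕ} (hk : 3 ≤ k) (a : ZMod M) (ha : a ≠ 0) (τ : ℍ) :
    gRaw M k a τ = ∑' m : ℕ+, (uU M k a m : ℂ) * rowSum k τ (m : ℤ) := by
  rw [gRaw_eq_tsum_rows hk a τ, tsum_int_eq_zero_add_tsum_pnat (summable_rows hk a τ), ind_zero ha,
    zero_mul, zero_add]
  have h1 : Summable fun m : ℕ+ => ind M a (m : ℤ) * rowSum k τ (m : ℤ) := by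
    have hi : Function.Injective (fun m : ℕ+ => ((m : ℕ) : ℤ)) := fun x y h => by
      have h' : ((x : ℕ) : ℤ) = ((y : ℕ) : ℤ) := h
      exact PNat.coe_injective (by exact_mod_cast h')
    exact (summable_rows hk a τ).comp_injective hi
  have h2 : Summable fun m : ℕ+ => ind M a (-(m : ℤ)) * rowSum k τ (-(m : ℤ)) := by
    have hi : Function.Injective (fun m : ℕ+ => -((m : ℕ) : ℤ)) := fun x y h => by
      have h' : ((x : ℕ) : ℤ) = ((y : ℕ) : ℤ) := neg_injective h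
      exact PNat.coe_injective (by exact_mod_cast h')
    exact (summable_rows hk a τ).comp_injective hi
  rw [← h1.tsum_add h2]
  refine tsum_congr fun m => ?_
  rw [rowSum_neg, ← ind_add_eq_uU]
  ring

/-- The `n`-th `q`-coefficient. -/
def coeffG (M : ℕ) (k : ℕ) (a : ZMod M) (n : ℕ) : ℤ :=
  ∑ x ∈ n.divisorsAntidiagonal, uU M k a x.1 * (x.2 : ℤ) ^ (k - 1)

lemma norm_uU_le (k : ℕ) (a : ZMod M) (m : ℕ) : ‖(uU M k a m : ℂ)‖ ≤ 2 := by
  unfold uU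
  push_cast
  refine (norm_add_le _ _).trans ?_
  have h1 : ‖(if (m : ZMod M) = a then (1 : ℂ) else 0)‖ ≤ 1 := by split_ifs <;> simp
  have h2 : ‖(-1 : ℂ) ^ k * (if (m : ZMod M) = -a then (1 : ℂ) else 0)‖ ≤ 1 := by
    rw [norm_mul, norm_pow, norm_neg, norm_one, one_pow, one_mul]
    split_ifs <;> simp
  linarith

lemma summable_prod_uU (k : ℕ) (a : ZMod M) {r : ℂ} (hr : ‖r‖ < 1) (j : ℕ) :
    Summable fun c : ℕ+ × ℕ+ =>
      (uU M k a c.1 : ℂ) * (((c.2 : ℕ) : ℂ) ^ j * r ^ ((c.1 : ℕ) * (c.2 : ℕ))) := by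
  have h := summable_norm_iff.mpr (summable_prod_mul_pow (𝕜 := ℂ) j hr)
  refine Summable.of_norm_bounded (h.mul_left 2) (fun c => ?_)
  rw [norm_mul]
  exact mul_le_mul (norm_uU_le k a _) le_rfl (norm_nonneg _) (by norm_num)

lemma fiber_eq (k : ℕ) (a : ZMod M) (r : ℂ) (j : ℕ) (n : ℕ+) :
    ∑' x : (n : ℕ).divisorsAntidiagonal,
      ((fun c : ℕ+ × ℕ+ => (uU M k a c.1 : ℂ) *
        (((c.2 : ℕ) : ℂ) ^ j * r ^ ((c.1 : ℕ) * (c.2 : ℕ)))) ∘ sigmaAntidiagonalEquivProd) ⟨n, x⟩ =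
      (∑ x ∈ (n : ℕ).divisorsAntidiagonal, (uU M k a x.1 : ℂ) * (x.2 : ℂ) ^ j) * r ^ (n : ℕ) := by
  rw [tsum_fintype, Finset.univ_eq_attach, Finset.sum_mul,
    ← Finset.sum_attach ((n : ℕ).divisorsAntidiagonal)]
  refine Finset.sum_congr rfl fun x _ => ?_
  have hx := (Nat.mem_divisorsAntidiagonal.mp x.2).1
  show (uU M k a (x : ℕ × ℕ).1 : ℂ) * ((((x : ℕ × ℕ).2 : ℕ) : ℂ) ^ j *
    r ^ ((x : ℕ × ℕ).1 * (x : ℕ × ℕ).2)) = _
  rw [hx]
  ring

lemma tsum_prod_uU (k : ℕ) (a : ZMod M) {r : ℂ} (hr : ‖r‖ < 1) (j : ℕ) :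
    ∑' c : ℕ+ × ℕ+, (uU M k a c.1 : ℂ) * (((c.2 : ℕ) : ℂ) ^ j * r ^ ((c.1 : ℕ) * (c.2 : ℕ))) =
      ∑' n : ℕ+, (∑ x ∈ (n : ℕ).divisorsAntidiagonal, (uU M k a x.1 : ℂ) * (x.2 : ℂ) ^ j) *
        r ^ (n : ℕ) := by
  rw [← sigmaAntidiagonalEquivProd.tsum_eq]
  refine (Summable.tsum_sigma
    (sigmaAntidiagonalEquivProd.summable_iff.mpr (summable_prod_uU k a hr j))).trans ?_
  exact tsum_congr fun n => fiber_eq k a r j n

lemma summable_coeff_aux (k : ℕ) (a : ZMod M) {r : ℂ} (hr : ‖r‖ < 1) (j : ℕ) :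
    Summable fun n : ℕ+ =>
      (∑ x ∈ (n : ℕ).divisorsAntidiagonal, (uU M k a x.1 : ℂ) * (x.2 : ℂ) ^ j) * r ^ (n : ℕ) :=
  ((sigmaAntidiagonalEquivProd.summable_iff.mpr (summable_prod_uU k a hr j)).sigma).congr
    fun n => fiber_eq k a r j n

lemma coeffG_cast (k : ℕ) (a : ZMod M) (n : ℕ) :
    (coeffG M k a n : ℂ) = ∑ x ∈ n.divisorsAntidiagonal, (uU M k a x.1 : ℂ) * (x.2 : ℂ) ^ (k - 1) := by
  unfold coeffG
  push_cast
  rfl

lemma coeffG_zero (k : ℕ) (a : ZMod M) : coeffG M k a 0 = 0 := by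
  simp [coeffG]

lemma summable_coeffG (k : ℕ) (a : ZMod M) {r : ℂ} (hr : ‖r‖ < 1) :
    Summable fun n : ℕ+ => (coeffG M k a n : ℂ) * r ^ (n : ℕ) :=
  (summable_coeff_aux k a hr (k - 1)).congr fun n => by rw [coeffG_cast]

theorem gRaw_eq_tsum_coeff {k : ℕ} (hk : 3 ≤ k) (a : ZMod M) (ha : a ≠ 0) (τ : ℍ) :
    gRaw M k a τ = ((-2 * π * I) ^ k / (k - 1)!) *
      ∑' n : ℕ+, (coeffG M k a n : ℂ) * cexp (2 * π * I * τ) ^ (n : ℕ) := by
  have hq : ‖cexp (2 * π * I * τ)‖ < 1 := norm_exp_two_pi_I_lt_one τ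
  rw [gRaw_eq_pnat hk a ha τ]
  have key : ∀ m : ℕ+, (uU M k a m : ℂ) * rowSum k τ (m : ℤ) =
      ((-2 * π * I) ^ k / (k - 1)!) * ∑' d : ℕ+, (uU M k a m : ℂ) *
        (((d : ℕ) : ℂ) ^ (k - 1) * cexp (2 * π * I * τ) ^ ((m : ℕ) * (d : ℕ))) := by
    intro m
    rw [rowSum_pnat hk τ m, tsum_mul_left]
    ring
  rw [tsum_congr key, tsum_mul_left]
  congr 1
  refine ((summable_prod_uU k a hq (k - 1)).tsum_prod).symm.trans ?_
  rw [tsum_prod_uU k a hq (k - 1)]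
  refine tsum_congr fun n => ?_
  rw [coeffG_cast]

/-- The normalising constant `(-2πi)^k / (k-1)!`. -/
def cK (k : ℕ) : ℂ := (-2 * π * I) ^ k / (k - 1)!

lemma cK_ne_zero (k : ℕ) : cK k ≠ 0 := by
  unfold cK
  refine div_ne_zero (pow_ne_zero _ ?_) (by exact_mod_cast Nat.factorial_ne_zero _)
  simp [Real.pi_ne_zero, Complex.I_ne_zero]

/-- `HasSum` form of the `q`-expansion of the normalised lattice sum. -/
theorem hasSum_gRaw {k : ℕ} (hk : 3 ≤ k) (a : ZMod M) (ha : a ≠ 0) (τ : ℍ) :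
    HasSum (fun n : ℕ => (coeffG M k a n : ℂ) * cexp (2 * π * I * τ) ^ n)
      ((cK k)⁻¹ * gRaw M k a τ) := by
  have hq : ‖cexp (2 * π * I * τ)‖ < 1 := norm_exp_two_pi_I_lt_one τ
  have h1 : HasSum (fun n : ℕ+ => (coeffG M k a n : ℂ) * cexp (2 * π * I * τ) ^ (n : ℕ))
      ((cK k)⁻¹ * gRaw M k a τ) := by
    have h := (summable_coeffG k a hq).hasSum
    rw [gRaw_eq_tsum_coeff hk a ha τ, ← mul_assoc]
    change HasSum _ ((cK k)⁻¹ * cK k * _)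
    rw [inv_mul_cancel₀ (cK_ne_zero k), one_mul]
    exact h
  have h2 := (hasSum_pnat_iff (f := fun n : ℕ => (coeffG M k a n : ℂ) * cexp (2 * π * I * τ) ^ n)).mp h1
  simpa [coeffG_zero] using h2

end qexp

section forms

variable (M : ℕ) [NeZero M]

/-- The normalised Eisenstein-type form
`(k-1)!/(-2πi)^k · ∑_{m ≡ a (M), n} (m τ + n)^(-k)` on `Γ₁(M)`. -/
def gEis (k : ℕ) (hk : 3 ≤ k) (a : ZMod M) :
    ModularForm ((Gamma1 M : Subgroup SL(2, ℤ)) : Subgroup (GL (Fin 2) ℝ)) k :=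
  (cK k)⁻¹ • gRawMF M (k := (k : ℤ)) (by exact_mod_cast hk) a

lemma gEis_apply (k : ℕ) (hk : 3 ≤ k) (a : ZMod M) (τ : ℍ) :
    gEis M k hk a τ = (cK k)⁻¹ * gRaw M k a τ := rfl

lemma coe_gEis (k : ℕ) (hk : 3 ≤ k) (a : ZMod M) :
    ⇑(gEis M k hk a) = (cK k)⁻¹ • gRaw M k a := rfl

omit [NeZero M] in
lemma one_mem_strictPeriods_Gamma1 :
    (1 : ℝ) ∈ ((Gamma1 M : Subgroup SL(2, ℤ)) : Subgroup (GL (Fin 2) ℝ)).strictPeriods := by
  simp

/-- **The `q`-expansion of `gEis`**: integer coefficients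
`∑_{d e = n} ([d ≡ a] + (-1)^k [d ≡ -a]) e^(k-1)`. -/
theorem qExpansion_gEis_coeff (k : ℕ) (hk : 3 ≤ k) (a : ZMod M) (ha : a ≠ 0) (n : ℕ) :
    (qExpansion 1 (gEis M k hk a)).coeff n = (coeffG M k a n : ℂ) := by
  refine (ModularFormClass.qExpansion_coeff_unique (c := fun n => (coeffG M k a n : ℂ)) one_pos
    (one_mem_strictPeriods_Gamma1 M) (fun τ => ?_) n).symm
  have h := hasSum_gRaw hk a ha τ
  rw [gEis_apply]
  convert h using 2 with m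
  simp [Function.Periodic.qParam]

/-- All `q`-coefficients of `gEis` are integers. -/
theorem qExpansion_gEis_int (k : ℕ) (hk : 3 ≤ k) (a : ZMod M) (ha : a ≠ 0) (n : ℕ) :
    ∃ z : ℤ, (qExpansion 1 (gEis M k hk a)).coeff n = (z : ℂ) :=
  ⟨coeffG M k a n, qExpansion_gEis_coeff M k hk a ha n⟩

/-- **Diamonds**: elements of `Γ₀(M)` permute the forms `gEis`. -/
theorem gEis_slash (k : ℕ) (hk : 3 ≤ k) (a : ZMod M) (A : SL(2, ℤ)) (hA : A ∈ Gamma0 M) :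
    (⇑(gEis M k hk a)) ∣[(k : ℤ)] A = ⇑(gEis M k hk (a * ((A.1 0 0 : ℤ) : ZMod M))) := by
  rw [coe_gEis, coe_gEis, SL_smul_slash, gRaw_slash M k a A hA]

omit [NeZero M] in
lemma coeffG_one (k : ℕ) (a : ZMod M) : coeffG M k a 1 = uU M k a 1 := by
  simp [coeffG]

omit [NeZero M] in
lemma uU_one_self (k : ℕ) (hM : 3 ≤ M) : uU M k (1 : ZMod M) 1 = 1 := by
  have h : (1 : ZMod M) ≠ -1 := by
    intro h
    have h2 : (2 : ZMod M) = 0 := by
      linear_combination h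
    have h3 : ((2 : ℕ) : ZMod M) = 0 := by exact_mod_cast h2
    rw [ZMod.natCast_eq_zero_iff] at h3
    have := Nat.le_of_dvd (by norm_num) h3
    omega
  simp [uU, h]

omit [NeZero M] in
lemma uU_one_of_ne (k : ℕ) (a : ZMod M) (h1 : a ≠ 1) (h2 : a ≠ -1) : uU M k a 1 = 0 := by
  have h1' : ¬ (1 : ZMod M) = a := fun h => h1 h.symm
  have h2' : ¬ (1 : ZMod M) = -a := fun h => h2 (by rw [h, neg_neg])
  simp [uU, h1', h2']

/-- The coefficient of `q` in `gEis M k 1` is `1` (for `M ≥ 3`). -/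
theorem qExpansion_gEis_one_coeff_one (k : ℕ) (hk : 3 ≤ k) (hM : 3 ≤ M) :
    (qExpansion 1 (gEis M k hk (1 : ZMod M))).coeff 1 = 1 := by
  have h1 : (1 : ZMod M) ≠ 0 := by
    have : Fact (1 < M) := ⟨by omega⟩
    exact one_ne_zero
  rw [qExpansion_gEis_coeff M k hk 1 h1, coeffG_one, uU_one_self M k hM]
  simp

/-- The coefficient of `q` in `gEis M k a` vanishes for `a ≠ 0, ±1`. -/
theorem qExpansion_gEis_coeff_one_of_ne (k : ℕ) (hk : 3 ≤ k) (a : ZMod M) (ha : a ≠ 0)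
    (h1 : a ≠ 1) (h2 : a ≠ -1) : (qExpansion 1 (gEis M k hk a)).coeff 1 = 0 := by
  rw [qExpansion_gEis_coeff M k hk a ha, coeffG_one, uU_one_of_ne M k a h1 h2]
  simp

/-- `gEis M k 1` is not the zero form (for `M ≥ 3`). -/
theorem gEis_one_ne_zero (k : ℕ) (hk : 3 ≤ k) (hM : 3 ≤ M) : gEis M k hk (1 : ZMod M) ≠ 0 := by
  intro h
  have := qExpansion_gEis_one_coeff_one M k hk hM
  rw [h] at this
  simp [qExpansion_zero] at this

/-- **Separation of the diamond cosets**: an element of `Γ₀(M)` whose upper left entry is not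
`±1` modulo `M` moves `gEis M k 1`. -/
theorem gEis_one_slash_ne (k : ℕ) (hk : 3 ≤ k) (hM : 3 ≤ M) (A : SL(2, ℤ)) (hA : A ∈ Gamma0 M)
    (h1 : ((A.1 0 0 : ℤ) : ZMod M) ≠ 1) (h2 : ((A.1 0 0 : ℤ) : ZMod M) ≠ -1) :
    (⇑(gEis M k hk (1 : ZMod M))) ∣[(k : ℤ)] A ≠ ⇑(gEis M k hk (1 : ZMod M)) := by
  have : Fact (1 < M) := ⟨by omega⟩
  intro h
  rw [gEis_slash M k hk 1 A hA, one_mul] at h
  have h10 : ((A.1 1 0 : ℤ) : ZMod M) = 0 := Gamma0_mem.mp hA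
  have hdet : A.1 0 0 * A.1 1 1 - A.1 0 1 * A.1 1 0 = 1 := by
    have := A.2
    rw [Matrix.det_fin_two] at this
    exact this
  have hdet' : ((A.1 0 0 : ℤ) : ZMod M) * ((A.1 1 1 : ℤ) : ZMod M) = 1 := by
    have := congrArg (Int.cast : ℤ → ZMod M) hdet
    push_cast at this
    rw [h10, mul_zero, sub_zero] at this
    exact this
  have ha0 : ((A.1 0 0 : ℤ) : ZMod M) ≠ 0 := by
    intro h0
    rw [h0, zero_mul] at hdet'
    exact zero_ne_one hdet'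
  have hE : gEis M k hk ((A.1 0 0 : ℤ) : ZMod M) = gEis M k hk (1 : ZMod M) := DFunLike.coe_injective h
  have e1 := qExpansion_gEis_coeff_one_of_ne M k hk _ ha0 h1 h2
  rw [hE, qExpansion_gEis_one_coeff_one M k hk hM] at e1
  exact one_ne_zero e1

end forms

end

end Fermat.Agent.S48.EisG
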