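/-
helper190: Eisenstein-type lattice sums over residue classes `m ≡ a (mod M)`; weight 4.
`hA M a τ = ∑_{(m,n) ∈ ℤ², m ≡ a (M)} (m τ + n)^(-4)`.
* slash by `Γ₀(M)` permutes the `hA M a` (`a ↦ a * γ₀₀`), all slashes are bounded at `i∞`;
* explicit integral `q`-expansion (Lipschitz formula) for `a ≠ 0`.
-/
import Mathlib
import Fermat.Agent.Lib.EisChar

set_option autoImplicit false

open scoped MatrixGroups Manifold Topology
open UpperHalfPlane ModularForm Matrix CongruenceSubgroup Filter EisensteinSeries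

noncomputable section

namespace Fermat.Agent.S48.EisRat

open Fermat.Agent.Lib.EisChar

/-! ### Lattice sums over an arbitrary subset of `ℤ²` -/

/-- the lattice sum of weight `k` over a subset `S` of `ℤ²` -/
def subSum (S : Set (Fin 2 → ℤ)) (k : ℤ) (τ : ℍ) : ℂ := ∑' v : S, eisSummand k v τ

theorem summable_sub (S : Set (Fin 2 → ℤ)) {k : ℤ} (hk : 3 ≤ k) (τ : ℍ) :
    Summable fun v : S => eisSummand k v τ :=
  ((summable_norm_eisSummand hk τ).subtype S).of_norm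

theorem tendstoLocallyUniformly_sub (S : Set (Fin 2 → ℤ)) {k : ℤ} (hk : 3 ≤ k) :
    TendstoLocallyUniformly
      (fun (s : Finset S) ↦ (fun τ : ℍ => ∑ x ∈ s, eisSummand k x τ))
      (fun τ : ℍ => ∑' v : S, eisSummand k v τ) Filter.atTop := by
  have hk' : (2 : ℝ) < k := by norm_cast
  have p_sum : Summable fun x : S ↦ ‖x.val‖ ^ (-k) :=
    mod_cast (summable_one_div_norm_rpow hk').subtype (· ∈ S)
  simp only [tendstoLocallyUniformly_iff_forall_isCompact]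
  intro K hK
  obtain ⟨A, B, hB, HABK⟩ := subset_verticalStrip_of_isCompact hK
  refine (tendstoUniformlyOn_tsum (hu := p_sum.mul_left <| r ⟨⟨A, B⟩, hB⟩ ^ (-k : ℝ))
    (fun p z hz ↦ ?_)).mono HABK
  simpa only [eisSummand, one_div, ← _root_.zpow_neg, norm_zpow, ← Real.rpow_intCast,
    Int.cast_neg] using summand_bound_of_mem_verticalStrip (by positivity) p hB hz

theorem tendstoLocallyUniformlyOn_sub (S : Set (Fin 2 → ℤ)) {k : ℤ} (hk : 3 ≤ k) :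
    TendstoLocallyUniformlyOn
      (fun (s : Finset S) ↦ ((fun τ : ℍ => ∑ x ∈ s, eisSummand k x τ) ∘ ofComplex))
      ((fun τ : ℍ => ∑' v : S, eisSummand k v τ) ∘ ofComplex)
      Filter.atTop {z : ℂ | 0 < z.im} := by
  rw [← upperHalfPlaneSet, ← range_coe, ← Set.image_univ]
  apply TendstoLocallyUniformlyOn.comp (s := ⊤) _ _ _ (OpenPartialHomeomorph.continuousOn_symm _)
  · simp only [Set.top_eq_univ, tendstoLocallyUniformlyOn_univ]
    exact tendstoLocallyUniformly_sub S hk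
  · simp only [Topology.IsOpenEmbedding.toOpenPartialHomeomorph_target, Set.top_eq_univ,
      Set.mapsTo_range_iff, Set.mem_univ, forall_const]

theorem mdifferentiable_subSum (S : Set (Fin 2 → ℤ)) {k : ℤ} (hk : 3 ≤ k) :
    MDifferentiable 𝓘(ℂ) 𝓘(ℂ) (subSum S k) := by
  change MDifferentiable 𝓘(ℂ) 𝓘(ℂ) (fun τ : ℍ => ∑' v : S, eisSummand k v τ)
  rw [UpperHalfPlane.mdifferentiable_iff]
  refine (tendstoLocallyUniformlyOn_sub S hk).differentiableOn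
    (Eventually.of_forall fun s ↦ ?_) isOpen_upperHalfPlaneSet
  have h2 : ((fun τ : ℍ => ∑ x ∈ s, eisSummand k x τ) ∘ ofComplex)
      = fun z : ℂ => ∑ x ∈ s, (eisSummand k x ∘ ofComplex) z := by
    funext z
    simp
  rw [h2]
  exact DifferentiableOn.fun_sum fun x _ ↦ eisSummand_extension_differentiableOn k x.1

/-- slash = reindexing -/
theorem subSum_slash_apply (S : Set (Fin 2 → ℤ)) (k : ℤ) (σ : SL(2, ℤ)) (τ : ℍ) :
    (subSum S k ∣[k] σ) τ = ∑' v : S, eisSummand k (vecMulEquiv σ v.1) τ := by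
  rw [SL_slash_apply]
  unfold subSum
  simp_rw [eisSummand_SL2_apply]
  rw [← tsum_mul_right]
  apply tsum_congr
  intro v
  have hd : denom σ τ ≠ 0 := denom_ne_zero σ τ
  rw [_root_.zpow_neg, vecMulEquiv_apply]
  field_simp

theorem subSum_slash (S : Set (Fin 2 → ℤ)) (k : ℤ) (σ : SL(2, ℤ)) :
    subSum S k ∣[k] σ = subSum (vecMulEquiv σ '' S) k := by
  funext τ
  rw [subSum_slash_apply]
  unfold subSum
  exact ((vecMulEquiv σ).image S).tsum_eq (fun w : (vecMulEquiv σ '' S) => eisSummand k w.1 τ)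

theorem norm_subSum_le (S : Set (Fin 2 → ℤ)) {k : ℤ} (hk : 3 ≤ k) (τ : ℍ) :
    ‖subSum S k τ‖ ≤ latSum k τ := by
  unfold subSum latSum
  have hs : Summable fun v : S => ‖eisSummand k v τ‖ := (summable_norm_eisSummand hk τ).subtype S
  refine (norm_tsum_le_tsum_norm hs).trans ?_
  exact tsum_comp_le_tsum_of_inj (summable_norm_eisSummand hk τ) (fun _ => norm_nonneg _)
    Subtype.val_injective

theorem isBoundedAtImInfty_subSum (S : Set (Fin 2 → ℤ)) {k : ℤ} (hk : 3 ≤ k) :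
    IsBoundedAtImInfty (subSum S k) := by
  obtain ⟨C, hC⟩ := latSum_le hk
  rw [UpperHalfPlane.isBoundedAtImInfty_iff]
  exact ⟨C, 1, fun z hz => (norm_subSum_le S hk z).trans (hC z hz)⟩

theorem isBoundedAtImInfty_subSum_slash (S : Set (Fin 2 → ℤ)) {k : ℤ} (hk : 3 ≤ k)
    (σ : SL(2, ℤ)) : IsBoundedAtImInfty (subSum S k ∣[k] σ) := by
  rw [subSum_slash]
  exact isBoundedAtImInfty_subSum _ hk

/-! ### Residue classes -/

variable (M : ℕ)

/-- vectors of `ℤ²` whose first coordinate is `≡ a (mod M)` -/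
def resSet (a : ZMod M) : Set (Fin 2 → ℤ) := {v | ((v 0 : ℤ) : ZMod M) = a}

theorem image_resSet (a : ZMod M) {γ : SL(2, ℤ)} (hγ : γ ∈ Gamma0 M) :
    vecMulEquiv γ '' resSet M a = resSet M (a * ((γ 0 0 : ℤ) : ZMod M)) := by
  have hc : ((γ 1 0 : ℤ) : ZMod M) = 0 := Gamma0_mem.mp hγ
  have hdet : ((γ 0 0 : ℤ) : ZMod M) * ((γ 1 1 : ℤ) : ZMod M) = 1 := by
    have h := γ.det_coe
    rw [Matrix.det_fin_two] at h
    have h2 : (((γ 0 0 * γ 1 1 - γ 0 1 * γ 1 0 : ℤ)) : ZMod M) = 1 := by rw [h]; simp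
    push_cast at h2
    rw [hc] at h2
    simpa using h2
  ext w
  simp only [Set.mem_image, resSet, Set.mem_ofPred_eq]
  constructor
  · rintro ⟨v, hv, rfl⟩
    rw [vecMulEquiv_apply]
    simp only [Matrix.vecMul, dotProduct, Fin.sum_univ_two]
    push_cast
    rw [hv, hc]
    ring
  · intro hw
    refine ⟨(vecMulEquiv γ).symm w, ?_, by simp⟩
    have h1 : (vecMulEquiv γ).symm w = w ᵥ* ((γ⁻¹ : SL(2, ℤ)) : Matrix (Fin 2) (Fin 2) ℤ) := rfl
    rw [h1, Matrix.SpecialLinearGroup.coe_inv, Matrix.adjugate_fin_two]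
    simp only [Matrix.vecMul, dotProduct, Fin.sum_univ_two, Matrix.of_apply, Matrix.cons_val_zero,
      Matrix.cons_val_one]
    push_cast
    rw [hw, hc]
    linear_combination a * hdet

/-- the weight-4 lattice sum over `m ≡ a (mod M)` -/
def hA (a : ZMod M) : ℍ → ℂ := subSum (resSet M a) 4

theorem hA_slash (a : ZMod M) {γ : SL(2, ℤ)} (hγ : γ ∈ Gamma0 M) :
    hA M a ∣[(4 : ℤ)] γ = hA M (a * ((γ 0 0 : ℤ) : ZMod M)) := by
  unfold hA
  rw [subSum_slash, image_resSet M a hγ]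

theorem mdifferentiable_hA (a : ZMod M) : MDifferentiable 𝓘(ℂ) 𝓘(ℂ) (hA M a) :=
  mdifferentiable_subSum _ (by norm_num)

theorem isBoundedAtImInfty_hA_slash (a : ZMod M) (σ : SL(2, ℤ)) :
    IsBoundedAtImInfty (hA M a ∣[(4 : ℤ)] σ) :=
  isBoundedAtImInfty_subSum_slash _ (by norm_num) σ

/-! ### The `q`-expansion -/

open Real Complex Nat in
/-- the rows: `rowSum τ m = ∑_n (m τ + n)^(-4)` -/
def rowSum (τ : ℍ) (m : ℤ) : ℂ := ∑' n : ℤ, eisSummand 4 ![m, n] τ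

theorem rowSum_neg (τ : ℍ) (m : ℤ) : rowSum τ (-m) = rowSum τ m := by
  unfold rowSum
  rw [← (Equiv.neg ℤ).tsum_eq]
  apply tsum_congr
  intro n
  have h4 : Even (-4 : ℤ) := ⟨-2, by norm_num⟩
  simp only [eisSummand, Equiv.neg_apply, Matrix.cons_val_zero, Matrix.cons_val_one,
    Int.cast_neg]
  rw [← h4.neg_zpow]
  congr 1
  ring

open Real Complex Nat in
theorem rowSum_pos (τ : ℍ) (m : ℕ+) :
    rowSum τ ((m : ℕ) : ℤ) = ((-2 * π * Complex.I) ^ 4 / ((3 ! : ℕ) : ℂ)) *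
      ∑' e : ℕ+, ((e : ℕ) : ℂ) ^ 3 * cexp (2 * π * Complex.I * τ) ^ ((m : ℕ) * (e : ℕ)) := by
  have hz : 0 < (((m : ℕ) : ℂ) * (τ : ℂ)).im := by
    simpa using τ.2
  have H := qExpansion_identity_pnat (k := 3) (by norm_num) ⟨((m : ℕ) : ℂ) * τ, hz⟩
  unfold rowSum
  have h1 : ∀ n : ℤ, eisSummand 4 ![((m : ℕ) : ℤ), n] τ
      = 1 / (((m : ℕ) : ℂ) * (τ : ℂ) + n) ^ (3 + 1) := by
    intro n
    simp [eisSummand, _root_.zpow_neg]
  simp_rw [h1]
  rw [H]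
  congr 1
  apply tsum_congr
  intro e
  rw [← Complex.exp_nat_mul, ← Complex.exp_nat_mul]
  congr 2
  push_cast
  ring

/-- the indicator of `m ≡ a (mod M)` -/
def ind (a : ZMod M) (m : ℤ) : ℤ := if (m : ZMod M) = a then 1 else 0

theorem summable_prod_ind (a : ZMod M) (τ : ℍ) :
    Summable fun x : ℤ × ℤ => (ind M a x.1 : ℂ) * eisSummand 4 ![x.1, x.2] τ := by
  have h0 : Summable fun v : Fin 2 → ℤ => eisSummand 4 v τ :=
    (summable_norm_eisSummand (k := 4) (by norm_num) τ).of_norm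
  have h1 : Summable fun x : ℤ × ℤ => eisSummand 4 ![x.1, x.2] τ := by
    refine (finTwoArrowEquiv ℤ).summable_iff.mp <| h0.congr (fun v ↦ ?_)
    simp [show ![v 0, v 1] = v from List.ofFn_inj.mp rfl]
  refine Summable.of_norm_bounded h1.norm fun x => ?_
  rw [norm_mul]
  have : ‖(ind M a x.1 : ℂ)‖ ≤ 1 := by
    unfold ind
    split_ifs <;> simp
  calc ‖(ind M a x.1 : ℂ)‖ * ‖eisSummand 4 ![x.1, x.2] τ‖
      ≤ 1 * ‖eisSummand 4 ![x.1, x.2] τ‖ := mul_le_mul_of_nonneg_right this (norm_nonneg _)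
    _ = ‖eisSummand 4 ![x.1, x.2] τ‖ := one_mul _

theorem hA_eq_tsum_rows (a : ZMod M) (τ : ℍ) :
    hA M a τ = ∑' m : ℤ, (ind M a m : ℂ) * rowSum τ m := by
  unfold hA subSum
  rw [tsum_subtype (resSet M a) (fun v => eisSummand 4 v τ),
    ← (finTwoArrowEquiv ℤ).symm.tsum_eq]
  have hcongr : ∀ x : ℤ × ℤ, (resSet M a).indicator (fun v => eisSummand 4 v τ)
      ((finTwoArrowEquiv ℤ).symm x) = (ind M a x.1 : ℂ) * eisSummand 4 ![x.1, x.2] τ := by
    intro x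
    by_cases hx : ((x.1 : ℤ) : ZMod M) = a
    · have hmem : (finTwoArrowEquiv ℤ).symm x ∈ resSet M a := by
        simpa [resSet, finTwoArrowEquiv] using hx
      rw [Set.indicator_of_mem hmem]
      simp [ind, hx, finTwoArrowEquiv]
    · have hmem : (finTwoArrowEquiv ℤ).symm x ∉ resSet M a := by
        simpa [resSet, finTwoArrowEquiv] using hx
      rw [Set.indicator_of_notMem hmem]
      simp [ind, hx]
  simp_rw [hcongr]
  rw [(summable_prod_ind M a τ).tsum_prod]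
  apply tsum_congr
  intro m
  unfold rowSum
  show ∑' c : ℤ, (ind M a m : ℂ) * eisSummand 4 ![m, c] τ = _
  rw [tsum_mul_left]

theorem summable_rows (a : ZMod M) (τ : ℍ) :
    Summable fun m : ℤ => (ind M a m : ℂ) * rowSum τ m := by
  have h := (summable_prod_ind M a τ).prod
  refine h.congr fun m => ?_
  unfold rowSum
  show ∑' c : ℤ, (ind M a m : ℂ) * eisSummand 4 ![m, c] τ = _
  rw [tsum_mul_left]

/-- the weight `[x ≡ a] + [-x ≡ a]` -/
def wA (a : ZMod M) (x : ℕ) : ℤ := ind M a (x : ℤ) + ind M a (-(x : ℤ))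

theorem hA_eq_tsum_pnat (a : ZMod M) (ha : a ≠ 0) (τ : ℍ) :
    hA M a τ = ∑' m : ℕ+, (wA M a (m : ℕ) : ℂ) * rowSum τ ((m : ℕ) : ℤ) := by
  rw [hA_eq_tsum_rows]
  have hs := summable_rows M a τ
  have h1 : Summable fun n : ℕ => (ind M a ((n : ℤ) + 1) : ℂ) * rowSum τ ((n : ℤ) + 1) :=
    hs.comp_injective (f := fun m : ℤ => (ind M a m : ℂ) * rowSum τ m)
      (i := fun n : ℕ => (n : ℤ) + 1) (fun x y h => by simpa using h)
  have h2 : Summable fun n : ℕ => (ind M a (-((n : ℤ) + 1)) : ℂ) * rowSum τ (-((n : ℤ) + 1)) :=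
    hs.comp_injective (f := fun m : ℤ => (ind M a m : ℂ) * rowSum τ m)
      (i := fun n : ℕ => -((n : ℤ) + 1)) (fun x y h => by simpa using h)
  rw [tsum_of_add_one_of_neg_add_one (f := fun m : ℤ => (ind M a m : ℂ) * rowSum τ m) h1 h2]
  have h0 : ind M a 0 = 0 := by
    unfold ind
    rw [if_neg]
    simpa using ha.symm
  simp only [h0, Int.cast_zero, zero_mul, add_zero]
  rw [← Summable.tsum_add h1 h2,
    tsum_pnat_eq_tsum_succ (f := fun m : ℕ => (wA M a m : ℂ) * rowSum τ (m : ℤ))]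
  apply tsum_congr
  intro n
  unfold wA
  rw [rowSum_neg]
  push_cast
  ring

/-- the `q`-coefficients: `cA M a n = ∑_{x y = n} ([x ≡ a] + [-x ≡ a]) y³` -/
def cA (a : ZMod M) (n : ℕ) : ℤ := ∑ x ∈ n.divisorsAntidiagonal, wA M a x.1 * (x.2 : ℤ) ^ 3

open Real Complex Nat in
/-- the Lipschitz constant `(-2πi)^4 / 3!` -/
def c4 : ℂ := (-2 * π * Complex.I) ^ 4 / ((3 ! : ℕ) : ℂ)

theorem c4_ne_zero : c4 ≠ 0 := by
  unfold c4
  have h1 : (Real.pi : ℂ) ≠ 0 := by exact_mod_cast Real.pi_ne_zero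
  have h2 : ((Nat.factorial 3 : ℕ) : ℂ) ≠ 0 := by exact_mod_cast (Nat.factorial_pos 3).ne'
  exact div_ne_zero (pow_ne_zero _ (mul_ne_zero (mul_ne_zero (by norm_num) h1) Complex.I_ne_zero)) h2

theorem norm_wA_le (a : ZMod M) (x : ℕ) : ‖(wA M a x : ℂ)‖ ≤ 2 := by
  unfold wA ind
  split_ifs <;> norm_num

theorem summable_weighted (a : ZMod M) {q : ℂ} (hq : ‖q‖ < 1) :
    Summable fun c : ℕ+ × ℕ+ => (wA M a (c.1 : ℕ) : ℂ) *
      (((c.2 : ℕ) : ℂ) ^ 3 * q ^ ((c.1 : ℕ) * (c.2 : ℕ))) := by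
  have h : Summable fun c : ℕ+ × ℕ+ => ((c.2 : ℕ) : ℂ) ^ 3 * q ^ ((c.1 : ℕ) * (c.2 : ℕ)) :=
    summable_prod_mul_pow (𝕜 := ℂ) 3 hq
  refine Summable.of_norm_bounded (h.norm.mul_left 2) fun c => ?_
  rw [norm_mul]
  exact mul_le_mul_of_nonneg_right (norm_wA_le M a _) (norm_nonneg _)

theorem tsum_weighted_eq (a : ZMod M) {q : ℂ} (hq : ‖q‖ < 1) :
    HasSum (fun n : ℕ+ => (cA M a (n : ℕ) : ℂ) * q ^ (n : ℕ))
      (∑' c : ℕ+ × ℕ+, (wA M a (c.1 : ℕ) : ℂ) *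
        (((c.2 : ℕ) : ℂ) ^ 3 * q ^ ((c.1 : ℕ) * (c.2 : ℕ)))) := by
  have hF := summable_weighted M a hq
  have hS := sigmaAntidiagonalEquivProd.summable_iff.mpr hF
  have hval : ∀ n : ℕ+, ∑' y : Nat.divisorsAntidiagonal (n : ℕ),
      ((fun c : ℕ+ × ℕ+ => (wA M a (c.1 : ℕ) : ℂ) *
        (((c.2 : ℕ) : ℂ) ^ 3 * q ^ ((c.1 : ℕ) * (c.2 : ℕ)))) ∘ sigmaAntidiagonalEquivProd) ⟨n, y⟩
      = (cA M a (n : ℕ) : ℂ) * q ^ (n : ℕ) := by
    intro n
    rw [tsum_fintype]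
    simp only [Function.comp_apply, sigmaAntidiagonalEquivProd, divisorsAntidiagonalFactors,
      Equiv.coe_fn_mk, PNat.mk_coe]
    rw [Finset.univ_eq_attach, (n : ℕ).divisorsAntidiagonal.sum_attach
      (fun x : ℕ × ℕ => (wA M a x.1 : ℂ) * ((x.2 : ℂ) ^ 3 * q ^ (x.1 * x.2)))]
    unfold cA
    push_cast
    rw [Finset.sum_mul]
    apply Finset.sum_congr rfl
    intro x hx
    rw [(Nat.mem_divisorsAntidiagonal.mp hx).1]
    ring
  have h1 := hS.hasSum.sigma (fun n => (hS.sigma_factor n).hasSum)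
  rw [funext hval] at h1
  have h2 : ∑' b, ((fun c : ℕ+ × ℕ+ => (wA M a (c.1 : ℕ) : ℂ) *
      (((c.2 : ℕ) : ℂ) ^ 3 * q ^ ((c.1 : ℕ) * (c.2 : ℕ)))) ∘ sigmaAntidiagonalEquivProd) b
      = ∑' c : ℕ+ × ℕ+, (wA M a (c.1 : ℕ) : ℂ) *
        (((c.2 : ℕ) : ℂ) ^ 3 * q ^ ((c.1 : ℕ) * (c.2 : ℕ))) :=
    sigmaAntidiagonalEquivProd.tsum_eq (fun c : ℕ+ × ℕ+ => (wA M a (c.1 : ℕ) : ℂ) *
      (((c.2 : ℕ) : ℂ) ^ 3 * q ^ ((c.1 : ℕ) * (c.2 : ℕ))))
  rw [h2] at h1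
  exact h1

open Real Complex in
/-- **Lipschitz formula** for the residue-class lattice sums. -/
theorem hA_eq_tsum_sigma (a : ZMod M) (ha : a ≠ 0) (τ : ℍ) :
    hA M a τ = c4 * ∑' n : ℕ+, (cA M a (n : ℕ) : ℂ) * cexp (2 * π * Complex.I * τ) ^ (n : ℕ) := by
  have hq1 : ‖cexp (2 * π * Complex.I * τ)‖ < 1 := norm_exp_two_pi_I_lt_one τ
  rw [hA_eq_tsum_pnat M a ha, (tsum_weighted_eq M a hq1).tsum_eq,
    (summable_weighted M a hq1).tsum_prod, ← tsum_mul_left]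
  apply tsum_congr
  intro m
  rw [rowSum_pos]
  have h5 : ∑' c : ℕ+, (wA M a (m : ℕ) : ℂ) *
      (((c : ℕ) : ℂ) ^ 3 * cexp (2 * π * Complex.I * τ) ^ ((m : ℕ) * (c : ℕ)))
      = (wA M a (m : ℕ) : ℂ) *
        ∑' c : ℕ+, ((c : ℕ) : ℂ) ^ 3 * cexp (2 * π * Complex.I * τ) ^ ((m : ℕ) * (c : ℕ)) :=
    tsum_mul_left
  show _ = c4 * ∑' c : ℕ+, (wA M a (m : ℕ) : ℂ) *
      (((c : ℕ) : ℂ) ^ 3 * cexp (2 * π * Complex.I * τ) ^ ((m : ℕ) * (c : ℕ)))
  rw [h5]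
  unfold c4
  ring

open Real Complex in
theorem hasSum_hA (a : ZMod M) (ha : a ≠ 0) (τ : ℍ) :
    HasSum (fun n : ℕ => (cA M a n : ℂ) * cexp (2 * π * Complex.I * τ) ^ n) (c4⁻¹ * hA M a τ) := by
  have hq1 : ‖cexp (2 * π * Complex.I * τ)‖ < 1 := norm_exp_two_pi_I_lt_one τ
  have h := tsum_weighted_eq M a hq1
  have h0 : cA M a 0 = 0 := by simp [cA]
  have h3 : c4⁻¹ * hA M a τ
      = ∑' n : ℕ+, (cA M a (n : ℕ) : ℂ) * cexp (2 * π * Complex.I * τ) ^ (n : ℕ) := by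
    rw [hA_eq_tsum_sigma M a ha, ← mul_assoc, inv_mul_cancel₀ c4_ne_zero, one_mul]
  rw [h3]
  have h4 := (hasSum_pnat_iff (f := fun n : ℕ => (cA M a n : ℂ) *
    cexp (2 * π * Complex.I * τ) ^ n)).mp h.summable.hasSum
  simpa [h0] using h4

/-! ### The modular forms -/

theorem one_mem_strictPeriods_Gamma1 :
    (1 : ℝ) ∈ ((Gamma1 M : Subgroup SL(2, ℤ)) : Subgroup (GL (Fin 2) ℝ)).strictPeriods := by
  simp

/-- `c4⁻¹ • hA M a` as a modular form of weight 4 on `Γ₁(M)` -/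
def hForm [NeZero M] (a : ZMod M) : ModularForm (Gamma1 M) 4 where
  toFun := c4⁻¹ • hA M a
  slash_action_eq' := by
    rintro _ ⟨γ, hγ, rfl⟩
    have h0 : γ ∈ Gamma0 M := Gamma1_in_Gamma0 M hγ
    have h1 : ((γ 0 0 : ℤ) : ZMod M) = 1 := ((Gamma1_mem M γ).mp hγ).1
    show (c4⁻¹ • hA M a) ∣[(4 : ℤ)] γ = _
    rw [ModularForm.SL_smul_slash, hA_slash M a h0, h1, mul_one]
  holo' := (mdifferentiable_hA M a).const_smul _
  bdd_at_cusps' {c} hc := by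
    rw [Subgroup.IsArithmetic.isCusp_iff_isCusp_SL2Z] at hc
    rw [OnePoint.isBoundedAt_iff_forall_SL2Z hc]
    intro γ _
    rw [ModularForm.SL_smul_slash]
    exact (isBoundedAtImInfty_hA_slash M a γ).const_smul_left _

theorem hForm_apply [NeZero M] (a : ZMod M) (τ : ℍ) : hForm M a τ = c4⁻¹ * hA M a τ := rfl

theorem coe_hForm [NeZero M] (a : ZMod M) : ⇑(hForm M a) = c4⁻¹ • hA M a := rfl

/-- the `q`-expansion of `hForm M a` is `∑ cA M a n qⁿ` -/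
theorem qExpansion_hForm_coeff [NeZero M] (a : ZMod M) (ha : a ≠ 0) (n : ℕ) :
    (qExpansion 1 (hForm M a)).coeff n = (cA M a n : ℂ) := by
  refine (ModularFormClass.qExpansion_coeff_unique (c := fun n => (cA M a n : ℂ)) one_pos
    (one_mem_strictPeriods_Gamma1 M) (f := hForm M a) (fun τ => ?_) n).symm
  have h := hasSum_hA M a ha τ
  rw [hForm_apply]
  convert h using 2 with m
  simp [Function.Periodic.qParam]

theorem cA_one (a : ZMod M) : cA M a 1 = wA M a 1 := by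
  simp [cA]

/-- two of the forms `hForm M a` (`a ≠ 0`) coincide only if `a = ± b` -/
theorem eq_or_eq_neg_of_hA_eq [NeZero M] {a : ZMod M} (ha : a ≠ 0) (h1 : (1 : ZMod M) ≠ 0)
    (h : hA M a = hA M 1) : a = 1 ∨ a = -1 := by
  have hf : hForm M a = hForm M 1 := by
    apply DFunLike.coe_injective
    rw [coe_hForm, coe_hForm, h]
  have hc : (cA M a 1 : ℂ) = (cA M 1 1 : ℂ) := by
    rw [← qExpansion_hForm_coeff M a ha 1, ← qExpansion_hForm_coeff M 1 h1 1, hf]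
  have hc' : cA M a 1 = cA M 1 1 := by exact_mod_cast hc
  rw [cA_one, cA_one] at hc'
  by_contra hne
  push Not at hne
  have h2 : wA M a 1 = 0 := by
    unfold wA ind
    rw [if_neg, if_neg]
    · simp
    · intro h3
      apply hne.2
      rw [← h3]
      simp
    · intro h3
      apply hne.1
      rw [← h3]
      simp
  have h3 : 1 ≤ wA M 1 1 := by
    unfold wA ind
    rw [if_pos (by simp)]
    split_ifs <;> norm_num
  omega

theorem isInt_qExpansion_hForm [NeZero M] (a : ZMod M) (ha : a ≠ 0) (n : ℕ) :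
    ∃ z : ℤ, (qExpansion 1 (hForm M a)).coeff n = (z : ℂ) :=
  ⟨cA M a n, qExpansion_hForm_coeff M a ha n⟩

theorem hForm_slash [NeZero M] (a : ZMod M) {γ : SL(2, ℤ)} (hγ : γ ∈ Gamma0 M) :
    ⇑(hForm M a) ∣[(4 : ℤ)] γ = ⇑(hForm M (a * ((γ 0 0 : ℤ) : ZMod M))) := by
  rw [coe_hForm, coe_hForm, ModularForm.SL_smul_slash, hA_slash M a hγ]

theorem isBoundedAtImInfty_hForm_slash [NeZero M] (a : ZMod M) (σ : SL(2, ℤ)) :
    IsBoundedAtImInfty (⇑(hForm M a) ∣[(4 : ℤ)] σ) := by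
  rw [coe_hForm, ModularForm.SL_smul_slash]
  exact (isBoundedAtImInfty_hA_slash M a σ).const_smul_left _

theorem gamma0_diag_mul {γ : SL(2, ℤ)} (hγ : γ ∈ Gamma0 M) :
    ((γ 0 0 : ℤ) : ZMod M) * ((γ 1 1 : ℤ) : ZMod M) = 1 := by
  have hc : ((γ 1 0 : ℤ) : ZMod M) = 0 := Gamma0_mem.mp hγ
  have h := γ.det_coe
  rw [Matrix.det_fin_two] at h
  have h2 : (((γ 0 0 * γ 1 1 - γ 0 1 * γ 1 0 : ℤ)) : ZMod M) = 1 := by rw [h]; simp
  push_cast at h2
  rw [hc] at h2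
  simpa using h2

/-- **Separation inside `Γ₀(M)`**: the weight-4 form `hForm M 1` on `Γ₁(M)` is fixed by
`γ ∈ Γ₀(M)` only if `γ ∈ ± Γ₁(M)`. -/
theorem mem_Gamma1_or_neg_of_slash_eq [NeZero M] (hM : M ≠ 1) {γ : SL(2, ℤ)} (hγ : γ ∈ Gamma0 M)
    (h : ⇑(hForm M 1) ∣[(4 : ℤ)] γ = ⇑(hForm M 1)) : γ ∈ Gamma1 M ∨ -γ ∈ Gamma1 M := by
  have hnt : Nontrivial (ZMod M) := ZMod.nontrivial_iff.mpr hM
  have hc : ((γ 1 0 : ℤ) : ZMod M) = 0 := Gamma0_mem.mp hγ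
  have hd := gamma0_diag_mul M hγ
  have ha : ((γ 0 0 : ℤ) : ZMod M) ≠ 0 := by
    intro h0
    rw [h0, zero_mul] at hd
    exact zero_ne_one hd
  rw [hForm_slash M 1 hγ, one_mul, coe_hForm, coe_hForm] at h
  have h' : hA M ((γ 0 0 : ℤ) : ZMod M) = hA M 1 := by
    have := congrArg (fun f => c4 • f) h
    simpa [smul_smul, mul_inv_cancel₀ c4_ne_zero] using this
  rcases eq_or_eq_neg_of_hA_eq M ha one_ne_zero h' with h1 | h1
  · left
    rw [Gamma1_mem]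
    refine ⟨h1, ?_, hc⟩
    rw [h1, one_mul] at hd
    exact hd
  · right
    rw [Gamma1_mem]
    have hneg : ((-γ : SL(2, ℤ)) : Matrix (Fin 2) (Fin 2) ℤ) = -(γ : Matrix (Fin 2) (Fin 2) ℤ) :=
      Matrix.SpecialLinearGroup.coe_neg γ
    rw [h1] at hd
    have hd' : ((γ 1 1 : ℤ) : ZMod M) = -1 := by
      have : -(((γ 1 1 : ℤ) : ZMod M)) = 1 := by rw [← hd]; ring
      rw [← this, neg_neg]
    refine ⟨?_, ?_, ?_⟩
    · rw [hneg]
      simp [h1]
    · rw [hneg]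
      simp [hd']
    · rw [hneg]
      simp [hc]

end Fermat.Agent.S48.EisRat
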