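import Mathlib
import Fermat.Agent.S30.EisChar
import Fermat.Agent.S23.TForm

/-!
# A separating form for `±Γ₁(M)` and an odd-weight integral seed (S48, brick C)

For `e : ZMod M` and `k ≥ 3` put `tE M e k τ = ∑_{(m,n) ∈ ℤ², m ≡ e mod M} (m τ + n)^(-k)`
(a coefficient-weighted Eisenstein sum of `S30/EisChar`). Then

* `tE_slash`: for `A ∈ Γ₀(M)`, `tE M e k ∣[k] A = tE M (e * A₀₀) k`; so `tE M e k` is a modular
  form on `Γ₁(M)` (`tMF`), and `tN M e k = C_k⁻¹ • tMF` with `C_k = (-2πi)^k/(k-1)!`;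
* `qExpansion_tN_coeff`: for `e ≠ 0` the `n`-th `q`-expansion coefficient of `tN M e k` is the
  integer `cE M e k n = ∑_{xy = n} ([x ≡ e] + (-1)^k [-x ≡ e]) y^(k-1)`;
* `exists_sep`: a weight-4 form on `Γ₁(M)` with integral `q`-expansion which is moved by every
  `γ ∈ SL(2, ℤ)` with `γ, -γ ∉ Γ₁(M)` (namely `E₄(Mτ) + l • tN M 1 4` for a suitable `l : ℕ`);
* `exists_odd_seed`: for `M ≥ 3`, a nonzero weight-3 form on `Γ₁(M)` with integral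
  `q`-expansion `q + …`.
-/

set_option autoImplicit false

open scoped Manifold MatrixGroups ModularForm Topology Real Nat
open UpperHalfPlane hiding I
open EisensteinSeries Matrix CongruenceSubgroup Filter Complex
open Fermat.Agent.S30.EisChar

noncomputable section

namespace Fermat.Agent.S48.EisSeed

/-- The indicator of the lattice vectors `v` with `v 0 ≡ e mod M`. -/
def ind (M : ℕ) (e : ZMod M) (v : Fin 2 → ℤ) : ℂ :=
  if ((v 0 : ℤ) : ZMod M) = e then 1 else 0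

theorem norm_ind_le (M : ℕ) (e : ZMod M) (v : Fin 2 → ℤ) : ‖ind M e v‖ ≤ 1 := by
  unfold ind
  split_ifs <;> simp

/-- The Eisenstein-type sum `∑_{m ≡ e (M), n} (m τ + n)^(-k)`. -/
def tE (M : ℕ) (e : ZMod M) (k : ℤ) : ℍ → ℂ := eisC (ind M e) k

theorem ind_vecMul_inv (M : ℕ) (e : ZMod M) {A : SL(2, ℤ)} (hA : A ∈ Gamma0 M)
    (w : Fin 2 → ℤ) :
    ind M e (w ᵥ* ((A⁻¹ : SL(2, ℤ)) : Matrix (Fin 2) (Fin 2) ℤ))
      = ind M (e * ((A 0 0 : ℤ) : ZMod M)) w := by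
  have hc : ((A 1 0 : ℤ) : ZMod M) = 0 := Gamma0_mem.mp hA
  have hdet : (A 0 0 : ℤ) * A 1 1 - A 0 1 * A 1 0 = 1 := by
    have := A.det_coe
    rw [Matrix.det_fin_two] at this
    exact this
  have had : ((A 0 0 : ℤ) : ZMod M) * ((A 1 1 : ℤ) : ZMod M) = 1 := by
    have := congrArg (fun x : ℤ => (x : ZMod M)) hdet
    simp only [Int.cast_sub, Int.cast_mul, hc, mul_zero, sub_zero, Int.cast_one] at this
    exact this
  have h0 : (w ᵥ* ((A⁻¹ : SL(2, ℤ)) : Matrix (Fin 2) (Fin 2) ℤ)) 0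
      = w 0 * A 1 1 - w 1 * A 1 0 := by
    rw [Matrix.SpecialLinearGroup.coe_inv, Matrix.adjugate_fin_two]
    simp [Matrix.vecMul, dotProduct, Fin.sum_univ_two]
    ring
  unfold ind
  rw [h0]
  have hiff : (((w 0 * A 1 1 - w 1 * A 1 0 : ℤ) : ZMod M) = e) ↔
      (((w 0 : ℤ) : ZMod M) = e * ((A 0 0 : ℤ) : ZMod M)) := by
    simp only [Int.cast_sub, Int.cast_mul, hc, mul_zero, sub_zero]
    constructor
    · intro h
      rw [← h, mul_assoc, mul_comm ((A 1 1 : ℤ) : ZMod M), had, mul_one]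
    · intro h
      rw [h, mul_assoc, had, mul_one]
  simp only [hiff]

theorem tE_slash (M : ℕ) (e : ZMod M) (k : ℤ) {A : SL(2, ℤ)} (hA : A ∈ Gamma0 M) :
    tE M e k ∣[k] A = tE M (e * ((A 0 0 : ℤ) : ZMod M)) k := by
  rw [tE, eisC_slash]
  unfold tE
  congr 1
  funext w
  exact ind_vecMul_inv M e hA w

theorem tE_slash_Gamma1 (M : ℕ) (e : ZMod M) (k : ℤ) {A : SL(2, ℤ)} (hA : A ∈ Gamma1 M) :
    tE M e k ∣[k] A = tE M e k := by
  rw [tE_slash M e k (Gamma1_in_Gamma0 M hA), ((Gamma1_mem M A).mp hA).1, mul_one]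

/-- `tE M e k` as a modular form on `Γ₁(M)`. -/
def tMF (M : ℕ) [NeZero M] (e : ZMod M) (k : ℤ) (hk : 3 ≤ k) : ModularForm (Gamma1 M) k where
  toFun := tE M e k
  slash_action_eq' := by
    intro γ hγ
    obtain ⟨g, hg, rfl⟩ := hγ
    exact tE_slash_Gamma1 M e k hg
  holo' := eisC_mdifferentiable (norm_ind_le M e) hk
  bdd_at_cusps' := by
    intro c hc
    rw [Subgroup.IsArithmetic.isCusp_iff_isCusp_SL2Z] at hc
    rw [OnePoint.isBoundedAt_iff_forall_SL2Z hc]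
    intro A _
    exact isBoundedAtImInfty_eisC_slash (norm_ind_le M e) hk A

@[simp] theorem coe_tMF (M : ℕ) [NeZero M] (e : ZMod M) (k : ℤ) (hk : 3 ≤ k) :
    ⇑(tMF M e k hk) = tE M e k := rfl

theorem one_mem_strictPeriods_Gamma1 (M : ℕ) :
    (1 : ℝ) ∈ ((Gamma1 M : Subgroup SL(2, ℤ)) : Subgroup (GL (Fin 2) ℝ)).strictPeriods := by
  have hT : ModularGroup.T ∈ Gamma1 M := by
    rw [Gamma1_mem]
    simp [ModularGroup.T]
  rw [Subgroup.strictPeriods_eq_zmultiples_one_of_T_mem hT]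
  exact AddSubgroup.mem_zmultiples 1


/-! ### A weighted Lambert-series rearrangement -/

theorem summable_weighted_prod (w : ℕ → ℂ) (hw : ∀ n, ‖w n‖ ≤ 2) (k : ℕ) {r : ℂ} (hr : ‖r‖ < 1) :
    Summable fun c : ℕ+ × ℕ+ => w c.1 * ((c.2 : ℂ) ^ k * r ^ (c.1 * c.2 : ℕ)) := by
  have h0 : Summable fun c : ℕ+ × ℕ+ => ‖(c.2 : ℂ) ^ k * r ^ (c.1 * c.2 : ℕ)‖ :=
    (summable_prod_mul_pow (𝕜 := ℂ) k hr).norm
  refine Summable.of_norm_bounded (h0.mul_left 2) (fun c => ?_)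
  rw [norm_mul]
  exact mul_le_mul_of_nonneg_right (hw _) (norm_nonneg _)

theorem tsum_weighted_prod (w : ℕ → ℂ) (hw : ∀ n, ‖w n‖ ≤ 2) (k : ℕ) {r : ℂ} (hr : ‖r‖ < 1) :
    (Summable fun n : ℕ+ =>
        (∑ x ∈ (n : ℕ).divisorsAntidiagonal, w x.1 * (x.2 : ℂ) ^ k) * r ^ (n : ℕ)) ∧
    ∑' b : ℕ+, w b * ∑' j : ℕ+, (j : ℂ) ^ k * r ^ (b * j : ℕ)
      = ∑' n : ℕ+, (∑ x ∈ (n : ℕ).divisorsAntidiagonal, w x.1 * (x.2 : ℂ) ^ k) * r ^ (n : ℕ) := by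
  have hF := summable_weighted_prod w hw k hr
  have hF' : Summable fun s : (Σ n : ℕ+, (n : ℕ).divisorsAntidiagonal) =>
      w (sigmaAntidiagonalEquivProd s).1 * (((sigmaAntidiagonalEquivProd s).2 : ℂ) ^ k *
        r ^ ((sigmaAntidiagonalEquivProd s).1 * (sigmaAntidiagonalEquivProd s).2 : ℕ)) :=
    (sigmaAntidiagonalEquivProd.summable_iff (f := fun c : ℕ+ × ℕ+ =>
      w c.1 * ((c.2 : ℂ) ^ k * r ^ (c.1 * c.2 : ℕ)))).mpr hF
  have hinner : ∀ n : ℕ+, ∑' x : (n : ℕ).divisorsAntidiagonal,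
      w (sigmaAntidiagonalEquivProd ⟨n, x⟩).1 * (((sigmaAntidiagonalEquivProd ⟨n, x⟩).2 : ℂ) ^ k *
        r ^ ((sigmaAntidiagonalEquivProd ⟨n, x⟩).1 * (sigmaAntidiagonalEquivProd ⟨n, x⟩).2 : ℕ))
      = (∑ x ∈ (n : ℕ).divisorsAntidiagonal, w x.1 * (x.2 : ℂ) ^ k) * r ^ (n : ℕ) := by
    intro n
    rw [tsum_fintype, Finset.univ_eq_attach, Finset.sum_mul]
    rw [← Finset.sum_attach ((n : ℕ).divisorsAntidiagonal)
      (fun x => w x.1 * (x.2 : ℂ) ^ k * r ^ (n : ℕ))]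
    refine Finset.sum_congr rfl fun x _ => ?_
    have hx := (Nat.mem_divisorsAntidiagonal.mp x.2).1
    simp only [sigmaAntidiagonalEquivProd, divisorsAntidiagonalFactors, Equiv.coe_fn_mk,
      PNat.mk_coe]
    rw [hx]
    ring
  constructor
  · have := hF'.sigma
    refine this.congr fun n => ?_
    exact hinner n
  · calc ∑' b : ℕ+, w b * ∑' j : ℕ+, (j : ℂ) ^ k * r ^ (b * j : ℕ)
        = ∑' b : ℕ+, ∑' j : ℕ+, w b * ((j : ℂ) ^ k * r ^ (b * j : ℕ)) := by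
          refine tsum_congr fun b => ?_
          rw [tsum_mul_left]
      _ = ∑' c : ℕ+ × ℕ+, w c.1 * ((c.2 : ℂ) ^ k * r ^ (c.1 * c.2 : ℕ)) :=
          (hF.tsum_prod).symm
      _ = ∑' s : (Σ n : ℕ+, (n : ℕ).divisorsAntidiagonal),
            w (sigmaAntidiagonalEquivProd s).1 * (((sigmaAntidiagonalEquivProd s).2 : ℂ) ^ k *
              r ^ ((sigmaAntidiagonalEquivProd s).1 * (sigmaAntidiagonalEquivProd s).2 : ℕ)) :=
          (sigmaAntidiagonalEquivProd.tsum_eq (fun c : ℕ+ × ℕ+ =>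
            w c.1 * ((c.2 : ℂ) ^ k * r ^ (c.1 * c.2 : ℕ)))).symm
      _ = ∑' n : ℕ+, ∑' x : (n : ℕ).divisorsAntidiagonal,
            w (sigmaAntidiagonalEquivProd ⟨n, x⟩).1 *
              (((sigmaAntidiagonalEquivProd ⟨n, x⟩).2 : ℂ) ^ k *
              r ^ ((sigmaAntidiagonalEquivProd ⟨n, x⟩).1 *
                (sigmaAntidiagonalEquivProd ⟨n, x⟩).2 : ℕ)) :=
          hF'.tsum_sigma
      _ = _ := tsum_congr hinner


/-! ### The `q`-expansion of `tE` -/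

/-- The indicator `m ≡ e mod M` on integers. -/
def i1 (M : ℕ) (e : ZMod M) (m : ℤ) : ℂ := if ((m : ℤ) : ZMod M) = e then 1 else 0

theorem ind_cons (M : ℕ) (e : ZMod M) (m n : ℤ) : ind M e ![m, n] = i1 M e m := rfl

theorem summable_prod_term (M : ℕ) (e : ZMod M) {k : ℕ} (hk : 3 ≤ k) (z : ℍ) :
    Summable fun x : ℤ × ℤ => i1 M e x.1 * eisSummand k ![x.1, x.2] z := by
  have hk' : (3 : ℤ) ≤ k := by exact_mod_cast hk
  have h := summable_term (c := ind M e) (norm_ind_le M e) hk' z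
  refine (finTwoArrowEquiv ℤ).summable_iff.mp <| h.congr (fun v => ?_)
  have hv : ![v 0, v 1] = v := List.ofFn_inj.mp rfl
  show ind M e v * eisSummand k v z = i1 M e (v 0) * eisSummand k ![v 0, v 1] z
  rw [← ind_cons M e (v 0) (v 1), hv]

theorem tE_eq_tsum_int (M : ℕ) (e : ZMod M) {k : ℕ} (hk : 3 ≤ k) (z : ℍ) :
    tE M e k z = ∑' m : ℤ, i1 M e m * ∑' n : ℤ, eisSummand k ![m, n] z := by
  unfold tE eisC
  rw [← (finTwoArrowEquiv ℤ).symm.tsum_eq]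
  simp only [finTwoArrowEquiv_symm_apply, ind_cons]
  rw [(summable_prod_term M e hk z).tsum_prod]
  refine tsum_congr fun m => ?_
  dsimp only
  rw [tsum_mul_left]


theorem tsum_eisSummand_neg (k : ℕ) (m : ℤ) (z : ℍ) :
    ∑' n : ℤ, eisSummand k ![-m, n] z = (-1 : ℂ) ^ k * ∑' n : ℤ, eisSummand k ![m, n] z := by
  rw [← tsum_comp_neg (f := fun n : ℤ => eisSummand k ![-m, n] z), ← tsum_mul_left]
  refine tsum_congr fun n => ?_
  simp only [eisSummand, Matrix.cons_val_zero, Matrix.cons_val_one, Int.cast_neg]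
  have h : (-(m : ℂ) * (z : ℂ) + -(n : ℂ)) = -((m : ℂ) * z + n) := by ring
  rw [h, _root_.zpow_neg, _root_.zpow_neg, zpow_natCast, zpow_natCast, neg_pow, mul_inv]
  congr 1
  rcases Nat.even_or_odd k with hk | hk
  · simp [hk.neg_one_pow]
  · simp [hk.neg_one_pow]

theorem tsum_eisSummand_pnat {k : ℕ} (hk : 3 ≤ k) (b : ℕ+) (z : ℍ) :
    ∑' n : ℤ, eisSummand k ![(b : ℤ), n] z = ((-2 * π * I) ^ k / (k - 1)!) *
      ∑' j : ℕ+, (j : ℂ) ^ (k - 1) * cexp (2 * π * I * z) ^ (b * j : ℕ) := by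
  have H := qExpansion_identity_pnat (k := k - 1) (by omega) ⟨b * z, by simpa using z.2⟩
  simp_rw [show k - 1 + 1 = k by omega, one_div] at H
  have h1 : ∑' n : ℤ, eisSummand k ![(b : ℤ), n] z = ∑' n : ℤ, (((b : ℂ) * z + n) ^ k)⁻¹ := by
    refine tsum_congr fun n => ?_
    simp [eisSummand]
  rw [h1]
  have H' : ∑' n : ℤ, (((b : ℂ) * z + n) ^ k)⁻¹ = ((-2 * π * I) ^ k / (k - 1)!) *
      ∑' n : ℕ+, (n : ℂ) ^ (k - 1) * cexp (2 * π * I * ((b : ℂ) * z)) ^ (n : ℕ) := by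
    simpa using H
  rw [H']
  congr 1
  refine tsum_congr fun j => ?_
  congr 1
  rw [← Complex.exp_nat_mul, ← Complex.exp_nat_mul]
  congr 1
  push_cast
  ring

/-- The integer weight `[m ≡ e] + (-1)^k [-m ≡ e]`. -/
def wE (M : ℕ) (e : ZMod M) (k : ℕ) (m : ℕ) : ℤ :=
  (if (((m : ℕ) : ℤ) : ZMod M) = e then 1 else 0) +
    (-1) ^ k * (if ((-((m : ℕ) : ℤ) : ℤ) : ZMod M) = e then 1 else 0)

/-- The `n`-th normalised `q`-expansion coefficient of `tE M e k`. -/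
def cE (M : ℕ) (e : ZMod M) (k : ℕ) (n : ℕ) : ℤ :=
  ∑ x ∈ n.divisorsAntidiagonal, wE M e k x.1 * (x.2 : ℤ) ^ (k - 1)

theorem cE_zero (M : ℕ) (e : ZMod M) (k : ℕ) : cE M e k 0 = 0 := by
  simp [cE]

theorem cE_one (M : ℕ) (e : ZMod M) (k : ℕ) : cE M e k 1 = wE M e k 1 := by
  simp [cE]

theorem wE_cast (M : ℕ) (e : ZMod M) (k : ℕ) (m : ℕ) :
    ((wE M e k m : ℤ) : ℂ) = i1 M e (m : ℤ) + (-1 : ℂ) ^ k * i1 M e (-(m : ℤ)) := by
  unfold wE i1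
  push_cast
  split_ifs <;> simp

theorem norm_wE_le (M : ℕ) (e : ZMod M) (k : ℕ) (m : ℕ) : ‖((wE M e k m : ℤ) : ℂ)‖ ≤ 2 := by
  rw [wE_cast]
  refine (norm_add_le _ _).trans ?_
  have h1 : ∀ m : ℤ, ‖i1 M e m‖ ≤ 1 := by
    intro m
    unfold i1
    split_ifs <;> simp
  have h2 : ‖(-1 : ℂ) ^ k * i1 M e (-(m : ℤ))‖ ≤ 1 := by
    rw [norm_mul, norm_pow, norm_neg, norm_one, one_pow, one_mul]
    exact h1 _
  linarith [h1 (m : ℤ)]

theorem cE_cast (M : ℕ) (e : ZMod M) (k : ℕ) (n : ℕ) :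
    ((cE M e k n : ℤ) : ℂ) =
      ∑ x ∈ n.divisorsAntidiagonal, ((wE M e k x.1 : ℤ) : ℂ) * (x.2 : ℂ) ^ (k - 1) := by
  unfold cE
  push_cast
  rfl

/-- The constant `(-2πi)^k / (k-1)!`. -/
def cC (k : ℕ) : ℂ := (-2 * π * I) ^ k / (k - 1)!

theorem cC_ne_zero (k : ℕ) : cC k ≠ 0 := by
  unfold cC
  have h1 : (-2 * (π : ℂ) * I) ≠ 0 := by
    simp [Real.pi_ne_zero, I_ne_zero]
  have h2 : (((k - 1)! : ℕ) : ℂ) ≠ 0 := by
    exact_mod_cast Nat.factorial_ne_zero _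
  exact div_ne_zero (pow_ne_zero _ h1) h2

theorem tE_eq_tsum_pnat (M : ℕ) {e : ZMod M} (he : e ≠ 0) {k : ℕ} (hk : 3 ≤ k) (z : ℍ) :
    (Summable fun n : ℕ+ => ((cE M e k n : ℤ) : ℂ) * cexp (2 * π * I * z) ^ (n : ℕ)) ∧
    tE M e k z = cC k * ∑' n : ℕ+, ((cE M e k n : ℤ) : ℂ) * cexp (2 * π * I * z) ^ (n : ℕ) := by
  have hr : ‖cexp (2 * π * I * z)‖ < 1 := norm_exp_two_pi_I_lt_one z
  obtain ⟨hsum, hW⟩ := tsum_weighted_prod (fun m => ((wE M e k m : ℤ) : ℂ))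
    (norm_wE_le M e k) (k - 1) hr
  have hcongr : (fun n : ℕ+ => (∑ x ∈ (n : ℕ).divisorsAntidiagonal,
      ((wE M e k x.1 : ℤ) : ℂ) * (x.2 : ℂ) ^ (k - 1)) * cexp (2 * π * I * z) ^ (n : ℕ))
      = fun n : ℕ+ => ((cE M e k n : ℤ) : ℂ) * cexp (2 * π * I * z) ^ (n : ℕ) := by
    funext n
    rw [cE_cast]
  rw [hcongr] at hsum hW
  refine ⟨hsum, ?_⟩
  rw [← hW, tE_eq_tsum_int M e hk z]
  -- the summable family over `ℤ`
  have hf : Summable fun m : ℤ => i1 M e m * ∑' n : ℤ, eisSummand k ![m, n] z := by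
    have := (summable_prod_term M e hk z).prod
    refine this.congr fun m => ?_
    dsimp only
    rw [tsum_mul_left]
  rw [tsum_int_eq_zero_add_tsum_pnat hf]
  have h0 : i1 M e 0 = 0 := by
    unfold i1
    rw [if_neg]
    simpa using he.symm
  rw [h0, zero_mul, zero_add]
  have hpos : ∀ b : ℕ+, i1 M e (b : ℤ) * ∑' n : ℤ, eisSummand k ![(b : ℤ), n] z
      = cC k * (i1 M e (b : ℤ) *
        ∑' j : ℕ+, (j : ℂ) ^ (k - 1) * cexp (2 * π * I * z) ^ (b * j : ℕ)) := by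
    intro b
    rw [tsum_eisSummand_pnat hk b z, cC]
    ring
  have hneg : ∀ b : ℕ+, i1 M e (-(b : ℤ)) * ∑' n : ℤ, eisSummand k ![-(b : ℤ), n] z
      = cC k * ((-1 : ℂ) ^ k * i1 M e (-(b : ℤ)) *
        ∑' j : ℕ+, (j : ℂ) ^ (k - 1) * cexp (2 * π * I * z) ^ (b * j : ℕ)) := by
    intro b
    rw [tsum_eisSummand_neg, tsum_eisSummand_pnat hk b z, cC]
    ring
  have h3 : Summable fun b : ℕ+ => i1 M e (b : ℤ) * ∑' n : ℤ, eisSummand k ![(b : ℤ), n] z := by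
    have h1 : Summable fun n : ℕ => i1 M e (n : ℤ) * ∑' c : ℤ, eisSummand k ![(n : ℤ), c] z :=
      (summable_int_iff_summable_nat_and_neg.mp hf).1
    exact (summable_pnat_iff_summable_nat (f := fun n : ℕ =>
      i1 M e (n : ℤ) * ∑' c : ℤ, eisSummand k ![(n : ℤ), c] z)).mpr h1
  have h4 : Summable fun b : ℕ+ =>
      i1 M e (-(b : ℤ)) * ∑' n : ℤ, eisSummand k ![-(b : ℤ), n] z := by
    have h2 : Summable fun n : ℕ =>
        i1 M e (-(n : ℤ)) * ∑' c : ℤ, eisSummand k ![-(n : ℤ), c] z :=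
      (summable_int_iff_summable_nat_and_neg.mp hf).2
    exact (summable_pnat_iff_summable_nat (f := fun n : ℕ =>
      i1 M e (-(n : ℤ)) * ∑' c : ℤ, eisSummand k ![-(n : ℤ), c] z)).mpr h2
  rw [← h3.tsum_add h4, ← tsum_mul_left]
  refine tsum_congr fun b => ?_
  rw [hpos b, hneg b, wE_cast]
  ring


local notation "𝕢" => Function.Periodic.qParam

theorem hasSum_tE (M : ℕ) {e : ZMod M} (he : e ≠ 0) {k : ℕ} (hk : 3 ≤ k) (τ : ℍ) :
    HasSum (fun n : ℕ => ((cE M e k n : ℤ) : ℂ) • 𝕢 (1 : ℝ) τ ^ n) ((cC k)⁻¹ * tE M e k τ) := by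
  obtain ⟨hsum, heq⟩ := tE_eq_tsum_pnat M he hk τ
  have hg : Summable fun n : ℕ => ((cE M e k n : ℤ) : ℂ) * cexp (2 * π * I * τ) ^ n :=
    (summable_pnat_iff_summable_nat (f := fun n : ℕ =>
      ((cE M e k n : ℤ) : ℂ) * cexp (2 * π * I * τ) ^ n)).mp hsum
  have h0 := tsum_zero_pnat_eq_tsum_nat hg
  simp only [cE_zero, Int.cast_zero, zero_mul, zero_add] at h0
  have hval : (cC k)⁻¹ * tE M e k τ
      = ∑' n : ℕ, ((cE M e k n : ℤ) : ℂ) * cexp (2 * π * I * τ) ^ n := by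
    rw [heq, h0, ← mul_assoc, inv_mul_cancel₀ (cC_ne_zero k), one_mul]
  rw [hval]
  convert hg.hasSum using 2 with n
  simp [Function.Periodic.qParam]

theorem cC_inv_smul_apply (M : ℕ) [NeZero M] (e : ZMod M) (k : ℕ) (hk : (3 : ℤ) ≤ k) (τ : ℍ) :
    ((cC k)⁻¹ • tMF M e k hk) τ = (cC k)⁻¹ * tE M e k τ := rfl

/-- The normalised form `C_k⁻¹ · ∑_{m ≡ e (M), n} (m τ + n)^(-k)` on `Γ₁(M)`. -/
def tN (M : ℕ) [NeZero M] (e : ZMod M) (k : ℕ) (hk : 3 ≤ k) : ModularForm (Gamma1 M) k :=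
  (cC k)⁻¹ • tMF M e k (by exact_mod_cast hk)

theorem tN_apply (M : ℕ) [NeZero M] (e : ZMod M) (k : ℕ) (hk : 3 ≤ k) (τ : ℍ) :
    tN M e k hk τ = (cC k)⁻¹ * tE M e k τ := rfl

theorem qExpansion_tN_coeff (M : ℕ) [NeZero M] {e : ZMod M} (he : e ≠ 0) {k : ℕ} (hk : 3 ≤ k)
    (n : ℕ) : (qExpansion 1 (tN M e k hk)).coeff n = ((cE M e k n : ℤ) : ℂ) :=
  (ModularFormClass.qExpansion_coeff_unique one_pos (one_mem_strictPeriods_Gamma1 M)
    (f := tN M e k hk) (fun τ => hasSum_tE M he hk τ) n).symm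


/-! ### Integrality and the first coefficient -/

open Fermat.Agent.S23.Defs in
theorem isIntPS_tN (M : ℕ) [NeZero M] {e : ZMod M} (he : e ≠ 0) {k : ℕ} (hk : 3 ≤ k) :
    IsIntPS (qExpansion 1 (tN M e k hk)) :=
  fun n => ⟨cE M e k n, qExpansion_tN_coeff M he hk n⟩

theorem wE_one_of_ne (M : ℕ) {e : ZMod M} (k : ℕ) (h1 : e ≠ 1) (h2 : e ≠ -1) :
    wE M e k 1 = 0 := by
  unfold wE
  have ha : ¬ ((((1 : ℕ) : ℤ) : ZMod M) = e) := by
    intro h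
    apply h1
    rw [← h]
    simp
  have hb : ¬ (((-((1 : ℕ) : ℤ) : ℤ) : ZMod M) = e) := by
    intro h
    apply h2
    rw [← h]
    simp
  rw [if_neg ha, if_neg hb]
  simp

theorem wE_one_even_pos (M : ℕ) {k : ℕ} (hk : Even k) : 1 ≤ wE M (1 : ZMod M) k 1 := by
  unfold wE
  have ha : ((((1 : ℕ) : ℤ) : ZMod M) = 1) := by simp
  rw [if_pos ha, hk.neg_one_pow, one_mul]
  split_ifs <;> norm_num

theorem wE_one_of_neg_one_ne (M : ℕ) (k : ℕ) (hM : (-1 : ZMod M) ≠ 1) :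
    wE M (1 : ZMod M) k 1 = 1 := by
  unfold wE
  have ha : ((((1 : ℕ) : ℤ) : ZMod M) = 1) := by simp
  have hb : ¬ (((-((1 : ℕ) : ℤ) : ℤ) : ZMod M) = 1) := by
    intro h
    apply hM
    simpa using h
  rw [if_pos ha, if_neg hb]
  simp

/-! ### Slashing by `Γ₀(M)` -/

theorem tN_slash (M : ℕ) [NeZero M] (e : ZMod M) {k : ℕ} (hk : 3 ≤ k) {A : SL(2, ℤ)}
    (hA : A ∈ Gamma0 M) :
    (⇑(tN M e k hk) : ℍ → ℂ) ∣[(k : ℤ)] A = ⇑(tN M (e * ((A 0 0 : ℤ) : ZMod M)) k hk) := by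
  funext τ
  have h := congrFun (tE_slash M e (k : ℤ) hA) τ
  rw [ModularForm.SL_slash_apply] at h ⊢
  rw [tN_apply, tN_apply, ← h]
  ring

theorem tN_ne_of_ne (M : ℕ) [NeZero M] {e : ZMod M} (he0 : e ≠ 0) (h1 : e ≠ 1) (h2 : e ≠ -1)
    {k : ℕ} (hk : 3 ≤ k) (hke : Even k) :
    (⇑(tN M e k hk) : ℍ → ℂ) ≠ ⇑(tN M (1 : ZMod M) k hk) := by
  intro h
  have h10 : (1 : ZMod M) ≠ 0 := by
    intro h0
    exact h1 (by rw [← mul_one e, h0, mul_zero])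
  have hq : (qExpansion 1 (tN M e k hk)).coeff 1 = (qExpansion 1 (tN M (1 : ZMod M) k hk)).coeff 1 := by
    rw [h]
  rw [qExpansion_tN_coeff M he0 hk, qExpansion_tN_coeff M h10 hk, cE_one, cE_one,
    wE_one_of_ne M k h1 h2] at hq
  have h3 := wE_one_even_pos M (k := k) hke
  have h4 : (0 : ℤ) = wE M (1 : ZMod M) k 1 := by exact_mod_cast hq
  omega


/-! ### The separating form -/

/-- `τ ↦ E₄(M τ)` restricted to `Γ₁(M)`. -/
def t0 (M : ℕ) [NeZero M] : ModularForm (Gamma1 M) 4 :=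
  Fermat.Agent.S23.LevelRaise.restrict (Subgroup.map_mono (Gamma1_in_Gamma0 M))
    (Fermat.Agent.S23.TForm.tForm M)

theorem coe_t0 (M : ℕ) [NeZero M] : (⇑(t0 M) : ℍ → ℂ) = ⇑(Fermat.Agent.S23.TForm.tForm M) := rfl

open Fermat.Agent.S23.Defs in
theorem isIntPS_t0 (M : ℕ) [NeZero M] : IsIntPS (qExpansion 1 (t0 M)) :=
  Fermat.Agent.S23.TForm.isIntPS_tForm M

theorem t0_slash_eq (M : ℕ) [NeZero M] {γ : SL(2, ℤ)} (hγ : γ ∈ Gamma0 M) :
    (⇑(t0 M) : ℍ → ℂ) ∣[(4 : ℤ)] γ = ⇑(t0 M) :=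
  SlashInvariantForm.slash_action_eqn (Fermat.Agent.S23.TForm.tForm M) _ ⟨γ, hγ, rfl⟩

theorem t0_slash_ne (M : ℕ) [NeZero M] {γ : SL(2, ℤ)} (hγ : γ ∉ Gamma0 M) :
    (⇑(t0 M) : ℍ → ℂ) ∣[(4 : ℤ)] γ ≠ ⇑(t0 M) := by
  intro h
  obtain ⟨c', hc', hlim⟩ := Fermat.Agent.S23.TForm.exists_tendsto_slash_ne M hγ
  have h1 := Fermat.Agent.S23.TForm.tendsto_tForm M
  rw [coe_t0] at h
  rw [h] at hlim
  exact hc' (tendsto_nhds_unique hlim h1)

/-- The weight-4 form `C₄⁻¹ ∑_{m ≡ e} (mτ+n)⁻⁴` on `Γ₁(M)`. -/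
def tN4 (M : ℕ) [NeZero M] (e : ZMod M) : ModularForm (Gamma1 M) 4 :=
  tN M e 4 (by norm_num)

/-- Elements of `SL(2, ℤ)` are slash-invariant for forms on `Γ₁(M)`. -/
theorem slash_Gamma1 (M : ℕ) {k : ℤ} (f : ModularForm (Gamma1 M) k) {δ : SL(2, ℤ)}
    (hδ : δ ∈ Gamma1 M) : (⇑f : ℍ → ℂ) ∣[k] δ = ⇑f :=
  SlashInvariantForm.slash_action_eqn f _ ⟨δ, hδ, rfl⟩

theorem exists_rep (M : ℕ) (γ : SL(2, ℤ)) :
    ∃ δ ∈ Gamma1 M, γ = δ * (Quotient.out (QuotientGroup.mk γ⁻¹ : SL(2, ℤ) ⧸ Gamma1 M))⁻¹ := by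
  set r := Quotient.out (QuotientGroup.mk γ⁻¹ : SL(2, ℤ) ⧸ Gamma1 M) with hr
  have h1 : (QuotientGroup.mk r : SL(2, ℤ) ⧸ Gamma1 M) = QuotientGroup.mk γ⁻¹ :=
    QuotientGroup.out_eq' _
  have h2 : r⁻¹ * γ⁻¹ ∈ Gamma1 M := QuotientGroup.eq.mp h1
  refine ⟨γ * r, ?_, by group⟩
  have : γ * r = (r⁻¹ * γ⁻¹)⁻¹ := by group
  rw [this]
  exact (Gamma1 M).inv_mem h2


theorem neg_mem_Gamma1_iff (M : ℕ) (A : SL(2, ℤ)) :
    -A ∈ Gamma1 M ↔ ((A 0 0 : ℤ) : ZMod M) = -1 ∧ ((A 1 1 : ℤ) : ZMod M) = -1 ∧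
      ((A 1 0 : ℤ) : ZMod M) = 0 := by
  rw [Gamma1_mem]
  simp only [Matrix.SpecialLinearGroup.coe_neg, Matrix.neg_apply, Int.cast_neg, neg_eq_zero]
  constructor
  · rintro ⟨h1, h2, h3⟩
    exact ⟨by rw [← h1, neg_neg], by rw [← h2, neg_neg], h3⟩
  · rintro ⟨h1, h2, h3⟩
    exact ⟨by rw [h1, neg_neg], by rw [h2, neg_neg], h3⟩

/-- For `A ∈ Γ₀(M)` the diagonal entries are inverse to each other mod `M`. -/
theorem diag_mul_of_mem_Gamma0 (M : ℕ) {A : SL(2, ℤ)} (hA : A ∈ Gamma0 M) :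
    ((A 0 0 : ℤ) : ZMod M) * ((A 1 1 : ℤ) : ZMod M) = 1 := by
  have hc : ((A 1 0 : ℤ) : ZMod M) = 0 := Gamma0_mem.mp hA
  have hdet : (A 0 0 : ℤ) * A 1 1 - A 0 1 * A 1 0 = 1 := by
    have := A.det_coe
    rw [Matrix.det_fin_two] at this
    exact this
  have := congrArg (fun x : ℤ => (x : ZMod M)) hdet
  simp only [Int.cast_sub, Int.cast_mul, hc, mul_zero, sub_zero, Int.cast_one] at this
  exact this

/-- The key dichotomy: for `γ` with `γ, -γ ∉ Γ₁(M)`, either `t0` or `tN4 1` is moved by `γ`. -/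
theorem t0_or_tN4_slash_ne (M : ℕ) [NeZero M] {γ : SL(2, ℤ)} (h1 : γ ∉ Gamma1 M)
    (h2 : -γ ∉ Gamma1 M) :
    (⇑(t0 M) : ℍ → ℂ) ∣[(4 : ℤ)] γ ≠ ⇑(t0 M) ∨
      (⇑(tN4 M 1) : ℍ → ℂ) ∣[(4 : ℤ)] γ ≠ ⇑(tN4 M 1) := by
  by_cases hγ : γ ∈ Gamma0 M
  · right
    have hc : ((γ 1 0 : ℤ) : ZMod M) = 0 := Gamma0_mem.mp hγ
    have had := diag_mul_of_mem_Gamma0 M hγ
    set a : ZMod M := ((γ 0 0 : ℤ) : ZMod M) with ha
    have ha1 : a ≠ 1 := by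
      intro h
      apply h1
      rw [Gamma1_mem]
      refine ⟨h, ?_, hc⟩
      rw [h, one_mul] at had
      exact had
    have ha2 : a ≠ -1 := by
      intro h
      apply h2
      rw [neg_mem_Gamma1_iff]
      refine ⟨h, ?_, hc⟩
      rw [h] at had
      have : ((γ 1 1 : ℤ) : ZMod M) = -(-1 * ((γ 1 1 : ℤ) : ZMod M)) := by ring
      rw [this, had]
    have ha0 : a ≠ 0 := by
      intro h
      rw [h, zero_mul] at had
      apply ha1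
      rw [h]
      exact had
    have hs : (⇑(tN4 M 1) : ℍ → ℂ) ∣[(4 : ℤ)] γ = ⇑(tN4 M a) := by
      have := tN_slash M (1 : ZMod M) (k := 4) (by norm_num) hγ
      rw [one_mul] at this
      exact this
    rw [hs]
    exact tN_ne_of_ne M ha0 ha1 ha2 (by norm_num) (by decide)
  · left
    exact t0_slash_ne M hγ

open Fermat.Agent.S23.Defs in
/-- **Separating form for `±Γ₁(M)`.** There is a weight-4 modular form on `Γ₁(M)` with integral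
`q`-expansion which is moved by every `γ ∈ SL(2, ℤ)` with `γ, -γ ∉ Γ₁(M)`. -/
theorem exists_sep (M : ℕ) [NeZero M] :
    ∃ u : ModularForm (Gamma1 M) 4, IsIntPS (qExpansion 1 u) ∧
      ∀ γ : SL(2, ℤ), γ ∉ Gamma1 M → -γ ∉ Gamma1 M → (⇑u : ℍ → ℂ) ∣[(4 : ℤ)] γ ≠ ⇑u := by
  classical
  by_cases hM1 : M = 1
  · subst hM1
    refine ⟨t0 1, isIntPS_t0 1, fun γ h1 _ => ?_⟩
    exfalso
    apply h1
    rw [Gamma1_mem]
    exact ⟨Subsingleton.elim _ _, Subsingleton.elim _ _, Subsingleton.elim _ _⟩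
  have hM2 : 1 < M := by
    have := NeZero.ne M
    omega
  have : Fact (1 < M) := ⟨hM2⟩
  have h10 : (1 : ZMod M) ≠ 0 := one_ne_zero
  -- the coset representatives
  let rep : SL(2, ℤ) ⧸ Gamma1 M → SL(2, ℤ) := fun x => (Quotient.out x)⁻¹
  let A : SL(2, ℤ) ⧸ Gamma1 M → ℍ → ℂ := fun x => (⇑(t0 M) : ℍ → ℂ) ∣[(4 : ℤ)] rep x - ⇑(t0 M)
  let B : SL(2, ℤ) ⧸ Gamma1 M → ℍ → ℂ :=
    fun x => (⇑(tN4 M 1) : ℍ → ℂ) ∣[(4 : ℤ)] rep x - ⇑(tN4 M 1)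
  let P : SL(2, ℤ) ⧸ Gamma1 M → Prop := fun x => rep x ∉ Gamma1 M ∧ -rep x ∉ Gamma1 M
  let Bad : SL(2, ℤ) ⧸ Gamma1 M → Set ℕ := fun x => {l : ℕ | A x + (l : ℂ) • B x = 0}
  have hsub : ∀ x, P x → (Bad x).Subsingleton := by
    intro x hx l₁ hl₁ l₂ hl₂
    by_contra hne
    have e1 : A x + (l₁ : ℂ) • B x = 0 := hl₁
    have e2 : A x + (l₂ : ℂ) • B x = 0 := hl₂
    have e3 : ((l₁ : ℂ) - (l₂ : ℂ)) • B x = 0 := by
      rw [sub_smul, ← sub_eq_zero.mpr (e1.trans e2.symm)]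
      abel
    have hl : ((l₁ : ℂ) - (l₂ : ℂ)) ≠ 0 := by
      rw [sub_ne_zero]
      exact_mod_cast hne
    have hB : B x = 0 := (smul_eq_zero.mp e3).resolve_left hl
    have hA : A x = 0 := by
      rw [hB, smul_zero, add_zero] at e1
      exact e1
    rcases t0_or_tN4_slash_ne M hx.1 hx.2 with h | h
    · exact h (sub_eq_zero.mp hA)
    · exact h (sub_eq_zero.mp hB)
  have : Finite (SL(2, ℤ) ⧸ Gamma1 M) := Subgroup.finite_quotient_of_finiteIndex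
  have hfin : (⋃ x ∈ {x | P x}, Bad x).Finite :=
    Set.Finite.biUnion (Set.toFinite _) (fun x hx => (hsub x hx).finite)
  obtain ⟨l, hl⟩ := hfin.exists_notMem
  have hl' : ∀ x, P x → A x + (l : ℂ) • B x ≠ 0 := by
    intro x hx h
    apply hl
    exact Set.mem_biUnion (show x ∈ {x | P x} from hx) (show l ∈ Bad x from h)
  refine ⟨t0 M + (l : ℂ) • tN4 M 1, ?_, ?_⟩
  · intro n
    obtain ⟨m₀, hm₀⟩ := isIntPS_t0 M n
    obtain ⟨m₁, hm₁⟩ := isIntPS_tN M h10 (k := 4) (by norm_num) n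
    refine ⟨m₀ + l * m₁, ?_⟩
    have hΓ := one_mem_strictPeriods_Gamma1 M
    have e1 : qExpansion 1 (⇑(t0 M + (l : ℂ) • tN4 M 1) : ℍ → ℂ)
        = qExpansion 1 (t0 M) + (l : ℂ) • qExpansion 1 (tN4 M 1) := by
      rw [FunLike.coe_add, ModularForm.qExpansion_add one_pos hΓ, FunLike.coe_smul,
        ModularForm.qExpansion_smul one_pos hΓ]
    rw [e1, map_add, PowerSeries.coeff_smul, hm₀]
    have : (PowerSeries.coeff n) (qExpansion 1 ⇑(tN4 M 1)) = (m₁ : ℂ) := hm₁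
    rw [this]
    push_cast
    rfl
  · intro γ h1 h2 hcon
    obtain ⟨δ, hδ, hγ⟩ := exists_rep M γ
    set x : SL(2, ℤ) ⧸ Gamma1 M := QuotientGroup.mk γ⁻¹ with hx
    have hrep : γ = δ * rep x := hγ
    have hPx : P x := by
      constructor
      · intro h
        apply h1
        rw [hrep]
        exact (Gamma1 M).mul_mem hδ h
      · intro h
        apply h2
        have : -γ = δ * (-rep x) := by rw [hrep, mul_neg]
        rw [this]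
        exact (Gamma1 M).mul_mem hδ h
    apply hl' x hPx
    have hu : ∀ f : ModularForm (Gamma1 M) 4,
        (⇑f : ℍ → ℂ) ∣[(4 : ℤ)] γ = (⇑f : ℍ → ℂ) ∣[(4 : ℤ)] rep x := by
      intro f
      rw [hrep, SlashAction.slash_mul, slash_Gamma1 M f hδ]
    have hcon' : (⇑(t0 M) : ℍ → ℂ) ∣[(4 : ℤ)] rep x +
        (l : ℂ) • ((⇑(tN4 M 1) : ℍ → ℂ) ∣[(4 : ℤ)] rep x)
        = ⇑(t0 M) + (l : ℂ) • ⇑(tN4 M 1) := by
      have := hcon
      rw [hu, FunLike.coe_add, FunLike.coe_smul, SlashAction.add_slash,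
        ModularForm.SL_smul_slash] at this
      exact this
    show (⇑(t0 M) : ℍ → ℂ) ∣[(4 : ℤ)] rep x - ⇑(t0 M) +
      (l : ℂ) • ((⇑(tN4 M 1) : ℍ → ℂ) ∣[(4 : ℤ)] rep x - ⇑(tN4 M 1)) = 0
    rw [smul_sub, sub_add_sub_comm, hcon', sub_self]

/-- **Odd seed.** For `M ≥ 3` there is a nonzero weight-3 modular form on `Γ₁(M)` with integral
`q`-expansion (coefficient of `q` equal to `1`). -/
theorem exists_odd_seed (M : ℕ) [NeZero M] (hM : 3 ≤ M) :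
    ∃ s : ModularForm (Gamma1 M) 3, Fermat.Agent.S23.Defs.IsIntPS (qExpansion 1 s) ∧
      (qExpansion 1 s).coeff 1 = 1 ∧ s ≠ 0 := by
  have : Fact (1 < M) := ⟨by omega⟩
  have : Fact (2 < M) := ⟨by omega⟩
  have h10 : (1 : ZMod M) ≠ 0 := one_ne_zero
  have hneg : (-1 : ZMod M) ≠ 1 := ZMod.neg_one_ne_one
  have hc1 : (qExpansion 1 (tN M (1 : ZMod M) 3 (by norm_num))).coeff 1 = 1 := by
    rw [qExpansion_tN_coeff M h10 (by norm_num), cE_one, wE_one_of_neg_one_ne M 3 hneg]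
    simp
  refine ⟨tN M (1 : ZMod M) 3 (by norm_num), isIntPS_tN M h10 (by norm_num), hc1, ?_⟩
  intro h0
  have h00 : (qExpansion 1 (tN M (1 : ZMod M) 3 (by norm_num))).coeff 1 = 0 := by
    rw [h0]
    simp [qExpansion_zero]
  rw [hc1] at h00
  exact one_ne_zero h00

end Fermat.Agent.S48.EisSeed
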