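import Mathlib
import Fermat.Agent.S48.IntBasis1.Pm
import Fermat.Agent.S48.EisSeed

/-!
# (C★): the integral structure of `S_k(Γ₁(M))`, every level, every weight (S48, brick C.Int)

`span_int_gamma1` : for every `M ≥ 1` and every weight `k : ℤ`, the space of cusp forms
`S_k(Γ₁(M))` is spanned over `ℂ` by cusp forms with integral `q`-expansion.

This is the landed consumer `IntBasis1.span_int_gamma1_of_sep` fed with the separating form
`EisSeed.exists_sep` (weight 4), the level-one form `E₄`, and the odd seed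
`EisSeed.exists_odd_seed` (weight 3).  No hypothesis is left.
-/

set_option autoImplicit false

open scoped Manifold MatrixGroups ModularForm
open UpperHalfPlane CongruenceSubgroup ModularForm
open Fermat.Agent.S23 Fermat.Agent.S23.Defs

noncomputable section

namespace Fermat.Agent.S48.EisSeedInt

/-- `E₄` is not the zero form. -/
theorem E₄_ne_zero_form : (E₄ : ModularForm 𝒮ℒ 4) ≠ 0 := by
  intro h
  have h0 : (qExpansion 1 (⇑(E₄ : ModularForm 𝒮ℒ 4))).coeff 0 = _ :=
    EisensteinSeries.E_qExpansion_coeff (k := 4) (by norm_num) ⟨2, rfl⟩ 0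
  rw [h] at h0
  simp [qExpansion_zero] at h0

/-- **(C★), every level and weight.** `S_k(Γ₁(M))` is spanned over `ℂ` by cusp forms with
integral `q`-expansion. -/
theorem span_int_gamma1 (M : ℕ) [NeZero M] (k : ℤ) :
    Submodule.span ℂ {f : CuspForm (Gamma1 M) k | IsIntPS (qExpansion 1 f)} = ⊤ := by
  obtain ⟨u, hu, husep⟩ := Fermat.Agent.S48.EisSeed.exists_sep M
  refine Fermat.Agent.S48.IntBasis1.span_int_gamma1_of_sep M (w := 4) ⟨2, rfl⟩ u hu E₄
    TForm.isIntPS_E₄ E₄_ne_zero_form (fun γ hγ => ?_) (fun hM => ?_) k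
  · by_contra hcon
    push Not at hcon
    exact husep γ hcon.1 hcon.2 hγ
  · obtain ⟨s, hs, -, hs0⟩ := Fermat.Agent.S48.EisSeed.exists_odd_seed M hM
    exact ⟨3, s, ⟨1, rfl⟩, hs, hs0⟩

/-- The same in the `qCoeff` vocabulary of the frozen statements. -/
theorem span_qCoeff_gamma1 (M : ℕ) [NeZero M] (k : ℤ) :
    Submodule.span ℂ {f : CuspForm (Gamma1 M) k |
      ∀ n : ℕ, ∃ m : ℤ, ModularFormClass.qCoeff f n = (m : ℂ)} = ⊤ :=
  span_int_gamma1 M k

end Fermat.Agent.S48.EisSeedInt
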