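import Mathlib
import Fermat.Agent.S48.ExitDPlaces

/-!
# S48 / G1: the generic exit `(K1) ⇒ (ES with diamond)` WITHOUT the hypothesis `IntPres`

`ExitD.es_two` (and `es_dia`, `es_dia'`) assume `IntPres A d` : the twist `d` maps integral
`q`-series of `F` with nonzero reduction to integral `q`-series.  For a diamond operator
`d = ⟨u⟩`, `u ≠ ± 1`, this is FALSE: `(ℓ + g)⁻¹` is an integral power series when `g = 1 + O(q)`,
but its diamond translate `(ℓ + ⟨u⟩ g)⁻¹` has constant term `ℓ⁻¹` when `⟨u⟩ g = O(q)`.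

This file proves the same conclusions from `HasGaussNorm`, `K1`, `Twist`, `HeckeClosed2` only.
The integral numerator / denominator `esNum2`, `esDen2` of `CongrD` are built from Gauss
normalisations of `d₁ f` and `d₂ f` separately; they need not lie in `F`, but their quotient does,
and `exists_refine` replaces them by integral series of `F` with the same reduction.

* `heckeMul2_single_zero` : `heckeMul2` of two constants is the constant `b * a ^ ℓ`;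
* `exists_refine` : an element of `F` which is a quotient of two integral series (anywhere) with
  the same nonzero reduction is such a quotient with both series in `F`;
* `es_two` : `σ²(d₁ f) · (d₂ f) ^ ℓ = T(σ f) · h ^ m`, `T x = heckeMul2 (d₁ x) (d₂ x)`;
* `es_dia`, `es_dia'` : the two diamond normalisations.
-/

set_option autoImplicit false

open HahnSeries ModularCurve

namespace Fermat.Agent.S48.ExitDG

open Fermat.Agent.S30 Fermat.Agent.S48.CongrD Fermat.Agent.S48.ExitD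

local notation "Qb" => AlgebraicClosure ℚ
local notation "Gq" => (AlgebraicClosure ℚ ≃ₐ[ℚ] AlgebraicClosure ℚ)

section Series

variable {R R' : Type*} [CommRing R] [CommRing R']

theorem coeffMap_single_zero (φ : R →+* R') (c : R) :
    coeffMap φ (single 0 c : LaurentSeries R) = single 0 (φ c) := by
  ext n
  rw [coeffMap_coeff]
  by_cases hn : n = 0
  · subst hn
    rw [HahnSeries.coeff_single_same, HahnSeries.coeff_single_same]
  · rw [HahnSeries.coeff_single_of_ne hn, HahnSeries.coeff_single_of_ne hn, map_zero]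

theorem rescale_single_zero (z : Rˣ) (a : R) :
    Congr.rescale z (single 0 a : LaurentSeries R) = single 0 a := by
  ext n
  rw [Congr.coeff_rescale]
  by_cases hn : n = 0
  · subst hn
    rw [zpow_zero, Units.val_one, one_mul]
  · rw [HahnSeries.coeff_single_of_ne hn, mul_zero]

theorem single_zero_pow (a : R) (k : ℕ) :
    (single 0 a : LaurentSeries R) ^ k = single 0 (a ^ k) := by
  have h : ∀ c : R, (single 0 c : LaurentSeries R) = HahnSeries.C c := fun c => rfl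
  rw [h, h, map_pow]

theorem normL_single_zero (ℓ : ℕ) (hℓ : 0 < ℓ) (z : Rˣ) (a : R) :
    Congr.normL ℓ hℓ z (single 0 a : LaurentSeries R) = single 0 (a ^ ℓ) := by
  unfold Congr.normL Congr.conjProd
  simp only [rescale_single_zero]
  rw [Finset.prod_const, Finset.card_range, single_zero_pow]
  ext n
  rw [Congr.coeff_contract]
  by_cases hn : n = 0
  · subst hn
    rw [mul_zero]
  · have h : (ℓ : ℤ) * n ≠ 0 := mul_ne_zero (by exact_mod_cast hℓ.ne') hn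
    rw [HahnSeries.coeff_single_of_ne h, HahnSeries.coeff_single_of_ne hn]

/-- `heckeMul2` of two constants is a constant. -/
theorem heckeMul2_single_zero (ℓ : ℕ) (hℓ : 0 < ℓ) (z : Rˣ) (a b : R) :
    heckeMul2 ℓ hℓ z (single 0 a : LaurentSeries R) (single 0 b) = single 0 (b * a ^ ℓ) := by
  unfold heckeMul2
  rw [Congr.expand_single, normL_single_zero, mul_zero, HahnSeries.single_mul_single, add_zero]

end Series

/-- If `X = a · Y` for integral series `X, Y` with `Y` of nonzero reduction, then `a ∈ A`. -/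
theorem scalar_mem (A : ValuationSubring Qb) {a : Qb} {X Y : LaurentSeries A}
    (hY : Congr.red A Y ≠ 0)
    (h : Congr.incl A X = HahnSeries.single 0 a * Congr.incl A Y) : a ∈ A := by
  obtain ⟨n, hn⟩ : ∃ n : ℤ, IsLocalRing.residue A (Y.coeff n) ≠ 0 := by
    by_contra hcon
    have hcon : ∀ n : ℤ, IsLocalRing.residue A (Y.coeff n) = 0 := fun n => by
      by_contra h'
      exact hcon ⟨n, h'⟩
    apply hY
    ext n
    rw [Congr.coeff_red, hcon n]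
    rfl
  have hu : IsUnit (Y.coeff n) := by
    rw [← IsLocalRing.notMem_maximalIdeal]
    intro hmem
    exact hn ((IsLocalRing.residue_eq_zero_iff _).2 hmem)
  obtain ⟨u, hu⟩ := hu
  have hc := congrArg (fun x : LaurentSeries Qb => x.coeff n) h
  simp only [Congr.coeff_incl, HahnSeries.coeff_single_zero_mul] at hc
  have hval : ((u : A) : Qb) * (((u⁻¹ : Aˣ) : A) : Qb) = 1 :=
    congrArg (Subtype.val) u.mul_inv
  have ha : a = ((X.coeff n : A) : Qb) * (((u⁻¹ : Aˣ) : A) : Qb) := by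
    rw [hc, ← hu, mul_assoc, hval, mul_one]
  rw [ha]
  exact A.mul_mem _ _ (X.coeff n).2 ((u⁻¹ : Aˣ) : A).2

variable {F : IntermediateField Qb (LaurentSeries Qb)}

theorem coe_algebraMap (c : Qb) :
    ((algebraMap Qb F c : F) : LaurentSeries Qb) = single 0 c :=
  algebraMap_laurentSeries_eq_single Qb c

/-- The coefficientwise Galois action maps constants to constants. -/
theorem gal_algebraMap (S : Setting F) (σ : Gq) (c : Qb) :
    S.gal σ (algebraMap Qb F c) = algebraMap Qb F (σ c) := by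
  apply Subtype.ext
  rw [S.coe_gal, coe_algebraMap, coe_algebraMap, coeffMap_single_zero]
  rfl

/-- Every nonzero constant is an `m`-th power of a nonzero constant. -/
theorem exists_const_pow {m : ℕ} (hm : 0 < m) (c : Qb) (hc : c ≠ 0) :
    ∃ b : Qb, b ≠ 0 ∧ (algebraMap Qb F b) ^ m = algebraMap Qb F c := by
  obtain ⟨b, hb⟩ := IsAlgClosed.exists_pow_nat_eq c hm
  refine ⟨b, ?_, by rw [← map_pow, hb]⟩
  rintro rfl
  rw [zero_pow hm.ne'] at hb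
  exact hc hb.symm

theorem dv_const (S : Setting F) {m : ℕ} (hm : 0 < m) (c : Qb) (hc : c ≠ 0) :
    S.Dv m (algebraMap Qb F c) := by
  obtain ⟨b, -, hb⟩ := exists_const_pow (F := F) hm c hc
  rw [← hb]
  exact S.dv_pow_self m _

/-- **Refinement.**  If `Θ ∈ F` is the quotient of two integral `q`-series `U₀, W₀` (not
necessarily in `F`) with the same nonzero reduction, then it is the quotient of two integral
`q`-series of `F` with the same nonzero reduction. -/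
theorem exists_refine (A : ValuationSubring Qb) (hG : HasGaussNorm F A) (Θ : F) (hΘ : Θ ≠ 0)
    (U₀ W₀ : LaurentSeries A)
    (h : (Θ : LaurentSeries Qb) * Congr.incl A W₀ = Congr.incl A U₀)
    (hred : Congr.red A U₀ = Congr.red A W₀) (hne : Congr.red A U₀ ≠ 0) :
    ∃ (U W : LaurentSeries A) (hU : Congr.incl A U ∈ F) (hW : Congr.incl A W ∈ F),
      Congr.red A U = Congr.red A W ∧ Congr.red A U ≠ 0 ∧
      Θ * (⟨_, hW⟩ : F) = (⟨_, hU⟩ : F) := by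
  obtain ⟨c, P, Q, hPm, hQm, hc, hP, hQ, hΘPQ⟩ := hG Θ hΘ
  have hW₀ne : Congr.red A W₀ ≠ 0 := hred ▸ hne
  have e1 : (Θ : LaurentSeries Qb) * Congr.incl A Q = single 0 c * Congr.incl A P := by
    have h1 := congrArg (Subtype.val : F → LaurentSeries Qb) hΘPQ
    have h2 : ((Θ * (⟨_, hQm⟩ : F) : F) : LaurentSeries Qb) =
        (Θ : LaurentSeries Qb) * Congr.incl A Q := rfl
    have h3 : ((algebraMap Qb F c * (⟨_, hPm⟩ : F) : F) : LaurentSeries Qb) =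
        ((algebraMap Qb F c : F) : LaurentSeries Qb) * Congr.incl A P := rfl
    rw [← h2, ← coe_algebraMap (F := F) c, ← h3]
    exact h1
  have e2 : Congr.incl A (Q * U₀) = single 0 c * Congr.incl A (P * W₀) := by
    rw [map_mul, map_mul, ← h]
    calc Congr.incl A Q * ((Θ : LaurentSeries Qb) * Congr.incl A W₀)
        = ((Θ : LaurentSeries Qb) * Congr.incl A Q) * Congr.incl A W₀ := by ring
      _ = single 0 c * (Congr.incl A P * Congr.incl A W₀) := by rw [e1]; ring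
  have hPW : Congr.red A (P * W₀) ≠ 0 := by
    rw [map_mul]
    exact mul_ne_zero hP hW₀ne
  have hcA : c ∈ A := scalar_mem A hPW e2
  set cA : A := ⟨c, hcA⟩ with hcAdef
  set U : LaurentSeries A := single 0 cA * P with hUdef
  have hsingle : Congr.incl A (single 0 cA : LaurentSeries A) = single 0 c := by
    rw [Congr.incl]
    exact coeffMap_single_zero _ _
  have hUincl : Congr.incl A U = single 0 c * Congr.incl A P := by
    rw [hUdef, map_mul, hsingle]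
  have hUm : Congr.incl A U ∈ F := by
    rw [hUincl, ← e1]
    exact (Θ * (⟨_, hQm⟩ : F)).2
  have e4 : U * W₀ = Q * U₀ := by
    apply Congr.incl_injective A
    rw [e2, map_mul, hUincl, map_mul]
    ring
  have e5 : Congr.red A U * Congr.red A W₀ = Congr.red A Q * Congr.red A W₀ := by
    rw [← map_mul, e4, map_mul, hred]
  have e6 : Congr.red A U = Congr.red A Q := mul_right_cancel₀ hW₀ne e5
  refine ⟨U, Q, hUm, hQm, e6, e6 ▸ hQ, Subtype.ext ?_⟩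
  show (Θ : LaurentSeries Qb) * Congr.incl A Q = Congr.incl A U
  rw [hUincl, e1]

/-- **(ES) with two twists, without `IntPres`.**  For `σ` a Frobenius at `A` (over `ℓ`, `ℓ ∤ m`)
and `f ∈ F` with `m ∣ div f`:  `σ²(d₁ f) · (d₂ f) ^ ℓ = T(σ f) · h ^ m`, where
`T x = heckeMul2 (d₁ x) (d₂ x) = (d₂ x)(q ^ ℓ) · ∏_{i<ℓ} (d₁ x)(zⁱ q^{1/ℓ})`. -/
theorem es_two (S : Setting F) {ℓ m : ℕ} [Fact ℓ.Prime] (hℓ : 0 < ℓ) (A : ValuationSubring Qb)
    (hA : A.LiesOverPrime ℓ) (hG : HasGaussNorm F A) (hK1 : K1 S ℓ A) (z : Qbˣ)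
    (hz : IsPrimitiveRoot z ℓ) (d₁ d₂ : F →+* F) (h₁ : Twist S d₁) (h₂ : Twist S d₂)
    (hT : HeckeClosed2 S ℓ hℓ z d₁ d₂) (hℓm : ¬ ℓ ∣ m)
    {σ : Gq} (hσ : A.IsFrobeniusAt σ ℓ)
    (f : F) (hf : f ≠ 0) (hdiv : S.Dv m f) :
    ∃ h : F, h ≠ 0 ∧
      ((S.gal σ (S.gal σ (d₁ f)) : F) : LaurentSeries Qb) *
          ((d₂ f : F) : LaurentSeries Qb) ^ ℓ =
        heckeMul2 ℓ hℓ z ((d₁ (S.gal σ f) : F) : LaurentSeries Qb)
            ((d₂ (S.gal σ f) : F) : LaurentSeries Qb) *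
          (h : LaurentSeries Qb) ^ m := by
  have hm : 0 < m := Nat.pos_of_ne_zero (fun h => hℓm (h ▸ dvd_zero ℓ))
  obtain ⟨hmem, hTdiv⟩ := hT
  have hz1 : (z : Qb) ^ ℓ = 1 := by
    have h := congrArg Units.val hz.pow_eq_one
    rwa [Units.val_pow_eq_pow_val, Units.val_one] at h
  -- the Hecke operator on `F`
  let hk : F →* F :=
    { toFun := fun x => ⟨heckeMul2 ℓ hℓ z ((d₁ x : F) : LaurentSeries Qb)
        ((d₂ x : F) : LaurentSeries Qb), hmem x⟩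
      map_one' := Subtype.ext (by
        show heckeMul2 ℓ hℓ z ((d₁ 1 : F) : LaurentSeries Qb) ((d₂ 1 : F) : LaurentSeries Qb) = 1
        rw [map_one, map_one]
        exact heckeMul2_one ℓ hℓ z)
      map_mul' := fun x y => Subtype.ext (by
        show heckeMul2 ℓ hℓ z ((d₁ (x * y) : F) : LaurentSeries Qb)
            ((d₂ (x * y) : F) : LaurentSeries Qb) =
          heckeMul2 ℓ hℓ z ((d₁ x : F) : LaurentSeries Qb) ((d₂ x : F) : LaurentSeries Qb) *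
            heckeMul2 ℓ hℓ z ((d₁ y : F) : LaurentSeries Qb) ((d₂ y : F) : LaurentSeries Qb)
        rw [map_mul, map_mul]
        exact heckeMul2_mul ℓ hℓ z hz _ _ _ _) }
  have hk_coe : ∀ x : F, ((hk x : F) : LaurentSeries Qb) =
      heckeMul2 ℓ hℓ z ((d₁ x : F) : LaurentSeries Qb) ((d₂ x : F) : LaurentSeries Qb) :=
    fun x => rfl
  have hk0 : ∀ x : F, x ≠ 0 → hk x ≠ 0 := fun x hx h => by
    have h1 : hk x * hk x⁻¹ = 1 := by rw [← map_mul, mul_inv_cancel₀ hx, map_one]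
    rw [h, zero_mul] at h1
    exact zero_ne_one h1
  set g : F →+* F := S.gal σ with hg
  have g0 : ∀ x : F, x ≠ 0 → g x ≠ 0 := fun x hx => (map_ne_zero g).2 hx
  have hx₁0 : d₁ f ≠ 0 := (map_ne_zero d₁).2 hf
  have hx₂0 : d₂ f ≠ 0 := (map_ne_zero d₂).2 hf
  -- Gauss normalisations of `d₁ f` and `d₂ f`
  obtain ⟨c₁, P₁, Q₁, hP₁m, hQ₁m, hc₁, hP₁, hQ₁, hx₁⟩ := hG (d₁ f) hx₁0
  obtain ⟨c₂, P₂, Q₂, hP₂m, hQ₂m, hc₂, hP₂, hQ₂, hx₂⟩ := hG (d₂ f) hx₂0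
  set P₁' : F := ⟨_, hP₁m⟩ with hP₁'
  set Q₁' : F := ⟨_, hQ₁m⟩ with hQ₁'
  set P₂' : F := ⟨_, hP₂m⟩ with hP₂'
  set Q₂' : F := ⟨_, hQ₂m⟩ with hQ₂'
  have hP₁0 : P₁' ≠ 0 := mk_ne_zero_of_red_ne_zero A hP₁m hP₁
  have hQ₁0 : Q₁' ≠ 0 := mk_ne_zero_of_red_ne_zero A hQ₁m hQ₁
  have hP₂0 : P₂' ≠ 0 := mk_ne_zero_of_red_ne_zero A hP₂m hP₂
  have hQ₂0 : Q₂' ≠ 0 := mk_ne_zero_of_red_ne_zero A hQ₂m hQ₂
  set C₁ : F := algebraMap Qb F c₁ with hC₁
  set C₂ : F := algebraMap Qb F c₂ with hC₂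
  have hC₁0 : C₁ ≠ 0 := (map_ne_zero (algebraMap Qb F)).2 hc₁
  have hC₂0 : C₂ ≠ 0 := (map_ne_zero (algebraMap Qb F)).2 hc₂
  obtain ⟨Y₁, hY₁⟩ : ∃ Y₁ : F, Y₁ = P₁' / Q₁' := ⟨_, rfl⟩
  obtain ⟨Y₂, hY₂⟩ : ∃ Y₂ : F, Y₂ = P₂' / Q₂' := ⟨_, rfl⟩
  have hY₁Q : Y₁ * Q₁' = P₁' := by rw [hY₁]; exact div_mul_cancel₀ _ hQ₁0
  have hY₂Q : Y₂ * Q₂' = P₂' := by rw [hY₂]; exact div_mul_cancel₀ _ hQ₂0
  have hY₁0 : Y₁ ≠ 0 := by rw [hY₁]; exact div_ne_zero hP₁0 hQ₁0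
  have hY₂0 : Y₂ ≠ 0 := by rw [hY₂]; exact div_ne_zero hP₂0 hQ₂0
  have hx₁Y : d₁ f = C₁ * Y₁ := by
    rw [hY₁, mul_div_assoc', ← hx₁, mul_div_assoc, div_self hQ₁0, mul_one]
  have hx₂Y : d₂ f = C₂ * Y₂ := by
    rw [hY₂, mul_div_assoc', ← hx₂, mul_div_assoc, div_self hQ₂0, mul_one]
  -- the constant `K₀ = T(σ C₁, σ C₂)`
  set k₀ : Qb := σ c₂ * σ c₁ ^ ℓ with hk₀
  have hσc₁ : σ c₁ ≠ 0 := (map_ne_zero σ).2 hc₁
  have hσc₂ : σ c₂ ≠ 0 := (map_ne_zero σ).2 hc₂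
  have hk₀0 : k₀ ≠ 0 := mul_ne_zero hσc₂ (pow_ne_zero _ hσc₁)
  set K₀ : F := algebraMap Qb F k₀ with hK₀
  have hK₀0 : K₀ ≠ 0 := (map_ne_zero (algebraMap Qb F)).2 hk₀0
  -- coefficientwise action, series level
  set Φ : LaurentSeries Qb →+* LaurentSeries Qb := coeffMap (σ : Qb →+* Qb) with hΦ
  have hgcoe : ∀ x : F, ((g x : F) : LaurentSeries Qb) = Φ (x : LaurentSeries Qb) :=
    fun x => S.coe_gal σ x
  have hgC₁ : g C₁ = algebraMap Qb F (σ c₁) := gal_algebraMap S σ c₁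
  have hgC₂ : g C₂ = algebraMap Qb F (σ c₂) := gal_algebraMap S σ c₂
  -- `T(σ f) = K₀ · Ψ`, `Ψ = heckeMul2 (σ Y₁) (σ Y₂)`
  have hkgf : ((hk (g f) : F) : LaurentSeries Qb) =
      single 0 k₀ * heckeMul2 ℓ hℓ z (Φ (Y₁ : LaurentSeries Qb)) (Φ (Y₂ : LaurentSeries Qb)) := by
    rw [hk_coe, hg, h₁.comm_gal, h₂.comm_gal, ← hg, hx₁Y, hx₂Y, map_mul, map_mul, hgC₁, hgC₂]
    have e1 : ((algebraMap Qb F (σ c₁) * g Y₁ : F) : LaurentSeries Qb) =
        single 0 (σ c₁) * Φ (Y₁ : LaurentSeries Qb) := by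
      rw [← hgcoe, ← coe_algebraMap (F := F)]
      rfl
    have e2 : ((algebraMap Qb F (σ c₂) * g Y₂ : F) : LaurentSeries Qb) =
        single 0 (σ c₂) * Φ (Y₂ : LaurentSeries Qb) := by
      rw [← hgcoe, ← coe_algebraMap (F := F)]
      rfl
    rw [e1, e2, heckeMul2_mul ℓ hℓ z hz, heckeMul2_single_zero]
  -- the integral numerator and denominator (not in `F`)
  set s : A.decompositionSubgroup ℚ := ⟨σ, hσ.mem_decompositionSubgroup⟩ with hs
  set U₀ : LaurentSeries A := esNum2 A hℓ hz1 s P₁ Q₁ P₂ Q₂ with hU₀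
  set W₀ : LaurentSeries A := esDen2 A hℓ hz1 s P₁ Q₁ P₂ Q₂ with hW₀
  have hcross : Φ (Φ (Y₁ : LaurentSeries Qb)) * (Y₂ : LaurentSeries Qb) ^ ℓ * Congr.incl A W₀ =
      heckeMul2 ℓ hℓ z (Φ (Y₁ : LaurentSeries Qb)) (Φ (Y₂ : LaurentSeries Qb)) *
        Congr.incl A U₀ :=
    es_cross2 A hℓ z hz hz1 s (Y₁ : LaurentSeries Qb) (Y₂ : LaurentSeries Qb) P₁ Q₁ P₂ Q₂
      (congrArg (Subtype.val : F → LaurentSeries Qb) hY₁Q)
      (congrArg (Subtype.val : F → LaurentSeries Qb) hY₂Q)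
  -- the element `Θ ∈ F`
  have hkgf0 : hk (g f) ≠ 0 := hk0 _ (g0 _ hf)
  obtain ⟨Θ, hΘdef⟩ : ∃ Θ : F, Θ = g (g Y₁) * Y₂ ^ ℓ * K₀ / hk (g f) := ⟨_, rfl⟩
  have hΘmul : Θ * hk (g f) = g (g Y₁) * Y₂ ^ ℓ * K₀ := by
    rw [hΘdef]; exact div_mul_cancel₀ _ hkgf0
  have hΘ0 : Θ ≠ 0 := by
    rw [hΘdef]
    exact div_ne_zero (mul_ne_zero (mul_ne_zero (g0 _ (g0 _ hY₁0)) (pow_ne_zero _ hY₂0)) hK₀0)
      hkgf0
  have hkgf0' : ((hk (g f) : F) : LaurentSeries Qb) ≠ 0 := fun h => hkgf0 (Subtype.ext h)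
  have hΘcoe : (Θ : LaurentSeries Qb) * ((hk (g f) : F) : LaurentSeries Qb) =
      Φ (Φ (Y₁ : LaurentSeries Qb)) * (Y₂ : LaurentSeries Qb) ^ ℓ * single 0 k₀ := by
    have h1 := congrArg (Subtype.val : F → LaurentSeries Qb) hΘmul
    have h2 : ((g (g Y₁) * Y₂ ^ ℓ * K₀ : F) : LaurentSeries Qb) =
        ((g (g Y₁) : F) : LaurentSeries Qb) * (Y₂ : LaurentSeries Qb) ^ ℓ *
          ((K₀ : F) : LaurentSeries Qb) := rfl
    rw [h2, hgcoe, hgcoe, hK₀, coe_algebraMap] at h1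
    exact h1
  have hΘW : (Θ : LaurentSeries Qb) * Congr.incl A W₀ = Congr.incl A U₀ := by
    apply mul_right_cancel₀ hkgf0'
    calc (Θ : LaurentSeries Qb) * Congr.incl A W₀ * ((hk (g f) : F) : LaurentSeries Qb)
        = (Θ : LaurentSeries Qb) * ((hk (g f) : F) : LaurentSeries Qb) * Congr.incl A W₀ := by
          ring
      _ = single 0 k₀ * (Φ (Φ (Y₁ : LaurentSeries Qb)) * (Y₂ : LaurentSeries Qb) ^ ℓ *
            Congr.incl A W₀) := by rw [hΘcoe]; ring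
      _ = Congr.incl A U₀ * ((hk (g f) : F) : LaurentSeries Qb) := by rw [hcross, hkgf]; ring
  -- refine to integral series of `F` and apply (K1)
  obtain ⟨U, W, hUm, hWm, hredUW, hUne, hΘUW⟩ := exists_refine A hG Θ hΘ0 U₀ W₀ hΘW
    (red_esNum2 A hℓ hA hz1 hσ P₁ Q₁ P₂ Q₂)
    (red_esNum2_ne_zero A hℓ hA hz1 hσ hP₁ hQ₁ hP₂ hQ₂)
  have hWne : Congr.red A W ≠ 0 := hredUW ▸ hUne
  have hW0 : (⟨_, hWm⟩ : F) ≠ 0 := mk_ne_zero_of_red_ne_zero A hWm hWne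
  have hquot : (⟨_, hUm⟩ : F) / (⟨_, hWm⟩ : F) = Θ := by
    rw [← hΘUW, mul_div_assoc, div_self hW0, mul_one]
  -- divisibility of the divisor of `Θ`
  have hdC₁ : S.Dv m C₁ := dv_const S hm c₁ hc₁
  have hdC₂ : S.Dv m C₂ := dv_const S hm c₂ hc₂
  have hdK₀ : S.Dv m K₀ := dv_const S hm k₀ hk₀0
  have hY₁e : Y₁ = d₁ f / C₁ := by rw [hx₁Y, mul_div_assoc, mul_comm, div_mul_cancel₀ _ hC₁0]
  have hY₂e : Y₂ = d₂ f / C₂ := by rw [hx₂Y, mul_div_assoc, mul_comm, div_mul_cancel₀ _ hC₂0]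
  have hdY₁ : S.Dv m Y₁ := by
    rw [hY₁e]; exact S.dv_div hx₁0 hC₁0 (h₁.dv hdiv) hdC₁
  have hdY₂ : S.Dv m Y₂ := by
    rw [hY₂e]; exact S.dv_div hx₂0 hC₂0 (h₂.dv hdiv) hdC₂
  have hdΘ : S.Dv m Θ := by
    rw [hΘdef]
    exact S.dv_div (mul_ne_zero (mul_ne_zero (g0 _ (g0 _ hY₁0)) (pow_ne_zero _ hY₂0)) hK₀0) hkgf0
      (S.dv_mul (mul_ne_zero (g0 _ (g0 _ hY₁0)) (pow_ne_zero _ hY₂0)) hK₀0
        (S.dv_mul (g0 _ (g0 _ hY₁0)) (pow_ne_zero _ hY₂0)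
          (S.dv_gal σ (S.dv_gal σ hdY₁)) (S.dv_pow hY₂0 hdY₂ ℓ)) hdK₀)
      (hTdiv m (g f) (g0 _ hf) (S.dv_gal σ hdiv))
  obtain ⟨H, hH⟩ := hK1 m hℓm U W hUm hWm hredUW hUne (by rw [hquot]; exact hdΘ)
  have hH' : (⟨_, hUm⟩ : F) = H ^ m * (⟨_, hWm⟩ : F) := Subtype.ext hH
  have hΘH : Θ = H ^ m := by
    have h1 : Θ * (⟨_, hWm⟩ : F) = H ^ m * (⟨_, hWm⟩ : F) := by rw [hΘUW, hH']
    exact mul_right_cancel₀ hW0 h1
  have hH0 : H ≠ 0 := by
    rintro rfl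
    rw [zero_pow hm.ne'] at hΘH
    exact hΘ0 hΘH
  -- the remaining constant is an `m`-th power
  set d₀ : Qb := σ (σ c₁) * c₂ ^ ℓ / k₀ with hd₀
  have hd₀0 : d₀ ≠ 0 :=
    div_ne_zero (mul_ne_zero ((map_ne_zero σ).2 hσc₁) (pow_ne_zero _ hc₂)) hk₀0
  obtain ⟨e, he0, he⟩ := exists_const_pow (F := F) hm d₀ hd₀0
  have hE0 : algebraMap Qb F e ≠ 0 := (map_ne_zero (algebraMap Qb F)).2 he0
  have hconst : g (g C₁) * C₂ ^ ℓ = algebraMap Qb F e ^ m * K₀ := by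
    rw [he, hgC₁, hg, gal_algebraMap S σ (σ c₁), hC₂, hK₀, ← map_pow, ← map_mul, ← map_mul, hd₀,
      div_mul_cancel₀ _ hk₀0]
  refine ⟨H * algebraMap Qb F e, mul_ne_zero hH0 hE0, ?_⟩
  have key : g (g (d₁ f)) * d₂ f ^ ℓ = hk (g f) * (H * algebraMap Qb F e) ^ m := by
    calc g (g (d₁ f)) * d₂ f ^ ℓ
        = (g (g C₁) * C₂ ^ ℓ) * (g (g Y₁) * Y₂ ^ ℓ) := by
          rw [hx₁Y, hx₂Y, map_mul, map_mul, mul_pow]; ring
      _ = algebraMap Qb F e ^ m * (g (g Y₁) * Y₂ ^ ℓ * K₀) := by rw [hconst]; ring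
      _ = algebraMap Qb F e ^ m * (Θ * hk (g f)) := by rw [hΘmul]
      _ = hk (g f) * (H * algebraMap Qb F e) ^ m := by rw [hΘH, mul_pow]; ring
  have hcomm₁ : d₁ (S.gal σ f) = g (d₁ f) := h₁.comm_gal σ f
  have hcomm₂ : d₂ (S.gal σ f) = g (d₂ f) := h₂.comm_gal σ f
  have h3 := congrArg (Subtype.val : F → LaurentSeries Qb) key
  have h4 : ((hk (g f) : F) : LaurentSeries Qb) =
      heckeMul2 ℓ hℓ z ((d₁ (S.gal σ f) : F) : LaurentSeries Qb)
        ((d₂ (S.gal σ f) : F) : LaurentSeries Qb) := rfl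
  rw [← h4]
  exact h3

/-- **(ES), diamond in the `q ^ ℓ` factor, without `IntPres`**:
`σ²(f) · (δ f) ^ ℓ = T(σ f) · h ^ m` with `T x = heckeMul2 x (δ x)`. -/
theorem es_dia (S : Setting F) {ℓ m : ℕ} [Fact ℓ.Prime] (hℓ : 0 < ℓ) (A : ValuationSubring Qb)
    (hA : A.LiesOverPrime ℓ) (hG : HasGaussNorm F A) (hK1 : K1 S ℓ A) (z : Qbˣ)
    (hz : IsPrimitiveRoot z ℓ) (δ : F →+* F) (hδ : Twist S δ)
    (hT : HeckeClosed2 S ℓ hℓ z (RingHom.id F) δ) (hℓm : ¬ ℓ ∣ m)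
    {σ : Gq} (hσ : A.IsFrobeniusAt σ ℓ)
    (f : F) (hf : f ≠ 0) (hdiv : S.Dv m f) :
    ∃ h : F, h ≠ 0 ∧
      ((S.gal σ (S.gal σ f) : F) : LaurentSeries Qb) * ((δ f : F) : LaurentSeries Qb) ^ ℓ =
        heckeMul2 ℓ hℓ z ((S.gal σ f : F) : LaurentSeries Qb)
            ((δ (S.gal σ f) : F) : LaurentSeries Qb) *
          (h : LaurentSeries Qb) ^ m :=
  es_two S hℓ A hA hG hK1 z hz (RingHom.id F) δ (Twist.id S) hδ hT hℓm hσ f hf hdiv

/-- **(ES), diamond in the norm factor, without `IntPres`**: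
`σ²(δ f) · f ^ ℓ = T'(σ f) · h ^ m` with `T' x = heckeMul2 (δ x) x`. -/
theorem es_dia' (S : Setting F) {ℓ m : ℕ} [Fact ℓ.Prime] (hℓ : 0 < ℓ) (A : ValuationSubring Qb)
    (hA : A.LiesOverPrime ℓ) (hG : HasGaussNorm F A) (hK1 : K1 S ℓ A) (z : Qbˣ)
    (hz : IsPrimitiveRoot z ℓ) (δ : F →+* F) (hδ : Twist S δ)
    (hT : HeckeClosed2 S ℓ hℓ z δ (RingHom.id F)) (hℓm : ¬ ℓ ∣ m)
    {σ : Gq} (hσ : A.IsFrobeniusAt σ ℓ)
    (f : F) (hf : f ≠ 0) (hdiv : S.Dv m f) :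
    ∃ h : F, h ≠ 0 ∧
      ((S.gal σ (S.gal σ (δ f)) : F) : LaurentSeries Qb) * ((f : F) : LaurentSeries Qb) ^ ℓ =
        heckeMul2 ℓ hℓ z ((δ (S.gal σ f) : F) : LaurentSeries Qb)
            ((S.gal σ f : F) : LaurentSeries Qb) *
          (h : LaurentSeries Qb) ^ m :=
  es_two S hℓ A hA hG hK1 z hz δ (RingHom.id F) hδ (Twist.id S) hT hℓm hσ f hf hdiv

end Fermat.Agent.S48.ExitDG
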