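import Mathlib
import Fermat.Agent.S48.ExitDPlaces
import Fermat.Agent.S30.E4.GaussVal

/-!
# S48 / G1: (K1) ⇒ (ES with diamond), SOFT Gauss input

`ExitD.es_two` takes the hypotheses `HasGaussNorm F A` and `IntPres A dᵢ`.  For the diamond
operators of `X₁(M)` the hypothesis `IntPres` is FALSE: if `π ∈ A` is a nonzero non-unit and
`g, g'` are two `q`-series of `F` with `g = 1 + ⋯`, `⟨u⟩ g = g' = qᵏ(1 + ⋯)`, `k ≥ 1`, then
`P = 1 / (π + g)` is an integral series with nonzero reduction, but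
`⟨u⟩ P = 1 / (π + g')` has unbounded denominators.

This file proves the same conclusion from a hypothesis which is TRUE and SOFT:

* `GaussInt A x` : `x` is a nonzero constant times an integral `q`-series with nonzero reduction;
* `GaussPair A d₁ d₂` : every nonzero `f ∈ F` is a quotient `P / Q` of elements of `F` such that
  `d₁ P, d₁ Q, d₂ P, d₂ Q` are all `GaussInt`.

`gaussPair_of_adjoin` produces `GaussPair` when `F` is generated (as a field) by a set `G` of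
`q`-series whose coefficients lie in finitely generated `ℤ`-modules (e.g. integer coefficients)
and the twists preserve the `ℚ̄`-ALGEBRA generated by `G` (for a diamond of `X₁(M)`: it permutes
the generators).

* `es_two_soft`, `es_dia_soft`, `es_dia_soft'` : the conclusions of `ExitD.es_two`, `ExitD.es_dia`,
  `ExitD.es_dia'` with `HasGaussNorm` + `IntPres` replaced by `GaussPair`.
-/

set_option autoImplicit false

open scoped Pointwise
open HahnSeries ModularCurve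

namespace Fermat.Agent.S48.ExitDSoft

open Fermat.Agent.S30 Fermat.Agent.S48.CongrD Fermat.Agent.S48.ExitD

local notation "Qb" => AlgebraicClosure ℚ
local notation "Gq" => (AlgebraicClosure ℚ ≃ₐ[ℚ] AlgebraicClosure ℚ)

section Formal

variable {R : Type*} [CommRing R]

/-- The multiplicative Hecke operator on a pair of constants. -/
theorem heckeMul2_single (ℓ : ℕ) (hℓ : 0 < ℓ) (z : Rˣ) (x y : R) :
    heckeMul2 ℓ hℓ z (HahnSeries.single (0 : ℤ) x) (HahnSeries.single (0 : ℤ) y) =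
      HahnSeries.single (0 : ℤ) (y * x ^ ℓ) := by
  have h1 : ∀ w : Rˣ, Congr.rescale w (HahnSeries.single (0 : ℤ) x : LaurentSeries R) =
      HahnSeries.single 0 x := by
    intro w
    ext n
    rw [Congr.coeff_rescale]
    by_cases hn : n = 0
    · subst hn
      simp
    · rw [HahnSeries.coeff_single_of_ne hn, mul_zero]
  have h2 : Congr.conjProd ℓ z (HahnSeries.single (0 : ℤ) x : LaurentSeries R) =
      HahnSeries.single 0 (x ^ ℓ) := by
    unfold Congr.conjProd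
    rw [Finset.prod_congr rfl (fun i _ => h1 (z ^ i)), Finset.prod_const, Finset.card_range,
      ← HahnSeries.C_apply, ← map_pow, HahnSeries.C_apply]
  have h3 : Congr.contract ℓ hℓ (HahnSeries.single (0 : ℤ) (x ^ ℓ) : LaurentSeries R) =
      HahnSeries.single 0 (x ^ ℓ) := by
    ext n
    rw [Congr.coeff_contract]
    by_cases hn : n = 0
    · subst hn
      simp
    · have hℓ' : (ℓ : ℤ) ≠ 0 := by exact_mod_cast hℓ.ne'
      rw [HahnSeries.coeff_single_of_ne (mul_ne_zero hℓ' hn), HahnSeries.coeff_single_of_ne hn]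
  unfold heckeMul2 Congr.normL
  rw [h2, h3, Congr.expand_single, mul_zero, HahnSeries.single_mul_single, add_zero]

end Formal

/-! ### Finitely generated coefficients and Gauss normalisation up to a constant -/

/-- All coefficients lie in a finitely generated `ℤ`-submodule of `ℚ̄`. -/
def FG (x : LaurentSeries Qb) : Prop :=
  ∃ s : Finset Qb, ∀ n, x.coeff n ∈ Submodule.span ℤ (s : Set Qb)

theorem FG.const (c : Qb) : FG (algebraMap Qb (LaurentSeries Qb) c) := by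
  refine ⟨{c}, fun n => ?_⟩
  rw [algebraMap_laurentSeries_eq_single]
  by_cases hn : n = 0
  · subst hn
    rw [coeff_single_same]
    exact Submodule.subset_span (by simp)
  · rw [coeff_single_of_ne hn]
    exact Submodule.zero_mem _

theorem FG.add {x y : LaurentSeries Qb} (hx : FG x) (hy : FG y) : FG (x + y) := by
  classical
  obtain ⟨s, hs⟩ := hx
  obtain ⟨t, ht⟩ := hy
  refine ⟨s ∪ t, fun n => ?_⟩
  rw [coeff_add]
  exact Submodule.add_mem _ (Submodule.span_mono (by simp) (hs n))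
    (Submodule.span_mono (by simp) (ht n))

theorem FG.mul {x y : LaurentSeries Qb} (hx : FG x) (hy : FG y) : FG (x * y) := by
  classical
  obtain ⟨s, hs⟩ := hx
  obtain ⟨t, ht⟩ := hy
  refine ⟨s * t, fun n => ?_⟩
  rw [HahnSeries.coeff_mul]
  refine Submodule.sum_mem _ fun ij _ => ?_
  have h1 : x.coeff ij.1 * y.coeff ij.2 ∈
      Submodule.span ℤ (s : Set Qb) * Submodule.span ℤ (t : Set Qb) :=
    Submodule.mul_mem_mul (hs _) (ht _)
  rw [Submodule.span_mul_span] at h1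
  rwa [Finset.coe_mul]

/-- A series all of whose coefficients are integers has finitely generated coefficients. -/
theorem FG.of_int {x : LaurentSeries Qb} (h : ∀ n, ∃ k : ℤ, x.coeff n = (k : Qb)) : FG x := by
  refine ⟨{1}, fun n => ?_⟩
  obtain ⟨k, hk⟩ := h n
  have h1 : (k : Qb) = k • (1 : Qb) := by simp
  rw [hk, h1]
  exact Submodule.smul_mem _ _ (Submodule.subset_span (by simp))

/-- The base change of a rational `q`-series with integer coefficients has finitely generated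
coefficients. -/
theorem FG.coeffEmb {x : LaurentSeries ℚ} (h : ∀ n, ∃ k : ℤ, x.coeff n = (k : ℚ)) :
    FG (coeffEmb Qb x) := by
  refine FG.of_int fun n => ?_
  obtain ⟨k, hk⟩ := h n
  refine ⟨k, ?_⟩
  rw [coeffEmb_coeff, hk]
  simp

/-- Every element of the `ℚ̄`-algebra generated by series with finitely generated coefficients has
finitely generated coefficients. -/
theorem FG.of_mem_adjoin {G : Set (LaurentSeries Qb)} (hG : ∀ x ∈ G, FG x)
    {x : LaurentSeries Qb} (hx : x ∈ Algebra.adjoin Qb G) : FG x := by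
  induction hx using Algebra.adjoin_induction with
  | mem x hx => exact hG x hx
  | algebraMap c => exact FG.const c
  | add x y _ _ hx hy => exact hx.add hy
  | mul x y _ _ hx hy => exact hx.mul hy

/-- `x` is a nonzero constant times an integral `q`-series with nonzero reduction. -/
def GaussInt (A : ValuationSubring Qb) (x : LaurentSeries Qb) : Prop :=
  ∃ (c : Qb) (P : LaurentSeries A), c ≠ 0 ∧ Congr.red A P ≠ 0 ∧
    x = HahnSeries.single 0 c * Congr.incl A P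

/-- A nonzero series with finitely generated coefficients is `GaussInt` (at a valuation subring
over a prime). -/
theorem gaussInt_of_fg {ℓ : ℕ} [Fact ℓ.Prime] (A : ValuationSubring Qb) (hA : A.LiesOverPrime ℓ)
    {x : LaurentSeries Qb} (hx0 : x ≠ 0) (hx : FG x) : GaussInt A x := by
  obtain ⟨s, hs⟩ := hx
  exact E4.exists_normalisation A hA x hx0 s hs

variable {F : IntermediateField Qb (LaurentSeries Qb)}

/-- Soft replacement of `HasGaussNorm F A` + `IntPres A d₁` + `IntPres A d₂`: every nonzero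
`f ∈ F` is a quotient `P / Q` such that the twists of `P` and `Q` are constants times integral
series with nonzero reduction. -/
def GaussPair (A : ValuationSubring Qb) (d₁ d₂ : F →+* F) : Prop :=
  ∀ f : F, f ≠ 0 → ∃ P Q : F, Q ≠ 0 ∧ f * Q = P ∧
    GaussInt A ((d₁ P : F) : LaurentSeries Qb) ∧ GaussInt A ((d₁ Q : F) : LaurentSeries Qb) ∧
    GaussInt A ((d₂ P : F) : LaurentSeries Qb) ∧ GaussInt A ((d₂ Q : F) : LaurentSeries Qb)

/-- **Producer of `GaussPair`.**  `F` is generated as a field by `G`, the elements of `G` have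
finitely generated coefficients, and the twists preserve the `ℚ̄`-algebra generated by `G`. -/
theorem gaussPair_of_adjoin {ℓ : ℕ} [Fact ℓ.Prime] (A : ValuationSubring Qb)
    (hA : A.LiesOverPrime ℓ) (G : Set (LaurentSeries Qb)) (hG : ∀ x ∈ G, FG x)
    (hGF : ∀ x ∈ G, x ∈ F)
    (hF : ∀ f : F, (f : LaurentSeries Qb) ∈ IntermediateField.adjoin Qb G)
    (d₁ d₂ : F →+* F)
    (hd₁ : ∀ x : F, (x : LaurentSeries Qb) ∈ Algebra.adjoin Qb G →
      ((d₁ x : F) : LaurentSeries Qb) ∈ Algebra.adjoin Qb G)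
    (hd₂ : ∀ x : F, (x : LaurentSeries Qb) ∈ Algebra.adjoin Qb G →
      ((d₂ x : F) : LaurentSeries Qb) ∈ Algebra.adjoin Qb G) :
    GaussPair A d₁ d₂ := by
  intro f hf
  obtain ⟨r, hr, t, ht, hfrt⟩ := IntermediateField.mem_adjoin_iff_div.1 (hF f)
  have hf0 : (f : LaurentSeries Qb) ≠ 0 := fun h => hf (Subtype.ext h)
  have ht0 : t ≠ 0 := by
    rintro rfl
    rw [div_zero] at hfrt
    exact hf0 hfrt
  have hr0 : r ≠ 0 := by
    rintro rfl
    rw [zero_div] at hfrt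
    exact hf0 hfrt
  have hle : Algebra.adjoin Qb G ≤ F.toSubalgebra := Algebra.adjoin_le hGF
  have hrF : r ∈ F := hle hr
  have htF : t ∈ F := hle ht
  have hP0 : (⟨r, hrF⟩ : F) ≠ 0 := fun h => hr0 (congrArg Subtype.val h)
  have hQ0 : (⟨t, htF⟩ : F) ≠ 0 := fun h => ht0 (congrArg Subtype.val h)
  have key : ∀ (d : F →+* F), (∀ x : F, (x : LaurentSeries Qb) ∈ Algebra.adjoin Qb G →
      ((d x : F) : LaurentSeries Qb) ∈ Algebra.adjoin Qb G) → ∀ (x : F), x ≠ 0 →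
      (x : LaurentSeries Qb) ∈ Algebra.adjoin Qb G →
      GaussInt A ((d x : F) : LaurentSeries Qb) := by
    intro d hd x hx0 hx
    have h1 : d x ≠ 0 := (map_ne_zero d).2 hx0
    exact gaussInt_of_fg A hA (fun h => h1 (Subtype.ext h)) (FG.of_mem_adjoin hG (hd x hx))
  refine ⟨⟨r, hrF⟩, ⟨t, htF⟩, hQ0, ?_, key d₁ hd₁ _ hP0 hr, key d₁ hd₁ _ hQ0 ht,
    key d₂ hd₂ _ hP0 hr, key d₂ hd₂ _ hQ0 ht⟩
  apply Subtype.ext
  show (f : LaurentSeries Qb) * t = r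
  rw [hfrt, div_mul_cancel₀ r ht0]

/-! ### Constants of `F` -/

theorem coe_const (c : Qb) :
    ((algebraMap Qb F c : F) : LaurentSeries Qb) = HahnSeries.single 0 c := by
  rw [← algebraMap_laurentSeries_eq_single]
  rfl

theorem coe_gal_const (S : Setting F) (σ : Gq) (c : Qb) :
    ((S.gal σ (algebraMap Qb F c) : F) : LaurentSeries Qb) = HahnSeries.single 0 (σ c) := by
  rw [S.coe_gal, coe_const, coeffMap_single]
  rfl

/-- A nonzero constant of `F`. -/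
def IsConst (x : F) : Prop := ∃ c : Qb, c ≠ 0 ∧ x = algebraMap Qb F c

theorem isConst_algebraMap {c : Qb} (hc : c ≠ 0) : IsConst (algebraMap Qb F c) := ⟨c, hc, rfl⟩

theorem IsConst.ne_zero {x : F} (h : IsConst x) : x ≠ 0 := by
  obtain ⟨c, hc, rfl⟩ := h
  exact (map_ne_zero (algebraMap Qb F)).2 hc

theorem IsConst.mul {x y : F} (hx : IsConst x) (hy : IsConst y) : IsConst (x * y) := by
  obtain ⟨c, hc, rfl⟩ := hx
  obtain ⟨e, he, rfl⟩ := hy
  exact ⟨c * e, mul_ne_zero hc he, (map_mul _ _ _).symm⟩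

theorem IsConst.inv {x : F} (hx : IsConst x) : IsConst x⁻¹ := by
  obtain ⟨c, hc, rfl⟩ := hx
  exact ⟨c⁻¹, inv_ne_zero hc, (map_inv₀ _ _).symm⟩

theorem IsConst.div {x y : F} (hx : IsConst x) (hy : IsConst y) : IsConst (x / y) := by
  rw [div_eq_mul_inv]
  exact hx.mul hy.inv

theorem IsConst.pow {x : F} (hx : IsConst x) (k : ℕ) : IsConst (x ^ k) := by
  obtain ⟨c, hc, rfl⟩ := hx
  exact ⟨c ^ k, pow_ne_zero _ hc, (map_pow _ _ _).symm⟩

theorem IsConst.gal (S : Setting F) (σ : Gq) {x : F} (hx : IsConst x) : IsConst (S.gal σ x) := by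
  obtain ⟨c, hc, rfl⟩ := hx
  refine ⟨σ c, by simpa using hc, Subtype.ext ?_⟩
  rw [coe_gal_const, coe_const]

theorem IsConst.exists_root {x : F} (hx : IsConst x) {m : ℕ} (hm : 0 < m) :
    ∃ b : F, b ≠ 0 ∧ b ^ m = x := by
  obtain ⟨c, hc, rfl⟩ := hx
  obtain ⟨b, hb⟩ := IsAlgClosed.exists_pow_nat_eq c hm
  have hb0 : b ≠ 0 := by
    rintro rfl
    rw [zero_pow hm.ne'] at hb
    exact hc hb.symm
  exact ⟨algebraMap Qb F b, (map_ne_zero (algebraMap Qb F)).2 hb0, by rw [← map_pow, hb]⟩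

theorem IsConst.dv (S : Setting F) {x : F} (hx : IsConst x) {m : ℕ} (hm : 0 < m) :
    S.Dv m x := by
  obtain ⟨b, -, hb⟩ := hx.exists_root hm
  rw [← hb]
  exact S.dv_pow_self m b

/-- An integral series which is a constant multiple of an element of `F`, as an element of `F`. -/
theorem incl_eq_const_mul (A : ValuationSubring Qb) {a : Qb} (ha : a ≠ 0) (X : LaurentSeries A)
    (x : F) (hx : (x : LaurentSeries Qb) = HahnSeries.single 0 a * Congr.incl A X) :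
    Congr.incl A X = ((algebraMap Qb F a⁻¹ * x : F) : LaurentSeries Qb) := by
  show _ = ((algebraMap Qb F a⁻¹ : F) : LaurentSeries Qb) * (x : LaurentSeries Qb)
  rw [coe_const, hx, ← mul_assoc, HahnSeries.single_mul_single, add_zero, inv_mul_cancel₀ ha]
  exact (one_mul _).symm

/-- **(ES) with two twists, soft Gauss input.**  For `σ` a Frobenius at `A` (over `ℓ`, `ℓ ∤ m`)
and `f ∈ F` with `m ∣ div f`:  `σ²(d₁ f) · (d₂ f) ^ ℓ = T(σ f) · h ^ m`, where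
`T x = heckeMul2 (d₁ x) (d₂ x) = (d₂ x)(q ^ ℓ) · ∏_{i<ℓ} (d₁ x)(zⁱ q^{1/ℓ})`. -/
theorem es_two_soft (S : Setting F) {ℓ m : ℕ} [Fact ℓ.Prime] (hℓ : 0 < ℓ)
    (A : ValuationSubring Qb) (hA : A.LiesOverPrime ℓ) (hK1 : K1 S ℓ A) (z : Qbˣ)
    (hz : IsPrimitiveRoot z ℓ) (d₁ d₂ : F →+* F) (h₁ : Twist S d₁) (h₂ : Twist S d₂)
    (hG : GaussPair A d₁ d₂)
    (hT : HeckeClosed2 S ℓ hℓ z d₁ d₂) (hℓm : ¬ ℓ ∣ m)
    {σ : Gq} (hσ : A.IsFrobeniusAt σ ℓ)
    (f : F) (hf : f ≠ 0) (hdiv : S.Dv m f) :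
    ∃ h : F, h ≠ 0 ∧
      ((S.gal σ (S.gal σ (d₁ f)) : F) : LaurentSeries Qb) *
          ((d₂ f : F) : LaurentSeries Qb) ^ ℓ =
        heckeMul2 ℓ hℓ z ((d₁ (S.gal σ f) : F) : LaurentSeries Qb)
            ((d₂ (S.gal σ f) : F) : LaurentSeries Qb) *
          (h : LaurentSeries Qb) ^ m := by
  have hm : 0 < m := Nat.pos_of_ne_zero (fun h => hℓm (h ▸ dvd_zero ℓ))
  obtain ⟨hmem, hTdiv⟩ := hT
  have hz1 : (z : Qb) ^ ℓ = 1 := by
    have h := congrArg Units.val hz.pow_eq_one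
    rwa [Units.val_pow_eq_pow_val, Units.val_one] at h
  -- the Hecke operator on `F`
  let hk : F →* F :=
    { toFun := fun x => ⟨heckeMul2 ℓ hℓ z ((d₁ x : F) : LaurentSeries Qb)
        ((d₂ x : F) : LaurentSeries Qb), hmem x⟩
      map_one' := Subtype.ext (by
        show heckeMul2 ℓ hℓ z ((d₁ 1 : F) : LaurentSeries Qb) ((d₂ 1 : F) : LaurentSeries Qb) = 1
        rw [map_one, map_one]
        exact heckeMul2_one ℓ hℓ z)
      map_mul' := fun x y => Subtype.ext (by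
        show heckeMul2 ℓ hℓ z ((d₁ (x * y) : F) : LaurentSeries Qb)
            ((d₂ (x * y) : F) : LaurentSeries Qb) =
          heckeMul2 ℓ hℓ z ((d₁ x : F) : LaurentSeries Qb) ((d₂ x : F) : LaurentSeries Qb) *
            heckeMul2 ℓ hℓ z ((d₁ y : F) : LaurentSeries Qb) ((d₂ y : F) : LaurentSeries Qb)
        rw [map_mul, map_mul]
        exact heckeMul2_mul ℓ hℓ z hz _ _ _ _) }
  have hk_coe : ∀ x : F, ((hk x : F) : LaurentSeries Qb) =
      heckeMul2 ℓ hℓ z ((d₁ x : F) : LaurentSeries Qb) ((d₂ x : F) : LaurentSeries Qb) :=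
    fun x => rfl
  have hk0 : ∀ x : F, x ≠ 0 → hk x ≠ 0 := fun x hx h => by
    have h1 : hk x * hk x⁻¹ = 1 := by rw [← map_mul, mul_inv_cancel₀ hx, map_one]
    rw [h, zero_mul] at h1
    exact zero_ne_one h1
  set g : F →+* F := S.gal σ with hg
  have g0 : ∀ x : F, x ≠ 0 → g x ≠ 0 := fun x hx => (map_ne_zero g).2 hx
  have e0₁ : ∀ x : F, x ≠ 0 → d₁ x ≠ 0 := fun x hx => (map_ne_zero d₁).2 hx
  have e0₂ : ∀ x : F, x ≠ 0 → d₂ x ≠ 0 := fun x hx => (map_ne_zero d₂).2 hx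
  have gconst : ∀ x : F, IsConst x → IsConst (g x) := fun x hx => hx.gal S σ
  -- the soft Gauss normalisation of `f`
  obtain ⟨P', Q', hQ0, hfQ, ⟨a₁, P₁, ha₁, hP₁, hP₁e⟩, ⟨b₁, Q₁, hb₁, hQ₁, hQ₁e⟩,
    ⟨a₂, P₂, ha₂, hP₂, hP₂e⟩, ⟨b₂, Q₂, hb₂, hQ₂, hQ₂e⟩⟩ := hG f hf
  have hP0 : P' ≠ 0 := by
    rw [← hfQ]
    exact mul_ne_zero hf hQ0
  have hp₁ := incl_eq_const_mul A ha₁ P₁ (d₁ P') hP₁e
  have hq₁ := incl_eq_const_mul A hb₁ Q₁ (d₁ Q') hQ₁e
  have hp₂ := incl_eq_const_mul A ha₂ P₂ (d₂ P') hP₂e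
  have hq₂ := incl_eq_const_mul A hb₂ Q₂ (d₂ Q') hQ₂e
  have ha₁' : IsConst (algebraMap Qb F a₁⁻¹) := isConst_algebraMap (inv_ne_zero ha₁)
  have hb₁' : IsConst (algebraMap Qb F b₁⁻¹) := isConst_algebraMap (inv_ne_zero hb₁)
  have ha₂' : IsConst (algebraMap Qb F a₂⁻¹) := isConst_algebraMap (inv_ne_zero ha₂)
  have hb₂' : IsConst (algebraMap Qb F b₂⁻¹) := isConst_algebraMap (inv_ne_zero hb₂)
  -- the Hecke operator on a pair of constant multiples of twists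
  have hgc : ∀ x : F, ((g x : F) : LaurentSeries Qb) =
      coeffMap (σ : Qb →+* Qb) (x : LaurentSeries Qb) := fun x => by rw [hg, S.coe_gal]
  have hgg : ∀ x : F, ((g (g x) : F) : LaurentSeries Qb) =
      coeffMap (σ : Qb →+* Qb) (coeffMap (σ : Qb →+* Qb) (x : LaurentSeries Qb)) := fun x => by
    rw [hg, S.coe_gal, S.coe_gal]
  have hHM : ∀ (c₁ c₂ : Qb) (x : F),
      heckeMul2 ℓ hℓ z (coeffMap (σ : Qb →+* Qb)
          ((algebraMap Qb F c₁ * d₁ x : F) : LaurentSeries Qb))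
        (coeffMap (σ : Qb →+* Qb) ((algebraMap Qb F c₂ * d₂ x : F) : LaurentSeries Qb)) =
      ((algebraMap Qb F (σ c₂ * σ c₁ ^ ℓ) * hk (g x) : F) : LaurentSeries Qb) := by
    intro c₁ c₂ x
    have e1 : coeffMap (σ : Qb →+* Qb) ((algebraMap Qb F c₁ * d₁ x : F) : LaurentSeries Qb) =
        HahnSeries.single 0 (σ c₁) * ((d₁ (g x) : F) : LaurentSeries Qb) := by
      rw [← hgc, map_mul, hg, h₁.comm_gal]
      show ((S.gal σ (algebraMap Qb F c₁) : F) : LaurentSeries Qb) * _ = _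
      rw [coe_gal_const]
    have e2 : coeffMap (σ : Qb →+* Qb) ((algebraMap Qb F c₂ * d₂ x : F) : LaurentSeries Qb) =
        HahnSeries.single 0 (σ c₂) * ((d₂ (g x) : F) : LaurentSeries Qb) := by
      rw [← hgc, map_mul, hg, h₂.comm_gal]
      show ((S.gal σ (algebraMap Qb F c₂) : F) : LaurentSeries Qb) * _ = _
      rw [coe_gal_const]
    rw [e1, e2, heckeMul2_mul ℓ hℓ z hz, heckeMul2_single]
    show _ = ((algebraMap Qb F (σ c₂ * σ c₁ ^ ℓ) : F) : LaurentSeries Qb) *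
      ((hk (g x) : F) : LaurentSeries Qb)
    rw [coe_const, hk_coe]
  -- numerator and denominator
  obtain ⟨U, hU⟩ : ∃ U : LaurentSeries A,
      U = esNum2 A hℓ hz1 ⟨σ, hσ.mem_decompositionSubgroup⟩ P₁ Q₁ P₂ Q₂ := ⟨_, rfl⟩
  obtain ⟨W, hW⟩ : ∃ W : LaurentSeries A,
      W = esDen2 A hℓ hz1 ⟨σ, hσ.mem_decompositionSubgroup⟩ P₁ Q₁ P₂ Q₂ := ⟨_, rfl⟩
  obtain ⟨U', hU'd⟩ : ∃ U' : F, U' = g (g (algebraMap Qb F a₁⁻¹ * d₁ P')) *
      (algebraMap Qb F a₂⁻¹ * d₂ P') ^ ℓ *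
      (algebraMap Qb F (σ b₂⁻¹ * σ b₁⁻¹ ^ ℓ) * hk (g Q')) := ⟨_, rfl⟩
  obtain ⟨W', hW'd⟩ : ∃ W' : F, W' = g (g (algebraMap Qb F b₁⁻¹ * d₁ Q')) *
      (algebraMap Qb F b₂⁻¹ * d₂ Q') ^ ℓ *
      (algebraMap Qb F (σ a₂⁻¹ * σ a₁⁻¹ ^ ℓ) * hk (g P')) := ⟨_, rfl⟩
  have hU' : Congr.incl A U = (U' : LaurentSeries Qb) := by
    rw [hU, esNum2, map_mul, map_mul, map_pow, incl_heckeMul2 A hℓ z hz1,
      Congr.incl_actA, Congr.incl_actA, Congr.incl_actA, Congr.incl_actA, hp₁, hp₂, hq₁, hq₂,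
      hU'd]
    show _ = ((g (g (algebraMap Qb F a₁⁻¹ * d₁ P')) : F) : LaurentSeries Qb) *
      ((algebraMap Qb F a₂⁻¹ * d₂ P' : F) : LaurentSeries Qb) ^ ℓ *
      ((algebraMap Qb F (σ b₂⁻¹ * σ b₁⁻¹ ^ ℓ) * hk (g Q') : F) : LaurentSeries Qb)
    rw [hgg, ← hHM]
  have hW' : Congr.incl A W = (W' : LaurentSeries Qb) := by
    rw [hW, esDen2, esNum2, map_mul, map_mul, map_pow, incl_heckeMul2 A hℓ z hz1,
      Congr.incl_actA, Congr.incl_actA, Congr.incl_actA, Congr.incl_actA, hp₁, hp₂, hq₁, hq₂,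
      hW'd]
    show _ = ((g (g (algebraMap Qb F b₁⁻¹ * d₁ Q')) : F) : LaurentSeries Qb) *
      ((algebraMap Qb F b₂⁻¹ * d₂ Q' : F) : LaurentSeries Qb) ^ ℓ *
      ((algebraMap Qb F (σ a₂⁻¹ * σ a₁⁻¹ ^ ℓ) * hk (g P') : F) : LaurentSeries Qb)
    rw [hgg, ← hHM]
  have hUm : Congr.incl A U ∈ F := by rw [hU']; exact U'.2
  have hWm : Congr.incl A W ∈ F := by rw [hW']; exact W'.2
  have hUe : (⟨_, hUm⟩ : F) = U' := Subtype.ext hU'
  have hWe : (⟨_, hWm⟩ : F) = W' := Subtype.ext hW'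
  -- the constants
  obtain ⟨KU, hKUd⟩ : ∃ KU : F, KU = g (g (algebraMap Qb F a₁⁻¹)) *
      algebraMap Qb F a₂⁻¹ ^ ℓ * algebraMap Qb F (σ b₂⁻¹ * σ b₁⁻¹ ^ ℓ) := ⟨_, rfl⟩
  obtain ⟨KW, hKWd⟩ : ∃ KW : F, KW = g (g (algebraMap Qb F b₁⁻¹)) *
      algebraMap Qb F b₂⁻¹ ^ ℓ * algebraMap Qb F (σ a₂⁻¹ * σ a₁⁻¹ ^ ℓ) := ⟨_, rfl⟩
  have hσ0 : ∀ c : Qb, c ≠ 0 → σ c ≠ 0 := fun c hc => by simpa using hc
  have hKU : IsConst KU := by
    rw [hKUd]
    exact ((gconst _ (gconst _ ha₁')).mul (ha₂'.pow ℓ)).mul (isConst_algebraMap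
      (mul_ne_zero (hσ0 _ (inv_ne_zero hb₂)) (pow_ne_zero _ (hσ0 _ (inv_ne_zero hb₁)))))
  have hKW : IsConst KW := by
    rw [hKWd]
    exact ((gconst _ (gconst _ hb₁')).mul (hb₂'.pow ℓ)).mul (isConst_algebraMap
      (mul_ne_zero (hσ0 _ (inv_ne_zero ha₂)) (pow_ne_zero _ (hσ0 _ (inv_ne_zero ha₁)))))
  have hKU0 : KU ≠ 0 := hKU.ne_zero
  have hKW0 : KW ≠ 0 := hKW.ne_zero
  have hUK : U' = KU * (g (g (d₁ P')) * d₂ P' ^ ℓ * hk (g Q')) := by
    rw [hU'd, hKUd, map_mul, map_mul, mul_pow]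
    ring
  have hWK : W' = KW * (g (g (d₁ Q')) * d₂ Q' ^ ℓ * hk (g P')) := by
    rw [hW'd, hKWd, map_mul, map_mul, mul_pow]
    ring
  have hU0 : U' ≠ 0 := by
    rw [hUK]
    exact mul_ne_zero hKU0 (mul_ne_zero (mul_ne_zero (g0 _ (g0 _ (e0₁ _ hP0)))
      (pow_ne_zero _ (e0₂ _ hP0))) (hk0 _ (g0 _ hQ0)))
  have hW0 : W' ≠ 0 := by
    rw [hWK]
    exact mul_ne_zero hKW0 (mul_ne_zero (mul_ne_zero (g0 _ (g0 _ (e0₁ _ hQ0)))
      (pow_ne_zero _ (e0₂ _ hQ0))) (hk0 _ (g0 _ hP0)))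
  have hggf : g (g (d₁ f)) * g (g (d₁ Q')) = g (g (d₁ P')) := by
    rw [← map_mul, ← map_mul, ← map_mul, hfQ]
  have hpow : d₂ f ^ ℓ * d₂ Q' ^ ℓ = d₂ P' ^ ℓ := by rw [← mul_pow, ← map_mul, hfQ]
  have hkf : hk (g f) * hk (g Q') = hk (g P') := by rw [← map_mul, ← map_mul, hfQ]
  have hcross : (g (g (d₁ f)) * d₂ f ^ ℓ) * W' * KU = hk (g f) * U' * KW := by
    calc (g (g (d₁ f)) * d₂ f ^ ℓ) * W' * KU
        = KU * KW * ((g (g (d₁ f)) * g (g (d₁ Q'))) * (d₂ f ^ ℓ * d₂ Q' ^ ℓ) * hk (g P')) := by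
          rw [hWK]; ring
      _ = KU * KW * (g (g (d₁ P')) * d₂ P' ^ ℓ * (hk (g f) * hk (g Q'))) := by
          rw [hggf, hpow, hkf]
      _ = hk (g f) * U' * KW := by rw [hUK]; ring
  have hnum0 : g (g (d₁ f)) * d₂ f ^ ℓ ≠ 0 :=
    mul_ne_zero (g0 _ (g0 _ (e0₁ _ hf))) (pow_ne_zero _ (e0₂ _ hf))
  have hkgf0 : hk (g f) ≠ 0 := hk0 _ (g0 _ hf)
  have hdivT : S.Dv m (hk (g f)) := hTdiv m (g f) (g0 _ hf) (S.dv_gal σ hdiv)
  have hquot : U' / W' = (g (g (d₁ f)) * d₂ f ^ ℓ) / hk (g f) * (KU / KW) := by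
    rw [div_mul_div_comm, div_eq_div_iff hW0 (mul_ne_zero hkgf0 hKW0)]
    linear_combination (-1 : F) * hcross
  have hredUW : Congr.red A U = Congr.red A W := by
    rw [hU, hW]
    exact red_esNum2 A hℓ hA hz1 hσ P₁ Q₁ P₂ Q₂
  have hredU : Congr.red A U ≠ 0 := by
    rw [hU]
    exact red_esNum2_ne_zero A hℓ hA hz1 hσ hP₁ hQ₁ hP₂ hQ₂
  obtain ⟨H, hH⟩ := hK1 m hℓm U W hUm hWm hredUW hredU (by
      rw [hUe, hWe, hquot]
      exact S.dv_mul (div_ne_zero hnum0 hkgf0) (div_ne_zero hKU0 hKW0)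
        (S.dv_div hnum0 hkgf0
          (S.dv_mul (g0 _ (g0 _ (e0₁ _ hf))) (pow_ne_zero _ (e0₂ _ hf))
            (S.dv_gal σ (S.dv_gal σ (h₁.dv hdiv))) (S.dv_pow (e0₂ _ hf) (h₂.dv hdiv) ℓ))
          hdivT)
        ((hKU.div hKW).dv S hm))
  have hH' : U' = H ^ m * W' := Subtype.ext (by rw [← hU', hH, hW']; rfl)
  have hH0 : H ≠ 0 := by
    rintro rfl
    rw [zero_pow hm.ne', zero_mul] at hH'
    exact hU0 hH'
  obtain ⟨b, hb0, hb⟩ := (hKW.div hKU).exists_root hm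
  refine ⟨H * b, mul_ne_zero hH0 hb0, ?_⟩
  have key : g (g (d₁ f)) * d₂ f ^ ℓ = hk (g f) * (H * b) ^ m := by
    have h1 : (g (g (d₁ f)) * d₂ f ^ ℓ) * (W' * KU) = (hk (g f) * (H * b) ^ m) * (W' * KU) := by
      rw [mul_pow, hb]
      have h2 : hk (g f) * (H ^ m * (KW / KU)) * (W' * KU) = hk (g f) * (H ^ m * W') * KW := by
        field_simp
      rw [h2, ← hH']
      linear_combination hcross
    exact mul_right_cancel₀ (mul_ne_zero hW0 hKU0) h1
  exact congrArg Subtype.val key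

/-- **(ES), diamond in the `q ^ ℓ` factor, soft Gauss input**:
`σ²(f) · (δ f) ^ ℓ = T(σ f) · h ^ m` with `T x = heckeMul2 x (δ x)`. -/
theorem es_dia_soft (S : Setting F) {ℓ m : ℕ} [Fact ℓ.Prime] (hℓ : 0 < ℓ)
    (A : ValuationSubring Qb) (hA : A.LiesOverPrime ℓ) (hK1 : K1 S ℓ A) (z : Qbˣ)
    (hz : IsPrimitiveRoot z ℓ) (δ : F →+* F) (hδ : Twist S δ)
    (hG : GaussPair A (RingHom.id F) δ)
    (hT : HeckeClosed2 S ℓ hℓ z (RingHom.id F) δ) (hℓm : ¬ ℓ ∣ m)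
    {σ : Gq} (hσ : A.IsFrobeniusAt σ ℓ)
    (f : F) (hf : f ≠ 0) (hdiv : S.Dv m f) :
    ∃ h : F, h ≠ 0 ∧
      ((S.gal σ (S.gal σ f) : F) : LaurentSeries Qb) * ((δ f : F) : LaurentSeries Qb) ^ ℓ =
        heckeMul2 ℓ hℓ z ((S.gal σ f : F) : LaurentSeries Qb)
            ((δ (S.gal σ f) : F) : LaurentSeries Qb) *
          (h : LaurentSeries Qb) ^ m :=
  es_two_soft S hℓ A hA hK1 z hz (RingHom.id F) δ (Twist.id S) hδ hG hT hℓm hσ f hf hdiv

/-- **(ES), diamond in the norm factor, soft Gauss input**: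
`σ²(δ f) · f ^ ℓ = T'(σ f) · h ^ m` with `T' x = heckeMul2 (δ x) x`. -/
theorem es_dia_soft' (S : Setting F) {ℓ m : ℕ} [Fact ℓ.Prime] (hℓ : 0 < ℓ)
    (A : ValuationSubring Qb) (hA : A.LiesOverPrime ℓ) (hK1 : K1 S ℓ A) (z : Qbˣ)
    (hz : IsPrimitiveRoot z ℓ) (δ : F →+* F) (hδ : Twist S δ)
    (hG : GaussPair A δ (RingHom.id F))
    (hT : HeckeClosed2 S ℓ hℓ z δ (RingHom.id F)) (hℓm : ¬ ℓ ∣ m)
    {σ : Gq} (hσ : A.IsFrobeniusAt σ ℓ)
    (f : F) (hf : f ≠ 0) (hdiv : S.Dv m f) :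
    ∃ h : F, h ≠ 0 ∧
      ((S.gal σ (S.gal σ (δ f)) : F) : LaurentSeries Qb) * ((f : F) : LaurentSeries Qb) ^ ℓ =
        heckeMul2 ℓ hℓ z ((δ (S.gal σ f) : F) : LaurentSeries Qb)
            ((S.gal σ f : F) : LaurentSeries Qb) *
          (h : LaurentSeries Qb) ^ m :=
  es_two_soft S hℓ A hA hK1 z hz δ (RingHom.id F) hδ (Twist.id S) hG hT hℓm hσ f hf hdiv

end Fermat.Agent.S48.ExitDSoft
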