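import Mathlib
import Fermat.Agent.S31.Burnside

/-!
# S48 (Deligne–Serre), brick H: finite subgroups of `GL₂(k)` with few characteristic polynomials

No classification of subgroups of `GL₂`, no hypothesis on the characteristic.

* `card_le_of_span`: a finite subgroup `G` of `GL₂(k)` which spans `M₂(k)` (absolutely irreducible)
  and all of whose elements, except at most `|G| / 8`, have trace in a finite set `T`, has at most
  `2 |T|⁴` elements.  (Pick `g₁, …, g₄ ∈ G` spanning `M₂(k)`; the `h ∈ G` with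
  `tr (gᵢ h) ∈ T` for all `i` are at least half of `G` and are determined by the four traces.)
* `card_le_of_isDiag`: a finite group of diagonal matrices all of whose elements, except at most
  `|G| / 8`, have (trace, determinant) in a finite set `P`, has at most `3 |P|` elements.
* `exists_semisimplification`: over an algebraically closed field every `ρ : Γ →* GL₂(k)` has a
  companion `ρ'` with the same traces and determinants, `ker ρ ≤ ker ρ'`, which either spans
  `M₂(k)` or is diagonal.
* `card_range_le`: the two counts combined.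
-/

set_option autoImplicit false

namespace Fermat.Agent.S48.GroupH

open Matrix
open scoped MatrixGroups

variable {k : Type*} [Field k]

local notation "M₂" => Matrix (Fin 2) (Fin 2) k

/-- The trace form separates points on a spanning set. -/
theorem eq_zero_of_trace_mul_eq_zero {s : Set M₂} (hs : Submodule.span k s = ⊤) {m : M₂}
    (h : ∀ b ∈ s, (b * m).trace = 0) : m = 0 := by
  have hall : ∀ b : M₂, (b * m).trace = 0 := by
    intro b
    have hb : b ∈ Submodule.span k s := hs ▸ Submodule.mem_top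
    induction hb using Submodule.span_induction with
    | mem x hx => exact h x hx
    | zero => rw [zero_mul, Matrix.trace_zero]
    | add x y _ _ hx hy => rw [add_mul, Matrix.trace_add, hx, hy, add_zero]
    | smul c x _ hx => rw [Matrix.smul_mul, Matrix.trace_smul, hx, smul_zero]
  ext i j
  have h1 := hall (Matrix.single j i (1 : k))
  rw [Matrix.trace_single_mul, one_smul] at h1
  rw [h1, Matrix.zero_apply]

section Count

variable (G : Subgroup (GL (Fin 2) k)) [Finite G]

omit [Finite G] in
/-- Counting core: `n` elements of `G` spanning `M₂(k)`. -/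
theorem card_le_of_span_aux [Fintype G] (n : ℕ) (e : Fin n → G)
    (he : Submodule.span k (Set.range fun i => (((e i : G) : GL (Fin 2) k) : M₂)) = ⊤)
    (T : Finset k) (bad : Finset G)
    (hbad : ∀ g : G, g ∉ bad → (((g : G) : GL (Fin 2) k) : M₂).trace ∈ T) :
    Fintype.card G ≤ T.card ^ n + n * bad.card := by
  classical
  let S : Finset G := Finset.univ.filter fun h => ∀ i, e i * h ∉ bad
  have hcompl : (Finset.univ \ S) ⊆
      Finset.univ.biUnion fun i : Fin n => bad.image fun g => (e i)⁻¹ * g := by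
    intro h hh
    simp only [Finset.mem_sdiff, Finset.mem_univ, true_and, S, Finset.mem_filter, not_forall,
      not_not] at hh
    obtain ⟨i, hi⟩ := hh
    simp only [Finset.mem_biUnion, Finset.mem_univ, true_and, Finset.mem_image]
    exact ⟨i, e i * h, hi, by group⟩
  have hcard1 : (Finset.univ \ S).card ≤ n * bad.card := by
    calc (Finset.univ \ S).card
        ≤ (Finset.univ.biUnion fun i : Fin n => bad.image fun g => (e i)⁻¹ * g).card :=
          Finset.card_le_card hcompl
      _ ≤ ∑ i : Fin n, (bad.image fun g => (e i)⁻¹ * g).card := Finset.card_biUnion_le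
      _ ≤ ∑ _i : Fin n, bad.card := Finset.sum_le_sum fun i _ => Finset.card_image_le
      _ = n * bad.card := by simp
  have hS : Fintype.card G ≤ S.card + n * bad.card := by
    have h1 := Finset.card_sdiff_add_card_eq_card (Finset.subset_univ S)
    rw [Finset.card_univ] at h1
    omega
  have hinj : S.card ≤ T.card ^ n := by
    have h1 : S.card ≤ (Fintype.piFinset fun _ : Fin n => T).card := by
      apply Finset.card_le_card_of_injOn
        (fun h i => ((((e i * h : G) : G) : GL (Fin 2) k) : M₂).trace)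
      · intro h hh
        have hh' : ∀ i, e i * h ∉ bad := (Finset.mem_filter.mp (Finset.mem_coe.mp hh)).2
        rw [Finset.mem_coe, Fintype.mem_piFinset]
        intro i
        exact hbad _ (hh' i)
      · intro h _ h' _ heq
        have heq' : ∀ i, ((((e i : G) : GL (Fin 2) k) : M₂) *
            ((((h : G) : GL (Fin 2) k) : M₂) - (((h' : G) : GL (Fin 2) k) : M₂))).trace = 0 := by
          intro i
          have := congrFun heq i
          simp only [Subgroup.coe_mul, Units.val_mul] at this
          rw [mul_sub, Matrix.trace_sub, this, sub_self]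
        have h0 : (((h : G) : GL (Fin 2) k) : M₂) - (((h' : G) : GL (Fin 2) k) : M₂) = 0 := by
          apply eq_zero_of_trace_mul_eq_zero he
          rintro b ⟨i, rfl⟩
          exact heq' i
        exact Subtype.ext (Units.ext (sub_eq_zero.mp h0))
    simpa [Fintype.card_piFinset] using h1
  omega

/-- **Absolutely irreducible case.**  If `G` spans `M₂(k)` and all but at most `|G| / 8` of its
elements have trace in `T`, then `|G| ≤ 2 |T|⁴`. -/
theorem card_le_of_span
    (hspan : Submodule.span k (Set.range fun g : G => (((g : G) : GL (Fin 2) k) : M₂)) = ⊤)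
    (T : Finset k)
    (hgood : 8 * Nat.card {g : G // (((g : G) : GL (Fin 2) k) : M₂).trace ∉ T} ≤ Nat.card G) :
    Nat.card G ≤ 2 * T.card ^ 4 := by
  classical
  have : Fintype G := Fintype.ofFinite G
  obtain ⟨f, hf, hfspan, -⟩ := Submodule.exists_fun_fin_finrank_span_eq k
    (Set.range fun g : G => (((g : G) : GL (Fin 2) k) : M₂))
  have h4 : Module.finrank k (Submodule.span k
      (Set.range fun g : G => (((g : G) : GL (Fin 2) k) : M₂))) = 4 := by
    rw [hspan, finrank_top, Module.finrank_matrix]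
    simp
  generalize Module.finrank k (Submodule.span k
      (Set.range fun g : G => (((g : G) : GL (Fin 2) k) : M₂))) = n at f hf hfspan h4
  subst h4
  choose e he using hf
  have hespan : Submodule.span k (Set.range fun i => (((e i : G) : GL (Fin 2) k) : M₂)) = ⊤ := by
    have : (fun i => (((e i : G) : GL (Fin 2) k) : M₂)) = f := funext he
    rw [this, hfspan, hspan]
  let bad : Finset G :=
    Finset.univ.filter fun g => (((g : G) : GL (Fin 2) k) : M₂).trace ∉ T
  have hbadcard : Nat.card {g : G // (((g : G) : GL (Fin 2) k) : M₂).trace ∉ T} = bad.card := by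
    rw [Nat.card_eq_fintype_card, Fintype.card_subtype]
  have hkey := card_le_of_span_aux G 4 e hespan T bad (fun g hg => by
    by_contra hgT
    exact hg (Finset.mem_filter.mpr ⟨Finset.mem_univ _, hgT⟩))
  rw [hbadcard, Nat.card_eq_fintype_card] at hgood
  rw [Nat.card_eq_fintype_card]
  omega

/-- **Diagonal case.**  If `G` consists of diagonal matrices and all but at most `|G| / 8` of its
elements have (trace, determinant) in `P`, then `|G| ≤ 3 |P|`. -/
theorem card_le_of_isDiag
    (hdiag : ∀ g : G, (((g : G) : GL (Fin 2) k) : M₂).IsDiag)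
    (P : Finset (k × k))
    (hgood : 8 * Nat.card {g : G // ((((g : G) : GL (Fin 2) k) : M₂).trace,
      (((g : G) : GL (Fin 2) k) : M₂).det) ∉ P} ≤ Nat.card G) :
    Nat.card G ≤ 3 * P.card := by
  classical
  have : Fintype G := Fintype.ofFinite G
  let F : G → k × k := fun g => ((((g : G) : GL (Fin 2) k) : M₂).trace,
    (((g : G) : GL (Fin 2) k) : M₂).det)
  let good : Finset G := Finset.univ.filter fun g => F g ∈ P
  let bad : Finset G := Finset.univ.filter fun g => F g ∉ P
  have hbadcard : Nat.card {g : G // F g ∉ P} = bad.card := by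
    rw [Nat.card_eq_fintype_card, Fintype.card_subtype]
  have hsum : good.card + bad.card = Fintype.card G := by
    rw [← Finset.card_univ]
    exact Finset.card_filter_add_card_filter_not (s := Finset.univ) (fun g => F g ∈ P)
  -- entries of a diagonal matrix
  have hentry : ∀ g : G, (((g : G) : GL (Fin 2) k) : M₂) 0 1 = 0 ∧
      (((g : G) : GL (Fin 2) k) : M₂) 1 0 = 0 := fun g =>
    ⟨hdiag g (by decide), hdiag g (by decide)⟩
  -- fibres of `F` on `good` have at most two elements
  have hfib : ∀ a ∈ good.image F, (good.filter fun x => F x = a).card ≤ 2 := by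
    intro a _
    by_cases hne : (good.filter fun x => F x = a) = ∅
    · rw [hne]; simp
    obtain ⟨g₀, hg₀⟩ := Finset.nonempty_iff_ne_empty.mpr hne
    have hg₀F : F g₀ = a := (Finset.mem_filter.mp hg₀).2
    have h1 : (good.filter fun x => F x = a).card ≤
        ({(((g₀ : G) : GL (Fin 2) k) : M₂) 0 0, (((g₀ : G) : GL (Fin 2) k) : M₂) 1 1} :
          Finset k).card := by
      apply Finset.card_le_card_of_injOn (fun g : G => (((g : G) : GL (Fin 2) k) : M₂) 0 0)
      · intro g hg
        have hgF : F g = F g₀ := ((Finset.mem_filter.mp (Finset.mem_coe.mp hg)).2).trans hg₀F.symm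
        have ht : (((g : G) : GL (Fin 2) k) : M₂).trace = (((g₀ : G) : GL (Fin 2) k) : M₂).trace :=
          congrArg Prod.fst hgF
        have hd : (((g : G) : GL (Fin 2) k) : M₂).det = (((g₀ : G) : GL (Fin 2) k) : M₂).det :=
          congrArg Prod.snd hgF
        rw [Matrix.trace_fin_two, Matrix.trace_fin_two] at ht
        rw [Matrix.det_fin_two, Matrix.det_fin_two, (hentry g).1, (hentry g₀).1] at hd
        have hprod : ((((g : G) : GL (Fin 2) k) : M₂) 0 0 - (((g₀ : G) : GL (Fin 2) k) : M₂) 0 0) *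
            ((((g : G) : GL (Fin 2) k) : M₂) 0 0 - (((g₀ : G) : GL (Fin 2) k) : M₂) 1 1) = 0 := by
          linear_combination
            ((((g : G) : GL (Fin 2) k) : M₂) 0 0) * ht - hd
        rcases mul_eq_zero.mp hprod with h | h
        · simp [sub_eq_zero.mp h]
        · simp [sub_eq_zero.mp h]
      · intro g hg g' hg' heq
        have hgF : F g = F g' :=
          ((Finset.mem_filter.mp (Finset.mem_coe.mp hg)).2).trans
            ((Finset.mem_filter.mp (Finset.mem_coe.mp hg')).2).symm
        have ht : (((g : G) : GL (Fin 2) k) : M₂).trace = (((g' : G) : GL (Fin 2) k) : M₂).trace :=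
          congrArg Prod.fst hgF
        rw [Matrix.trace_fin_two, Matrix.trace_fin_two] at ht
        have heq' : (((g : G) : GL (Fin 2) k) : M₂) 0 0 = (((g' : G) : GL (Fin 2) k) : M₂) 0 0 :=
          heq
        have h11 : (((g : G) : GL (Fin 2) k) : M₂) 1 1 = (((g' : G) : GL (Fin 2) k) : M₂) 1 1 := by
          linear_combination ht - heq'
        apply Subtype.ext
        apply Units.ext
        ext i j
        fin_cases i <;> fin_cases j
        · exact heq'
        · exact (hentry g).1.trans (hentry g').1.symm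
        · exact (hentry g).2.trans (hentry g').2.symm
        · exact h11
    exact h1.trans Finset.card_le_two
  have hgoodcard : good.card ≤ 2 * P.card := by
    have h1 := Finset.card_le_mul_card_image good 2 hfib
    have h2 : (good.image F).card ≤ P.card := by
      apply Finset.card_le_card
      intro a ha
      obtain ⟨g, hg, rfl⟩ := Finset.mem_image.mp ha
      exact (Finset.mem_filter.mp hg).2
    omega
  have hgood' : 8 * bad.card ≤ Fintype.card G := by
    rw [← hbadcard, ← Nat.card_eq_fintype_card]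
    exact hgood
  rw [Nat.card_eq_fintype_card]
  omega

end Count

section Semisimple

variable {Γ : Type*} [Group Γ]

/-- An eigenvalue of a `2 × 2` matrix is a root of its characteristic polynomial. -/
theorem eigen_quadratic (g : M₂) (v : Fin 2 → k) (hv : v ≠ 0) (a : k) (h : g *ᵥ v = a • v) :
    a ^ 2 - g.trace * a + g.det = 0 := by
  have h0 := congrFun h 0
  have h1 := congrFun h 1
  simp only [Matrix.mulVec, dotProduct, Fin.sum_univ_two, Pi.smul_apply, smul_eq_mul] at h0 h1
  rw [Matrix.trace_fin_two, Matrix.det_fin_two]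
  have e0 : (a ^ 2 - (g 0 0 + g 1 1) * a + (g 0 0 * g 1 1 - g 0 1 * g 1 0)) * v 0 = 0 := by
    linear_combination (g 1 1 - a) * h0 - g 0 1 * h1
  have e1 : (a ^ 2 - (g 0 0 + g 1 1) * a + (g 0 0 * g 1 1 - g 0 1 * g 1 0)) * v 1 = 0 := by
    linear_combination (g 0 0 - a) * h1 - g 1 0 * h0
  by_contra hne
  apply hv
  funext i
  fin_cases i
  · exact (mul_eq_zero.mp e0).resolve_left hne
  · exact (mul_eq_zero.mp e1).resolve_left hne

/-- The diagonal companion attached to a common eigenvector. -/
theorem exists_diag_of_eigenvector (ρ : Γ →* GL (Fin 2) k) (v : Fin 2 → k) (hv : v ≠ 0)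
    (hstab : ∀ γ, ∃ c : k, ((ρ γ : GL (Fin 2) k) : M₂) *ᵥ v = c • v) :
    ∃ ρ' : Γ →* GL (Fin 2) k,
      (∀ γ, ((ρ' γ : GL (Fin 2) k) : M₂).trace = ((ρ γ : GL (Fin 2) k) : M₂).trace ∧
        ((ρ' γ : GL (Fin 2) k) : M₂).det = ((ρ γ : GL (Fin 2) k) : M₂).det) ∧
      ρ.ker ≤ ρ'.ker ∧ ∀ γ, ((ρ' γ : GL (Fin 2) k) : M₂).IsDiag := by
  classical
  obtain ⟨i₀, hi₀⟩ : ∃ i, v i ≠ 0 := by
    by_contra hcon
    push Not at hcon
    exact hv (funext hcon)
  -- the eigencharacter
  let χ₀ : Γ → k := fun γ => (((ρ γ : GL (Fin 2) k) : M₂) *ᵥ v) i₀ / v i₀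
  have hχ₀ : ∀ γ, ((ρ γ : GL (Fin 2) k) : M₂) *ᵥ v = χ₀ γ • v := by
    intro γ
    obtain ⟨c, hc⟩ := hstab γ
    have : χ₀ γ = c := by
      show (((ρ γ : GL (Fin 2) k) : M₂) *ᵥ v) i₀ / v i₀ = c
      rw [hc, Pi.smul_apply, smul_eq_mul, mul_div_assoc, div_self hi₀, mul_one]
    rw [this, hc]
  have hχ₀_one : χ₀ 1 = 1 := by
    show (((ρ 1 : GL (Fin 2) k) : M₂) *ᵥ v) i₀ / v i₀ = 1
    rw [map_one, Units.val_one, Matrix.one_mulVec, div_self hi₀]
  have hχ₀_mul : ∀ γ γ', χ₀ (γ * γ') = χ₀ γ * χ₀ γ' := by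
    intro γ γ'
    have h1 : ((ρ (γ * γ') : GL (Fin 2) k) : M₂) *ᵥ v = (χ₀ γ * χ₀ γ') • v := by
      rw [map_mul, Units.val_mul, ← Matrix.mulVec_mulVec, hχ₀ γ', Matrix.mulVec_smul, hχ₀ γ,
        smul_smul, mul_comm]
    have h2 := congrFun ((hχ₀ (γ * γ')).symm.trans h1) i₀
    simp only [Pi.smul_apply, smul_eq_mul] at h2
    exact mul_right_cancel₀ hi₀ h2
  let χ : Γ →* k := ⟨⟨χ₀, hχ₀_one⟩, hχ₀_mul⟩
  let a : Γ →* kˣ := χ.toHomUnits
  have ha : ∀ γ, ((a γ : kˣ) : k) = χ₀ γ := fun γ => rfl
  let d : Γ →* kˣ := (Matrix.GeneralLinearGroup.det.comp ρ) / a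
  have hd : ∀ γ, ((d γ : kˣ) : k) = ((ρ γ : GL (Fin 2) k) : M₂).det / χ₀ γ := by
    intro γ
    show ((((Matrix.GeneralLinearGroup.det.comp ρ) γ) / a γ : kˣ) : k) = _
    rw [Units.val_div_eq_div_val, ha]
    rfl
  let D : Γ →* M₂ :=
    { toFun := fun γ => Matrix.diagonal ![((a γ : kˣ) : k), ((d γ : kˣ) : k)]
      map_one' := by
        ext i j
        fin_cases i <;> fin_cases j <;> simp
      map_mul' := by
        intro γ γ'
        rw [Matrix.diagonal_mul_diagonal]
        congr 1
        funext i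
        fin_cases i <;> simp }
  have hD : ∀ γ, D γ = Matrix.diagonal ![((a γ : kˣ) : k), ((d γ : kˣ) : k)] := fun γ => rfl
  refine ⟨D.toHomUnits, ?_, ?_, ?_⟩
  · intro γ
    have hval : ((D.toHomUnits γ : GL (Fin 2) k) : M₂) = D γ := rfl
    have hq := eigen_quadratic ((ρ γ : GL (Fin 2) k) : M₂) v hv (χ₀ γ) (hχ₀ γ)
    have hχne : χ₀ γ ≠ 0 := by
      rw [← ha]
      exact Units.ne_zero _
    rw [hval, hD, Matrix.trace_fin_two, Matrix.det_fin_two]
    simp only [Matrix.diagonal_apply_eq, Matrix.cons_val_zero, Matrix.cons_val_one,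
      Matrix.diagonal_apply_ne _ (show (0 : Fin 2) ≠ 1 by decide),
      Matrix.diagonal_apply_ne _ (show (1 : Fin 2) ≠ 0 by decide)]
    rw [ha, hd]
    constructor
    · field_simp
      linear_combination hq
    · field_simp
      ring
  · intro γ hγ
    rw [MonoidHom.mem_ker] at hγ ⊢
    have hχ1 : χ₀ γ = 1 := by
      show (((ρ γ : GL (Fin 2) k) : M₂) *ᵥ v) i₀ / v i₀ = 1
      rw [hγ, Units.val_one, Matrix.one_mulVec, div_self hi₀]
    apply Units.ext
    have hval : ((D.toHomUnits γ : GL (Fin 2) k) : M₂) = D γ := rfl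
    rw [hval, hD, ha, hd, hχ1, hγ, Units.val_one, Matrix.det_one, div_one]
    ext i j
    fin_cases i <;> fin_cases j <;> simp
  · intro γ
    have hval : ((D.toHomUnits γ : GL (Fin 2) k) : M₂) = D γ := rfl
    rw [hval, hD]
    exact Matrix.isDiag_diagonal _

/-- **Semisimplification.**  Over an algebraically closed field, every `ρ : Γ →* GL₂(k)` has a
companion `ρ'` with the same traces and determinants and `ker ρ ≤ ker ρ'` which either spans
`M₂(k)` or consists of diagonal matrices. -/
theorem exists_semisimplification [IsAlgClosed k] (ρ : Γ →* GL (Fin 2) k) :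
    ∃ ρ' : Γ →* GL (Fin 2) k,
      (∀ γ, ((ρ' γ : GL (Fin 2) k) : M₂).trace = ((ρ γ : GL (Fin 2) k) : M₂).trace ∧
        ((ρ' γ : GL (Fin 2) k) : M₂).det = ((ρ γ : GL (Fin 2) k) : M₂).det) ∧
      ρ.ker ≤ ρ'.ker ∧
      (Submodule.span k (Set.range fun γ => ((ρ' γ : GL (Fin 2) k) : M₂)) = ⊤ ∨
        ∀ γ, ((ρ' γ : GL (Fin 2) k) : M₂).IsDiag) := by
  classical
  by_cases hsp : Submodule.span k (Set.range fun γ => ((ρ γ : GL (Fin 2) k) : M₂)) = ⊤
  · exact ⟨ρ, fun γ => ⟨rfl, rfl⟩, le_rfl, Or.inl hsp⟩
  -- the associated endomorphism-valued representation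
  let L : M₂ →ₗ[k] Module.End k (Fin 2 → k) :=
    (Matrix.toLin' : M₂ ≃ₗ[k] ((Fin 2 → k) →ₗ[k] (Fin 2 → k))).toLinearMap
  have hLinj : Function.Injective L :=
    (Matrix.toLin' : M₂ ≃ₗ[k] ((Fin 2 → k) →ₗ[k] (Fin 2 → k))).injective
  have hLsurj : Function.Surjective L :=
    (Matrix.toLin' : M₂ ≃ₗ[k] ((Fin 2 → k) →ₗ[k] (Fin 2 → k))).surjective
  let ρE : Γ →* Module.End k (Fin 2 → k) :=
    { toFun := fun γ => Matrix.toLin' ((ρ γ : GL (Fin 2) k) : M₂)
      map_one' := by rw [map_one, Units.val_one, Matrix.toLin'_one]; rfl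
      map_mul' := fun γ γ' => by
        rw [map_mul, Units.val_mul, Matrix.toLin'_mul]; rfl }
  have hρE : ∀ γ x, ρE γ x = ((ρ γ : GL (Fin 2) k) : M₂) *ᵥ x := fun γ x =>
    Matrix.toLin'_apply _ _
  have hU : Module.finrank k (Fin 2 → k) = 2 := by simp
  have hnirr : ¬ ∀ W : Submodule k (Fin 2 → k), (∀ g, ∀ x ∈ W, ρE g x ∈ W) → W = ⊥ ∨ W = ⊤ := by
    intro hirr
    have h1 := Fermat.Agent.S31.Burnside.span_range_eq_top hU ρE hirr
    apply hsp
    have h2 : Set.range ρE = L '' (Set.range fun γ => ((ρ γ : GL (Fin 2) k) : M₂)) := by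
      ext f
      constructor
      · rintro ⟨γ, rfl⟩
        exact ⟨_, ⟨γ, rfl⟩, rfl⟩
      · rintro ⟨_, ⟨γ, rfl⟩, rfl⟩
        exact ⟨γ, rfl⟩
    have h3 : (Submodule.span k (Set.range fun γ => ((ρ γ : GL (Fin 2) k) : M₂))).map L =
        (⊤ : Submodule k M₂).map L := by
      rw [Submodule.map_span, ← h2, h1, Submodule.map_top, LinearMap.range_eq_top.mpr hLsurj]
    exact Submodule.map_injective_of_injective hLinj h3
  push Not at hnirr
  obtain ⟨W, hWstab, hWbot, hWtop⟩ := hnirr
  obtain ⟨v, hvW, hv⟩ := Submodule.exists_mem_ne_zero_of_ne_bot hWbot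
  have hfr : Module.finrank k W = 1 := by
    have h1 := Submodule.finrank_lt hWtop
    rw [hU] at h1
    have h2 : 0 < Module.finrank k W := by
      rw [Module.finrank_pos_iff_exists_ne_zero]
      exact ⟨⟨v, hvW⟩, fun h => hv (congrArg Subtype.val h)⟩
    omega
  have hline : ∀ x ∈ W, ∃ c : k, x = c • v := by
    intro x hx
    have h1 := (finrank_eq_one_iff_of_nonzero' (⟨v, hvW⟩ : W)
      (fun h => hv (congrArg Subtype.val h))).mp hfr ⟨x, hx⟩
    obtain ⟨c, hc⟩ := h1
    exact ⟨c, (congrArg Subtype.val hc).symm⟩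
  obtain ⟨ρ', h1, h2, h3⟩ := exists_diag_of_eigenvector ρ v hv (fun γ => by
    obtain ⟨c, hc⟩ := hline _ (hWstab γ v hvW)
    exact ⟨c, by rw [← hρE, hc]⟩)
  exact ⟨ρ', h1, h2, Or.inr h3⟩

end Semisimple

section Combined

variable {Γ : Type*} [Group Γ]

/-- **Brick H.**  If the range of `ρ' : Γ →* GL₂(k)` is finite, spans `M₂(k)` or is diagonal, and
all but at most one eighth of its elements have (trace, determinant) in `P`, then it has at most
`2 |P|⁴ + 3 |P|` elements. -/
theorem card_range_le (ρ' : Γ →* GL (Fin 2) k) [Finite ρ'.range]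
    (hdich : Submodule.span k (Set.range fun γ => ((ρ' γ : GL (Fin 2) k) : M₂)) = ⊤ ∨
      ∀ γ, ((ρ' γ : GL (Fin 2) k) : M₂).IsDiag)
    (P : Finset (k × k))
    (hgood : 8 * Nat.card {g : ρ'.range // ((((g : ρ'.range) : GL (Fin 2) k) : M₂).trace,
      (((g : ρ'.range) : GL (Fin 2) k) : M₂).det) ∉ P} ≤ Nat.card ρ'.range) :
    Nat.card ρ'.range ≤ 2 * P.card ^ 4 + 3 * P.card := by
  classical
  rcases hdich with hsp | hdiag
  · have hspan : Submodule.span k
        (Set.range fun g : ρ'.range => (((g : ρ'.range) : GL (Fin 2) k) : M₂)) = ⊤ := by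
      have : (Set.range fun g : ρ'.range => (((g : ρ'.range) : GL (Fin 2) k) : M₂)) =
          Set.range fun γ => ((ρ' γ : GL (Fin 2) k) : M₂) := by
        ext m
        constructor
        · rintro ⟨⟨_, γ, rfl⟩, rfl⟩
          exact ⟨γ, rfl⟩
        · rintro ⟨γ, rfl⟩
          exact ⟨⟨ρ' γ, γ, rfl⟩, rfl⟩
      rw [this, hsp]
    have hle : Nat.card {g : ρ'.range //
        (((g : ρ'.range) : GL (Fin 2) k) : M₂).trace ∉ P.image Prod.fst} ≤
        Nat.card {g : ρ'.range // ((((g : ρ'.range) : GL (Fin 2) k) : M₂).trace,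
          (((g : ρ'.range) : GL (Fin 2) k) : M₂).det) ∉ P} := by
      apply Nat.card_le_card_of_injective
        (fun g => ⟨g.1, fun hmem => g.2 (Finset.mem_image.mpr ⟨_, hmem, rfl⟩)⟩)
      intro g g' h
      exact Subtype.ext (congrArg (fun x => x.1) h)
    have h1 := card_le_of_span ρ'.range hspan (P.image Prod.fst) (by omega)
    have h2 : (P.image Prod.fst).card ≤ P.card := Finset.card_image_le
    have h3 : (P.image Prod.fst).card ^ 4 ≤ P.card ^ 4 := Nat.pow_le_pow_left h2 4
    omega
  · have h1 := card_le_of_isDiag ρ'.range (by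
      rintro ⟨_, γ, rfl⟩
      exact hdiag γ) P hgood
    omega

end Combined

end Fermat.Agent.S48.GroupH
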