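/-
DS brick C1 (S48): the ODD SEED for the `Γ₁(M)` port of the S23 chain, in the consumer shape of
`IntBasis1` / `IntG1`: a nonzero modular form of weight `3` on `Γ₁(M)` (`M ≥ 3`) with integral
`q`-expansion.  It is `EisG.gEis M 3 1`, with `q`-expansion `q + ⋯`.
-/
import Mathlib
import Fermat.Agent.S48.EisG
import Fermat.Agent.S23.Defs

set_option autoImplicit false

open ModularForm CongruenceSubgroup UpperHalfPlane
open scoped MatrixGroups

namespace Fermat.Agent.S48.OddSeed

open Fermat.Agent.S48.EisG Fermat.Agent.S23.Defs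

noncomputable section

variable (M : ℕ) [NeZero M]

/-- The odd seed: `gEis M 3 1` as a modular form of weight `(3 : ℤ)` on `Γ₁(M)`. -/
def seed : ModularForm ((Gamma1 M : Subgroup SL(2, ℤ)) : Subgroup (GL (Fin 2) ℝ)) 3 :=
  ModularForm.mcast (by norm_num) (gEis M 3 (le_refl 3) (1 : ZMod M))

lemma coe_seed : ⇑(seed M) = ⇑(gEis M 3 (le_refl 3) (1 : ZMod M)) := rfl

lemma qExpansion_seed : qExpansion 1 (seed M) = qExpansion 1 (gEis M 3 (le_refl 3) (1 : ZMod M)) := by
  rw [coe_seed]

/-- The `q`-expansion of the seed is integral. -/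
theorem isIntPS_seed (hM : 3 ≤ M) : IsIntPS (qExpansion 1 (seed M)) := by
  have h1 : (1 : ZMod M) ≠ 0 := by
    have : Fact (1 < M) := ⟨by omega⟩
    exact one_ne_zero
  intro n
  rw [qExpansion_seed]
  exact qExpansion_gEis_int M 3 (le_refl 3) 1 h1 n

/-- The coefficient of `q` of the seed is `1`. -/
theorem qExpansion_seed_coeff_one (hM : 3 ≤ M) : (qExpansion 1 (seed M)).coeff 1 = 1 := by
  rw [qExpansion_seed]
  exact qExpansion_gEis_one_coeff_one M 3 (le_refl 3) hM

/-- The seed is not the zero form. -/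
theorem seed_ne_zero (hM : 3 ≤ M) : seed M ≠ 0 := by
  intro h
  have h1 := qExpansion_seed_coeff_one M hM
  rw [h] at h1
  simp [qExpansion_zero] at h1

/-- The seed does not vanish identically as a function. -/
theorem coe_seed_ne_zero (hM : 3 ≤ M) : (⇑(seed M) : ℍ → ℂ) ≠ 0 := by
  intro h
  exact seed_ne_zero M hM (DFunLike.coe_injective h)

/-- **Odd seed, consumer shape**: for `M ≥ 3` there is a nonzero weight-`3` modular form on
`Γ₁(M)` with integral `q`-expansion. -/
theorem exists_odd_seed (hM : 3 ≤ M) :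
    ∃ s : ModularForm ((Gamma1 M : Subgroup SL(2, ℤ)) : Subgroup (GL (Fin 2) ℝ)) 3,
      s ≠ 0 ∧ IsIntPS (qExpansion 1 s) :=
  ⟨seed M, seed_ne_zero M hM, isIntPS_seed M hM⟩

end

end Fermat.Agent.S48.OddSeed
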