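import Mathlib
import Fermat.Agent.S48.IntBasis1.Lam
import Fermat.Agent.S48.Sep1
import Fermat.Agent.S48.OddSeed

/-!
# DS brick C.Int, exit: (C★) for every level and every weight

`S_k(Γ₁(M))` is spanned over `ℂ` by cusp forms with integral `q`-expansion, for every `M ≥ 1`
and every weight `k : ℤ` (in particular `k = 1` and `k = 2`).

Proof: the landed S23 chain made group-generic (`IntBasis1/Gen.lean`), run on `±Γ₁(M)`
(`IntBasis1/Pm.lean`) with the separating form of `S48/Sep1.lean` (weight 16, homogeniser `E₄⁴`)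
and, for odd weights, the weight-3 seed of `S48/OddSeed.lean`; `M ∣ 2` is `IntBasis1/Lam.lean`.

Corollaries: a finite integral spanning family, conjugation by ring homomorphisms `ℂ →+* ℂ`
on `q`-expansions, and finite generation of the `ℤ`-module of `q`-coefficients.
-/

set_option autoImplicit false

namespace Fermat.Agent.S48.IntBasis1

open UpperHalfPlane ModularForm PowerSeries CongruenceSubgroup
open Fermat.Agent.S23 Fermat.Agent.S23.Defs
open scoped MatrixGroups Manifold

/-- **(C★), every level, every weight.** `S_k(Γ₁(M))` is spanned over `ℂ` by the cusp forms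
all of whose `q`-expansion coefficients are integers. -/
theorem span_qCoeff_gamma1 (M : ℕ) [NeZero M] (k : ℤ) :
    Submodule.span ℂ {f : CuspForm (Gamma1 M) k |
      ∀ n : ℕ, ∃ m : ℤ, ModularFormClass.qCoeff f n = (m : ℂ)} = ⊤ := by
  rcases Nat.lt_or_ge M 3 with hM | hM
  · refine span_qCoeff_gamma1_of_dvd_two ?_ k
    have hM0 : M ≠ 0 := NeZero.ne M
    interval_cases M <;> simp_all
  · obtain ⟨t, ht, hsep⟩ := Sep1.exists_sep M (by omega)
    refine span_qCoeff_gamma1_of_sep16 M t ht hsep (fun _ => ?_) k
    obtain ⟨s, hs0, hs⟩ := OddSeed.exists_odd_seed M hM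
    exact ⟨3, s, by decide, hs, hs0⟩

/-- The same with `S23.Defs.IsIntPS`. -/
theorem span_int_gamma1 (M : ℕ) [NeZero M] (k : ℤ) :
    Submodule.span ℂ {f : CuspForm (Gamma1 M) k | IsIntPS (qExpansion 1 f)} = ⊤ :=
  span_qCoeff_gamma1 M k

end Fermat.Agent.S48.IntBasis1
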