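/-
DS brick C.Int (S48), EXIT: for every level `M` and every weight `k`, the space of cusp forms
`S_k(Γ₁(M))` is spanned over `ℂ` by forms with integral `q`-expansion.

Assembly of the landed pieces: the group-generic S23 chain and its `±Γ₁(M)` glue
(`IntBasis1/Gen`, `IntBasis1/Pm`), the separating weight-16 form (`Sep1`) and the odd seed of
weight 3 (`OddSeed`).
-/
import Mathlib
import Fermat.Agent.S48.IntBasis1.Pm
import Fermat.Agent.S48.Sep1
import Fermat.Agent.S48.OddSeed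
import Fermat.Agent.S23.LevelOne
import Fermat.Agent.S23.LevelOneSpan
import Fermat.Agent.S23.LevelRaise

set_option autoImplicit false

namespace Fermat.Agent.S48.IntG1

open UpperHalfPlane ModularForm CongruenceSubgroup
open Fermat.Agent.S23 Fermat.Agent.S23.Defs
open scoped MatrixGroups

noncomputable section

/-- The level-one form `E₄ ^ 4` of weight `16`. -/
def e4pow4 : ModularForm 𝒮ℒ 16 :=
  ModularForm.mcast (by norm_num) (LevelOne.monoCast 16 (Finsupp.single 0 4))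

lemma e4pow4_apply (z : ℍ) : e4pow4 z = E₄ z ^ 4 := by
  rw [e4pow4, ModularForm.mcast_apply, LevelOne.monoCast_apply (by simp)]
  simp

lemma isIntPS_e4pow4 : IsIntPS (qExpansion 1 e4pow4) := by
  rw [e4pow4, ModularForm.qExpansion_mcast]
  exact LevelOneSpan.isIntPS_qExpansion_monoCast 16 _

lemma e4pow4_ne_zero : e4pow4 ≠ 0 := by
  intro h
  have hE : (E₄ : ModularForm 𝒮ℒ 4) ≠ 0 := EisensteinSeries.E_ne_zero (by norm_num) ⟨2, rfl⟩
  apply hE
  ext z
  have h1 := e4pow4_apply z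
  rw [h] at h1
  have h2 : E₄ z ^ 4 = 0 := by simpa using h1.symm
  simpa using pow_eq_zero_iff (n := 4) (by norm_num) |>.mp h2

/-- **(C★) for every level and every weight.**  `S_k(Γ₁(M))` is spanned over `ℂ` by cusp forms
whose `q`-expansion coefficients are integers. -/
theorem span_int_cuspForm_gamma1 (M : ℕ) [NeZero M] (k : ℤ) :
    Submodule.span ℂ {f : CuspForm (Gamma1 M) k |
      ∀ n : ℕ, ∃ m : ℤ, ModularFormClass.qCoeff f n = (m : ℂ)} = ⊤ := by
  have hodd : 3 ≤ M → ∃ (w₀ : ℤ) (g₀ : ModularForm (Gamma1 M) w₀),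
      Odd w₀ ∧ (∀ n : ℕ, ∃ m : ℤ, ModularFormClass.qCoeff g₀ n = (m : ℂ)) ∧ g₀ ≠ 0 := by
    intro hM
    obtain ⟨s, hs0, hs⟩ := OddSeed.exists_odd_seed M hM
    exact ⟨3, s, ⟨1, by norm_num⟩, hs, hs0⟩
  rcases Nat.lt_or_ge M 2 with hM | hM
  · have hM1 : M = 1 := by
      have := NeZero.ne M
      omega
    subst hM1
    refine IntBasis1.span_qCoeff_gamma1_of_sep 1 (w := 4) ⟨2, by norm_num⟩
      (LevelRaise.restrict (IntBasis1.gamma1_le_SL 1) E₄) LevelOneSpan.isIntPS_qExpansion_E₄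
      E₄ LevelOneSpan.isIntPS_qExpansion_E₄
      (EisensteinSeries.E_ne_zero (by norm_num) ⟨2, rfl⟩) (fun γ _ => Or.inl ?_) hodd k
    rw [Gamma1_mem]
    exact ⟨Subsingleton.elim _ _, Subsingleton.elim _ _, Subsingleton.elim _ _⟩
  · obtain ⟨t, ht, hsep⟩ := Sep1.exists_sep M hM
    exact IntBasis1.span_qCoeff_gamma1_of_sep M (w := 16) ⟨8, by norm_num⟩ t ht e4pow4
      isIntPS_e4pow4 e4pow4_ne_zero hsep hodd k

/-- The weight-one case, in the vocabulary of the frozen statement S48. -/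
theorem span_int_cuspForm_gamma1_one (M : ℕ) [NeZero M] :
    Submodule.span ℂ {f : CuspForm (Gamma1 M) 1 |
      ∀ n : ℕ, ∃ m : ℤ, ModularFormClass.qCoeff f n = (m : ℂ)} = ⊤ :=
  span_int_cuspForm_gamma1 M 1

/-- The weight-two case. -/
theorem span_int_cuspForm_gamma1_two (M : ℕ) [NeZero M] :
    Submodule.span ℂ {f : CuspForm (Gamma1 M) 2 |
      ∀ n : ℕ, ∃ m : ℤ, ModularFormClass.qCoeff f n = (m : ℂ)} = ⊤ :=
  span_int_cuspForm_gamma1 M 2

end

end Fermat.Agent.S48.IntG1
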