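/-
S48 (Deligne–Serre), PROGRAM DS — brick J2 in CONTRACT SHAPE (helper221).

`Contract.PatchStatement` is literally `Patch.exists_complex_rep` (helper72, Steps 4–6).
-/
import Fermat.Agent.S48.Contract
import Fermat.Agent.S48.Patch

set_option autoImplicit false

namespace Fermat.Agent.S48.J2

/-- **(J2)** Steps 4–6, in the shape consumed by `Contract.result_of_contract`. -/
theorem patchStatement : Contract.PatchStatement := by
  intro N a e A H
  exact Patch.exists_complex_rep N a e A H

end Fermat.Agent.S48.J2
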