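import Mathlib
import Fermat.Agent.S23.Interp
import Fermat.Agent.S23.IntegralityGen
import Fermat.Agent.S23.LevelOneSpan
import Fermat.Agent.S23.Wiring

/-!
# S48 (Deligne–Serre), brick C2: conjugates of cusp forms through a monic equation

Let `Γ` be an arithmetic subgroup with `1` as a strict period, `σ : ℂ →+* ℂ` a ring homomorphism
acting coefficientwise on `q`-expansions.  If `f` is a cusp form of weight `k`, `Q` a modular form
of weight `w`, and the conjugates of the `q`-expansions of `Q` and of `f * Q` are `q`-expansions of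
modular forms `Q' ≠ 0`, `P'` of weights `w`, `w + k`, then the conjugate of the `q`-expansion of `f`
is the `q`-expansion of a CUSP form of weight `k` on `Γ`.

No information on the zeros of `Q` is used: `f` is a root of a monic polynomial whose coefficients
are level-one cusp forms (norm polynomial, `S23.Interp.exists_charpoly`), level-one cusp forms are
spanned by forms with integral `q`-expansion (`S23.LevelOneSpan.cusp_mem_span`), and the quotient
`P' / Q'` is then a cusp form by the integrality criterion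
(`S23.IntegralityGen.integrality_criterion_arithmetic`).
-/

set_option autoImplicit false

namespace Fermat.Agent.S48.MonicConj

open UpperHalfPlane ModularForm PowerSeries
open Fermat.Agent.S23 Fermat.Agent.S23.Wiring
open scoped MatrixGroups Manifold

noncomputable section

/-- Coefficientwise conjugation of a scalar multiple. -/
theorem map_smul_ps (σ : ℂ →+* ℂ) (a : ℂ) (p : PowerSeries ℂ) :
    PowerSeries.map σ (a • p) = σ a • PowerSeries.map σ p := by
  ext n
  simp

/-- A power series with integer coefficients is fixed by coefficientwise conjugation. -/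
theorem map_eq_self_of_isIntPS (σ : ℂ →+* ℂ) {p : PowerSeries ℂ} (hp : Defs.IsIntPS p) :
    PowerSeries.map σ p = p := by
  ext n
  obtain ⟨m, hm⟩ := hp n
  simp [hm]

/-- **Level one.** The coefficientwise conjugate of the `q`-expansion of a level-one cusp form is
the `q`-expansion of a level-one cusp form. -/
theorem exists_levelOne_conj (σ : ℂ →+* ℂ) (K : ℤ) (g : CuspForm 𝒮ℒ K) :
    ∃ g' : CuspForm 𝒮ℒ K, qExpansion 1 g' = PowerSeries.map σ (qExpansion 1 g) := by
  have hg := LevelOneSpan.cusp_mem_span K g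
  refine Submodule.span_induction (p := fun (x : CuspForm 𝒮ℒ K) _ => ∃ g' : CuspForm 𝒮ℒ K,
    qExpansion 1 g' = PowerSeries.map σ (qExpansion 1 x)) ?_ ?_ ?_ ?_ hg
  · intro h hh
    exact ⟨h, (map_eq_self_of_isIntPS σ hh).symm⟩
  · refine ⟨0, ?_⟩
    have h0 : qExpansion 1 ((0 : CuspForm 𝒮ℒ K) : ℍ → ℂ) = 0 := (qCF K).map_zero
    rw [h0, map_zero]
  · rintro x y _ _ ⟨x', hx'⟩ ⟨y', hy'⟩
    refine ⟨x' + y', ?_⟩
    have h1 : qExpansion 1 ((x' + y' : CuspForm 𝒮ℒ K) : ℍ → ℂ) =
        qExpansion 1 x' + qExpansion 1 y' := (qCF K).map_add x' y'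
    have h2 : qExpansion 1 ((x + y : CuspForm 𝒮ℒ K) : ℍ → ℂ) =
        qExpansion 1 x + qExpansion 1 y := (qCF K).map_add x y
    rw [h1, h2, hx', hy', map_add]
  · rintro a x _ ⟨x', hx'⟩
    refine ⟨σ a • x', ?_⟩
    have h1 : qExpansion 1 ((σ a • x' : CuspForm 𝒮ℒ K) : ℍ → ℂ) =
        σ a • qExpansion 1 x' := (qCF K).map_smul (σ a) x'
    have h2 : qExpansion 1 ((a • x : CuspForm 𝒮ℒ K) : ℍ → ℂ) =
        a • qExpansion 1 x := (qCF K).map_smul a x
    rw [h1, h2, hx', map_smul_ps]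

/-- The core: from a monic relation for `f` with level-one cusp-form coefficients. -/
theorem exists_conj_of_relation (Γ : Subgroup (GL (Fin 2) ℝ)) [Γ.IsArithmetic]
    (hΓ : (1 : ℝ) ∈ Γ.strictPeriods) (σ : ℂ →+* ℂ) {k w : ℤ} (f : CuspForm Γ k)
    (n : ℕ) (c : (s : Fin n) → CuspForm 𝒮ℒ (k * ((s : ℕ) + 1)))
    (hc : ∀ τ : ℍ, f τ ^ n + ∑ s : Fin n, c s τ * f τ ^ (n - 1 - (s : ℕ)) = 0)
    (Q Q' : ModularForm Γ w) (hQ' : Q' ≠ 0)
    (hQQ' : qExpansion 1 Q' = PowerSeries.map σ (qExpansion 1 Q))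
    (P' : ModularForm Γ (w + k))
    (hP' : qExpansion 1 P' = PowerSeries.map σ (qExpansion 1 f * qExpansion 1 Q)) :
    ∃ f' : CuspForm Γ k, qExpansion 1 f' = PowerSeries.map σ (qExpansion 1 f) := by
  classical
  choose c' hc' using fun s : Fin n => exists_levelOne_conj σ _ (c s)
  have hfn : IsNice (f : ℍ → ℂ) := isNice_of_modularFormClass hΓ f
  have hQ'n : IsNice (Q' : ℍ → ℂ) := isNice_of_modularFormClass hΓ Q'
  have hP'n : IsNice (P' : ℍ → ℂ) := isNice_of_modularFormClass hΓ P'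
  have hcn : ∀ s : Fin n, IsNice (c s : ℍ → ℂ) := fun s => isNice_of_modularFormClass hSL (c s)
  have hc'n : ∀ s : Fin n, IsNice (c' s : ℍ → ℂ) := fun s =>
    isNice_of_modularFormClass hSL (c' s)
  -- the relation for `f` on `q`-expansions
  have hrel : qExpansion 1 f ^ n +
      ∑ s : Fin n, qExpansion 1 (c s) * qExpansion 1 f ^ (n - 1 - (s : ℕ)) = 0 := by
    have hfun : (f : ℍ → ℂ) ^ n +
        ∑ s : Fin n, (c s : ℍ → ℂ) * (f : ℍ → ℂ) ^ (n - 1 - (s : ℕ)) = 0 := by
      funext τ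
      simpa using hc τ
    have hq := congrArg (qExpansion 1) hfun
    rw [(hfn.pow n).qExp_add (IsNice.sum fun s _ => (hcn s).mul (hfn.pow _)),
      hfn.qExp_pow, IsNice.qExp_sum (fun s _ => (hcn s).mul (hfn.pow _)), qExpansion_zero] at hq
    rw [← hq]
    congr 1
    refine Finset.sum_congr rfl fun s _ => ?_
    rw [(hcn s).qExp_mul (hfn.pow _), hfn.qExp_pow]
  -- the conjugate relation, as functions
  set R : ℍ → ℂ := (P' : ℍ → ℂ) ^ n + ∑ s : Fin n, (c' s : ℍ → ℂ) *
    (P' : ℍ → ℂ) ^ (n - 1 - (s : ℕ)) * (Q' : ℍ → ℂ) ^ ((s : ℕ) + 1) with hR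
  have hRn : IsNice R :=
    (hP'n.pow n).add (IsNice.sum fun s _ => ((hc'n s).mul (hP'n.pow _)).mul (hQ'n.pow _))
  have hRq : qExpansion 1 R = 0 := by
    rw [hR, (hP'n.pow n).qExp_add
        (IsNice.sum fun s _ => ((hc'n s).mul (hP'n.pow _)).mul (hQ'n.pow _)),
      hP'n.qExp_pow, IsNice.qExp_sum (fun s _ => ((hc'n s).mul (hP'n.pow _)).mul (hQ'n.pow _))]
    have hterm : ∀ s : Fin n, qExpansion 1 ((c' s : ℍ → ℂ) * (P' : ℍ → ℂ) ^ (n - 1 - (s : ℕ)) *
        (Q' : ℍ → ℂ) ^ ((s : ℕ) + 1)) =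
        PowerSeries.map σ (qExpansion 1 Q ^ n *
          (qExpansion 1 (c s) * qExpansion 1 f ^ (n - 1 - (s : ℕ)))) := by
      intro s
      rw [((hc'n s).mul (hP'n.pow _)).qExp_mul (hQ'n.pow _), (hc'n s).qExp_mul (hP'n.pow _),
        hP'n.qExp_pow, hQ'n.qExp_pow, hc' s, hP', hQQ']
      simp only [map_mul, map_pow]
      have h3 : PowerSeries.map σ (qExpansion 1 Q) ^ n =
          PowerSeries.map σ (qExpansion 1 Q) ^ (n - 1 - (s : ℕ)) *
            PowerSeries.map σ (qExpansion 1 Q) ^ ((s : ℕ) + 1) := by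
        rw [← pow_add]
        congr 1
        have := s.2
        omega
      rw [h3]
      ring
    rw [Finset.sum_congr rfl fun s _ => hterm s, hP', ← map_pow, ← map_sum, ← map_add, mul_pow,
      ← Finset.mul_sum, mul_comm (qExpansion 1 f ^ n), ← mul_add, hrel, mul_zero, map_zero]
  have hR0 := hRn.eq_zero hRq
  obtain ⟨F, hF⟩ := IntegralityGen.integrality_criterion_arithmetic Γ P' Q' hQ' n c' (fun τ => by
    have := congrFun hR0 τ
    simpa [hR] using this)
  refine ⟨F, ?_⟩
  have hFn : IsNice (F : ℍ → ℂ) := isNice_of_modularFormClass hΓ F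
  have hQ'0 : qExpansion 1 Q' ≠ 0 := fun h =>
    hQ' ((ModularForm.qExpansion_eq_zero_iff one_pos hΓ Q').mp h)
  have h4 : qExpansion 1 F * qExpansion 1 Q' =
      PowerSeries.map σ (qExpansion 1 f) * qExpansion 1 Q' := by
    rw [← hFn.qExp_mul hQ'n, hQQ', ← map_mul, ← hP']
    congr 1
    funext τ
    exact hF τ
  exact mul_right_cancel₀ hQ'0 h4

/-- **Conjugates of cusp forms through a monic equation.**  If the conjugates of the
`q`-expansions of `Q` and of `f * Q` are `q`-expansions of modular forms `Q' ≠ 0` and `P'`, then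
the conjugate of the `q`-expansion of the cusp form `f` is the `q`-expansion of a cusp form. -/
theorem exists_conj (Γ : Subgroup (GL (Fin 2) ℝ)) [Γ.IsArithmetic]
    (hΓ : (1 : ℝ) ∈ Γ.strictPeriods) (σ : ℂ →+* ℂ) {k w : ℤ} (f : CuspForm Γ k)
    (Q Q' : ModularForm Γ w) (hQ' : Q' ≠ 0)
    (hQQ' : qExpansion 1 Q' = PowerSeries.map σ (qExpansion 1 Q))
    (P' : ModularForm Γ (w + k))
    (hP' : qExpansion 1 P' = PowerSeries.map σ (qExpansion 1 f * qExpansion 1 Q)) :
    ∃ f' : CuspForm Γ k, qExpansion 1 f' = PowerSeries.map σ (qExpansion 1 f) := by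
  obtain ⟨c, hc⟩ := Interp.exists_charpoly (𝒢 := Γ) f
  exact exists_conj_of_relation Γ hΓ σ f _ c hc Q Q' hQ' hQQ' P' hP'

end

end Fermat.Agent.S48.MonicConj
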