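import Mathlib
import Fermat.Prelude.Def_FLTPrelim_Modularity
import Fermat.Agent.S48.MonicConj

/-!
# S48 (Deligne–Serre), brick C2: weight `k` from weight `k + w` through one multiplier

Consumer-facing corollaries of `MonicConj.exists_conj`:

* `exists_conj_of_span_int` : a space of cusp forms spanned by forms with integral `q`-expansion
  is stable under coefficientwise conjugation;
* `exists_conj_of_stable` : if weight `k + w` is conjugation-stable and `Q ≠ 0` of weight `w` has a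
  conjugate `Q'`, then weight `k` is conjugation-stable;
* `exists_fg_of_mul` : if weight `k + w` is spanned by integral forms and `Q` of weight `w` has an
  integral `q`-expansion with constant term `1`, then the `q`-coefficients of every cusp form of
  weight `k` lie in a finitely generated `ℤ`-submodule of `ℂ`;
* `gamma1_exists_conj`, `gamma1_exists_fg` : the same for `Γ₁(M)`, weights `1` and `2`, in the
  `ModularFormClass.qCoeff` vocabulary of the frozen statement S48.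
-/

set_option autoImplicit false

namespace Fermat.Agent.S48.MonicConj

open UpperHalfPlane ModularForm PowerSeries CongruenceSubgroup
open Fermat.Agent.S23 Fermat.Agent.S23.Wiring
open scoped MatrixGroups Manifold

noncomputable section

/-- `q`-expansion as a linear map on cusp forms of a group with strict period `1`. -/
def qCuspLin (Γ : Subgroup (GL (Fin 2) ℝ)) [Γ.IsArithmetic] [Γ.HasDetOne]
    (hΓ : (1 : ℝ) ∈ Γ.strictPeriods) (k : ℤ) : CuspForm Γ k →ₗ[ℂ] PowerSeries ℂ where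
  toFun h := qExpansion 1 h
  map_add' f g := by
    rw [FunLike.coe_add]
    exact ModularForm.qExpansion_add one_pos hΓ f g
  map_smul' c f := by
    rw [FunLike.coe_smul]
    exact ModularForm.qExpansion_smul one_pos hΓ c f

/-- A cusp form in the span of the forms with integral `q`-expansion has a conjugate. -/
theorem exists_conj_of_mem_span_int (Γ : Subgroup (GL (Fin 2) ℝ)) [Γ.IsArithmetic] [Γ.HasDetOne]
    (hΓ : (1 : ℝ) ∈ Γ.strictPeriods) (σ : ℂ →+* ℂ) {k : ℤ} (g : CuspForm Γ k)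
    (hg : g ∈ Submodule.span ℂ {h : CuspForm Γ k | Defs.IsIntPS (qExpansion 1 h)}) :
    ∃ g' : CuspForm Γ k, qExpansion 1 g' = PowerSeries.map σ (qExpansion 1 g) := by
  refine Submodule.span_induction (p := fun (x : CuspForm Γ k) _ => ∃ g' : CuspForm Γ k,
    qExpansion 1 g' = PowerSeries.map σ (qExpansion 1 x)) ?_ ?_ ?_ ?_ hg
  · intro h hh
    exact ⟨h, (map_eq_self_of_isIntPS σ hh).symm⟩
  · refine ⟨0, ?_⟩
    have h0 : qExpansion 1 ((0 : CuspForm Γ k) : ℍ → ℂ) = 0 := (qCuspLin Γ hΓ k).map_zero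
    rw [h0, map_zero]
  · rintro x y _ _ ⟨x', hx'⟩ ⟨y', hy'⟩
    refine ⟨x' + y', ?_⟩
    have h1 : qExpansion 1 ((x' + y' : CuspForm Γ k) : ℍ → ℂ) =
        qExpansion 1 x' + qExpansion 1 y' := (qCuspLin Γ hΓ k).map_add x' y'
    have h2 : qExpansion 1 ((x + y : CuspForm Γ k) : ℍ → ℂ) =
        qExpansion 1 x + qExpansion 1 y := (qCuspLin Γ hΓ k).map_add x y
    rw [h1, h2, hx', hy', map_add]
  · rintro a x _ ⟨x', hx'⟩
    refine ⟨σ a • x', ?_⟩
    have h1 : qExpansion 1 ((σ a • x' : CuspForm Γ k) : ℍ → ℂ) =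
        σ a • qExpansion 1 x' := (qCuspLin Γ hΓ k).map_smul (σ a) x'
    have h2 : qExpansion 1 ((a • x : CuspForm Γ k) : ℍ → ℂ) =
        a • qExpansion 1 x := (qCuspLin Γ hΓ k).map_smul a x
    rw [h1, h2, hx', map_smul_ps]

/-- A space of cusp forms spanned by forms with integral `q`-expansion is stable under
coefficientwise conjugation. -/
theorem exists_conj_of_span_int (Γ : Subgroup (GL (Fin 2) ℝ)) [Γ.IsArithmetic] [Γ.HasDetOne]
    (hΓ : (1 : ℝ) ∈ Γ.strictPeriods) (σ : ℂ →+* ℂ) {k : ℤ}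
    (hspan : Submodule.span ℂ {h : CuspForm Γ k | Defs.IsIntPS (qExpansion 1 h)} = ⊤)
    (g : CuspForm Γ k) :
    ∃ g' : CuspForm Γ k, qExpansion 1 g' = PowerSeries.map σ (qExpansion 1 g) :=
  exists_conj_of_mem_span_int Γ hΓ σ g (hspan ▸ Submodule.mem_top)

/-- **Weight `k` from weight `k + w`.** If the cusp forms of weight `kw = k + w` are stable under
conjugation and the weight-`w` form `Q` has a nonzero conjugate `Q'`, then the cusp forms of
weight `k` are stable under conjugation. -/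
theorem exists_conj_of_stable (Γ : Subgroup (GL (Fin 2) ℝ)) [Γ.IsArithmetic]
    (hΓ : (1 : ℝ) ∈ Γ.strictPeriods) (σ : ℂ →+* ℂ) {k w kw : ℤ} (hkw : k + w = kw)
    (Q Q' : ModularForm Γ w) (hQ' : Q' ≠ 0)
    (hQQ' : qExpansion 1 Q' = PowerSeries.map σ (qExpansion 1 Q))
    (H : ∀ g : CuspForm Γ kw, ∃ g' : CuspForm Γ kw,
      qExpansion 1 g' = PowerSeries.map σ (qExpansion 1 g))
    (f : CuspForm Γ k) :
    ∃ f' : CuspForm Γ k, qExpansion 1 f' = PowerSeries.map σ (qExpansion 1 f) := by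
  subst hkw
  obtain ⟨g', hg'⟩ := H (f.mulModularForm Q)
  have hfn : IsNice (f : ℍ → ℂ) := isNice_of_modularFormClass hΓ f
  have hQn : IsNice (Q : ℍ → ℂ) := isNice_of_modularFormClass hΓ Q
  refine exists_conj Γ hΓ σ f Q Q' hQ' hQQ'
    (ModularForm.mcast (add_comm k w) (ModularFormClass.modularForm g')) ?_
  rw [← hfn.qExp_mul hQn, ← CuspForm.coe_mulModularForm]
  exact hg'

/-- The `q`-coefficients of a cusp form in the span of the forms with integral `q`-expansion lie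
in a finitely generated `ℤ`-submodule of `ℂ`. -/
theorem exists_fg_of_mem_span_int (Γ : Subgroup (GL (Fin 2) ℝ)) [Γ.IsArithmetic] [Γ.HasDetOne]
    (hΓ : (1 : ℝ) ∈ Γ.strictPeriods) {k : ℤ} (g : CuspForm Γ k)
    (hg : g ∈ Submodule.span ℂ {h : CuspForm Γ k | Defs.IsIntPS (qExpansion 1 h)}) :
    ∃ Λ : Submodule ℤ ℂ, Λ.FG ∧ ∀ n : ℕ, PowerSeries.coeff n (qExpansion 1 g) ∈ Λ := by
  refine Submodule.span_induction (p := fun (x : CuspForm Γ k) _ => ∃ Λ : Submodule ℤ ℂ,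
    Λ.FG ∧ ∀ n : ℕ, PowerSeries.coeff n (qExpansion 1 x) ∈ Λ) ?_ ?_ ?_ ?_ hg
  · intro h hh
    refine ⟨Submodule.span ℤ {1}, Submodule.fg_span_singleton 1, fun n => ?_⟩
    obtain ⟨m, hm⟩ := hh n
    rw [hm, Submodule.mem_span_singleton]
    exact ⟨m, by simp⟩
  · refine ⟨⊥, Submodule.fg_bot, fun n => ?_⟩
    have h0 : qExpansion 1 ((0 : CuspForm Γ k) : ℍ → ℂ) = 0 := (qCuspLin Γ hΓ k).map_zero
    rw [h0, map_zero]
    exact Submodule.zero_mem _
  · rintro x y _ _ ⟨Λ₁, h₁, hx⟩ ⟨Λ₂, h₂, hy⟩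
    refine ⟨Λ₁ ⊔ Λ₂, h₁.sup h₂, fun n => ?_⟩
    have h2 : qExpansion 1 ((x + y : CuspForm Γ k) : ℍ → ℂ) =
        qExpansion 1 x + qExpansion 1 y := (qCuspLin Γ hΓ k).map_add x y
    rw [h2, map_add]
    exact Submodule.add_mem_sup (hx n) (hy n)
  · rintro a x _ ⟨Λ, h, hx⟩
    refine ⟨Λ.map ((LinearMap.mulLeft ℂ a).restrictScalars ℤ), h.map _, fun n => ?_⟩
    have h2 : qExpansion 1 ((a • x : CuspForm Γ k) : ℍ → ℂ) =
        a • qExpansion 1 x := (qCuspLin Γ hΓ k).map_smul a x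
    rw [h2, PowerSeries.coeff_smul]
    exact ⟨_, hx n, rfl⟩

/-- **Finitely generated coefficient module in weight `k` from an integral basis in weight
`k + w`.** -/
theorem exists_fg_of_mul (Γ : Subgroup (GL (Fin 2) ℝ)) [Γ.IsArithmetic] [Γ.HasDetOne]
    (hΓ : (1 : ℝ) ∈ Γ.strictPeriods) {k w kw : ℤ} (hkw : k + w = kw)
    (Q : ModularForm Γ w) (hQint : Defs.IsIntPS (qExpansion 1 Q))
    (hQ0 : PowerSeries.coeff 0 (qExpansion 1 Q) = 1)
    (hspan : Submodule.span ℂ {h : CuspForm Γ kw | Defs.IsIntPS (qExpansion 1 h)} = ⊤)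
    (f : CuspForm Γ k) :
    ∃ Λ : Submodule ℤ ℂ, Λ.FG ∧ ∀ n : ℕ, PowerSeries.coeff n (qExpansion 1 f) ∈ Λ := by
  subst hkw
  obtain ⟨Λ, hΛ, hg⟩ := exists_fg_of_mem_span_int Γ hΓ (f.mulModularForm Q)
    (hspan ▸ Submodule.mem_top)
  have hfn : IsNice (f : ℍ → ℂ) := isNice_of_modularFormClass hΓ f
  have hQn : IsNice (Q : ℍ → ℂ) := isNice_of_modularFormClass hΓ Q
  obtain ⟨P, hP⟩ := (LevelOneSpan.isIntPS_iff _).mp hQint
  have hP0 : PowerSeries.constantCoeff P = 1 := by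
    have h1 := congrArg (PowerSeries.coeff 0) hP
    rw [hQ0, PowerSeries.coeff_map, PowerSeries.coeff_zero_eq_constantCoeff_apply] at h1
    have h2 : ((PowerSeries.constantCoeff P : ℤ) : ℂ) = ((1 : ℤ) : ℂ) := by
      rw [Int.cast_one]
      exact h1
    exact Int.cast_injective h2
  have hPu : IsUnit P := PowerSeries.isUnit_iff_constantCoeff.mpr (by rw [hP0]; exact isUnit_one)
  obtain ⟨u, hu⟩ := hPu
  have hQU : qExpansion 1 Q *
      PowerSeries.map (Int.castRingHom ℂ) ((u⁻¹ : (PowerSeries ℤ)ˣ) : PowerSeries ℤ) = 1 := by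
    rw [← hP, ← hu, ← map_mul, Units.mul_inv, map_one]
  have hf : qExpansion 1 f = qExpansion 1 (f.mulModularForm Q) *
      PowerSeries.map (Int.castRingHom ℂ) ((u⁻¹ : (PowerSeries ℤ)ˣ) : PowerSeries ℤ) := by
    rw [CuspForm.coe_mulModularForm, hfn.qExp_mul hQn, mul_assoc, hQU, mul_one]
  refine ⟨Λ, hΛ, fun n => ?_⟩
  rw [hf, PowerSeries.coeff_mul]
  refine Submodule.sum_mem _ fun p _ => ?_
  rw [PowerSeries.coeff_map, mul_comm]
  have h3 : ((Int.castRingHom ℂ) (PowerSeries.coeff p.2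
      ((u⁻¹ : (PowerSeries ℤ)ˣ) : PowerSeries ℤ))) *
      PowerSeries.coeff p.1 (qExpansion 1 (f.mulModularForm Q)) =
      (PowerSeries.coeff p.2 ((u⁻¹ : (PowerSeries ℤ)ˣ) : PowerSeries ℤ)) •
        PowerSeries.coeff p.1 (qExpansion 1 (f.mulModularForm Q)) := by
    rw [zsmul_eq_mul]
    rfl
  rw [h3]
  exact Λ.smul_mem _ (hg p.1)

/-! ### The group `Γ₁(M)`, weights `1` and `2` -/

theorem one_mem_strictPeriods_Gamma1 (M : ℕ) :
    (1 : ℝ) ∈ (Subgroup.map (Matrix.SpecialLinearGroup.mapGL ℝ) (Gamma1 M)).strictPeriods := by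
  have hT : ModularGroup.T ∈ Gamma1 M := by
    rw [Gamma1_mem]
    simp [ModularGroup.T]
  rw [Subgroup.strictPeriods_eq_zmultiples_one_of_T_mem hT]
  exact AddSubgroup.mem_zmultiples (1 : ℝ)

/-- **Conjugates of weight-one cusp forms on `Γ₁(M)`.**  Inputs: the integral basis of
`S₂(Γ₁(M))` (brick C1) and one weight-one modular form `Θ` on `Γ₁(M)` together with a nonzero
conjugate `Θ'` (take `Θ' = Θ` when the `q`-expansion of `Θ` is rational). -/
theorem gamma1_exists_conj (M : ℕ) [NeZero M] (σ : ℂ →+* ℂ)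
    (hC1 : Submodule.span ℂ {g : CuspForm (Gamma1 M) 2 |
      ∀ n : ℕ, ∃ m : ℤ, ModularFormClass.qCoeff g n = (m : ℂ)} = ⊤)
    (Θ Θ' : ModularForm (Gamma1 M) 1) (hΘ' : Θ' ≠ 0)
    (hΘΘ' : ∀ n : ℕ, ModularFormClass.qCoeff Θ' n = σ (ModularFormClass.qCoeff Θ n))
    (f : CuspForm (Gamma1 M) 1) :
    ∃ f' : CuspForm (Gamma1 M) 1,
      ∀ n : ℕ, ModularFormClass.qCoeff f' n = σ (ModularFormClass.qCoeff f n) := by
  have hΓ := one_mem_strictPeriods_Gamma1 M
  have hQQ' : qExpansion 1 Θ' = PowerSeries.map σ (qExpansion 1 Θ) := by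
    ext n
    rw [PowerSeries.coeff_map]
    exact hΘΘ' n
  obtain ⟨f', hf'⟩ := exists_conj_of_stable _ hΓ σ (k := 1) (w := 1) (kw := 2) (by norm_num)
    Θ Θ' hΘ' hQQ' (fun g => exists_conj_of_span_int _ hΓ σ hC1 g) f
  refine ⟨f', fun n => ?_⟩
  have h := congrArg (PowerSeries.coeff n) hf'
  rw [PowerSeries.coeff_map] at h
  exact h

/-- **The `q`-coefficients of a weight-one cusp form on `Γ₁(M)` lie in a finitely generated
`ℤ`-module.**  Inputs: the integral basis of `S₂(Γ₁(M))` (brick C1) and one weight-one modular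
form `Θ` on `Γ₁(M)` with integral `q`-expansion and constant term `1`. -/
theorem gamma1_exists_fg (M : ℕ) [NeZero M]
    (hC1 : Submodule.span ℂ {g : CuspForm (Gamma1 M) 2 |
      ∀ n : ℕ, ∃ m : ℤ, ModularFormClass.qCoeff g n = (m : ℂ)} = ⊤)
    (Θ : ModularForm (Gamma1 M) 1)
    (hΘ : ∀ n : ℕ, ∃ m : ℤ, ModularFormClass.qCoeff Θ n = (m : ℂ))
    (hΘ0 : ModularFormClass.qCoeff Θ 0 = 1)
    (f : CuspForm (Gamma1 M) 1) :
    ∃ Λ : Submodule ℤ ℂ, Λ.FG ∧ ∀ n : ℕ, ModularFormClass.qCoeff f n ∈ Λ :=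
  exists_fg_of_mul _ (one_mem_strictPeriods_Gamma1 M) (k := 1) (w := 1) (kw := 2) (by norm_num)
    Θ hΘ hΘ0 hC1 f

end

end Fermat.Agent.S48.MonicConj
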