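/-
S48 (Deligne–Serre), glue between brick A (`S48/Neben.lean`, helper248) and brick B
(`S48/Hecke1/*`, helper170): a weight one cusp form on `Γ₁(N)` satisfying the formal Hecke
relations of the frozen statement is an eigenvector of the diamond operators `⟨d⟩` (eigenvalue
`ε(d)`) and of the Hecke operators `T_p`, `p ∤ N` (eigenvalue `a_p`), in the vocabulary of brick B.
Moreover, if `a_1 = 1` then `ε` is odd.  (helper248)
-/
import Mathlib
import Fermat.Agent.S48.Neben
import Fermat.Agent.S48.Hecke1.QExp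

set_option autoImplicit false

namespace Fermat.Agent.S48.NebenEigen

open CongruenceSubgroup Matrix.SpecialLinearGroup UpperHalfPlane ModularForm
open scoped MatrixGroups ModularForm

variable (N : ℕ) [NeZero N] (ε : DirichletCharacter ℂ N) (f : CuspForm (Gamma1 N) 1)
  (hT : ∀ p : ℕ, p.Prime → ¬ p ∣ N → ∀ n : ℕ,
    ModularFormClass.qCoeff f (p * n) +
        ε (p : ZMod N) * (if p ∣ n then ModularFormClass.qCoeff f (n / p) else 0)
      = ModularFormClass.qCoeff f p * ModularFormClass.qCoeff f n)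
include hT

/-- `⟨d⟩ f = ε(d) f`, as functions. -/
theorem diamondFun_eq (d : (ZMod N)ˣ) :
    Hecke1.diamondFun N 1 d ⇑f = ε (d : ZMod N) • ⇑f := by
  have h := Neben.slash_eq_smul N ε f hT (Hecke1.diamondRep N d) (Hecke1.diamondRep_mem N d)
  rw [Hecke1.diamondRep_entry] at h
  exact h

/-- `⟨d⟩ f = ε(d) f`. -/
theorem diamond_eq (d : (ZMod N)ˣ) : Hecke1.diamond N 1 d f = ε (d : ZMod N) • f := by
  apply DFunLike.coe_injective
  rw [Hecke1.coe_diamond, diamondFun_eq N ε f hT d]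
  rfl

/-- `T_p f = a_p f` for primes `p ∤ N`. -/
theorem heckeT1_eq {p : ℕ} (hp : p.Prime) (hpN : ¬ p ∣ N) :
    Hecke1.heckeT1 N 1 hp hpN f = ModularFormClass.qCoeff f p • f := by
  apply DFunLike.coe_injective
  rw [Hecke1.coe_heckeT1_eq, Hecke1.coe_diamond, diamondFun_eq N ε f hT, Hecke1.coe_primeUnit,
    ModularForm.smul_slash, σ_heckeDiagMatrix]
  exact Neben.hecke_eq N ε f hT hp hpN

/-- The character of a normalised form satisfying the formal Hecke relations is odd. -/
theorem eps_neg_one (hf₁ : ModularFormClass.qCoeff f 1 = 1) : ε (-1) = -1 := by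
  have hmem : (-1 : SL(2, ℤ)) ∈ Gamma0 N := by
    rw [Gamma0_mem]
    simp
  have h := Neben.slash_eq_smul N ε f hT (-1) hmem
  have h11 : ((((-1 : SL(2, ℤ)) 1 1 : ℤ)) : ZMod N) = -1 := by simp
  rw [h11] at h
  have hneg : (⇑f) ∣[(1 : ℤ)] (mapGL ℝ (-1 : SL(2, ℤ))) = -⇑f := by
    funext τ
    have e : (⇑f) ∣[(1 : ℤ)] (mapGL ℝ (-1 : SL(2, ℤ))) = (⇑f) ∣[(1 : ℤ)] (-1 : SL(2, ℤ)) := rfl
    rw [e, ModularForm.SL_slash_apply]
    simp [denom]
  have hne : ∃ τ, f τ ≠ 0 := by
    by_contra hall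
    push Not at hall
    have h0 : (⇑f : ℍ → ℂ) = 0 := funext hall
    rw [h0] at hf₁
    simp [ModularFormClass.qCoeff, qExpansion_zero] at hf₁
  obtain ⟨τ, hτ⟩ := hne
  have h2 := congrFun (hneg.symm.trans h) τ
  simp only [Pi.neg_apply, Pi.smul_apply, smul_eq_mul] at h2
  have h3 : (ε (-1) + 1) * f τ = 0 := by linear_combination -h2
  rcases mul_eq_zero.mp h3 with h4 | h4
  · linear_combination h4
  · exact absurd h4 hτ

end Fermat.Agent.S48.NebenEigen
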