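import Mathlib
import Fermat.Agent.S23.AutC
import Fermat.Agent.S48.J1

/-!
# S48 (Deligne–Serre), brick C, exit (C3) in the literal shape of `J1.ConjBound`

Let `f` be a normalised weight-one cusp form on `Γ₁(N)` satisfying the formal Hecke relations,
whose eigenvalues `a_p` (`p ∤ N`) are algebraic integers lying in a number field `K ⊆ ℂ`, and
all of whose coefficientwise conjugates under automorphisms of `ℂ` are again weight-one cusp
forms on `Γ₁(N)`.  Then `J1.ConjBound N f` holds: take one conjugate form for each of the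
finitely many embeddings `K → ℂ`; an algebraic integer of `K` all of whose conjugates are
bounded lies in a finite set (Northcott, `NumberField.Embeddings.finite_of_norm_le`).

No linear independence of eigensystems and no finite-dimensionality of `S₁(Γ₁(N))` is used.
-/

set_option autoImplicit false

namespace Fermat.Agent.S48.Northcott

open CongruenceSubgroup ModularForm
open Fermat.Agent.S48 Fermat.Agent.S48.Contract

noncomputable section

/-- Two elements of `algebraicClosure ℚ ℂ` with the same minimal polynomial are conjugate under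
an automorphism of `ℂ`. -/
theorem exists_ringAut_of_minpoly_eq {x y : ℂ} (hx : IsAlgebraic ℚ x)
    (hxy : minpoly ℚ x = minpoly ℚ y) : ∃ σ : ℂ ≃+* ℂ, σ x = y := by
  have hxi : IsIntegral ℚ x := hx.isIntegral
  have hyi : IsIntegral ℚ y := by
    by_contra hy
    have h0 : minpoly ℚ y = 0 := minpoly.eq_zero hy
    rw [h0] at hxy
    exact minpoly.ne_zero hxi hxy
  let a : algebraicClosure ℚ ℂ := ⟨x, mem_algebraicClosure_iff.mpr hx⟩
  let b : algebraicClosure ℚ ℂ := ⟨y, mem_algebraicClosure_iff.mpr hyi.isAlgebraic⟩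
  have : IsAlgClosure ℚ (algebraicClosure ℚ ℂ) := algebraicClosure.isAlgClosure ℚ ℂ
  have : Normal ℚ (algebraicClosure ℚ ℂ) := IsAlgClosure.normal ℚ (algebraicClosure ℚ ℂ)
  have hb : IsAlgebraic ℚ b := Algebra.IsAlgebraic.isAlgebraic b
  have hmb : minpoly ℚ b = minpoly ℚ y := IntermediateField.minpoly_eq b
  have hev : Polynomial.aeval a (minpoly ℚ b) = 0 := by
    apply Subtype.ext
    have h1 : ((Polynomial.aeval a (minpoly ℚ b) : algebraicClosure ℚ ℂ) : ℂ)
        = Polynomial.aeval x (minpoly ℚ b) :=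
      (Polynomial.aeval_algHom_apply (algebraicClosure ℚ ℂ).val a (minpoly ℚ b)).symm
    rw [h1, hmb, ← hxy]
    exact minpoly.aeval ℚ x
  obtain ⟨τ, hτ⟩ := minpoly.exists_algEquiv_of_root hb hev
  obtain ⟨σ, hσ⟩ := Fermat.Agent.S23.AutC.exists_ringAut_extending_algEquiv τ
  refine ⟨σ, ?_⟩
  have h2 := hσ a
  rw [hτ] at h2
  exact h2

/-- Every embedding of a number field `K ⊆ ℂ` into `ℂ` is the restriction of an automorphism
of `ℂ`. -/
theorem exists_ringAut_extending (K : IntermediateField ℚ ℂ) [FiniteDimensional ℚ K]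
    (φ : K →+* ℂ) : ∃ σ : ℂ ≃+* ℂ, ∀ x : K, σ (x : ℂ) = φ x := by
  obtain ⟨α, hα⟩ := Field.exists_primitive_element ℚ K
  have hαint : IsIntegral ℚ α := Algebra.IsIntegral.isIntegral α
  have hadj : Algebra.adjoin ℚ {α} = ⊤ := by
    rw [← IntermediateField.adjoin_simple_toSubalgebra_of_isAlgebraic hαint.isAlgebraic, hα]
    rfl
  let φa : K →ₐ[ℚ] ℂ := φ.toRatAlgHom
  have hx : IsAlgebraic ℚ ((α : K) : ℂ) := (hαint.map K.val).isAlgebraic
  have hm1 : minpoly ℚ ((α : K) : ℂ) = minpoly ℚ α :=
    minpoly.algHom_eq K.val K.val.injective α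
  have hm2 : minpoly ℚ (φ α) = minpoly ℚ α :=
    minpoly.algHom_eq φa φa.injective α
  obtain ⟨σ, hσ⟩ := exists_ringAut_of_minpoly_eq hx (hm1.trans hm2.symm)
  refine ⟨σ, fun x => ?_⟩
  let σa : ℂ →ₐ[ℚ] ℂ := (σ : ℂ →+* ℂ).toRatAlgHom
  have key : σa.comp K.val = φa :=
    AlgHom.ext_of_adjoin_eq_top hadj (fun z hz => by
      rw [Set.mem_singleton_iff] at hz
      subst hz
      exact hσ)
  exact DFunLike.congr_fun key x

/-- A subring of `ℂ` that is a finitely generated `ℤ`-module lies in a number field. -/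
theorem exists_numberField_of_fg (S : Set ℂ)
    (hfg : (Subalgebra.toSubmodule (Algebra.adjoin ℤ S)).FG) :
    ∃ K : IntermediateField ℚ ℂ, FiniteDimensional ℚ K ∧ ∀ x ∈ S, x ∈ K := by
  obtain ⟨t, ht⟩ := Subalgebra.fg_of_fg_toSubmodule hfg
  have hint : ∀ x ∈ (t : Set ℂ), IsIntegral ℚ x := by
    intro x hx
    have hxA : x ∈ Algebra.adjoin ℤ S := by
      rw [← ht]
      exact Algebra.subset_adjoin hx
    exact (IsIntegral.of_mem_of_fg (Algebra.adjoin ℤ S) hfg x hxA).tower_top
  have key : ∀ y ∈ Algebra.adjoin ℤ (t : Set ℂ), y ∈ IntermediateField.adjoin ℚ (t : Set ℂ) := by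
    intro y hy
    induction hy using Algebra.adjoin_induction with
    | mem y hy => exact IntermediateField.subset_adjoin ℚ _ hy
    | algebraMap r =>
      have : (algebraMap ℤ ℂ r) = ((r : ℚ) : ℂ) := by simp
      rw [this]
      exact IntermediateField.algebraMap_mem _ (r : ℚ)
    | add a b _ _ ha hb => exact add_mem ha hb
    | mul a b _ _ ha hb => exact mul_mem ha hb
  refine ⟨IntermediateField.adjoin ℚ (t : Set ℂ),
    IntermediateField.finiteDimensional_adjoin hint, fun x hx => key x ?_⟩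
  rw [ht]
  exact Algebra.subset_adjoin hx

/-- **(C3) in the shape of `J1.ConjBound`.** -/
theorem conjBound_of_conj (N : ℕ) [NeZero N] (ε : DirichletCharacter ℂ N)
    (f : CuspForm (Gamma1 N) 1)
    (hf₁ : ModularFormClass.qCoeff f 1 = 1)
    (hrel : Rel N (ModularFormClass.qCoeff f) (ModularFormClass.qCoeff f)
      (fun p => ε (p : ZMod N)))
    (hint : J1.IntEig N f)
    (K : IntermediateField ℚ ℂ) [FiniteDimensional ℚ K]
    (hK : ∀ p : ℕ, p.Prime → ¬ p ∣ N → ModularFormClass.qCoeff f p ∈ K)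
    (hconj : ∀ σ : ℂ ≃+* ℂ, ∃ h : CuspForm (Gamma1 N) 1,
      ∀ n : ℕ, ModularFormClass.qCoeff h n = σ (ModularFormClass.qCoeff f n)) :
    J1.ConjBound N f := by
  classical
  have : NumberField K := { to_charZero := inferInstance, to_finiteDimensional := inferInstance }
  choose σ hσ using fun φ : K →+* ℂ => exists_ringAut_extending K φ
  choose h hh using fun φ : K →+* ℂ => hconj (σ φ)
  let e := Fintype.equivFin (K →+* ℂ)
  refine ⟨Fintype.card (K →+* ℂ), fun i => h (e.symm i),
    fun i p => σ (e.symm i) (ModularFormClass.qCoeff f p),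
    fun i p => σ (e.symm i) (ε (p : ZMod N)), ?_, ?_, ?_⟩
  · intro i
    rw [hh, hf₁, map_one]
  · intro i p hp hpN n
    have h1 := congrArg (σ (e.symm i)) (hrel p hp hpN n)
    rw [map_add, map_mul, map_mul] at h1
    simp only [hh]
    rw [← h1]
    congr 2
    split_ifs
    · rfl
    · rw [map_zero]
  · intro c
    have hfin := NumberField.Embeddings.finite_of_norm_le K ℂ (Real.sqrt c)
    refine (hfin.image (fun x : K => (x : ℂ))).subset ?_
    rintro z ⟨p, hp, hpN, rfl, hb⟩
    refine ⟨⟨ModularFormClass.qCoeff f p, hK p hp hpN⟩, ⟨?_, fun φ => ?_⟩, rfl⟩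
    · exact (isIntegral_algebraMap_iff (algebraMap K ℂ).injective).mp (hint p hp hpN)
    · have h2 := hb (e φ)
      simp only [Equiv.symm_apply_apply] at h2
      rw [← hσ φ ⟨_, hK p hp hpN⟩]
      have h3 := Real.abs_le_sqrt h2
      rwa [abs_of_nonneg (norm_nonneg _)] at h3

end

end Fermat.Agent.S48.Northcott
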