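import Fermat.Agent.S48.Northcott
import Fermat.Agent.S48.Eis3.HAux

/-!
# S48 (Deligne–Serre): the brick-C half of `J1.Inputs`, unconditionally

For every normalised weight-one cusp form `f` on `Γ₁(N)` satisfying the formal Hecke relations
of the frozen statement: `J1.IntEig N f` (the eigenvalues `a_p`, `p ∤ N`, are algebraic
integers) and `J1.ConjBound N f` (finitely many conjugate forms at level `N` controlling the
values of `a_p`).  Inputs: the twist-route exits of `S48/Eis3/HAux.lean` (integrality lattice,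
conjugates at the same level) and the Northcott step of `S48/Northcott.lean`.
-/

set_option autoImplicit false

namespace Fermat.Agent.S48.Northcott

open CongruenceSubgroup ModularForm
open Fermat.Agent.S48 Fermat.Agent.S48.Contract

/-- **(C2)** in the shape of `J1.IntEig`, under the frozen hypotheses only. -/
theorem intEig_frozen (N : ℕ) [NeZero N] (ε : DirichletCharacter ℂ N)
    (f : CuspForm (Gamma1 N) 1)
    (hf₁ : ModularFormClass.qCoeff f 1 = 1)
    (hrel : Rel N (ModularFormClass.qCoeff f) (ModularFormClass.qCoeff f)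
      (fun p => ε (p : ZMod N))) :
    J1.IntEig N f :=
  fun p hp hpN => Eis3.isIntegral_qCoeff_frozen N ε f hf₁ hrel p hp hpN

/-- **(C3)** in the shape of `J1.ConjBound`, under the frozen hypotheses only. -/
theorem conjBound_frozen (N : ℕ) [NeZero N] (ε : DirichletCharacter ℂ N)
    (f : CuspForm (Gamma1 N) 1)
    (hf₁ : ModularFormClass.qCoeff f 1 = 1)
    (hrel : Rel N (ModularFormClass.qCoeff f) (ModularFormClass.qCoeff f)
      (fun p => ε (p : ZMod N))) :
    J1.ConjBound N f := by
  obtain ⟨K, hKfd, hK⟩ := exists_numberField_of_fg _ (Eis3.adjoin_fg_frozen N ε f hf₁ hrel)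
  have := hKfd
  refine conjBound_of_conj N ε f hf₁ hrel (intEig_frozen N ε f hf₁ hrel) K
    (fun p hp hpN => hK _ (Or.inl ⟨p, hp, hpN, rfl⟩)) (fun σ => ?_)
  obtain ⟨h, hh, -, -⟩ := Eis3.exists_conj_rel_frozen N ε f hf₁ hrel (σ : ℂ →+* ℂ)
  exact ⟨h, hh⟩

/-- **The brick-C half of `J1.Inputs`.** -/
theorem intEig_conjBound (N : ℕ) [NeZero N] (ε : DirichletCharacter ℂ N)
    (f : CuspForm (Gamma1 N) 1)
    (hf₁ : ModularFormClass.qCoeff f 1 = 1)
    (hrel : Rel N (ModularFormClass.qCoeff f) (ModularFormClass.qCoeff f)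
      (fun p => ε (p : ZMod N))) :
    J1.IntEig N f ∧ J1.ConjBound N f :=
  ⟨intEig_frozen N ε f hf₁ hrel, conjBound_frozen N ε f hf₁ hrel⟩

/-- `J1.Inputs` from the Step-2 exit `J1.ResRep` alone. -/
theorem inputs_of_resRep
    (hres : ∀ (N : ℕ) [NeZero N] (ε : DirichletCharacter ℂ N) (f : CuspForm (Gamma1 N) 1),
      ModularFormClass.qCoeff f 1 = 1 →
      Rel N (ModularFormClass.qCoeff f) (ModularFormClass.qCoeff f) (fun p => ε (p : ZMod N)) →
      J1.ResRep N ε f) :
    J1.Inputs :=
  fun N _ ε f hf₁ hrel =>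
    ⟨intEig_frozen N ε f hf₁ hrel, conjBound_frozen N ε f hf₁ hrel, hres N ε f hf₁ hrel⟩

end Fermat.Agent.S48.Northcott
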