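import Mathlib
import Fermat.Agent.S48.G1.Contract

/-!
# S48 (Deligne–Serre): the Hecke ring is finitely generated over `ℤ` (from `occ`)

If a family of endomorphisms `T i` of a complex vector space `V` is intertwined, through an
injective linear map `Φ : V → ℂ^r`, with integer matrices `t i`, then the `ℤ`-algebra generated by
the `T i` is a finitely generated `ℤ`-module.  Applied to `ES1Data.occ` this gives the hypotheses
`hfg` and `FiniteDimensional ℂ V` of `ModEigen.exists_lift` / `ModEigen.exists_eigen_lift`.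

Proof: the `ℤ`-subalgebra of `M_r(ℤ) × End(V)` generated by the pairs `(t i, T i)` consists of
intertwined pairs, so its first projection is injective, into the noetherian `ℤ`-module `M_r(ℤ)`;
its second projection is the algebra generated by the `T i`.
-/

set_option autoImplicit false

namespace Fermat.Agent.S48.OccFG

open Fermat.Agent.S48.G1

section general

variable {V : Type*} [AddCommGroup V] [Module ℂ V] {r : ℕ}

/-- The pair `(A, B)` is intertwined by `Φ`. -/
def Intertwined (Φ : V →ₗ[ℂ] (Fin r → ℂ))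
    (x : Matrix (Fin r) (Fin r) ℤ × Module.End ℂ V) : Prop :=
  ∀ f : V, Φ (x.2 f) = (x.1.map (Int.castRingHom ℂ)).mulVec (Φ f)

/-- The subalgebra of intertwined pairs. -/
def intertwinedSubalgebra (Φ : V →ₗ[ℂ] (Fin r → ℂ)) :
    Subalgebra ℤ (Matrix (Fin r) (Fin r) ℤ × Module.End ℂ V) where
  carrier := {x | Intertwined Φ x}
  mul_mem' := by
    intro x y hx hy f
    have h1 : (x * y).2 f = x.2 (y.2 f) := rfl
    have h2 : (x * y).1 = x.1 * y.1 := rfl
    rw [h1, h2, hx, hy, Matrix.map_mul, Matrix.mulVec_mulVec]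
  add_mem' := by
    intro x y hx hy f
    have h1 : (x + y).2 f = x.2 f + y.2 f := rfl
    have h2 : (x + y).1 = x.1 + y.1 := rfl
    have h3 : (x.1 + y.1).map (Int.castRingHom ℂ) =
        x.1.map (Int.castRingHom ℂ) + y.1.map (Int.castRingHom ℂ) := by
      ext i j
      simp
    rw [h1, h2, map_add, hx f, hy f, h3, Matrix.add_mulVec]
  algebraMap_mem' := by
    intro z f
    have h1 : (algebraMap ℤ (Matrix (Fin r) (Fin r) ℤ × Module.End ℂ V) z).2 f = z • f := by
      simp
    have h2 : (algebraMap ℤ (Matrix (Fin r) (Fin r) ℤ × Module.End ℂ V) z).1 =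
        z • (1 : Matrix (Fin r) (Fin r) ℤ) := by
      simp
    rw [h1, h2, map_zsmul]
    have h3 : ((z • (1 : Matrix (Fin r) (Fin r) ℤ)).map (Int.castRingHom ℂ)) =
        (z : ℂ) • (1 : Matrix (Fin r) (Fin r) ℂ) := by
      ext i j
      rw [Matrix.map_apply, Matrix.smul_apply, Matrix.smul_apply, Matrix.one_apply,
        Matrix.one_apply]
      by_cases hij : i = j
      · simp [hij]
      · simp [hij]
    rw [h3, Matrix.smul_mulVec, Matrix.one_mulVec]
    exact (Int.cast_smul_eq_zsmul ℂ z (Φ f)).symm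

theorem mem_intertwinedSubalgebra (Φ : V →ₗ[ℂ] (Fin r → ℂ))
    (x : Matrix (Fin r) (Fin r) ℤ × Module.End ℂ V) :
    x ∈ intertwinedSubalgebra Φ ↔ Intertwined Φ x := Iff.rfl

/-- **The Hecke ring is finitely generated over `ℤ`.** -/
theorem adjoin_fg_of_intertwine {ι : Type*} (T : ι → Module.End ℂ V)
    (t : ι → Matrix (Fin r) (Fin r) ℤ) (Φ : V →ₗ[ℂ] (Fin r → ℂ)) (hΦ : Function.Injective Φ)
    (h : ∀ i f, Φ (T i f) = ((t i).map (Int.castRingHom ℂ)).mulVec (Φ f)) :
    (Subalgebra.toSubmodule (Algebra.adjoin ℤ (Set.range T))).FG := by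
  classical
  set P : Subalgebra ℤ (Matrix (Fin r) (Fin r) ℤ × Module.End ℂ V) :=
    Algebra.adjoin ℤ (Set.range fun i => (t i, T i)) with hP
  have hPle : P ≤ intertwinedSubalgebra Φ := by
    refine Algebra.adjoin_le ?_
    rintro _ ⟨i, rfl⟩
    exact fun f => h i f
  -- `P` is a finitely generated `ℤ`-module
  have hPfg : (Subalgebra.toSubmodule P).FG := by
    refine Submodule.fg_of_fg_map_of_fg_inf_ker
      (AlgHom.fst ℤ (Matrix (Fin r) (Fin r) ℤ) (Module.End ℂ V)).toLinearMap ?_ ?_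
    · exact IsNoetherian.noetherian _
    · have hbot : Subalgebra.toSubmodule P ⊓ LinearMap.ker
          (AlgHom.fst ℤ (Matrix (Fin r) (Fin r) ℤ) (Module.End ℂ V)).toLinearMap = ⊥ := by
        rw [eq_bot_iff]
        rintro x ⟨hxP, hxk⟩
        have hx1 : x.1 = 0 := hxk
        have hint : Intertwined Φ x := hPle hxP
        have hx2 : x.2 = 0 := by
          apply LinearMap.ext
          intro f
          apply hΦ
          rw [hint f, hx1]
          simp
        rw [Submodule.mem_bot]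
        exact Prod.ext hx1 hx2
      rw [hbot]
      exact Submodule.fg_bot
  -- the second projection of `P` is the Hecke ring
  have hmap : P.map (AlgHom.snd ℤ (Matrix (Fin r) (Fin r) ℤ) (Module.End ℂ V)) =
      Algebra.adjoin ℤ (Set.range T) := by
    rw [hP, AlgHom.map_adjoin, ← Set.range_comp]
    rfl
  rw [← hmap, Subalgebra.map_toSubmodule]
  exact hPfg.map _

/-- A space intertwined injectively with `ℂ^r` is finite dimensional. -/
theorem finiteDimensional_of_injective (Φ : V →ₗ[ℂ] (Fin r → ℂ)) (hΦ : Function.Injective Φ) :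
    FiniteDimensional ℂ V :=
  FiniteDimensional.of_injective Φ hΦ

end general

section es1

variable {M p : ℕ} [NeZero M] [Fact p.Prime] {V : Type} [AddCommGroup V] [Module ℂ V]
  {T : ℕ → Module.End ℂ V} {Dm : (ZMod M)ˣ → Module.End ℂ V}

/-- The space of an `ES1Data` is finite dimensional. -/
theorem finiteDimensional_of_es1Data (D : ES1Data M p T Dm) : FiniteDimensional ℂ V := by
  obtain ⟨Φ, hΦ, -, -⟩ := D.occ
  exact finiteDimensional_of_injective Φ hΦ

/-- **`hfg` for `ES1Data`**: the `ℤ`-algebra generated by any family of good Hecke operators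
`T ℓ` (`ℓ` prime, `ℓ ∤ M`, `ℓ ≠ p`) and diamond operators `Dm u` is a finitely generated
`ℤ`-module. -/
theorem fg_of_es1Data (D : ES1Data M p T Dm) {ι : Type*} (F : ι → Module.End ℂ V)
    (hF : ∀ i, (∃ ℓ : ℕ, ℓ.Prime ∧ ¬ ℓ ∣ M ∧ ℓ ≠ p ∧ F i = T ℓ) ∨ (∃ u : (ZMod M)ˣ, F i = Dm u)) :
    (Subalgebra.toSubmodule (Algebra.adjoin ℤ (Set.range F))).FG := by
  classical
  obtain ⟨Φ, hΦ, hT, hD⟩ := D.occ
  have hex : ∀ i, ∃ A : Matrix (Fin D.r) (Fin D.r) ℤ,
      ∀ f, Φ (F i f) = (A.map (Int.castRingHom ℂ)).mulVec (Φ f) := by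
    intro i
    rcases hF i with ⟨ℓ, hℓ, hℓM, hℓp, hi⟩ | ⟨u, hi⟩
    · exact ⟨D.t ℓ, fun f => by rw [hi]; exact hT ℓ hℓ hℓM hℓp f⟩
    · exact ⟨D.d u, fun f => by rw [hi]; exact hD u f⟩
  choose t ht using hex
  exact adjoin_fg_of_intertwine F t Φ hΦ ht

end es1

end Fermat.Agent.S48.OccFG
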