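import Fermat.Agent.Lib.FrobeniusDensity
import Fermat.Prelude.Def_GaloisRep_Residual

/-!
# S48 (Deligne–Serre), brick J2, Step 6: the two-prime patch

`Γℚ := Gal(ℚ̄/ℚ)`, `ρ : Γℚ →* GL (Fin 2) ℂ`.

* `LocalAt ρ p t d`: the per-prime conjunct of the frozen conclusion of S48 (trivial on inertia
  at every place over `p`, and every Frobenius element at `p` has trace `t` and determinant `d`);
  `LocalAtCharpoly ρ p t d` is the same with `charpoly = X ^ 2 - C t * X + C d`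
  (`localAt_iff_charpoly`);
* `trace_det_eq_of_local` / `charpoly_eq_of_local`: two representations of finite level with the
  same local data outside a finite set of primes have the same trace and determinant (the same
  characteristic polynomial) on all of `Γℚ` (Frobenius density theorem
  `Lib.FrobeniusDensity.exists_frobenius_pow_eq` + the fact that `tr (M ^ b)`, `det (M ^ b)`
  only depend on `(tr M, det M)` for `2 × 2` matrices);
* `patch` / `patch_charpoly`: if `ρ₁` has the prescribed local data at all primes outside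
  `S ∪ {ℓ₁}` and `ρ₂` at all primes outside `S ∪ {ℓ₂}`, `ℓ₁ ≠ ℓ₂`, then `ρ₁` has the prescribed
  local data at all primes outside `S`;
* `patch_not_dvd` / `patch_charpoly_not_dvd`: the same with `S` replaced by `¬ p ∣ N`.
-/

set_option autoImplicit false

namespace Fermat.Agent.S48.PatchTwo

open Matrix

section TwoByTwo

variable {R : Type*} [CommRing R]

/-- Cayley–Hamilton for `2 × 2` matrices. -/
theorem sq_eq (M : Matrix (Fin 2) (Fin 2) R) :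
    M * M = M.trace • M - M.det • (1 : Matrix (Fin 2) (Fin 2) R) := by
  ext i j
  fin_cases i <;> fin_cases j <;>
    simp [Matrix.mul_apply, Fin.sum_univ_two, Matrix.trace_fin_two, Matrix.det_fin_two] <;> ring

theorem pow_add_two_eq (M : Matrix (Fin 2) (Fin 2) R) (b : ℕ) :
    M ^ (b + 2) = M.trace • M ^ (b + 1) - M.det • M ^ b := by
  have h : M ^ (b + 2) = M ^ b * (M * M) := by rw [pow_add, pow_two]
  rw [h, sq_eq, mul_sub, mul_smul_comm, mul_smul_comm, mul_one, ← pow_succ]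

/-- The traces of the powers of a `2 × 2` matrix satisfy the linear recurrence attached to its
characteristic polynomial. -/
theorem trace_pow_add_two (M : Matrix (Fin 2) (Fin 2) R) (b : ℕ) :
    (M ^ (b + 2)).trace = M.trace * (M ^ (b + 1)).trace - M.det * (M ^ b).trace := by
  rw [pow_add_two_eq, Matrix.trace_sub, Matrix.trace_smul, Matrix.trace_smul, smul_eq_mul,
    smul_eq_mul]

/-- `tr (M ^ b)` only depends on `tr M` and `det M`. -/
theorem trace_pow_eq_of_trace_det_eq (M M' : Matrix (Fin 2) (Fin 2) R)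
    (ht : M.trace = M'.trace) (hd : M.det = M'.det) (b : ℕ) :
    (M ^ b).trace = (M' ^ b).trace := by
  induction b using Nat.strong_induction_on with
  | _ b ih =>
    match b, ih with
    | 0, _ => simp
    | 1, _ => simpa using ht
    | (b + 2), ih =>
      rw [trace_pow_add_two, trace_pow_add_two, ht, hd, ih (b + 1) (by omega), ih b (by omega)]

/-- If `tr M = 2` and `det M = 1` then `M ^ k = 1 + k • (M - 1)`. -/
theorem pow_eq_of_trace_det (M : Matrix (Fin 2) (Fin 2) R) (ht : M.trace = 2) (hd : M.det = 1)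
    (k : ℕ) : M ^ k = 1 + k • (M - 1) := by
  have hsq : M * M = (2 : R) • M - 1 := by rw [sq_eq, ht, hd, one_smul]
  induction k with
  | zero => simp
  | succ k ih =>
    rw [pow_succ, ih, add_mul, one_mul, smul_mul_assoc, sub_mul, one_mul, hsq, succ_nsmul]
    have h2 : (2 : R) • M = M + M := by rw [two_smul]
    rw [h2]
    abel_nf

end TwoByTwo

section CharZero

variable {K : Type*} [Field K] [CharZero K]

/-- In characteristic zero a `2 × 2` matrix of finite order with trace `2` and determinant `1`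
is the identity. -/
theorem eq_one_of_trace_det_of_pow (M : Matrix (Fin 2) (Fin 2) K) (ht : M.trace = 2)
    (hd : M.det = 1) (n : ℕ) (hn : 0 < n) (hM : M ^ n = 1) : M = 1 := by
  have h := pow_eq_of_trace_det M ht hd n
  rw [hM] at h
  have h2 : n • (M - 1) = 0 := by
    have := h.symm
    rwa [add_eq_left] at this
  have h3 : (n : K) • (M - 1) = 0 := by rwa [Nat.cast_smul_eq_nsmul]
  rcases smul_eq_zero.mp h3 with h4 | h4
  · exact absurd (Nat.cast_eq_zero.mp h4) hn.ne'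
  · exact sub_eq_zero.mp h4

end CharZero

local notation "Qb" => AlgebraicClosure ℚ
local notation "Γℚ" => (AlgebraicClosure ℚ ≃ₐ[ℚ] AlgebraicClosure ℚ)

/-- The per-prime conjunct of the frozen conclusion of S48. -/
def LocalAt (ρ : Γℚ →* GL (Fin 2) ℂ) (p : ℕ) (t d : ℂ) : Prop :=
  ∀ A : ValuationSubring (AlgebraicClosure ℚ), A.LiesOverPrime p →
    (∀ σ ∈ A.inertiaSubgroupIn ℚ, ρ σ = 1) ∧
    ∀ σ : Γℚ, A.IsFrobeniusAt σ p →
      ((ρ σ : GL (Fin 2) ℂ) : Matrix (Fin 2) (Fin 2) ℂ).trace = t ∧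
      ((ρ σ : GL (Fin 2) ℂ) : Matrix (Fin 2) (Fin 2) ℂ).det = d

/-- A homomorphism trivial on the elements fixing `L` takes the same value on two elements
agreeing on `L`. -/
theorem map_eq_of_agree {M : Type*} [Group M] (ρ : Γℚ →* M) (L : IntermediateField ℚ Qb)
    (hL : ∀ σ : Γℚ, (∀ x ∈ L, σ x = x) → ρ σ = 1) (σ τ : Γℚ) (h : ∀ x ∈ L, σ x = τ x) :
    ρ σ = ρ τ := by
  have h1 : ρ (τ⁻¹ * σ) = 1 := hL _ (fun x hx => by
    rw [AlgEquiv.mul_apply, h x hx]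
    exact τ.symm_apply_apply x)
  rw [map_mul, map_inv] at h1
  exact (inv_mul_eq_one.mp h1).symm

/-- Every element of `Γℚ` has a positive power fixing a given finite extension pointwise. -/
theorem exists_pow_fix (L : IntermediateField ℚ Qb) [FiniteDimensional ℚ L] (σ : Γℚ) :
    ∃ n : ℕ, 0 < n ∧ ∀ x ∈ L, (σ ^ n) x = x := by
  let F : ℕ → (L →ₐ[ℚ] Qb) := fun j => ((σ ^ j : Γℚ) : Qb →ₐ[ℚ] Qb).comp L.val
  obtain ⟨i, j, hij, h⟩ := Finite.exists_ne_map_eq_of_infinite F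
  have key : ∀ i j : ℕ, i < j → F i = F j → ∃ n : ℕ, 0 < n ∧ ∀ x ∈ L, (σ ^ n) x = x := by
    intro i j hlt h
    refine ⟨j - i, by omega, fun x hx => ?_⟩
    have h1 : (σ ^ i) x = (σ ^ j) x := DFunLike.congr_fun h ⟨x, hx⟩
    have h2 : (σ ^ j) x = (σ ^ i) ((σ ^ (j - i)) x) := by
      rw [← AlgEquiv.mul_apply, ← pow_add, Nat.add_sub_cancel' hlt.le]
    exact (σ ^ i).injective (by rw [← h2, h1])
  rcases lt_or_gt_of_ne hij with hlt | hlt
  · exact key i j hlt h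
  · exact key j i hlt h.symm

/-- A representation of finite level sends every element to an element of finite order. -/
theorem exists_pow_eq_one {M : Type} [Group M] (ρ : Γℚ →* M)
    (hf : GaloisFactorsThroughFiniteLevel ρ) (σ : Γℚ) : ∃ n : ℕ, 0 < n ∧ ρ σ ^ n = 1 := by
  obtain ⟨L, hL, h1⟩ := hf
  obtain ⟨n, hn, hfix⟩ := exists_pow_fix L σ
  exact ⟨n, hn, by rw [← map_pow]; exact h1 _ hfix⟩

/-- **Trace and determinant are determined by the local data outside a finite set.** -/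
theorem trace_det_eq_of_local (S : Finset ℕ) (a e : ℕ → ℂ) (ρ₁ ρ₂ : Γℚ →* GL (Fin 2) ℂ)
    (h₁f : GaloisFactorsThroughFiniteLevel ρ₁) (h₂f : GaloisFactorsThroughFiniteLevel ρ₂)
    (h₁ : ∀ p : ℕ, p.Prime → p ∉ S → LocalAt ρ₁ p (a p) (e p))
    (h₂ : ∀ p : ℕ, p.Prime → p ∉ S → LocalAt ρ₂ p (a p) (e p)) (g : Γℚ) :
    ((ρ₁ g : GL (Fin 2) ℂ) : Matrix (Fin 2) (Fin 2) ℂ).trace =
        ((ρ₂ g : GL (Fin 2) ℂ) : Matrix (Fin 2) (Fin 2) ℂ).trace ∧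
      ((ρ₁ g : GL (Fin 2) ℂ) : Matrix (Fin 2) (Fin 2) ℂ).det =
        ((ρ₂ g : GL (Fin 2) ℂ) : Matrix (Fin 2) (Fin 2) ℂ).det := by
  obtain ⟨L₁, hL₁, h1⟩ := h₁f
  obtain ⟨L₂, hL₂, h2⟩ := h₂f
  have hfd : FiniteDimensional ℚ (L₁ ⊔ L₂ : IntermediateField ℚ Qb) :=
    IntermediateField.finiteDimensional_sup L₁ L₂
  obtain ⟨ℓ, A, s, b, hℓ, hℓS, hA, hs, -, hsb⟩ :=
    Fermat.Agent.Lib.FrobeniusDensity.exists_frobenius_pow_eq (L₁ ⊔ L₂) S g
  have e1 : ρ₁ g = ρ₁ s ^ b := by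
    rw [← map_pow]
    exact (map_eq_of_agree ρ₁ L₁ h1 (s ^ b) g
      (fun x hx => hsb x ((le_sup_left : L₁ ≤ L₁ ⊔ L₂) hx))).symm
  have e2 : ρ₂ g = ρ₂ s ^ b := by
    rw [← map_pow]
    exact (map_eq_of_agree ρ₂ L₂ h2 (s ^ b) g
      (fun x hx => hsb x ((le_sup_right : L₂ ≤ L₁ ⊔ L₂) hx))).symm
  obtain ⟨t1, d1⟩ := (h₁ ℓ hℓ hℓS A hA).2 s hs
  obtain ⟨t2, d2⟩ := (h₂ ℓ hℓ hℓS A hA).2 s hs
  rw [e1, e2, Units.val_pow_eq_pow_val, Units.val_pow_eq_pow_val]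
  refine ⟨trace_pow_eq_of_trace_det_eq _ _ (t1.trans t2.symm) (d1.trans d2.symm) b, ?_⟩
  rw [Matrix.det_pow, Matrix.det_pow, d1, d2]

/-- **The two-prime patch (Step 6).** -/
theorem patch (S : Finset ℕ) (a e : ℕ → ℂ) (ℓ₁ ℓ₂ : ℕ) (hℓ : ℓ₁ ≠ ℓ₂)
    (ρ₁ ρ₂ : Γℚ →* GL (Fin 2) ℂ)
    (h₁f : GaloisFactorsThroughFiniteLevel ρ₁) (h₂f : GaloisFactorsThroughFiniteLevel ρ₂)
    (h₁ : ∀ p : ℕ, p.Prime → p ∉ S → p ≠ ℓ₁ → LocalAt ρ₁ p (a p) (e p))
    (h₂ : ∀ p : ℕ, p.Prime → p ∉ S → p ≠ ℓ₂ → LocalAt ρ₂ p (a p) (e p)) :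
    ∀ p : ℕ, p.Prime → p ∉ S → LocalAt ρ₁ p (a p) (e p) := by
  classical
  have hcmp := trace_det_eq_of_local (insert ℓ₁ (insert ℓ₂ S)) a e ρ₁ ρ₂ h₁f h₂f
    (fun p hp hpS => h₁ p hp (fun h => hpS (by simp [h])) (fun h => hpS (by simp [h])))
    (fun p hp hpS => h₂ p hp (fun h => hpS (by simp [h])) (fun h => hpS (by simp [h])))
  intro p hp hpS
  by_cases hpℓ : p = ℓ₁
  · subst hpℓ
    intro A hA
    obtain ⟨hI, hF⟩ := h₂ p hp hpS hℓ A hA
    refine ⟨fun σ hσ => ?_, fun σ hσ => ?_⟩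
    · obtain ⟨ht, hd⟩ := hcmp σ
      rw [hI σ hσ] at ht hd
      have ht' : ((ρ₁ σ : GL (Fin 2) ℂ) : Matrix (Fin 2) (Fin 2) ℂ).trace = 2 := by
        rw [ht, Units.val_one, Matrix.trace_one, Fintype.card_fin]
        norm_num
      have hd' : ((ρ₁ σ : GL (Fin 2) ℂ) : Matrix (Fin 2) (Fin 2) ℂ).det = 1 := by
        rw [hd, Units.val_one, Matrix.det_one]
      obtain ⟨n, hn, hpow⟩ := exists_pow_eq_one ρ₁ h₁f σ
      have hM : ((ρ₁ σ : GL (Fin 2) ℂ) : Matrix (Fin 2) (Fin 2) ℂ) ^ n = 1 := by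
        rw [← Units.val_pow_eq_pow_val, hpow, Units.val_one]
      exact Units.ext (eq_one_of_trace_det_of_pow _ ht' hd' n hn hM)
    · obtain ⟨ht, hd⟩ := hcmp σ
      obtain ⟨t2, d2⟩ := hF σ hσ
      exact ⟨ht.trans t2, hd.trans d2⟩
  · exact h₁ p hp hpS hpℓ

/-! ## Characteristic-polynomial forms -/

open Polynomial in
/-- The local condition with the characteristic polynomial of Frobenius instead of its trace and
determinant. -/
def LocalAtCharpoly (ρ : Γℚ →* GL (Fin 2) ℂ) (p : ℕ) (t d : ℂ) : Prop :=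
  ∀ A : ValuationSubring (AlgebraicClosure ℚ), A.LiesOverPrime p →
    (∀ σ ∈ A.inertiaSubgroupIn ℚ, ρ σ = 1) ∧
    ∀ σ : Γℚ, A.IsFrobeniusAt σ p →
      ((ρ σ : GL (Fin 2) ℂ) : Matrix (Fin 2) (Fin 2) ℂ).charpoly = X ^ 2 - C t * X + C d

open Polynomial in
/-- The characteristic polynomial of a `2 × 2` matrix is `X ^ 2 - t X + d` iff its trace is `t`
and its determinant is `d`. -/
theorem charpoly_eq_iff {R : Type*} [CommRing R] [Nontrivial R] (M : Matrix (Fin 2) (Fin 2) R)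
    (t d : R) : M.charpoly = X ^ 2 - C t * X + C d ↔ M.trace = t ∧ M.det = d := by
  rw [Matrix.charpoly_fin_two]
  constructor
  · intro h
    have h1 := congrArg (fun P : Polynomial R => P.coeff 1) h
    have h0 := congrArg (fun P : Polynomial R => P.coeff 0) h
    simp only [coeff_add, coeff_sub, coeff_X_pow, coeff_C_mul, coeff_X, coeff_C] at h1 h0
    norm_num at h1 h0
    exact ⟨h1, h0⟩
  · rintro ⟨rfl, rfl⟩
    rfl

theorem localAt_iff_charpoly (ρ : Γℚ →* GL (Fin 2) ℂ) (p : ℕ) (t d : ℂ) :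
    LocalAt ρ p t d ↔ LocalAtCharpoly ρ p t d := by
  unfold LocalAt LocalAtCharpoly
  exact forall_congr' fun A => imp_congr_right fun _ => and_congr_right fun _ =>
    forall_congr' fun σ => imp_congr_right fun _ => (charpoly_eq_iff _ t d).symm

/-- **The characteristic polynomial is determined by the local data outside a finite set.** -/
theorem charpoly_eq_of_local (S : Finset ℕ) (a e : ℕ → ℂ) (ρ₁ ρ₂ : Γℚ →* GL (Fin 2) ℂ)
    (h₁f : GaloisFactorsThroughFiniteLevel ρ₁) (h₂f : GaloisFactorsThroughFiniteLevel ρ₂)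
    (h₁ : ∀ p : ℕ, p.Prime → p ∉ S → LocalAtCharpoly ρ₁ p (a p) (e p))
    (h₂ : ∀ p : ℕ, p.Prime → p ∉ S → LocalAtCharpoly ρ₂ p (a p) (e p)) (g : Γℚ) :
    ((ρ₁ g : GL (Fin 2) ℂ) : Matrix (Fin 2) (Fin 2) ℂ).charpoly =
      ((ρ₂ g : GL (Fin 2) ℂ) : Matrix (Fin 2) (Fin 2) ℂ).charpoly := by
  obtain ⟨ht, hd⟩ := trace_det_eq_of_local S a e ρ₁ ρ₂ h₁f h₂f
    (fun p hp hpS => (localAt_iff_charpoly _ _ _ _).mpr (h₁ p hp hpS))
    (fun p hp hpS => (localAt_iff_charpoly _ _ _ _).mpr (h₂ p hp hpS)) g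
  rw [Matrix.charpoly_fin_two, Matrix.charpoly_fin_two, ht, hd]

/-- **The two-prime patch (Step 6)**, characteristic-polynomial form. -/
theorem patch_charpoly (S : Finset ℕ) (a e : ℕ → ℂ) (ℓ₁ ℓ₂ : ℕ) (hℓ : ℓ₁ ≠ ℓ₂)
    (ρ₁ ρ₂ : Γℚ →* GL (Fin 2) ℂ)
    (h₁f : GaloisFactorsThroughFiniteLevel ρ₁) (h₂f : GaloisFactorsThroughFiniteLevel ρ₂)
    (h₁ : ∀ p : ℕ, p.Prime → p ∉ S → p ≠ ℓ₁ → LocalAtCharpoly ρ₁ p (a p) (e p))
    (h₂ : ∀ p : ℕ, p.Prime → p ∉ S → p ≠ ℓ₂ → LocalAtCharpoly ρ₂ p (a p) (e p)) :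
    ∀ p : ℕ, p.Prime → p ∉ S → LocalAtCharpoly ρ₁ p (a p) (e p) :=
  fun p hp hpS => (localAt_iff_charpoly _ _ _ _).mp
    (patch S a e ℓ₁ ℓ₂ hℓ ρ₁ ρ₂ h₁f h₂f
      (fun q hq hqS hne => (localAt_iff_charpoly _ _ _ _).mpr (h₁ q hq hqS hne))
      (fun q hq hqS hne => (localAt_iff_charpoly _ _ _ _).mpr (h₂ q hq hqS hne)) p hp hpS)

/-! ## The forms with `¬ p ∣ N` -/

/-- **The two-prime patch (Step 6)** with the exceptional set `{p : p ∣ N}`; the conclusion is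
literally the local part of the frozen conclusion of S48. -/
theorem patch_not_dvd (N : ℕ) (a e : ℕ → ℂ) (ℓ₁ ℓ₂ : ℕ) (hℓ : ℓ₁ ≠ ℓ₂)
    (ρ₁ ρ₂ : Γℚ →* GL (Fin 2) ℂ)
    (h₁f : GaloisFactorsThroughFiniteLevel ρ₁) (h₂f : GaloisFactorsThroughFiniteLevel ρ₂)
    (h₁ : ∀ p : ℕ, p.Prime → ¬ p ∣ N → p ≠ ℓ₁ → LocalAt ρ₁ p (a p) (e p))
    (h₂ : ∀ p : ℕ, p.Prime → ¬ p ∣ N → p ≠ ℓ₂ → LocalAt ρ₂ p (a p) (e p)) :
    ∀ p : ℕ, p.Prime → ¬ p ∣ N →
      ∀ A : ValuationSubring (AlgebraicClosure ℚ), A.LiesOverPrime p →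
        (∀ σ ∈ A.inertiaSubgroupIn ℚ, ρ₁ σ = 1) ∧
        ∀ σ : Γℚ, A.IsFrobeniusAt σ p →
          ((ρ₁ σ : GL (Fin 2) ℂ) : Matrix (Fin 2) (Fin 2) ℂ).trace = a p ∧
          ((ρ₁ σ : GL (Fin 2) ℂ) : Matrix (Fin 2) (Fin 2) ℂ).det = e p := by
  intro p hp hpN
  have hmem : ∀ q : ℕ, q.Prime → q ∉ N.primeFactors → ¬ q ∣ N := by
    intro q hq hqS hdvd
    have hN : N ≠ 0 := by
      rintro rfl
      exact hpN (dvd_zero p)
    exact hqS (Nat.mem_primeFactors.mpr ⟨hq, hdvd, hN⟩)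
  exact patch N.primeFactors a e ℓ₁ ℓ₂ hℓ ρ₁ ρ₂ h₁f h₂f
    (fun q hq hqS hne => h₁ q hq (hmem q hq hqS) hne)
    (fun q hq hqS hne => h₂ q hq (hmem q hq hqS) hne) p hp
    (fun hmem' => hpN (Nat.dvd_of_mem_primeFactors hmem'))

/-- **The two-prime patch (Step 6)** with the exceptional set `{p : p ∣ N}`,
characteristic-polynomial form. -/
theorem patch_charpoly_not_dvd (N : ℕ) (a e : ℕ → ℂ) (ℓ₁ ℓ₂ : ℕ) (hℓ : ℓ₁ ≠ ℓ₂)
    (ρ₁ ρ₂ : Γℚ →* GL (Fin 2) ℂ)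
    (h₁f : GaloisFactorsThroughFiniteLevel ρ₁) (h₂f : GaloisFactorsThroughFiniteLevel ρ₂)
    (h₁ : ∀ p : ℕ, p.Prime → ¬ p ∣ N → p ≠ ℓ₁ → LocalAtCharpoly ρ₁ p (a p) (e p))
    (h₂ : ∀ p : ℕ, p.Prime → ¬ p ∣ N → p ≠ ℓ₂ → LocalAtCharpoly ρ₂ p (a p) (e p)) :
    ∀ p : ℕ, p.Prime → ¬ p ∣ N → LocalAtCharpoly ρ₁ p (a p) (e p) :=
  fun p hp hpN => (localAt_iff_charpoly _ _ _ _).mp
    (patch_not_dvd N a e ℓ₁ ℓ₂ hℓ ρ₁ ρ₂ h₁f h₂f
      (fun q hq hqN hne => (localAt_iff_charpoly _ _ _ _).mpr (h₁ q hq hqN hne))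
      (fun q hq hqN hne => (localAt_iff_charpoly _ _ _ _).mpr (h₂ q hq hqN hne)) p hp hpN)

/-- Two representations of finite level with the same local data at the primes not dividing `N`
and different from `ℓ₁`, `ℓ₂` have the same characteristic polynomial on all of `Γℚ`. -/
theorem charpoly_eq_of_local_not_dvd (N : ℕ) (hN : N ≠ 0) (a e : ℕ → ℂ) (ℓ₁ ℓ₂ : ℕ)
    (ρ₁ ρ₂ : Γℚ →* GL (Fin 2) ℂ)
    (h₁f : GaloisFactorsThroughFiniteLevel ρ₁) (h₂f : GaloisFactorsThroughFiniteLevel ρ₂)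
    (h₁ : ∀ p : ℕ, p.Prime → ¬ p ∣ N → p ≠ ℓ₁ → LocalAtCharpoly ρ₁ p (a p) (e p))
    (h₂ : ∀ p : ℕ, p.Prime → ¬ p ∣ N → p ≠ ℓ₂ → LocalAtCharpoly ρ₂ p (a p) (e p)) (g : Γℚ) :
    ((ρ₁ g : GL (Fin 2) ℂ) : Matrix (Fin 2) (Fin 2) ℂ).charpoly =
      ((ρ₂ g : GL (Fin 2) ℂ) : Matrix (Fin 2) (Fin 2) ℂ).charpoly := by
  classical
  have hmem : ∀ q : ℕ, q.Prime → q ∉ insert ℓ₁ (insert ℓ₂ N.primeFactors) →
      ¬ q ∣ N ∧ q ≠ ℓ₁ ∧ q ≠ ℓ₂ := by
    intro q hq hqS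
    refine ⟨fun hdvd => hqS ?_, fun h => hqS (by simp [h]), fun h => hqS (by simp [h])⟩
    exact Finset.mem_insert_of_mem (Finset.mem_insert_of_mem
      (Nat.mem_primeFactors.mpr ⟨hq, hdvd, hN⟩))
  exact charpoly_eq_of_local (insert ℓ₁ (insert ℓ₂ N.primeFactors)) a e ρ₁ ρ₂ h₁f h₂f
    (fun q hq hqS => h₁ q hq (hmem q hq hqS).1 (hmem q hq hqS).2.1)
    (fun q hq hqS => h₂ q hq (hmem q hq hqS).1 (hmem q hq hqS).2.2) g

end Fermat.Agent.S48.PatchTwo
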