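/-
S48 (Deligne–Serre), brick C, piece (X1): "a meromorphic function with a holomorphic power is
holomorphic", in the form needed for conjugating weight-one cusp forms.

* `exists_root_analytic` : pure complex analysis on a preconnected open set.
* `exists_cuspForm_of_pow` : if `E ≠ 0` is a weight-one modular form, `P` a weight-two cusp form,
  `Q` a weight-`n` cusp form and `Φ` a FORMAL power series with `qExp P = Φ * qExp E` and
  `qExp Q = Φ ^ n`, then `Φ` is the `q`-expansion of a weight-one cusp form (namely `P / E`).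

Mathlib only.
-/
import Mathlib

set_option autoImplicit false

namespace Fermat.Agent.S48.PowRoot

open Filter Topology Set

/-! ### The complex-analytic core -/

section Core

variable {U : Set ℂ}

/-- An analytic function on a preconnected open set which is not identically zero does not vanish
on a punctured neighbourhood of any point. -/
theorem eventually_ne_zero {E : ℂ → ℂ} (hE : AnalyticOnNhd ℂ E U) (hU : IsPreconnected U)
    (hE0 : ∃ z ∈ U, E z ≠ 0) {z : ℂ} (hz : z ∈ U) : ∀ᶠ w in 𝓝[≠] z, E w ≠ 0 := by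
  rcases (hE z hz).eventually_eq_zero_or_eventually_ne_zero with h | h
  · obtain ⟨w, hw, hEw⟩ := hE0
    exact absurd (hE.eqOn_zero_of_preconnected_of_eventuallyEq_zero hU hz h hw) hEw
  · exact h

/-- Two functions analytic at `z` which agree on a punctured neighbourhood agree at `z`. -/
theorem eq_of_eventuallyEq_nhdsNE {f g : ℂ → ℂ} {z : ℂ} (hf : AnalyticAt ℂ f z)
    (hg : AnalyticAt ℂ g z) (h : f =ᶠ[𝓝[≠] z] g) : f z = g z :=
  ((hf.meromorphicNFAt.eventuallyEq_nhdsNE_iff_eventuallyEq_nhds hg.meromorphicNFAt).mp h).eq_of_nhds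

/-- **A meromorphic function with a holomorphic power is holomorphic.**  If `P ^ n = Q * E ^ n`
on a preconnected open set, with `E` not identically zero, then `P / E` extends to an analytic
function `h` with `h * E = P` and `h ^ n = Q`. -/
theorem exists_root_analytic {P E Q : ℂ → ℂ} {n : ℕ} (hn : 0 < n) (hUo : IsOpen U)
    (hU : IsPreconnected U)
    (hP : AnalyticOnNhd ℂ P U) (hE : AnalyticOnNhd ℂ E U) (hQ : AnalyticOnNhd ℂ Q U)
    (hE0 : ∃ z ∈ U, E z ≠ 0) (hrel : ∀ z ∈ U, P z ^ n = Q z * E z ^ n) :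
    ∃ h : ℂ → ℂ, AnalyticOnNhd ℂ h U ∧ (∀ z ∈ U, h z * E z = P z) ∧ (∀ z ∈ U, h z ^ n = Q z) := by
  set h0 : ℂ → ℂ := fun z => P z / E z with hh0
  have hmero : MeromorphicOn h0 U := fun z hz =>
    (hP z hz).meromorphicAt.div (hE z hz).meromorphicAt
  set hN : ℂ → ℂ := toMeromorphicNFOn h0 U with hhN
  have hNF : MeromorphicNFOn hN U := meromorphicNFOn_toMeromorphicNFOn h0 U
  have hev : ∀ z ∈ U, hN =ᶠ[𝓝[≠] z] h0 := fun z hz =>
    hmero.toMeromorphicNFOn_eq_self_on_nhdsNE hz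
  have hne : ∀ z ∈ U, ∀ᶠ w in 𝓝[≠] z, E w ≠ 0 := fun z hz => eventually_ne_zero hE hU hE0 hz
  have hmem : ∀ z ∈ U, ∀ᶠ w in 𝓝[≠] z, w ∈ U := fun z hz =>
    eventually_nhdsWithin_of_eventually_nhds (hUo.eventually_mem hz)
  -- key local identities on punctured neighbourhoods
  have hmulE : ∀ z ∈ U, (fun w => hN w * E w) =ᶠ[𝓝[≠] z] P := by
    intro z hz
    filter_upwards [hev z hz, hne z hz] with w hw hEw
    rw [hw, hh0]
    field_simp
  have hpow : ∀ z ∈ U, (fun w => hN w ^ n) =ᶠ[𝓝[≠] z] Q := by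
    intro z hz
    filter_upwards [hev z hz, hne z hz, hmem z hz] with w hw hEw hwU
    rw [hw, hh0, div_pow, hrel w hwU]
    field_simp
  -- analyticity of the normal form
  have hNan : AnalyticOnNhd ℂ hN U := by
    intro z hz
    have hNm : MeromorphicAt hN z := (hNF hz).meromorphicAt
    have h1 : meromorphicOrderAt (hN ^ n) z = (n : WithTop ℤ) * meromorphicOrderAt hN z :=
      meromorphicOrderAt_pow hNm
    have h2 : meromorphicOrderAt (hN ^ n) z = meromorphicOrderAt Q z :=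
      meromorphicOrderAt_congr (hpow z hz)
    have h3 : 0 ≤ meromorphicOrderAt Q z := (hQ z hz).meromorphicOrderAt_nonneg
    have h4 : 0 ≤ meromorphicOrderAt hN z := by
      rw [← h2, h1] at h3
      cases h : meromorphicOrderAt hN z with
      | top => exact le_top
      | coe a =>
        rw [h] at h3
        have h5 : (0 : WithTop ℤ) ≤ (((n : ℤ) * a : ℤ) : WithTop ℤ) := by
          simpa using h3
        have h6 : 0 ≤ (n : ℤ) * a := by exact_mod_cast h5
        have h7 : 0 ≤ a := nonneg_of_mul_nonneg_right h6 (by exact_mod_cast hn)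
        exact_mod_cast h7
    exact (hNF hz).meromorphicOrderAt_nonneg_iff_analyticAt.mp h4
  refine ⟨hN, hNan, fun z hz => ?_, fun z hz => ?_⟩
  · exact eq_of_eventuallyEq_nhdsNE ((hNan z hz).mul (hE z hz)) (hP z hz) (hmulE z hz)
  · exact eq_of_eventuallyEq_nhdsNE ((hNan z hz).pow n) (hQ z hz) (hpow z hz)

end Core

/-! ### Nice functions on the upper half plane -/

section Nice

open UpperHalfPlane ModularForm
open scoped MatrixGroups Manifold

/-- `1`-periodic, holomorphic, bounded at `i∞`. -/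
structure Nice (f : ℍ → ℂ) : Prop where
  per : Function.Periodic (f ∘ ofComplex) 1
  hol : MDiff f
  bdd : IsBoundedAtImInfty f

namespace Nice

variable {f g : ℍ → ℂ}

theorem analytic (hf : Nice f) : AnalyticAt ℂ (cuspFunction 1 f) 0 :=
  analyticAt_cuspFunction_zero one_pos hf.per hf.hol hf.bdd

theorem mul (hf : Nice f) (hg : Nice g) : Nice (f * g) :=
  ⟨hf.per.mul hg.per, hf.hol.mul hg.hol, hf.bdd.mul hg.bdd⟩

theorem sub (hf : Nice f) (hg : Nice g) : Nice (f - g) :=
  ⟨hf.per.sub hg.per, hf.hol.sub hg.hol, hf.bdd.sub hg.bdd⟩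

theorem one : Nice (1 : ℍ → ℂ) :=
  ⟨fun _ => rfl, mdifferentiable_const, Filter.const_boundedAtFilter _ _⟩

theorem pow (hf : Nice f) (n : ℕ) : Nice (f ^ n) := by
  induction n with
  | zero => simpa using one
  | succ n ih => rw [pow_succ]; exact ih.mul hf

theorem qExp_mul (hf : Nice f) (hg : Nice g) :
    qExpansion 1 (f * g) = qExpansion 1 f * qExpansion 1 g :=
  qExpansion_mul hf.analytic hg.analytic

theorem qExp_sub (hf : Nice f) (hg : Nice g) :
    qExpansion 1 (f - g) = qExpansion 1 f - qExpansion 1 g :=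
  qExpansion_sub hf.analytic hg.analytic

theorem qExp_pow (hf : Nice f) (n : ℕ) : qExpansion 1 (f ^ n) = qExpansion 1 f ^ n := by
  induction n with
  | zero => simpa using qExpansion_one 1
  | succ n ih => rw [pow_succ, pow_succ, qExp_mul (hf.pow n) hf, ih]

theorem eq_zero (hf : Nice f) (h : qExpansion 1 f = 0) : f = 0 :=
  (qExpansion_eq_zero_iff one_pos hf.per hf.hol hf.bdd).mp h

theorem eq_of_qExp_eq (hf : Nice f) (hg : Nice g) (h : qExpansion 1 f = qExpansion 1 g) :
    f = g := by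
  have := (hf.sub hg).eq_zero (by rw [hf.qExp_sub hg, h, sub_self])
  exact sub_eq_zero.mp this

end Nice

/-- Modular forms for a group having `1` as a strict period are nice. -/
theorem nice_of_modularFormClass {F : Type*} [FunLike F ℍ ℂ] {Γ : Subgroup (GL (Fin 2) ℝ)}
    {k : ℤ} [ModularFormClass F Γ k] (hΓ : (1 : ℝ) ∈ Γ.strictPeriods) (f : F) :
    Nice (f : ℍ → ℂ) :=
  have : Fact (IsCusp OnePoint.infty Γ) := ⟨Γ.isCusp_of_mem_strictPeriods one_pos hΓ⟩
  ⟨SlashInvariantFormClass.periodic_comp_ofComplex f hΓ, ModularFormClass.holo f,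
    ModularFormClass.bdd_at_infty f⟩

end Nice

/-! ### The root of a cusp form -/

section Main

open UpperHalfPlane ModularForm
open scoped MatrixGroups Manifold

variable {Γ : Subgroup (GL (Fin 2) ℝ)}

theorem analyticOnNhd_comp_ofComplex {f : ℍ → ℂ} (hf : MDiff f) :
    AnalyticOnNhd ℂ (f ∘ ofComplex) {z : ℂ | 0 < z.im} :=
  (UpperHalfPlane.mdifferentiable_iff.mp hf).analyticOnNhd isOpen_upperHalfPlaneSet

theorem isPreconnected_upper : IsPreconnected {z : ℂ | 0 < z.im} :=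
  (convex_halfSpace_im_gt 0).isPreconnected

/-- Two holomorphic functions on `ℍ` which agree wherever a third holomorphic function `E ≢ 0`
does not vanish are equal. -/
theorem eq_of_mul_eq {A B E : ℍ → ℂ} (hA : MDiff A) (hB : MDiff B) (hE : MDiff E)
    (hE0 : ∃ τ, E τ ≠ 0) (h : ∀ τ, A τ * E τ = B τ * E τ) : A = B := by
  funext τ
  have hne := eventually_ne_zero (analyticOnNhd_comp_ofComplex hE) isPreconnected_upper
    (by obtain ⟨τ0, hτ0⟩ := hE0; exact ⟨(τ0 : ℂ), τ0.im_pos, by simpa using hτ0⟩)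
    (z := (τ : ℂ)) τ.im_pos
  have hfreq : ∃ᶠ z in 𝓝[≠] (τ : ℂ), (A ∘ ofComplex) z = (B ∘ ofComplex) z := by
    refine Eventually.frequently ?_
    filter_upwards [hne] with z hz
    exact mul_right_cancel₀ hz (h (ofComplex z))
  have := (analyticOnNhd_comp_ofComplex hA).eqOn_of_preconnected_of_frequently_eq
    (analyticOnNhd_comp_ofComplex hB) isPreconnected_upper (z₀ := (τ : ℂ)) τ.im_pos hfreq
    (x := (τ : ℂ)) τ.im_pos
  simpa using this

/-- If `F ^ n` tends to zero at `i∞` then so does `F`. -/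
theorem isZeroAtImInfty_of_pow {F : ℍ → ℂ} {n : ℕ}
    (h : IsZeroAtImInfty (F ^ n)) : IsZeroAtImInfty F := by
  rw [IsZeroAtImInfty, ZeroAtFilter, NormedAddGroup.tendsto_nhds_zero] at h ⊢
  intro ε hε
  filter_upwards [h (ε ^ n) (pow_pos hε n)] with τ hτ
  rw [Pi.pow_apply, norm_pow] at hτ
  exact lt_of_pow_lt_pow_left₀ n hε.le hτ

/-- **The root of a cusp form** (function version of the multiplier).  `E ≢ 0` a holomorphic
weight-one slash-invariant function bounded at `i∞`, `P` a weight-two cusp form, `Q` a weight-`n`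
cusp form, `Φ` a formal power series with `qExp P = Φ * qExp E`, `qExp Q = Φ ^ n`.  Then `Φ` is
the `q`-expansion of a weight-one cusp form `h`, with `h * E = P` and `h ^ n = Q`. -/
theorem exists_cuspForm_of_pow_aux [Γ.HasDetOne] (hΓ : (1 : ℝ) ∈ Γ.strictPeriods)
    {n : ℕ} (hn : 0 < n)
    (E : SlashInvariantForm Γ 1) (hEhol : MDiff (E : ℍ → ℂ))
    (hEbdd : IsBoundedAtImInfty (E : ℍ → ℂ)) (hE : (E : ℍ → ℂ) ≠ 0)
    (P : CuspForm Γ 2) (Q : CuspForm Γ n) (Φ : PowerSeries ℂ)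
    (hP : qExpansion 1 P = Φ * qExpansion 1 E) (hQ : qExpansion 1 Q = Φ ^ n) :
    ∃ h : CuspForm Γ 1, qExpansion 1 h = Φ ∧ (∀ τ, h τ * E τ = P τ) ∧ ∀ τ, h τ ^ n = Q τ := by
  have hEn : Nice (E : ℍ → ℂ) :=
    ⟨SlashInvariantFormClass.periodic_comp_ofComplex E hΓ, hEhol, hEbdd⟩
  have hPn : Nice (P : ℍ → ℂ) := nice_of_modularFormClass hΓ P
  have hQn : Nice (Q : ℍ → ℂ) := nice_of_modularFormClass hΓ Q
  -- `P ^ n = Q * E ^ n`
  have hrel : (P : ℍ → ℂ) ^ n = (Q : ℍ → ℂ) * (E : ℍ → ℂ) ^ n := by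
    apply (hPn.pow n).eq_of_qExp_eq (hQn.mul (hEn.pow n))
    rw [hPn.qExp_pow, hQn.qExp_mul (hEn.pow n), hEn.qExp_pow, hP, hQ, mul_pow]
  have hE0 : ∃ τ, E τ ≠ 0 := by
    by_contra hcon
    push Not at hcon
    exact hE (funext hcon)
  obtain ⟨hc, hcan, hcE, hcQ⟩ := exists_root_analytic (P := (P : ℍ → ℂ) ∘ ofComplex)
    (E := (E : ℍ → ℂ) ∘ ofComplex) (Q := (Q : ℍ → ℂ) ∘ ofComplex) hn isOpen_upperHalfPlaneSet
    isPreconnected_upper (analyticOnNhd_comp_ofComplex hPn.hol)
    (analyticOnNhd_comp_ofComplex hEn.hol) (analyticOnNhd_comp_ofComplex hQn.hol)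
    (by obtain ⟨τ0, hτ0⟩ := hE0; exact ⟨(τ0 : ℂ), τ0.im_pos, by simpa using hτ0⟩)
    (fun z _ => by have := congrFun hrel (ofComplex z); simpa using this)
  set h : ℍ → ℂ := fun τ => hc (τ : ℂ) with hh
  have hhol : MDiff h := by
    rw [UpperHalfPlane.mdifferentiable_iff]
    refine hcan.differentiableOn.congr fun z hz => ?_
    simp [hh, ofComplex_apply_of_im_pos hz]
  have hmul : ∀ τ : ℍ, h τ * E τ = P τ := fun τ => by
    have := hcE (τ : ℂ) τ.im_pos
    simpa [hh] using this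
  have hpow : ∀ τ : ℍ, h τ ^ n = Q τ := fun τ => by
    have := hcQ (τ : ℂ) τ.im_pos
    simpa [hh] using this
  -- slash invariance
  have hslash : ∀ γ ∈ Γ, h ∣[(1 : ℤ)] γ = h := by
    intro γ hγ
    have h1 : (P : ℍ → ℂ) = h * (E : ℍ → ℂ) := funext fun τ => (hmul τ).symm
    have h2 : (P : ℍ → ℂ) ∣[(2 : ℤ)] γ = P := SlashInvariantFormClass.slash_action_eq P γ hγ
    have h3 : (E : ℍ → ℂ) ∣[(1 : ℤ)] γ = E := SlashInvariantFormClass.slash_action_eq E γ hγ
    have h4 := mul_slash 1 1 γ h (E : ℍ → ℂ)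
    have hdet : |(γ.det : ℝ)| = 1 := by
      rw [Subgroup.HasDetOne.det_eq hγ]; simp
    rw [hdet, one_smul, h3, ← h1] at h4
    have h5 : (P : ℍ → ℂ) ∣[(1 : ℤ) + 1] γ = P := h2
    rw [h5] at h4
    refine eq_of_mul_eq (hhol.slash 1 γ) hhol hEn.hol hE0 fun τ => ?_
    have := congrFun h4 τ
    rw [Pi.mul_apply] at this
    rw [← this, hmul]
  have hcusp : ∀ {c : OnePoint ℝ}, IsCusp c Γ → c.IsZeroAt h 1 := by
    intro c hc g hg
    have hQz : IsZeroAtImInfty ((Q : ℍ → ℂ) ∣[(n : ℤ)] g) := Q.zero_at_cusps' hc g hg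
    have hQh : (Q : ℍ → ℂ) = ∏ _i ∈ Finset.range n, h := by
      rw [Finset.prod_const, Finset.card_range]
      exact funext fun τ => (hpow τ).symm
    have hps := prod_slash (k := 1) (g := g) (f := fun _ : ℕ => h) (s := Finset.range n)
    rw [Finset.card_range, one_mul, ← hQh, Finset.prod_const, Finset.card_range] at hps
    apply isZeroAtImInfty_of_pow (n := n)
    have hgd : (|g.det.val| : ℝ) ^ ((n : ℤ) - 1) ≠ 0 :=
      zpow_ne_zero _ (abs_ne_zero.mpr (Matrix.GeneralLinearGroup.det_ne_zero g))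
    have hps' : (h ∣[(1 : ℤ)] g) ^ n
        = ((|g.det.val| : ℝ) ^ ((n : ℤ) - 1))⁻¹ • ((Q : ℍ → ℂ) ∣[(n : ℤ)] g) := by
      rw [hps, smul_smul, inv_mul_cancel₀ hgd, one_smul]
    rw [hps']
    exact hQz.smul _
  let hcf : CuspForm Γ 1 :=
    { toFun := h
      slash_action_eq' := hslash
      holo' := hhol
      zero_at_cusps' := hcusp }
  refine ⟨hcf, ?_, hmul, hpow⟩
  · -- the `q`-expansion
    have hhn : Nice h := nice_of_modularFormClass hΓ hcf
    change qExpansion 1 h = Φ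
    have hq : qExpansion 1 h * qExpansion 1 (E : ℍ → ℂ) = Φ * qExpansion 1 (E : ℍ → ℂ) := by
      rw [← hhn.qExp_mul hEn, ← hP]
      congr 1
      funext τ
      exact hmul τ
    have hEq : qExpansion 1 (E : ℍ → ℂ) ≠ 0 := fun h0 => hE (hEn.eq_zero h0)
    exact mul_right_cancel₀ hEq hq

/-- **The root of a cusp form**, with a modular form as multiplier. -/
theorem exists_cuspForm_of_pow [Γ.HasDetOne] (hΓ : (1 : ℝ) ∈ Γ.strictPeriods)
    {n : ℕ} (hn : 0 < n) (E : ModularForm Γ 1) (hE : E ≠ 0)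
    (P : CuspForm Γ 2) (Q : CuspForm Γ n) (Φ : PowerSeries ℂ)
    (hP : qExpansion 1 P = Φ * qExpansion 1 E) (hQ : qExpansion 1 Q = Φ ^ n) :
    ∃ h : CuspForm Γ 1, qExpansion 1 h = Φ ∧ (∀ τ, h τ * E τ = P τ) ∧ ∀ τ, h τ ^ n = Q τ :=
  have : Fact (IsCusp OnePoint.infty Γ) := ⟨Γ.isCusp_of_mem_strictPeriods one_pos hΓ⟩
  exists_cuspForm_of_pow_aux hΓ hn E.toSlashInvariantForm (ModularFormClass.holo E)
    (ModularFormClass.bdd_at_infty E) (fun h0 => hE (DFunLike.coe_injective h0)) P Q Φ hP hQ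

end Main

end Fermat.Agent.S48.PowRoot
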