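import Mathlib
import Fermat.Agent.S48.Rankin
import Fermat.Agent.S48.Dens.Basic

/-!
# S48 (Deligne–Serre): adapter from brick F (Rankin) to the density vocabulary of J.DENS

`Fermat.Agent.S48.Rankin` proves the elementary Rankin-type bounds in the shape
`∑ p ∈ P, (p : ℝ) ^ (-s)` with side conditions (`¬ p ∣ n0`, `c ≤ p`, `‖b p‖ ≤ 2`).
`Fermat.Agent.S48.Dens` works with `UpDens E η` (sums of `1 / (p : ℝ) ^ s`).
This file removes every side condition (finitely many primes are absorbed in the constants):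

* `upDens_large` : the primes `p ∤ N` with `c < ‖b p‖ ^ 2` have upper density `≤ (c log 2)⁻¹`;
* `upDens_large_family` : the same for a finite family of forms;
* `exists_upDens_finset` : the input of Step 3 — for every `η > 0` there is an exceptional
  set of upper density `≤ η` off which the eigenvalues take finitely many values;
* `exists_sq_dens` : the input of Step 7 — `∑ ‖b p‖ ^ 2 / p ^ s ≤ log (1 / (s - 1)) + C`
  over all primes outside any finite set containing the primes dividing `N`.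
-/

set_option autoImplicit false

open ModularFormClass CongruenceSubgroup
open Fermat.Agent.S48.Dens

namespace Fermat.Agent.S48.RankinDens

theorem rpow_neg_eq (p : ℕ) (s : ℝ) : (p : ℝ) ^ (-s) = 1 / (p : ℝ) ^ s := by
  rw [Real.rpow_neg (Nat.cast_nonneg p), one_div]

theorem finite_dvd_or_lt (n0 : ℕ) (hn0 : 0 < n0) (c : ℝ) :
    {p : ℕ | p ∣ n0 ∨ (p : ℝ) < c}.Finite := by
  apply Set.Finite.subset (Finset.range (n0 + 1) ∪ Finset.range (⌈c⌉₊ + 1)).finite_toSet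
  intro p hp
  simp only [Finset.coe_union, Finset.coe_range, Set.mem_union, Set.mem_Iio]
  rcases hp with hp | hp
  · exact Or.inl (Nat.lt_succ_of_le (Nat.le_of_dvd hn0 hp))
  · exact Or.inr (Nat.lt_succ_of_lt (Nat.lt_ceil.mpr hp))

/-- **(RD3)** The primes `p ∤ N` at which the eigenvalue is large, `c < ‖b p‖ ^ 2`, have upper
Dirichlet density at most `(c log 2)⁻¹`. -/
theorem upDens_large {N : ℕ} [NeZero N] (f : CuspForm (Gamma1 N) 1) (hf : f ≠ 0)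
    (e b : ℕ → ℂ)
    (hT : ∀ p : ℕ, p.Prime → ¬ p ∣ N → ∀ n : ℕ,
      qCoeff f (p * n) + e p * (if p ∣ n then qCoeff f (n / p) else 0) = b p * qCoeff f n)
    {c : ℝ} (hc : 0 < c) :
    UpDens {p | p.Prime ∧ ¬ p ∣ N ∧ c < ‖b p‖ ^ 2} ((c * Real.log 2)⁻¹) := by
  obtain ⟨K', n0, hn0, -, hK⟩ := Rankin.exists_large_bound f hf e b hT
  have hmain : UpDens {p | p.Prime ∧ ¬ p ∣ N ∧ ¬ p ∣ n0 ∧ c < ‖b p‖ ^ 2 ∧ c ≤ (p : ℝ)}
      ((c * Real.log 2)⁻¹) := by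
    refine ⟨(c * Real.log 2)⁻¹ * K', fun s hs hs2 P hP => ?_⟩
    have h1 := hK s hs hs2 c hc P (fun p hp => (hP p hp).2)
    have h2 : ∑ p ∈ P, 1 / (p : ℝ) ^ s = ∑ p ∈ P, (p : ℝ) ^ (-s) :=
      Finset.sum_congr rfl fun p _ => (rpow_neg_eq p s).symm
    rw [h2]
    linarith [mul_add (c * Real.log 2)⁻¹ (Real.log (1 / (s - 1))) K']
  refine (hmain.union_finite (finite_dvd_or_lt n0 hn0 c)).mono ?_ le_rfl
  rintro p ⟨hp, hpN, hpc⟩
  by_cases h : p ∣ n0 ∨ (p : ℝ) < c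
  · exact Or.inr h
  · push Not at h
    exact Or.inl ⟨hp, hpN, h.1, hpc, h.2⟩

/-- **(RD3')** The same for a finite family of forms: the primes `p ∤ N` at which SOME member
of the family has a large eigenvalue have upper density at most `d · (c log 2)⁻¹`. -/
theorem upDens_large_family {N : ℕ} [NeZero N] {d : ℕ} (h : Fin d → CuspForm (Gamma1 N) 1)
    (hh : ∀ i, h i ≠ 0) (e b : Fin d → ℕ → ℂ)
    (hT : ∀ i, ∀ p : ℕ, p.Prime → ¬ p ∣ N → ∀ n : ℕ,
      qCoeff (h i) (p * n) + e i p * (if p ∣ n then qCoeff (h i) (n / p) else 0)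
        = b i p * qCoeff (h i) n)
    {c : ℝ} (hc : 0 < c) :
    UpDens {p | p.Prime ∧ ¬ p ∣ N ∧ ∃ i, c < ‖b i p‖ ^ 2} (d * (c * Real.log 2)⁻¹) := by
  have h1 := UpDens.biUnion (Finset.univ : Finset (Fin d))
    (fun i => {p : ℕ | p.Prime ∧ ¬ p ∣ N ∧ c < ‖b i p‖ ^ 2}) (fun _ => (c * Real.log 2)⁻¹)
    (fun i _ => upDens_large (h i) (hh i) (e i) (b i) (hT i) hc)
  refine h1.mono ?_ (by simp)
  rintro p ⟨hp, hpN, i, hi⟩
  simp only [Finset.mem_univ, Set.iUnion_true, Set.mem_iUnion]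
  exact ⟨i, hp, hpN, hi⟩

/-- **(RD3'')** Input of Step 3 of Deligne–Serre.  If the values `a p` (`p ∤ N`) at the primes
where all members of the family are bounded by `c` form a finite set for every `c`
(Northcott, brick C), then for every `η > 0` there are an exceptional set `E` of upper density
at most `η` and a finite set `Y` with `a p ∈ Y` for every prime `p ∤ N` outside `E`. -/
theorem exists_upDens_finset {N : ℕ} [NeZero N] (a : ℕ → ℂ) {d : ℕ}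
    (h : Fin d → CuspForm (Gamma1 N) 1) (hh : ∀ i, h i ≠ 0) (e b : Fin d → ℕ → ℂ)
    (hT : ∀ i, ∀ p : ℕ, p.Prime → ¬ p ∣ N → ∀ n : ℕ,
      qCoeff (h i) (p * n) + e i p * (if p ∣ n then qCoeff (h i) (n / p) else 0)
        = b i p * qCoeff (h i) n)
    (hfin : ∀ c : ℝ,
      {z : ℂ | ∃ p : ℕ, p.Prime ∧ ¬ p ∣ N ∧ z = a p ∧ ∀ i, ‖b i p‖ ^ 2 ≤ c}.Finite)
    {η : ℝ} (hη : 0 < η) :
    ∃ (E : Set ℕ) (Y : Finset ℂ), UpDens E η ∧
      ∀ p : ℕ, p.Prime → ¬ p ∣ N → p ∉ E → a p ∈ Y := by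
  have hlog : 0 < Real.log 2 := Real.log_pos (by norm_num)
  have hd : (0 : ℝ) ≤ d := Nat.cast_nonneg d
  set c : ℝ := ((d : ℝ) + 1) / (η * Real.log 2) with hcdef
  have hc : 0 < c := by positivity
  have hle : (d : ℝ) * (c * Real.log 2)⁻¹ ≤ η := by
    have e1 : c * Real.log 2 = ((d : ℝ) + 1) / η := by
      rw [hcdef]
      field_simp
    rw [e1, inv_div, ← mul_div_assoc, div_le_iff₀ (by linarith)]
    nlinarith
  refine ⟨{p | p.Prime ∧ ¬ p ∣ N ∧ ∃ i, c < ‖b i p‖ ^ 2}, (hfin c).toFinset,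
    (upDens_large_family h hh e b hT hc).mono (fun _ hp => hp) hle, ?_⟩
  intro p hp hpN hpE
  rw [Set.Finite.mem_toFinset]
  refine ⟨p, hp, hpN, rfl, fun i => ?_⟩
  by_contra hlt
  push Not at hlt
  exact hpE ⟨hp, hpN, i, hlt⟩

/-- The variant of `exists_upDens_finset` for normalised forms (`qCoeff (h i) 1 = 1`). -/
theorem exists_upDens_finset_of_one {N : ℕ} [NeZero N] (a : ℕ → ℂ) {d : ℕ}
    (h : Fin d → CuspForm (Gamma1 N) 1) (hh : ∀ i, qCoeff (h i) 1 = 1) (e b : Fin d → ℕ → ℂ)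
    (hT : ∀ i, ∀ p : ℕ, p.Prime → ¬ p ∣ N → ∀ n : ℕ,
      qCoeff (h i) (p * n) + e i p * (if p ∣ n then qCoeff (h i) (n / p) else 0)
        = b i p * qCoeff (h i) n)
    (hfin : ∀ c : ℝ,
      {z : ℂ | ∃ p : ℕ, p.Prime ∧ ¬ p ∣ N ∧ z = a p ∧ ∀ i, ‖b i p‖ ^ 2 ≤ c}.Finite)
    {η : ℝ} (hη : 0 < η) :
    ∃ (E : Set ℕ) (Y : Finset ℂ), UpDens E η ∧
      ∀ p : ℕ, p.Prime → ¬ p ∣ N → p ∉ E → a p ∈ Y := by
  refine exists_upDens_finset a h (fun i h0 => ?_) e b hT hfin hη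
  have h1 := hh i
  rw [h0] at h1
  have h2 : qCoeff (0 : CuspForm (Gamma1 N) 1) 1 = 0 := by
    have h3 : ((0 : CuspForm (Gamma1 N) 1) : UpperHalfPlane → ℂ) = 0 := rfl
    rw [ModularFormClass.qCoeff, h3, UpperHalfPlane.qExpansion_zero]
    simp
  rw [h2] at h1
  exact zero_ne_one h1

/-- **(RD4)** Input of Step 7 of Deligne–Serre: if `‖b p‖ ≤ 2` for all primes `p ∤ N`, then
`∑ p ∈ P, ‖b p‖ ^ 2 / p ^ s ≤ log (1 / (s - 1)) + C` for every finite set `P` of primes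
outside a finite set `S` containing the primes dividing `N`, uniformly in `1 < s ≤ 2`. -/
theorem exists_sq_dens {N : ℕ} [NeZero N] (f : CuspForm (Gamma1 N) 1) (hf : f ≠ 0)
    (e b : ℕ → ℂ)
    (hT : ∀ p : ℕ, p.Prime → ¬ p ∣ N → ∀ n : ℕ,
      qCoeff f (p * n) + e p * (if p ∣ n then qCoeff f (n / p) else 0) = b p * qCoeff f n)
    (hb : ∀ p : ℕ, p.Prime → ¬ p ∣ N → ‖b p‖ ≤ 2)
    (S : Finset ℕ) (hS : ∀ p : ℕ, p.Prime → p ∣ N → p ∈ S) :
    ∃ C : ℝ, ∀ s : ℝ, 1 < s → s ≤ 2 → ∀ P : Finset ℕ, (∀ p ∈ P, p.Prime ∧ p ∉ S) →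
      ∑ p ∈ P, ‖b p‖ ^ 2 / (p : ℝ) ^ s ≤ Real.log (1 / (s - 1)) + C := by
  classical
  obtain ⟨K', n0, hn0, -, hK⟩ := Rankin.exists_sq_bound f hf e b hT
  refine ⟨K' + 4 * (n0.primeFactors.card : ℝ), fun s hs hs2 P hP => ?_⟩
  have hpN : ∀ p ∈ P, ¬ p ∣ N := fun p hp hdvd => (hP p hp).2 (hS p (hP p hp).1 hdvd)
  have hterm : ∀ p : ℕ, ‖b p‖ ^ 2 / (p : ℝ) ^ s = ‖b p‖ ^ 2 * (p : ℝ) ^ (-s) := by
    intro p
    rw [rpow_neg_eq, mul_one_div]
  have e1 := hK s hs hs2 (P.filter (fun p => ¬ p ∣ n0)) (fun p hp => by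
    rw [Finset.mem_filter] at hp
    exact ⟨(hP p hp.1).1, hpN p hp.1, hp.2, hb p (hP p hp.1).1 (hpN p hp.1)⟩)
  have e2 : ∑ p ∈ P.filter (fun p => p ∣ n0), ‖b p‖ ^ 2 / (p : ℝ) ^ s
      ≤ 4 * (n0.primeFactors.card : ℝ) := by
    have h1 : ∑ p ∈ P.filter (fun p => p ∣ n0), ‖b p‖ ^ 2 / (p : ℝ) ^ s
        ≤ ∑ _p ∈ P.filter (fun p => p ∣ n0), (4 : ℝ) := by
      apply Finset.sum_le_sum
      intro p hp
      rw [Finset.mem_filter] at hp
      have hb' := hb p (hP p hp.1).1 (hpN p hp.1)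
      have h3 : ‖b p‖ ^ 2 ≤ 4 := by nlinarith [norm_nonneg (b p)]
      have h4 := term_le_one (hP p hp.1).1 hs
      have h5 := term_nonneg p s
      rw [div_eq_mul_one_div]
      nlinarith [sq_nonneg ‖b p‖]
    have h2 : P.filter (fun p => p ∣ n0) ⊆ n0.primeFactors := by
      intro p hp
      rw [Finset.mem_filter] at hp
      exact Nat.mem_primeFactors.mpr ⟨(hP p hp.1).1, hp.2, hn0.ne'⟩
    have h3 : ((P.filter (fun p => p ∣ n0)).card : ℝ) ≤ n0.primeFactors.card := by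
      exact_mod_cast Finset.card_le_card h2
    simp only [Finset.sum_const, nsmul_eq_mul] at h1
    linarith
  have e3 := Finset.sum_filter_add_sum_filter_not P (fun p => p ∣ n0)
    (fun p => ‖b p‖ ^ 2 / (p : ℝ) ^ s)
  have e4 : ∑ p ∈ P.filter (fun p => ¬ p ∣ n0), ‖b p‖ ^ 2 / (p : ℝ) ^ s
      = ∑ p ∈ P.filter (fun p => ¬ p ∣ n0), ‖b p‖ ^ 2 * (p : ℝ) ^ (-s) :=
    Finset.sum_congr rfl fun p _ => hterm p
  rw [← e3, e4]
  linarith

end Fermat.Agent.S48.RankinDens
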