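/-
helper190: a separating form for `±Γ₁(M)` with integral `q`-expansion:
`t = tForm M · E₄³ + hForm M 1 · Δ` (weight 16).
-/
import Mathlib
import Fermat.Agent.S48.EisRat
import Fermat.Agent.S23.TForm
import Fermat.Agent.S23.RatSpan

set_option autoImplicit false

open scoped MatrixGroups Manifold Topology ModularForm
open UpperHalfPlane ModularForm Matrix CongruenceSubgroup Filter

noncomputable section

namespace Fermat.Agent.S48.SepRat

open Fermat.Agent.S23 Fermat.Agent.S23.Defs Fermat.Agent.S48.EisRat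

variable (M : ℕ) [NeZero M]

/-- the function `t = tForm M · E₄³ + hForm M 1 · Δ` -/
def sepFun : ℍ → ℂ :=
  fun τ => TForm.tForm M τ * E₄ τ ^ 3 + hForm M 1 τ * ModularForm.discriminant τ

theorem E₄_smul (γ : SL(2, ℤ)) (τ : ℍ) : E₄ (γ • τ) = denom γ τ ^ 4 * E₄ τ := by
  have h : (⇑E₄ : ℍ → ℂ) ∣[(4 : ℤ)] γ = ⇑E₄ :=
    SlashInvariantForm.slash_action_eqn E₄ _ ⟨γ, rfl⟩
  have h2 := congrFun h τ
  rw [SL_slash_apply] at h2
  have hd : denom γ τ ≠ 0 := denom_ne_zero γ τ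
  rw [← h2, _root_.zpow_neg]
  have : (denom γ τ ^ (4 : ℤ)) = denom γ τ ^ 4 := by norm_cast
  rw [this]
  field_simp

theorem discriminant_smul (γ : SL(2, ℤ)) (τ : ℍ) :
    ModularForm.discriminant (γ • τ) = denom γ τ ^ 12 * ModularForm.discriminant τ := by
  have h : (⇑CuspForm.discriminant : ℍ → ℂ) ∣[(12 : ℤ)] γ = ⇑CuspForm.discriminant :=
    SlashInvariantForm.slash_action_eqn CuspForm.discriminant _ ⟨γ, rfl⟩
  rw [CuspForm.coe_discriminant] at h
  have h2 := congrFun h τ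
  rw [SL_slash_apply] at h2
  have hd : denom γ τ ≠ 0 := denom_ne_zero γ τ
  rw [← h2, _root_.zpow_neg]
  have : (denom γ τ ^ (12 : ℤ)) = denom γ τ ^ 12 := by norm_cast
  rw [this]
  field_simp

/-- slash of the separating function by an arbitrary element of `SL(2,ℤ)` -/
theorem sepFun_slash (γ : SL(2, ℤ)) :
    sepFun M ∣[(16 : ℤ)] γ = fun τ =>
      ((⇑(TForm.tForm M) : ℍ → ℂ) ∣[(4 : ℤ)] γ) τ * E₄ τ ^ 3
        + ((⇑(hForm M 1) : ℍ → ℂ) ∣[(4 : ℤ)] γ) τ * ModularForm.discriminant τ := by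
  funext τ
  simp only [SL_slash_apply, sepFun]
  rw [E₄_smul, discriminant_smul]
  have hd : denom γ τ ≠ 0 := denom_ne_zero γ τ
  have h16 : denom γ τ ^ (-(16 : ℤ)) = (denom γ τ ^ 16)⁻¹ := by
    rw [_root_.zpow_neg]; norm_cast
  have h4 : denom γ τ ^ (-(4 : ℤ)) = (denom γ τ ^ 4)⁻¹ := by
    rw [_root_.zpow_neg]; norm_cast
  rw [h16, h4]
  field_simp

theorem tForm_slash_of_mem {γ : SL(2, ℤ)} (hγ : γ ∈ Gamma0 M) :
    (⇑(TForm.tForm M) : ℍ → ℂ) ∣[(4 : ℤ)] γ = ⇑(TForm.tForm M) :=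
  SlashInvariantForm.slash_action_eqn (TForm.tForm M) _ ⟨γ, hγ, rfl⟩

theorem hForm_slash_of_mem {γ : SL(2, ℤ)} (hγ : γ ∈ Gamma1 M) :
    (⇑(hForm M 1) : ℍ → ℂ) ∣[(4 : ℤ)] γ = ⇑(hForm M 1) :=
  SlashInvariantForm.slash_action_eqn (hForm M 1) _ ⟨γ, hγ, rfl⟩

theorem sepFun_eq : sepFun M = ⇑(TForm.tForm M) * (⇑E₄ * ⇑E₄ * ⇑E₄)
    + ⇑(hForm M 1) * ModularForm.discriminant := by
  funext τ
  simp only [sepFun, Pi.add_apply, Pi.mul_apply]
  ring

theorem mdiff_sepFun : MDiff (sepFun M) := by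
  rw [sepFun_eq]
  exact ((ModularFormClass.holo (TForm.tForm M)).mul
    (((ModularFormClass.holo E₄).mul (ModularFormClass.holo E₄)).mul (ModularFormClass.holo E₄))).add
    ((ModularFormClass.holo (hForm M 1)).mul (ModularFormClass.holo CuspForm.discriminant))

theorem isBoundedAtImInfty_E₄ : IsBoundedAtImInfty (⇑E₄ : ℍ → ℂ) :=
  CuspSep.tendsto_E₄_atImInfty.isBigO_one ℝ

theorem isBoundedAtImInfty_sepFun_slash (γ : SL(2, ℤ)) :
    IsBoundedAtImInfty (sepFun M ∣[(16 : ℤ)] γ) := by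
  rw [sepFun_slash]
  have h1 : IsBoundedAtImInfty ((⇑(TForm.tForm M) : ℍ → ℂ) ∣[(4 : ℤ)] γ) :=
    ModularFormClass.bdd_at_infty_slash (TForm.tForm M) γ
  have h2 := isBoundedAtImInfty_E₄
  have h3 := isBoundedAtImInfty_hForm_slash M 1 γ
  have h4 : IsBoundedAtImInfty ModularForm.discriminant :=
    discriminant_isZeroAtImInfty.boundedAtFilter
  have h5 := (h1.mul ((h2.mul h2).mul h2)).add (h3.mul h4)
  have h6 : (fun τ => ((⇑(TForm.tForm M) : ℍ → ℂ) ∣[(4 : ℤ)] γ) τ * E₄ τ ^ 3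
        + ((⇑(hForm M 1) : ℍ → ℂ) ∣[(4 : ℤ)] γ) τ * ModularForm.discriminant τ)
      = (⇑(TForm.tForm M) : ℍ → ℂ) ∣[(4 : ℤ)] γ * (⇑E₄ * ⇑E₄ * ⇑E₄)
        + (⇑(hForm M 1) : ℍ → ℂ) ∣[(4 : ℤ)] γ * ModularForm.discriminant := by
    funext τ
    simp only [Pi.add_apply, Pi.mul_apply]
    ring
  rw [h6]
  exact h5

/-- the separating form `tForm M · E₄³ + hForm M 1 · Δ` of weight 16 on `Γ₁(M)` -/
def sepForm : ModularForm (Gamma1 M) 16 where
  toFun := sepFun M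
  slash_action_eq' := by
    rintro _ ⟨γ, hγ, rfl⟩
    show sepFun M ∣[(16 : ℤ)] γ = _
    rw [sepFun_slash, tForm_slash_of_mem M (Gamma1_in_Gamma0 M hγ), hForm_slash_of_mem M hγ]
    rfl
  holo' := mdiff_sepFun M
  bdd_at_cusps' {c} hc := by
    rw [Subgroup.IsArithmetic.isCusp_iff_isCusp_SL2Z] at hc
    rw [OnePoint.isBoundedAt_iff_forall_SL2Z hc]
    intro γ _
    exact isBoundedAtImInfty_sepFun_slash M γ

theorem coe_sepForm : ⇑(sepForm M) = sepFun M := rfl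

/-- the limit at `i∞` of a translate of the separating function is the limit of the translate
of `tForm` -/
theorem tendsto_sepFun_slash (γ : SL(2, ℤ)) {c : ℂ}
    (hc : Tendsto ((⇑(TForm.tForm M) : ℍ → ℂ) ∣[(4 : ℤ)] γ) atImInfty (𝓝 c)) :
    Tendsto (sepFun M ∣[(16 : ℤ)] γ) atImInfty (𝓝 c) := by
  rw [sepFun_slash]
  have hE := CuspSep.tendsto_E₄_atImInfty
  have hb : Tendsto (fun τ => ((⇑(hForm M 1) : ℍ → ℂ) ∣[(4 : ℤ)] γ) τ
      * ModularForm.discriminant τ) atImInfty (𝓝 0) :=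
    (isBoundedAtImInfty_hForm_slash M 1 γ).mul_zeroAtFilter discriminant_isZeroAtImInfty
  have h := (hc.mul (hE.pow 3)).add hb
  simpa using h

/-- **Separation**: the weight-16 form `sepForm M` on `Γ₁(M)` is fixed by `γ ∈ SL(2,ℤ)` only if
`γ ∈ ± Γ₁(M)`. -/
theorem mem_of_sepFun_slash_eq (hM : M ≠ 1) {γ : SL(2, ℤ)}
    (h : sepFun M ∣[(16 : ℤ)] γ = sepFun M) : γ ∈ Gamma1 M ∨ -γ ∈ Gamma1 M := by
  by_cases hγ : γ ∈ Gamma0 M
  · apply mem_Gamma1_or_neg_of_slash_eq M hM hγ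
    funext τ
    have h1 := congrFun h τ
    rw [sepFun_slash, tForm_slash_of_mem M hγ] at h1
    simp only [sepFun] at h1
    exact mul_right_cancel₀ (ModularForm.discriminant_ne_zero τ) (add_left_cancel h1)
  · exfalso
    obtain ⟨c', hc', hlim⟩ := TForm.exists_tendsto_slash_ne M hγ
    have hL := tendsto_sepFun_slash M γ hlim
    have hR := tendsto_sepFun_slash M 1 (c := 1) (by
      rw [SlashAction.slash_one]
      exact TForm.tendsto_tForm M)
    rw [SlashAction.slash_one] at hR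
    rw [h] at hL
    exact hc' (tendsto_nhds_unique hL hR)

/-- the `q`-expansion of the separating form is integral -/
theorem isIntPS_sepForm (hM : M ≠ 1) : IsIntPS (qExpansion 1 (sepForm M)) := by
  have hnt : Nontrivial (ZMod M) := ZMod.nontrivial_iff.mpr hM
  have nt := RatSpan.Nice.of_modularForm (CongruenceSubgroup.one_mem_strictPeriods_Gamma0 M)
    (TForm.tForm M)
  have nE := RatSpan.Nice.of_modularForm one_mem_strictPeriods_SL E₄
  have nh := RatSpan.Nice.of_modularForm (one_mem_strictPeriods_Gamma1 M) (hForm M 1)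
  have nΔ : RatSpan.Nice ModularForm.discriminant :=
    RatSpan.Nice.of_modularForm one_mem_strictPeriods_SL CuspForm.discriminant
  rw [coe_sepForm, sepFun_eq,
    qExpansion_add (nt.mul ((nE.mul nE).mul nE)).analytic (nh.mul nΔ).analytic,
    qExpansion_mul nt.analytic ((nE.mul nE).mul nE).analytic,
    qExpansion_mul (nE.mul nE).analytic nE.analytic, qExpansion_mul nE.analytic nE.analytic,
    qExpansion_mul nh.analytic nΔ.analytic]
  have i1 := TForm.isIntPS_tForm M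
  have i2 := TForm.isIntPS_E₄
  have i3 : IsIntPS (qExpansion 1 (hForm M 1)) :=
    fun n => isInt_qExpansion_hForm M 1 one_ne_zero n
  have i4 : IsIntPS (qExpansion 1 ModularForm.discriminant) :=
    RatSpan.isIntPS_iff.mpr ⟨LevelOne.deltaZ, LevelOne.map_deltaZ.symm⟩
  exact RatSpan.IsIntPS.add
    (RatSpan.IsIntPS.mul i1 (RatSpan.IsIntPS.mul (RatSpan.IsIntPS.mul i2 i2) i2))
    (RatSpan.IsIntPS.mul i3 i4)

/-- **The separating form for `±Γ₁(M)`**: a modular form of weight 16 on `Γ₁(M)` with integral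
`q`-expansion which is fixed by `γ ∈ SL(2,ℤ)` only if `γ ∈ ± Γ₁(M)`. -/
theorem exists_separator : ∃ t : ModularForm (Gamma1 M) 16, IsIntPS (qExpansion 1 t) ∧
    ∀ γ : SL(2, ℤ), (⇑t : ℍ → ℂ) ∣[(16 : ℤ)] γ = ⇑t → γ ∈ Gamma1 M ∨ -γ ∈ Gamma1 M := by
  by_cases hM : M = 1
  · subst hM
    refine ⟨0, ?_, fun γ _ => Or.inl ?_⟩
    · rw [FunLike.coe_zero, qExpansion_zero]
      exact RatSpan.IsIntPS.zero
    · rw [Gamma1_mem]
      exact ⟨Subsingleton.elim _ _, Subsingleton.elim _ _, Subsingleton.elim _ _⟩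
  · exact ⟨sepForm M, isIntPS_sepForm M hM, fun γ h => mem_of_sepFun_slash_eq M hM h⟩

end Fermat.Agent.S48.SepRat
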