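/-
Program DS (S48), brick C, twist route: the lattice lemmas.

Pure algebra over Mathlib.

* `exists_fg_of_mul_shift` (L1): if `a * u = p` as power series over `ℂ`, the coefficients of
  `u` lie in a subalgebra `R` that is finitely generated as a `ℤ`-module, `u = q + O(q^2)`, and
  the coefficients of `p` lie in a finitely generated `ℤ`-module `Λ₀`, then all coefficients of
  `a` lie in the finitely generated `ℤ`-module `R * Λ₀`, which is stable under `R`.
* `adjoin_range_char_fg` (L2): the ring generated by the values of a Dirichlet character is a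
  finitely generated `ℤ`-module.
* `isIntegral_of_hecke_rel` (L3): consumer lemma; the Hecke relations plus a finitely generated
  lattice containing all coefficients force integrality of the eigenvalues.
-/
import Mathlib

set_option autoImplicit false

namespace Fermat.Agent.S48.TwistLat

/-- `R * (R * Λ₀) ⊆ R * Λ₀` for a subalgebra `R`. -/
theorem mul_mem_mulLat (R : Subalgebra ℤ ℂ) (Λ₀ : Submodule ℤ ℂ) {r x : ℂ} (hr : r ∈ R)
    (hx : x ∈ Subalgebra.toSubmodule R * Λ₀) : r * x ∈ Subalgebra.toSubmodule R * Λ₀ := by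
  have h1 : r * x ∈ Subalgebra.toSubmodule R * (Subalgebra.toSubmodule R * Λ₀) :=
    Submodule.mul_mem_mul (show r ∈ Subalgebra.toSubmodule R from hr) hx
  rwa [← mul_assoc, (Subalgebra.isIdempotentElem_toSubmodule R).eq] at h1

/-- `Λ₀ ⊆ R * Λ₀` for a subalgebra `R`. -/
theorem mem_mulLat_of_mem (R : Subalgebra ℤ ℂ) (Λ₀ : Submodule ℤ ℂ) {x : ℂ} (hx : x ∈ Λ₀) :
    x ∈ Subalgebra.toSubmodule R * Λ₀ := by
  have h1 := Submodule.mul_mem_mul (show (1 : ℂ) ∈ Subalgebra.toSubmodule R from one_mem R) hx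
  rwa [one_mul] at h1

/-- The literal lattice of (L1): all coefficients of `a` lie in `R * Λ₀`.  No finiteness needed
here, and no hypothesis on the constant coefficient of `a`. -/
theorem coeff_mem_mulLat_of_mul_shift (a u p : PowerSeries ℂ) (R : Subalgebra ℤ ℂ)
    (hu : ∀ n, PowerSeries.coeff n u ∈ R)
    (hu0 : PowerSeries.coeff 0 u = 0) (hu1 : PowerSeries.coeff 1 u = 1)
    (Λ₀ : Submodule ℤ ℂ) (hp : ∀ n, PowerSeries.coeff n p ∈ Λ₀)
    (h : a * u = p) (n : ℕ) : PowerSeries.coeff n a ∈ Subalgebra.toSubmodule R * Λ₀ := by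
  induction n using Nat.strong_induction_on with
  | _ n ih =>
    have hc : PowerSeries.coeff (n + 1) p =
        ∑ i ∈ Finset.range (n + 2), PowerSeries.coeff i a * PowerSeries.coeff (n + 1 - i) u := by
      rw [← h, PowerSeries.coeff_mul]
      exact Finset.Nat.sum_antidiagonal_eq_sum_range_succ
        (fun i j => PowerSeries.coeff i a * PowerSeries.coeff j u) (n + 1)
    rw [Finset.sum_range_succ, Finset.sum_range_succ] at hc
    have e1 : n + 1 - n = 1 := by omega
    have e2 : n + 1 - (n + 1) = 0 := by omega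
    rw [e1, e2, hu0, hu1, mul_zero, add_zero, mul_one] at hc
    have hn : PowerSeries.coeff n a = PowerSeries.coeff (n + 1) p -
        ∑ i ∈ Finset.range n, PowerSeries.coeff i a * PowerSeries.coeff (n + 1 - i) u := by
      rw [hc]; ring
    rw [hn]
    refine Submodule.sub_mem _ (mem_mulLat_of_mem R Λ₀ (hp _)) (Submodule.sum_mem _ fun i hi => ?_)
    rw [mul_comm (PowerSeries.coeff i a)]
    exact mul_mem_mulLat R Λ₀ (hu _) (ih i (Finset.mem_range.mp hi))

/-- **(L1)** Division by a power series `u = q + O(q^2)` with coefficients in a module-finite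
ring `R` keeps coefficients in a finitely generated lattice, stable under `R`.  No hypothesis on
the constant coefficient of `a`. -/
theorem exists_fg_of_mul_shift (a u p : PowerSeries ℂ) (R : Subalgebra ℤ ℂ)
    (hR : (Subalgebra.toSubmodule R).FG) (hu : ∀ n, PowerSeries.coeff n u ∈ R)
    (hu0 : PowerSeries.coeff 0 u = 0) (hu1 : PowerSeries.coeff 1 u = 1)
    (Λ₀ : Submodule ℤ ℂ) (hΛ₀ : Λ₀.FG) (hp : ∀ n, PowerSeries.coeff n p ∈ Λ₀)
    (h : a * u = p) :
    ∃ Λ : Submodule ℤ ℂ, Λ.FG ∧ (∀ n, PowerSeries.coeff n a ∈ Λ) ∧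
      ∀ r ∈ R, ∀ x ∈ Λ, r * x ∈ Λ :=
  ⟨Subalgebra.toSubmodule R * Λ₀, hR.mul hΛ₀,
    coeff_mem_mulLat_of_mul_shift a u p R hu hu0 hu1 Λ₀ hp h,
    fun _ hr _ hx => mul_mem_mulLat R Λ₀ hr hx⟩

/-- Every value of a Dirichlet character is an algebraic integer. -/
theorem isIntegral_char_apply {N : ℕ} [NeZero N] (χ : DirichletCharacter ℂ N) (x : ZMod N) :
    IsIntegral ℤ (χ x) := by
  by_cases hx : IsUnit x
  · obtain ⟨v, rfl⟩ := hx
    have h1 : χ (v : ZMod N) ^ Fintype.card (ZMod N)ˣ = 1 := by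
      rw [← map_pow, ← Units.val_pow_eq_pow_val, pow_card_eq_one, Units.val_one, map_one]
    exact IsIntegral.of_pow Fintype.card_pos (h1 ▸ isIntegral_one)
  · rw [MulChar.map_nonunit χ hx]
    exact isIntegral_zero

/-- **(L2)** The ring generated by the values of a Dirichlet character is a finitely generated
`ℤ`-module. -/
theorem adjoin_range_char_fg {N : ℕ} [NeZero N] (χ : DirichletCharacter ℂ N) :
    (Subalgebra.toSubmodule (Algebra.adjoin ℤ (Set.range (χ : ZMod N → ℂ)))).FG := by
  refine fg_adjoin_of_finite (Set.finite_range _) ?_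
  rintro _ ⟨x, rfl⟩
  exact isIntegral_char_apply χ x

/-- The values of `χ` and of `χ⁻¹` are the same set. -/
theorem range_inv_char {N : ℕ} [NeZero N] (χ : DirichletCharacter ℂ N) :
    Set.range ((χ⁻¹ : DirichletCharacter ℂ N) : ZMod N → ℂ) = Set.range (χ : ZMod N → ℂ) := by
  ext z
  constructor
  · rintro ⟨x, rfl⟩
    exact ⟨Ring.inverse x, (MulChar.inv_apply χ x).symm⟩
  · rintro ⟨x, rfl⟩
    refine ⟨Ring.inverse x, ?_⟩
    have h := MulChar.inv_apply χ⁻¹ x
    rw [inv_inv] at h
    exact h.symm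

/-- Values of `χ` lie in the ring generated by the values of `χ⁻¹`. -/
theorem char_apply_mem_adjoin_range_inv {N : ℕ} [NeZero N] (χ : DirichletCharacter ℂ N)
    (x : ZMod N) :
    χ x ∈ Algebra.adjoin ℤ (Set.range ((χ⁻¹ : DirichletCharacter ℂ N) : ZMod N → ℂ)) := by
  rw [range_inv_char]
  exact Algebra.subset_adjoin ⟨x, rfl⟩

/-- **(L3)** Consumer lemma for the frozen Hecke relations: if all coefficients lie in a
finitely generated `ℤ`-module `Λ` stable under multiplication by the `e p`, and `a 1 = 1`, then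
the Hecke relation at a good prime `p` forces `a p` to be an algebraic integer. -/
theorem isIntegral_of_hecke_rel {N : ℕ} (Λ : Submodule ℤ ℂ) (hΛ : Λ.FG) (a : ℕ → ℂ)
    (ha : ∀ n, a n ∈ Λ) (ha1 : a 1 = 1) (e : ℕ → ℂ) (he : ∀ p, ∀ x ∈ Λ, e p * x ∈ Λ)
    (hT : ∀ p : ℕ, p.Prime → ¬ p ∣ N → ∀ n,
      a (p * n) + e p * (if p ∣ n then a (n / p) else 0) = a p * a n) :
    ∀ p : ℕ, p.Prime → ¬ p ∣ N → IsIntegral ℤ (a p) := by
  intro p hp hpN
  set S : Set ℂ := {z | ∃ k n : ℕ, z = e p ^ k * a n} with hSdef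
  have hS : S ⊆ Λ := by
    rintro _ ⟨k, n, rfl⟩
    induction k with
    | zero => simpa using ha n
    | succ k ih =>
      rw [pow_succ', mul_assoc]
      exact he p _ ih
  have hMle : Submodule.span ℤ S ≤ Λ := Submodule.span_le.mpr hS
  have hMfg : (Submodule.span ℤ S).FG := Submodule.FG.of_le hΛ hMle
  have h1 : (1 : ℂ) ∈ Submodule.span ℤ S :=
    Submodule.subset_span ⟨0, 1, by simp [ha1]⟩
  have hMne : Submodule.span ℤ S ≠ ⊥ := by
    intro hbot
    rw [hbot, Submodule.mem_bot] at h1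
    exact one_ne_zero h1
  refine isIntegral_of_smul_mem_submodule (Submodule.span ℤ S) hMne hMfg (a p) ?_
  intro x hx
  induction hx using Submodule.span_induction with
  | mem x hx =>
    obtain ⟨k, n, rfl⟩ := hx
    have hrw : a p • (e p ^ k * a n) =
        e p ^ k * a (p * n) + e p ^ (k + 1) * (if p ∣ n then a (n / p) else 0) := by
      rw [smul_eq_mul, mul_left_comm, ← hT p hp hpN n]
      ring
    rw [hrw]
    refine Submodule.add_mem _ (Submodule.subset_span ⟨k, _, rfl⟩) ?_
    split_ifs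
    · exact Submodule.subset_span ⟨k + 1, _, rfl⟩
    · simp
  | zero => simp
  | add x y _ _ hx hy =>
    rw [smul_add]
    exact Submodule.add_mem _ hx hy
  | smul r x _ hx =>
    rw [smul_comm]
    exact Submodule.smul_mem _ r hx

/-- **One-shot (L1)+(L2)+(L3)** in the shape of the frozen relations of S48: if `a * u = p` with
`u = q + O(q^2)` having coefficients in `ℤ[ε⁻¹]`, the coefficients of `p` lie in a finitely
generated `ℤ`-module, `a` is normalised and satisfies the Hecke relations with character `ε` at the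
primes not dividing `N`, then the coefficients of `a` at those primes are algebraic integers. -/
theorem isIntegral_coeff_of_mul_shift_of_hecke {N : ℕ} [NeZero N] (ε : DirichletCharacter ℂ N)
    (a u p : PowerSeries ℂ)
    (hu : ∀ n, PowerSeries.coeff n u ∈
      Algebra.adjoin ℤ (Set.range ((ε⁻¹ : DirichletCharacter ℂ N) : ZMod N → ℂ)))
    (hu0 : PowerSeries.coeff 0 u = 0) (hu1 : PowerSeries.coeff 1 u = 1)
    (Λ₀ : Submodule ℤ ℂ) (hΛ₀ : Λ₀.FG) (hp : ∀ n, PowerSeries.coeff n p ∈ Λ₀)
    (h : a * u = p) (ha1 : PowerSeries.coeff 1 a = 1)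
    (hT : ∀ q : ℕ, q.Prime → ¬ q ∣ N → ∀ n,
      PowerSeries.coeff (q * n) a +
          ε (q : ZMod N) * (if q ∣ n then PowerSeries.coeff (n / q) a else 0) =
        PowerSeries.coeff q a * PowerSeries.coeff n a) :
    ∀ q : ℕ, q.Prime → ¬ q ∣ N → IsIntegral ℤ (PowerSeries.coeff q a) := by
  obtain ⟨Λ, hΛ, hmem, hstab⟩ :=
    exists_fg_of_mul_shift a u p _ (adjoin_range_char_fg ε⁻¹) hu hu0 hu1 Λ₀ hΛ₀ hp h
  exact isIntegral_of_hecke_rel (N := N) Λ hΛ (fun n => PowerSeries.coeff n a) hmem ha1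
    (fun q => ε (q : ZMod N))
    (fun q x hx => hstab _ (char_apply_mem_adjoin_range_inv ε _) x hx) hT

end Fermat.Agent.S48.TwistLat
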