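/-
Program DS (S48), brick C: the Hecke order is module-finite, hence the eigenvalues at the good
primes and the values of the character lie in one number field and are algebraic integers.

Pure algebra over Mathlib, on top of `Fermat.Agent.S48.TwistLat`.

* `exists_fg_subalgebra_of_hecke_rel` (L4): a module-finite subring `W` of `ℂ` containing the
  coefficient ring `R` and all `a p`, `p ∤ N` prime.
* `exists_field_of_fg_subalgebra` (L5): a module-finite subring of `ℂ` lies in a finite extension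
  of `ℚ` and consists of algebraic integers.
* `exists_field_of_lattice_of_hecke`: the assembled statement for a coefficient sequence lying in a
  finitely generated `ℤ`-module (no stability hypothesis on the module).
* `exists_field_of_mul_shift_of_hecke`: the same for the twist route (`a * u = p`).
-/
import Fermat.Agent.S48.TwistLat

set_option autoImplicit false

namespace Fermat.Agent.S48.TwistLatField

open Fermat.Agent.S48.TwistLat

/-- **(L4)** The Hecke order is module-finite: if all coefficients `a n` lie in a finitely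
generated `ℤ`-module `Λ` stable under a subring `R` containing the `e p`, and `a 1 = 1`, then the
Hecke relations at the good primes give a subring `W ⊇ R` of `ℂ`, finitely generated as a
`ℤ`-module, containing every `a p` with `p ∤ N` prime. -/
theorem exists_fg_subalgebra_of_hecke_rel {N : ℕ} (Λ : Submodule ℤ ℂ) (hΛ : Λ.FG)
    (R : Subalgebra ℤ ℂ) (hR : ∀ r ∈ R, ∀ x ∈ Λ, r * x ∈ Λ)
    (a : ℕ → ℂ) (ha : ∀ n, a n ∈ Λ) (ha1 : a 1 = 1) (e : ℕ → ℂ) (he : ∀ p, e p ∈ R)
    (hT : ∀ p : ℕ, p.Prime → ¬ p ∣ N → ∀ n,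
      a (p * n) + e p * (if p ∣ n then a (n / p) else 0) = a p * a n) :
    ∃ W : Subalgebra ℤ ℂ, (Subalgebra.toSubmodule W).FG ∧ R ≤ W ∧
      ∀ p : ℕ, p.Prime → ¬ p ∣ N → a p ∈ W := by
  set S : Set ℂ := {z | ∃ r ∈ R, ∃ n : ℕ, z = r * a n} with hSdef
  set M : Submodule ℤ ℂ := Submodule.span ℤ S with hMdef
  have hS : S ⊆ Λ := by
    rintro _ ⟨r, hr, n, rfl⟩
    exact hR r hr _ (ha n)
  have hMle : M ≤ Λ := Submodule.span_le.mpr hS
  have h1 : (1 : ℂ) ∈ M := Submodule.subset_span ⟨1, one_mem R, 1, by simp [ha1]⟩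
  -- the stabiliser of `M`
  let W : Subalgebra ℤ ℂ :=
    { carrier := {x | ∀ m ∈ M, x * m ∈ M}
      mul_mem' := fun {x y} hx hy m hm => by
        rw [mul_assoc]
        exact hx _ (hy _ hm)
      one_mem' := fun m hm => by rwa [one_mul]
      add_mem' := fun {x y} hx hy m hm => by
        rw [add_mul]
        exact M.add_mem (hx _ hm) (hy _ hm)
      zero_mem' := fun m _ => by
        rw [zero_mul]
        exact M.zero_mem
      algebraMap_mem' := fun k m hm => by
        rw [← Algebra.smul_def]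
        exact M.smul_mem k hm }
  have hWmem : ∀ x : ℂ, x ∈ W ↔ ∀ m ∈ M, x * m ∈ M := fun _ => Iff.rfl
  have hWle : Subalgebra.toSubmodule W ≤ M := fun x hx => by
    have h2 := (hWmem x).mp hx 1 h1
    rwa [mul_one] at h2
  have hstab : ∀ x : ℂ, (∀ s ∈ S, x * s ∈ M) → x ∈ W := by
    intro x hx
    rw [hWmem]
    intro m hm
    induction hm using Submodule.span_induction with
    | mem s hs => exact hx s hs
    | zero => simp
    | add y z _ _ hy hz =>
      rw [mul_add]
      exact M.add_mem hy hz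
    | smul k y _ hy =>
      rw [mul_smul_comm]
      exact M.smul_mem k hy
  refine ⟨W, Submodule.FG.of_le hΛ (hWle.trans hMle), ?_, ?_⟩
  · intro r hr
    refine hstab r ?_
    rintro _ ⟨r', hr', n, rfl⟩
    rw [← mul_assoc]
    exact Submodule.subset_span ⟨r * r', mul_mem hr hr', n, rfl⟩
  · intro p hp hpN
    refine hstab (a p) ?_
    rintro _ ⟨r, hr, n, rfl⟩
    have hrw : a p * (r * a n) =
        r * a (p * n) + (r * e p) * (if p ∣ n then a (n / p) else 0) := by
      rw [mul_left_comm, ← hT p hp hpN n]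
      ring
    rw [hrw]
    refine M.add_mem (Submodule.subset_span ⟨r, hr, _, rfl⟩) ?_
    split_ifs
    · exact Submodule.subset_span ⟨r * e p, mul_mem hr (he p), _, rfl⟩
    · simp

/-- **(L5)** A subring of `ℂ` that is finitely generated as a `ℤ`-module lies in a finite
extension of `ℚ`, and all its elements are algebraic integers. -/
theorem exists_field_of_fg_subalgebra (W : Subalgebra ℤ ℂ)
    (hW : (Subalgebra.toSubmodule W).FG) :
    ∃ K : IntermediateField ℚ ℂ, FiniteDimensional ℚ K ∧ ∀ x ∈ W, x ∈ K ∧ IsIntegral ℤ x := by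
  have hint : ∀ x ∈ W, IsIntegral ℤ x := fun x hx => IsIntegral.of_mem_of_fg W hW x hx
  obtain ⟨s, hs⟩ := hW
  have hsW : ∀ x ∈ (s : Set ℂ), x ∈ W := fun x hx => by
    have h1 : x ∈ Submodule.span ℤ (s : Set ℂ) := Submodule.subset_span hx
    rw [hs] at h1
    exact h1
  refine ⟨IntermediateField.adjoin ℚ (s : Set ℂ), ?_, fun x hx => ⟨?_, hint x hx⟩⟩
  · exact IntermediateField.finiteDimensional_adjoin
      (fun x hx => (hint x (hsW x hx)).tower_top)
  · have hle : Submodule.span ℤ (s : Set ℂ) ≤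
        (Subalgebra.toSubmodule
          (IntermediateField.adjoin ℚ (s : Set ℂ)).toSubalgebra).restrictScalars ℤ :=
      Submodule.span_le.mpr (fun y hy => IntermediateField.subset_adjoin ℚ _ hy)
    have h1 : x ∈ Submodule.span ℤ (s : Set ℂ) := by
      rw [hs]
      exact hx
    exact hle h1

/-- **Assembled exit (i)**: a normalised coefficient sequence lying in a finitely generated
`ℤ`-module (no stability hypothesis) and satisfying the frozen Hecke relations with character `ε`
at the primes `p ∤ N` has all its good eigenvalues `a p` and all values of `ε` in one finite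
extension `K` of `ℚ`, and they are algebraic integers. -/
theorem exists_field_of_lattice_of_hecke {N : ℕ} [NeZero N] (ε : DirichletCharacter ℂ N)
    (Λ₀ : Submodule ℤ ℂ) (hΛ₀ : Λ₀.FG) (a : ℕ → ℂ) (ha : ∀ n, a n ∈ Λ₀) (ha1 : a 1 = 1)
    (hT : ∀ p : ℕ, p.Prime → ¬ p ∣ N → ∀ n,
      a (p * n) + ε (p : ZMod N) * (if p ∣ n then a (n / p) else 0) = a p * a n) :
    ∃ K : IntermediateField ℚ ℂ, FiniteDimensional ℚ K ∧
      (∀ x : ZMod N, ε x ∈ K ∧ IsIntegral ℤ (ε x)) ∧
      ∀ p : ℕ, p.Prime → ¬ p ∣ N → a p ∈ K ∧ IsIntegral ℤ (a p) := by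
  set R : Subalgebra ℤ ℂ := Algebra.adjoin ℤ (Set.range (ε : ZMod N → ℂ)) with hRdef
  have hRfg : (Subalgebra.toSubmodule R).FG := adjoin_range_char_fg ε
  obtain ⟨W, hWfg, hRW, hW⟩ :=
    exists_fg_subalgebra_of_hecke_rel (N := N) (Subalgebra.toSubmodule R * Λ₀) (hRfg.mul hΛ₀) R
      (fun r hr x hx => mul_mem_mulLat R Λ₀ hr hx) a (fun n => mem_mulLat_of_mem R Λ₀ (ha n)) ha1
      (fun p => ε (p : ZMod N)) (fun p => Algebra.subset_adjoin ⟨_, rfl⟩) hT
  obtain ⟨K, hK, hKW⟩ := exists_field_of_fg_subalgebra W hWfg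
  exact ⟨K, hK, fun x => hKW _ (hRW (Algebra.subset_adjoin ⟨x, rfl⟩)),
    fun p hp hpN => hKW _ (hW p hp hpN)⟩

/-- **Assembled exit (i), twist route**: if `a * u = p` with `u = q + O(q^2)` having coefficients
in `ℤ[ε⁻¹]` and the coefficients of `p` in a finitely generated `ℤ`-module, and `a` is normalised
and satisfies the frozen Hecke relations with character `ε`, then all values of `ε` and all
coefficients of `a` at the primes `q ∤ N` lie in one finite extension of `ℚ` and are algebraic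
integers. -/
theorem exists_field_of_mul_shift_of_hecke {N : ℕ} [NeZero N] (ε : DirichletCharacter ℂ N)
    (a u p : PowerSeries ℂ)
    (hu : ∀ n, PowerSeries.coeff n u ∈
      Algebra.adjoin ℤ (Set.range ((ε⁻¹ : DirichletCharacter ℂ N) : ZMod N → ℂ)))
    (hu0 : PowerSeries.coeff 0 u = 0) (hu1 : PowerSeries.coeff 1 u = 1)
    (Λ₀ : Submodule ℤ ℂ) (hΛ₀ : Λ₀.FG) (hp : ∀ n, PowerSeries.coeff n p ∈ Λ₀)
    (h : a * u = p) (ha1 : PowerSeries.coeff 1 a = 1)
    (hT : ∀ q : ℕ, q.Prime → ¬ q ∣ N → ∀ n,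
      PowerSeries.coeff (q * n) a +
          ε (q : ZMod N) * (if q ∣ n then PowerSeries.coeff (n / q) a else 0) =
        PowerSeries.coeff q a * PowerSeries.coeff n a) :
    ∃ K : IntermediateField ℚ ℂ, FiniteDimensional ℚ K ∧
      (∀ x : ZMod N, ε x ∈ K ∧ IsIntegral ℤ (ε x)) ∧
      ∀ q : ℕ, q.Prime → ¬ q ∣ N →
        PowerSeries.coeff q a ∈ K ∧ IsIntegral ℤ (PowerSeries.coeff q a) := by
  obtain ⟨Λ, hΛ, hmem, -⟩ :=
    exists_fg_of_mul_shift a u p _ (adjoin_range_char_fg ε⁻¹) hu hu0 hu1 Λ₀ hΛ₀ hp h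
  exact exists_field_of_lattice_of_hecke ε Λ hΛ (fun n => PowerSeries.coeff n a) hmem ha1 hT

/-- Finset form of `exists_field_of_lattice_of_hecke` (the coefficients lie in the `ℤ`-span of a
finite set), with the field packaged as a number field. -/
theorem exists_numberField_of_finset_of_hecke {N : ℕ} [NeZero N] (ε : DirichletCharacter ℂ N)
    (S : Finset ℂ) (a : ℕ → ℂ) (ha : ∀ n, a n ∈ Submodule.span ℤ (S : Set ℂ)) (ha1 : a 1 = 1)
    (hT : ∀ p : ℕ, p.Prime → ¬ p ∣ N → ∀ n,
      a (p * n) + ε (p : ZMod N) * (if p ∣ n then a (n / p) else 0) = a p * a n) :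
    ∃ K : IntermediateField ℚ ℂ, NumberField K ∧
      (∀ x : ZMod N, ε x ∈ K ∧ IsIntegral ℤ (ε x)) ∧
      ∀ p : ℕ, p.Prime → ¬ p ∣ N → a p ∈ K ∧ IsIntegral ℤ (a p) := by
  obtain ⟨K, hK, h1, h2⟩ := exists_field_of_lattice_of_hecke ε (Submodule.span ℤ (S : Set ℂ))
    (Submodule.fg_span S.finite_toSet) a ha ha1 hT
  exact ⟨K, { to_charZero := inferInstance, to_finiteDimensional := hK }, h1, h2⟩

end Fermat.Agent.S48.TwistLatField
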